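import Fermat.Agent.S13.Minkowski
import Fermat.Agent.CFT.LocalBridge.Conjugacy
import Fermat.Agent.S56.Coh.Defs
import Fermat.Agent.Lib.FrobeniusExists

/-!
# PROJECT M (S15), block [S], abstract (S-d): a Galois lattice of Eisenstein-excluded type has
no stable line

`O` a domain of characteristic zero with an ideal `I`, `⋂ I ^ j = 0`; `R` a torsion-free
`O`-module on which `GQ` acts `O`-linearly and `I`-adically continuously; `χ : GQ →* O` a
continuous character, unramified outside `P`, with `χ(Frob_l) = l` (the cyclotomic character).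
Hypotheses on `ρ`:

* unramified outside `N`, `P`;
* `(ρ(s) - 1)² = 0` for `s` in the inertia group at `N`;
* `(ρ(τ) - χ(τ)) (ρ(σ) - 1) = 0` for `σ`, `τ` in the inertia group at `P`;
* the Eichler–Shimura relation `ρ(φ)² - a_l ρ(φ) + l = 0` at the Frobenius lifts at `l ∉ S'`;
* Eisenstein exclusion: `a_l ≠ 1 + l` for some `l ∉ S'`.

Then no non-zero vector of `R` is a common eigenvector of `GQ` (`no_stable_line`), and if `R` is
free of rank two over a principal ideal domain every non-zero stable submodule contains `δ R` for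
some `δ ≠ 0` (`irreducible`).
-/

set_option autoImplicit false
set_option linter.unusedSectionVars false

namespace Fermat.Agent.S15.Struct.Irred

open Fermat.Agent.CFT.LC Fermat.Agent.CFT.Bridge Fermat.Agent.CFT.LocalBridge
open Fermat.Agent.S56.Coh

/-! ### The character of a stable line -/

section Line

variable {O : Type*} [CommRing O] [IsDomain O] {R : Type*} [AddCommGroup R] [Module O R]
  [Module.IsTorsionFree O R] {G : Type*} [Group G] (ρ : G →* Module.End O R)
  {v : R} (hv : v ≠ 0) {ψ : G → O} (hψ : ∀ g, ρ g v = ψ g • v)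

include hv in
theorem eq_of_smul_eq {x y : O} (h : x • v = y • v) : x = y := by
  rw [← sub_eq_zero]
  rw [← sub_eq_zero, ← sub_smul] at h
  exact (smul_eq_zero.1 h).resolve_right hv

include hv hψ in
theorem psi_mul (g h : G) : ψ (g * h) = ψ g * ψ h := by
  apply eq_of_smul_eq hv
  rw [← hψ, map_mul, Module.End.mul_apply, hψ h, map_smul, hψ g, smul_smul, mul_comm]

include hv hψ in
theorem psi_one : ψ 1 = 1 := by
  apply eq_of_smul_eq hv
  rw [← hψ, map_one, Module.End.one_apply, one_smul]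

include hv hψ in
theorem psi_inv_mul (g : G) : ψ g⁻¹ * ψ g = 1 := by
  rw [← psi_mul ρ hv hψ, inv_mul_cancel, psi_one ρ hv hψ]

include hv hψ in
theorem psi_conj (σ τ : G) : ψ (σ⁻¹ * τ * σ) = ψ τ := by
  rw [psi_mul ρ hv hψ, psi_mul ρ hv hψ, mul_comm (ψ σ⁻¹), mul_assoc, psi_inv_mul ρ hv hψ,
    mul_one]

include hψ in
theorem sub_smul_one_apply (g : G) (c x : O) :
    (ρ g - c • (1 : Module.End O R)) (x • v) = (x * (ψ g - c)) • v := by
  rw [LinearMap.sub_apply, LinearMap.smul_apply, Module.End.one_apply, map_smul, hψ, smul_smul,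
    smul_smul, ← sub_smul, mul_sub, mul_comm c x]

include hψ in
theorem sub_one_apply (g : G) (x : O) :
    (ρ g - (1 : Module.End O R)) (x • v) = (x * (ψ g - 1)) • v := by
  have h := sub_smul_one_apply ρ hψ g 1 x
  rwa [one_smul] at h

end Line

/-! ### Characters of `GQ` which agree on all inertia groups -/

section Chars

variable {O : Type*} [CommRing O] [IsDomain O] (I : Ideal O)

/-- conjugation invariance of a character with commutative values -/
theorem char_conj (θ : GQ →* O) (σ τ : GQ) : θ (σ⁻¹ * τ * σ) = θ τ := by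
  rw [map_mul, map_mul, mul_comm (θ σ⁻¹), mul_assoc, ← map_mul, inv_mul_cancel, map_one, mul_one]

/-- **Minkowski for characters**: two characters `GQ →* O` which are adically close on a level
(up to a fixed non-zero factor `t`) and agree on the inertia groups at the fixed places over all
primes are equal. -/
theorem char_eq_of_inertia (hsep : ∀ x : O, (∀ j : ℕ, x ∈ I ^ j) → x = 0)
    (θ₁ θ₂ : GQ →* O) {t : O} (ht : t ≠ 0)
    (hc : ∀ j : ℕ, ∃ F : IntermediateField ℚ Qbar, FiniteDimensional ℚ F ∧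
      ∀ g ∈ F.fixingSubgroup, t * (θ₁ g - θ₂ g) ∈ I ^ j)
    (hin : ∀ (q : ℕ) [Fact q.Prime], ∀ s ∈ Iq q, θ₁ s = θ₂ s) (g : GQ) : θ₁ g = θ₂ g := by
  rw [← sub_eq_zero]
  have key : ∀ j : ℕ, t * (θ₁ g - θ₂ g) ∈ I ^ j := by
    intro j
    obtain ⟨F, hF, hFj⟩ := hc j
    -- the subgroup of elements where the two characters are close
    let H : Subgroup GQ :=
      { carrier := {g | t * (θ₁ g - θ₂ g) ∈ I ^ j}
        one_mem' := by
          change t * (θ₁ 1 - θ₂ 1) ∈ I ^ j
          rw [map_one, map_one, sub_self, mul_zero]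
          exact Ideal.zero_mem _
        mul_mem' := by
          intro x y hx hy
          change t * (θ₁ (x * y) - θ₂ (x * y)) ∈ I ^ j
          have e : t * (θ₁ (x * y) - θ₂ (x * y)) =
              θ₁ x * (t * (θ₁ y - θ₂ y)) + (t * (θ₁ x - θ₂ x)) * θ₂ y := by
            rw [map_mul, map_mul]; ring
          rw [e]
          exact Ideal.add_mem _ (Ideal.mul_mem_left _ _ hy) (Ideal.mul_mem_right _ _ hx)
        inv_mem' := by
          intro x hx
          change t * (θ₁ x⁻¹ - θ₂ x⁻¹) ∈ I ^ j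
          have h1 : θ₁ x⁻¹ * θ₁ x = 1 := by rw [← map_mul, inv_mul_cancel, map_one]
          have h2 : θ₂ x⁻¹ * θ₂ x = 1 := by rw [← map_mul, inv_mul_cancel, map_one]
          have e : t * (θ₁ x⁻¹ - θ₂ x⁻¹) = -(θ₁ x⁻¹ * θ₂ x⁻¹) * (t * (θ₁ x - θ₂ x)) := by
            have e1 : θ₁ x⁻¹ - θ₂ x⁻¹ = θ₁ x⁻¹ * (θ₂ x⁻¹ * θ₂ x) - (θ₁ x⁻¹ * θ₁ x) * θ₂ x⁻¹ := by
              rw [h1, h2, mul_one, one_mul]
            rw [e1]; ring
          rw [e]
          exact Ideal.mul_mem_left _ _ hx }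
    haveI := hF
    have hK : F.fixingSubgroup ≤ H := fun x hx => hFj x hx
    have hI : ∀ l : ℕ, l.Prime → ∀ A : ValuationSubring (AlgebraicClosure ℚ),
        A.LiesOverPrime l → A.inertiaSubgroupIn ℚ ≤ H := by
      intro l hl A hA τ hτ
      haveI : Fact l.Prime := ⟨hl⟩
      obtain ⟨σ, rfl⟩ := exists_smul_padicPlace_eq l hA
      rw [mem_inertiaSubgroupIn_smul_iff] at hτ
      have h3 := hin l (σ⁻¹ * τ * σ) hτ
      rw [char_conj, char_conj] at h3
      change t * (θ₁ τ - θ₂ τ) ∈ I ^ j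
      rw [h3, sub_self, mul_zero]
      exact Ideal.zero_mem _
    exact Fermat.Agent.S13.Minkowski.mem_of_inertia_le H F hK hI g
  exact (mul_eq_zero.1 (hsep _ key)).resolve_left ht

end Chars

/-! ### No stable line -/

section Main

variable {O : Type*} [CommRing O] [IsDomain O] [CharZero O] (I : Ideal O)
  {R : Type*} [AddCommGroup R] [Module O R] [Module.IsTorsionFree O R]

theorem map_mem_of_mem_smul_top (J : Ideal O) (lam : R →ₗ[O] O) {w : R}
    (hw : w ∈ (J • ⊤ : Submodule O R)) : lam w ∈ J := by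
  refine Submodule.smul_induction_on hw (fun r hr n _ => ?_) (fun x y hx hy => ?_)
  · rw [map_smul, smul_eq_mul]
    exact J.mul_mem_right _ hr
  · rw [map_add]
    exact J.add_mem hx hy

variable (ρ : GQ →* Module.End O R) (χ : GQ →* O) {P N : ℕ} [Fact P.Prime] [Fact N.Prime]
  (S' : Finset ℕ) (a : ℕ → O)

/-- **(S-d), abstract: no stable line.** -/
theorem no_stable_line (hsep : ∀ x : O, (∀ j : ℕ, x ∈ I ^ j) → x = 0) (hNP : N ≠ P)
    (hfun : ∀ v : R, v ≠ 0 → ∃ lam : R →ₗ[O] O, lam v ≠ 0)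
    (hcont : ∀ j : ℕ, ∃ F : IntermediateField ℚ Qbar, FiniteDimensional ℚ F ∧
      ∀ g ∈ F.fixingSubgroup, ∀ v : R, ρ g v - v ∈ (I ^ j • ⊤ : Submodule O R))
    (hχcont : ∀ j : ℕ, ∃ F : IntermediateField ℚ Qbar, FiniteDimensional ℚ F ∧
      ∀ g ∈ F.fixingSubgroup, χ g - 1 ∈ I ^ j)
    (hχunr : ∀ (q : ℕ) [Fact q.Prime], q ≠ P → ∀ s ∈ Iq q, χ s = 1)
    (hχfrob : ∀ (l : ℕ) [Fact l.Prime], l ∉ S' → ∀ φ : GQ,
      (padicPlace l).IsFrobeniusAt φ l → χ φ = (l : O))
    (hunr : ∀ (q : ℕ) [Fact q.Prime], q ≠ N → q ≠ P → ∀ s ∈ Iq q, ρ s = 1)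
    (hU : ∀ s ∈ Iq N, (ρ s - 1) * (ρ s - 1) = 0)
    (hKP : ∀ σ ∈ Iq P, ∀ τ ∈ Iq P, (ρ τ - χ τ • (1 : Module.End O R)) * (ρ σ - 1) = 0)
    (hES : ∀ (l : ℕ) [Fact l.Prime], l ∉ S' → ∀ φ : GQ, (padicPlace l).IsFrobeniusAt φ l →
      ρ φ * ρ φ - a l • ρ φ + (l : O) • (1 : Module.End O R) = 0)
    (hE : ∃ l : ℕ, l.Prime ∧ l ∉ S' ∧ a l ≠ 1 + (l : O)) :
    ¬ ∃ v : R, v ≠ 0 ∧ ∀ g : GQ, ∃ c : O, ρ g v = c • v := by
  rintro ⟨v, hv, hline⟩
  choose ψ hψ using hline
  -- the character of the line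
  let Ψ : GQ →* O :=
    { toFun := ψ
      map_one' := psi_one ρ hv hψ
      map_mul' := psi_mul ρ hv hψ }
  have hΨ : ∀ g, Ψ g = ψ g := fun _ => rfl
  -- inertia at `N`
  have hψN : ∀ s ∈ Iq N, ψ s = 1 := by
    intro s hs
    have h1 := LinearMap.congr_fun (hU s hs) v
    rw [Module.End.mul_apply, LinearMap.zero_apply] at h1
    have h2 : (ρ s - 1) v = (1 * (ψ s - 1)) • v := by
      have := sub_one_apply ρ hψ s 1
      rwa [one_smul] at this
    rw [h2, sub_one_apply ρ hψ] at h1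
    have h3 := (smul_eq_zero.1 h1).resolve_right hv
    rw [one_mul] at h3
    exact sub_eq_zero.1 (mul_self_eq_zero.1 h3)
  -- inertia at `q ≠ N, P`
  have hψq : ∀ (q : ℕ) [Fact q.Prime], q ≠ N → q ≠ P → ∀ s ∈ Iq q, ψ s = 1 := by
    intro q _ hqN hqP s hs
    have h1 := hψ s
    rw [hunr q hqN hqP s hs, Module.End.one_apply] at h1
    exact (eq_of_smul_eq hv (by rw [one_smul]; exact h1)).symm
  -- inertia at `P`
  have hψP : ∀ σ ∈ Iq P, ∀ τ ∈ Iq P, (ψ σ - 1) * (ψ τ - χ τ) = 0 := by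
    intro σ hσ τ hτ
    have h1 := LinearMap.congr_fun (hKP σ hσ τ hτ) v
    rw [Module.End.mul_apply, LinearMap.zero_apply] at h1
    have h2 : (ρ σ - 1) v = (1 * (ψ σ - 1)) • v := by
      have := sub_one_apply ρ hψ σ 1
      rwa [one_smul] at this
    rw [h2, sub_smul_one_apply ρ hψ] at h1
    have h3 := (smul_eq_zero.1 h1).resolve_right hv
    rw [one_mul] at h3
    exact h3
  -- a functional seeing `v`
  obtain ⟨lam, hlam⟩ := hfun v hv
  have hψcont : ∀ j : ℕ, ∃ F : IntermediateField ℚ Qbar, FiniteDimensional ℚ F ∧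
      ∀ g ∈ F.fixingSubgroup, lam v * (ψ g - 1) ∈ I ^ j := by
    intro j
    obtain ⟨F, hF, hFj⟩ := hcont j
    refine ⟨F, hF, fun g hg => ?_⟩
    have h1 := map_mem_of_mem_smul_top (I ^ j) lam (hFj g hg v)
    have e : ψ g • v - v = (ψ g - 1) • v := by rw [sub_smul, one_smul]
    rw [hψ g, e, map_smul, smul_eq_mul, mul_comm] at h1
    exact h1
  -- the Eisenstein prime
  obtain ⟨l, hl, hlS, hal⟩ := hE
  have : Fact l.Prime := ⟨hl⟩
  obtain ⟨φ, hφ⟩ := Fermat.Agent.Lib.FrobeniusExists.exists_isFrobeniusAt_algebraicClosure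
    (padicPlace l) hl (liesOverPrime_padicPlace l)
  have hESv : ψ φ * ψ φ - a l * ψ φ + (l : O) = 0 := by
    have h1 := LinearMap.congr_fun (hES l hlS φ hφ) v
    rw [LinearMap.zero_apply, LinearMap.add_apply, LinearMap.sub_apply, Module.End.mul_apply,
      LinearMap.smul_apply, LinearMap.smul_apply, Module.End.one_apply, hψ φ, map_smul, hψ φ,
      smul_smul, smul_smul, ← sub_smul, ← add_smul] at h1
    exact (smul_eq_zero.1 h1).resolve_right hv
  by_cases h0 : ∀ σ ∈ Iq P, ψ σ = 1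
  · -- `ψ` is unramified everywhere: `ψ = 1`
    have hone : ∀ g, Ψ g = (1 : GQ →* O) g := by
      refine char_eq_of_inertia I hsep Ψ 1 hlam ?_ ?_
      · intro j
        obtain ⟨F, hF, hFj⟩ := hψcont j
        exact ⟨F, hF, fun g hg => by rw [MonoidHom.one_apply]; exact hFj g hg⟩
      · intro q _ s hs
        rw [MonoidHom.one_apply, hΨ]
        by_cases hqP : q = P
        · subst hqP
          exact h0 s hs
        · by_cases hqN : q = N
          · subst hqN
            exact hψN s hs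
          · exact hψq q hqN hqP s hs
    have hφ1 : ψ φ = 1 := hone φ
    rw [hφ1, mul_one, mul_one] at hESv
    exact hal (by linear_combination -hESv)
  · -- `ψ = χ`
    obtain ⟨σ0, hσ0, hσ0ne⟩ : ∃ σ ∈ Iq P, ψ σ ≠ 1 := by
      by_contra h
      exact h0 fun σ hσ => by_contra fun hne => h ⟨σ, hσ, hne⟩
    have hχ : ∀ g, Ψ g = χ g := by
      refine char_eq_of_inertia I hsep Ψ χ hlam ?_ ?_
      · intro j
        obtain ⟨F1, hF1, hF1j⟩ := hψcont j
        obtain ⟨F2, hF2, hF2j⟩ := hχcont j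
        have := hF1
        have := hF2
        refine ⟨F1 ⊔ F2, IntermediateField.finiteDimensional_sup F1 F2, fun g hg => ?_⟩
        have hg1 : g ∈ F1.fixingSubgroup :=
          IntermediateField.fixingSubgroup_antitone (le_sup_left : F1 ≤ F1 ⊔ F2) hg
        have hg2 : g ∈ F2.fixingSubgroup :=
          IntermediateField.fixingSubgroup_antitone (le_sup_right : F2 ≤ F1 ⊔ F2) hg
        have e : lam v * (Ψ g - χ g) = lam v * (ψ g - 1) - lam v * (χ g - 1) := by
          rw [hΨ]; ring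
        rw [e]
        exact Ideal.sub_mem _ (hF1j g hg1) (Ideal.mul_mem_left _ _ (hF2j g hg2))
      · intro q _ s hs
        rw [hΨ]
        by_cases hqP : q = P
        · subst hqP
          have h1 := hψP σ0 hσ0 s hs
          exact sub_eq_zero.1 ((mul_eq_zero.1 h1).resolve_left (sub_ne_zero.2 hσ0ne))
        · rw [hχunr q hqP s hs]
          by_cases hqN : q = N
          · subst hqN
            exact hψN s hs
          · exact hψq q hqN hqP s hs
    have hφ1 : ψ φ = (l : O) := (hχ φ).trans (hχfrob l hlS φ hφ)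
    rw [hφ1] at hESv
    have hl0 : (l : O) ≠ 0 := Nat.cast_ne_zero.2 hl.ne_zero
    have h2 : (l : O) * ((l : O) - a l + 1) = 0 := by linear_combination hESv
    have h3 := (mul_eq_zero.1 h2).resolve_left hl0
    exact hal (by linear_combination -h3)

end Main

/-! ### Rank two: no stable line means every stable submodule is zero or of full rank -/

section Rank2

variable {O : Type*} [CommRing O] [IsDomain O] [IsPrincipalIdealRing O]
  {R : Type*} [AddCommGroup R] [Module O R] {G : Type*} [Group G] (ρ : G →* Module.End O R)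
  (b : Module.Basis (Fin 2) O R)

theorem eq_of_coords {x y : R} (h0 : b.repr x 0 = b.repr y 0) (h1 : b.repr x 1 = b.repr y 1) :
    x = y := by
  apply b.ext_elem
  intro i
  fin_cases i
  · exact h0
  · exact h1

theorem eq_coords (x : R) : x = b.repr x 0 • b 0 + b.repr x 1 • b 1 := by
  conv_lhs => rw [← b.sum_repr x]
  rw [Fin.sum_univ_two]

theorem repr_comb (c0 c1 : O) (i : Fin 2) :
    b.repr (c0 • b 0 + c1 • b 1) i = if i = 0 then c0 else c1 := by
  rw [map_add, map_smul, map_smul, b.repr_self, b.repr_self, Finsupp.add_apply,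
    Finsupp.smul_apply, Finsupp.smul_apply, Finsupp.single_apply, Finsupp.single_apply]
  fin_cases i <;> simp

include b in
/-- **rank two over a principal ideal domain: without a stable line every non-zero stable
submodule contains `δ R` for some `δ ≠ 0`** -/
theorem exists_smul_mem_of_no_stable_line
    (hline : ¬ ∃ v : R, v ≠ 0 ∧ ∀ g : G, ∃ c : O, ρ g v = c • v)
    (M : Submodule O R) (hM : ∀ g, ∀ v ∈ M, ρ g v ∈ M) (hM0 : M ≠ ⊥) :
    ∃ δ : O, δ ≠ 0 ∧ ∀ w : R, δ • w ∈ M := by
  obtain ⟨v, hvM, hv⟩ := Submodule.exists_mem_ne_zero_of_ne_bot hM0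
  set v1 := b.repr v 0 with hv1
  set v2 := b.repr v 1 with hv2
  by_cases hdet : ∃ g, v1 * b.repr (ρ g v) 1 - v2 * b.repr (ρ g v) 0 ≠ 0
  · obtain ⟨g, hg⟩ := hdet
    set u := ρ g v with hu
    set u1 := b.repr u 0 with hu1
    set u2 := b.repr u 1 with hu2
    have huM : u ∈ M := hM g v hvM
    refine ⟨v1 * u2 - v2 * u1, hg, fun w => ?_⟩
    have e0 : (v1 * u2 - v2 * u1) • b 0 = u2 • v - v2 • u := by
      apply eq_of_coords b
      · rw [map_smul, map_sub, map_smul, map_smul, b.repr_self, Finsupp.smul_apply,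
          Finsupp.sub_apply, Finsupp.smul_apply, Finsupp.smul_apply, Finsupp.single_apply,
          if_pos rfl, smul_eq_mul, smul_eq_mul, smul_eq_mul, ← hv1, ← hu1]
        ring
      · rw [map_smul, map_sub, map_smul, map_smul, b.repr_self, Finsupp.smul_apply,
          Finsupp.sub_apply, Finsupp.smul_apply, Finsupp.smul_apply, Finsupp.single_apply,
          if_neg (by decide), smul_eq_mul, smul_eq_mul, smul_eq_mul, ← hv2, ← hu2]
        ring
    have e1 : (v1 * u2 - v2 * u1) • b 1 = v1 • u - u1 • v := by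
      apply eq_of_coords b
      · rw [map_smul, map_sub, map_smul, map_smul, b.repr_self, Finsupp.smul_apply,
          Finsupp.sub_apply, Finsupp.smul_apply, Finsupp.smul_apply, Finsupp.single_apply,
          if_neg (by decide), smul_eq_mul, smul_eq_mul, smul_eq_mul, ← hv1, ← hu1]
        ring
      · rw [map_smul, map_sub, map_smul, map_smul, b.repr_self, Finsupp.smul_apply,
          Finsupp.sub_apply, Finsupp.smul_apply, Finsupp.smul_apply, Finsupp.single_apply,
          if_pos rfl, smul_eq_mul, smul_eq_mul, smul_eq_mul, ← hv2, ← hu2]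
        ring
    have h0 : (v1 * u2 - v2 * u1) • b 0 ∈ M := by
      rw [e0]
      exact M.sub_mem (M.smul_mem _ hvM) (M.smul_mem _ huM)
    have h1 : (v1 * u2 - v2 * u1) • b 1 ∈ M := by
      rw [e1]
      exact M.sub_mem (M.smul_mem _ huM) (M.smul_mem _ hvM)
    rw [eq_coords b w, smul_add, smul_comm _ (b.repr w 0), smul_comm _ (b.repr w 1)]
    exact M.add_mem (M.smul_mem _ h0) (M.smul_mem _ h1)
  · exfalso
    have hdet' : ∀ g, v1 * b.repr (ρ g v) 1 = v2 * b.repr (ρ g v) 0 := by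
      intro g
      by_contra h
      exact hdet ⟨g, sub_ne_zero.2 h⟩
    -- the primitive vector on the line of `v`
    obtain ⟨d, hd⟩ := (IsPrincipalIdealRing.principal (Ideal.span {v1, v2})).principal
    have hd' : Ideal.span {v1, v2} = Ideal.span {d} := hd
    have hv1d : v1 ∈ Ideal.span {d} := by
      rw [← hd']
      exact Ideal.subset_span (Set.mem_insert _ _)
    have hv2d : v2 ∈ Ideal.span {d} := by
      rw [← hd']
      exact Ideal.subset_span (Set.mem_insert_of_mem _ rfl)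
    obtain ⟨a1, ha1⟩ := Ideal.mem_span_singleton'.1 hv1d
    obtain ⟨a2, ha2⟩ := Ideal.mem_span_singleton'.1 hv2d
    have hdmem : d ∈ Ideal.span {v1, v2} := by
      rw [hd']
      exact Ideal.subset_span rfl
    obtain ⟨x, y, hxy⟩ := Ideal.mem_span_pair.1 hdmem
    have hd0 : d ≠ 0 := by
      intro h
      apply hv
      rw [eq_coords b v, ← hv1, ← hv2, ← ha1, ← ha2, h, mul_zero, mul_zero, zero_smul, zero_smul,
        add_zero]
    have hbez : x * a1 + y * a2 = 1 := by
      have h : d * (x * a1 + y * a2) = d * 1 := by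
        rw [mul_one]
        calc d * (x * a1 + y * a2) = x * (a1 * d) + y * (a2 * d) := by ring
          _ = d := by rw [ha1, ha2, hxy]
      exact mul_left_cancel₀ hd0 h
    set v0 : R := a1 • b 0 + a2 • b 1 with hv0
    have hvv0 : v = d • v0 := by
      rw [eq_coords b v, ← hv1, ← hv2, hv0, smul_add, smul_smul, smul_smul, ← ha1, ← ha2,
        mul_comm d a1, mul_comm d a2]
    have hv00 : v0 ≠ 0 := by
      intro h
      apply hv
      rw [hvv0, h, smul_zero]
    refine hline ⟨v0, hv00, fun g => ?_⟩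
    set w1 := b.repr (ρ g v0) 0 with hw1
    set w2 := b.repr (ρ g v0) 1 with hw2
    have h1 := hdet' g
    rw [hvv0, map_smul, map_smul, Finsupp.smul_apply, Finsupp.smul_apply, smul_eq_mul,
      smul_eq_mul, ← hw1, ← hw2, ← ha1, ← ha2] at h1
    have h2 : a1 * w2 = a2 * w1 := by
      have h3 : d * d * (a1 * w2) = d * d * (a2 * w1) := by linear_combination h1
      exact mul_left_cancel₀ (mul_ne_zero hd0 hd0) h3
    refine ⟨x * w1 + y * w2, ?_⟩
    apply eq_of_coords b
    · rw [map_smul, Finsupp.smul_apply, hv0, repr_comb, if_pos rfl, smul_eq_mul, ← hw1]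
      linear_combination (-w1) * hbez + (-y) * h2
    · rw [map_smul, Finsupp.smul_apply, hv0, repr_comb, if_neg (by decide), smul_eq_mul, ← hw2]
      linear_combination (-w2) * hbez + x * h2

include b in
/-- the same over a discrete valuation ring with uniformiser `ϖ`: every stable submodule is zero
or contains `ϖ ^ j R` -/
theorem irreducible_of_no_stable_line [IsDiscreteValuationRing O] {ϖ : O} (hϖ : Irreducible ϖ)
    (hline : ¬ ∃ v : R, v ≠ 0 ∧ ∀ g : G, ∃ c : O, ρ g v = c • v)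
    (M : Submodule O R) (hM : ∀ g, ∀ v ∈ M, ρ g v ∈ M) :
    M = ⊥ ∨ ∃ j : ℕ, ∀ w : R, ϖ ^ j • w ∈ M := by
  by_cases hM0 : M = ⊥
  · exact Or.inl hM0
  · right
    obtain ⟨δ, hδ, hδM⟩ := exists_smul_mem_of_no_stable_line ρ b hline M hM hM0
    obtain ⟨j, hj⟩ := IsDiscreteValuationRing.associated_pow_irreducible hδ hϖ
    obtain ⟨u, hu⟩ := hj
    refine ⟨j, fun w => ?_⟩
    rw [← hu, mul_smul]
    exact hδM _

end Rank2

/-! ### The combined statement -/

section Combined

variable {O : Type*} [CommRing O] [IsDomain O] [IsDiscreteValuationRing O] [CharZero O]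
  (I : Ideal O) {R : Type*} [AddCommGroup R] [Module O R]

/-- functionals separate the points of a module with a basis -/
theorem exists_functional {ι : Type*} (b : Module.Basis ι O R) (v : R) (hv : v ≠ 0) :
    ∃ lam : R →ₗ[O] O, lam v ≠ 0 := by
  by_contra h
  apply hv
  apply b.ext_elem
  intro i
  rw [map_zero, Finsupp.zero_apply]
  by_contra hi
  exact h ⟨b.coord i, hi⟩

/-- **(S-d), abstract, in the shape of (S-0)**: a rank-two Galois lattice over a discrete
valuation ring with the local conditions, the Eichler–Shimura relation and Eisenstein exclusion is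
irreducible: every stable submodule is zero or contains `ϖ ^ j R`. -/
theorem irreducible {ϖ : O} (hϖ : Irreducible ϖ) (b : Module.Basis (Fin 2) O R)
    (ρ : GQ →* Module.End O R) (χ : GQ →* O) {P N : ℕ} [Fact P.Prime] [Fact N.Prime]
    (S' : Finset ℕ) (a : ℕ → O)
    (hsep : ∀ x : O, (∀ j : ℕ, x ∈ I ^ j) → x = 0) (hNP : N ≠ P)
    (hcont : ∀ j : ℕ, ∃ F : IntermediateField ℚ Qbar, FiniteDimensional ℚ F ∧
      ∀ g ∈ F.fixingSubgroup, ∀ v : R, ρ g v - v ∈ (I ^ j • ⊤ : Submodule O R))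
    (hχcont : ∀ j : ℕ, ∃ F : IntermediateField ℚ Qbar, FiniteDimensional ℚ F ∧
      ∀ g ∈ F.fixingSubgroup, χ g - 1 ∈ I ^ j)
    (hχunr : ∀ (q : ℕ) [Fact q.Prime], q ≠ P → ∀ s ∈ Iq q, χ s = 1)
    (hχfrob : ∀ (l : ℕ) [Fact l.Prime], l ∉ S' → ∀ φ : GQ,
      (padicPlace l).IsFrobeniusAt φ l → χ φ = (l : O))
    (hunr : ∀ (q : ℕ) [Fact q.Prime], q ≠ N → q ≠ P → ∀ s ∈ Iq q, ρ s = 1)
    (hU : ∀ s ∈ Iq N, (ρ s - 1) * (ρ s - 1) = 0)
    (hKP : ∀ σ ∈ Iq P, ∀ τ ∈ Iq P, (ρ τ - χ τ • (1 : Module.End O R)) * (ρ σ - 1) = 0)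
    (hES : ∀ (l : ℕ) [Fact l.Prime], l ∉ S' → ∀ φ : GQ, (padicPlace l).IsFrobeniusAt φ l →
      ρ φ * ρ φ - a l • ρ φ + (l : O) • (1 : Module.End O R) = 0)
    (hE : ∃ l : ℕ, l.Prime ∧ l ∉ S' ∧ a l ≠ 1 + (l : O))
    (M : Submodule O R) (hM : ∀ g, ∀ v ∈ M, ρ g v ∈ M) :
    M = ⊥ ∨ ∃ j : ℕ, ∀ w : R, ϖ ^ j • w ∈ M := by
  have : Module.Free O R := Module.Free.of_basis b
  exact irreducible_of_no_stable_line ρ b hϖ
    (no_stable_line I ρ χ S' a hsep hNP (exists_functional b) hcont hχcont hχunr hχfrob hunr hU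
      hKP hES hE) M hM

end Combined

end Fermat.Agent.S15.Struct.Irred
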