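/-
PROJECT M (S15), block [S], leaf (S-a) in concrete `ℤ_P`-form:
**the Tate module of the Eisenstein part of `J₀(N)` and its finite levels.**

`eisAll N S`   : the elements of `J₀(N)(ℚ̄)` killed by a power of every Eisenstein operator
                 `a_r = T_r - (1 + r)`, `r ∉ S` (helper24's `eisOps`);
`TeisSub N P S`: the `ℤ_P`-submodule of main's Tate module `Tp P (JZero N)` of the sequences all of
                 whose components are Eisenstein: saturated, Galois stable, finite free;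
`level k`      : evaluation at level `k`, onto helper24's `Gk N P k S`, Galois equivariant, with
                 kernel `P ^ k • TeisSub`; surjective as soon as the Hecke operators commute on the
                 `P`-power torsion (helper3's `HeckeComm`): `J₀(N)(ℚ̄)` is divisible (main, S17) and
                 the Fitting projector of level `j + 1` fixes the Eisenstein part of level `j`.
So `Gk N P k S ≃ T / P ^ k T` with ONE finite free `ℤ_P`-module `T`, uniformly in `k`; in
particular `#Gk = P ^ (k * rank T)`.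
-/
import Fermat.Agent.S30.Padic.TateModule
import Fermat.Agent.S17.Div.Final
import Fermat.Agent.S15.K.Star
import Fermat.Agent.S15.P.RankCount

set_option autoImplicit false
set_option synthInstance.maxHeartbeats 400000
set_option linter.unusedSectionVars false

noncomputable section

namespace Fermat.Agent.S15.Struct.TateEis

open AlgebraicCurve ModularCurve
open Fermat.Agent.S56.Coh Fermat.Agent.CFT.LC Fermat.Agent.CFT.Bridge Fermat.Agent.CFT.LocalBridge
open Fermat.Agent.S15.K.Kummer Fermat.Agent.S15.K.Star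
open Fermat.Agent.S30.Padic.TateModule

/-! ### A general lifting lemma for Tate modules -/

section Lift

variable {J : Type*} [AddCommGroup J] (p : ℕ) [hp : Fact p.Prime]

/-- the recursion: a `p`-divisible chain above `y` -/
def chainFrom
    (hdiv : ∀ (k : ℕ) (y : J), p ^ k • y = 0 → ∃ z : J, p • z = y ∧ p ^ (k + 1) • z = 0)
    (k : ℕ) (y : J) (hy : p ^ k • y = 0) : (j : ℕ) → {z : J // p ^ (k + j) • z = 0}
  | 0 => ⟨y, hy⟩
  | (j + 1) =>
    ⟨Classical.choose (hdiv (k + j) (chainFrom hdiv k y hy j).1 (chainFrom hdiv k y hy j).2),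
      (Classical.choose_spec
        (hdiv (k + j) (chainFrom hdiv k y hy j).1 (chainFrom hdiv k y hy j).2)).2⟩

theorem smul_chainFrom_succ
    (hdiv : ∀ (k : ℕ) (y : J), p ^ k • y = 0 → ∃ z : J, p • z = y ∧ p ^ (k + 1) • z = 0)
    (k : ℕ) (y : J) (hy : p ^ k • y = 0) (j : ℕ) :
    p • (chainFrom p hdiv k y hy (j + 1)).1 = (chainFrom p hdiv k y hy j).1 :=
  (Classical.choose_spec
    (hdiv (k + j) (chainFrom p hdiv k y hy j).1 (chainFrom p hdiv k y hy j).2)).1

theorem pow_smul_chainFrom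
    (hdiv : ∀ (k : ℕ) (y : J), p ^ k • y = 0 → ∃ z : J, p • z = y ∧ p ^ (k + 1) • z = 0)
    (k : ℕ) (y : J) (hy : p ^ k • y = 0) (m j : ℕ) :
    p ^ m • (chainFrom p hdiv k y hy (j + m)).1 = (chainFrom p hdiv k y hy j).1 := by
  induction m with
  | zero => simp
  | succ m ih =>
    show p ^ (m + 1) • (chainFrom p hdiv k y hy ((j + m) + 1)).1 = _
    rw [pow_succ, mul_smul, smul_chainFrom_succ, ih]

/-- **every `p ^ k`-torsion element of a group whose `p`-power torsion is `p`-divisible is the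
`k`-th component of an element of the Tate module.** -/
theorem exists_tp_apply_eq
    (hdiv : ∀ (k : ℕ) (y : J), p ^ k • y = 0 → ∃ z : J, p • z = y ∧ p ^ (k + 1) • z = 0)
    (k : ℕ) (y : J) (hy : p ^ k • y = 0) : ∃ x : Tp p J, x.1 k = y := by
  refine ⟨⟨fun i => p ^ k • (chainFrom p hdiv k y hy i).1, ?_, fun i => ?_⟩, ?_⟩
  · exact hy
  · show p • (p ^ k • (chainFrom p hdiv k y hy (i + 1)).1) = p ^ k • (chainFrom p hdiv k y hy i).1
    rw [smul_comm, smul_chainFrom_succ]
  · show p ^ k • (chainFrom p hdiv k y hy k).1 = y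
    have := pow_smul_chainFrom p hdiv k y hy k 0
    rwa [zero_add] at this

end Lift

/-! ### The Eisenstein part of `J₀(N)(ℚ̄)` -/

variable (N : ℕ) [NeZero N] (P : ℕ) [hP : Fact P.Prime] (S : Set ℕ)

/-- The elements killed by a power of every Eisenstein operator. -/
def eisAll : AddSubgroup (JZero N) where
  carrier := {x | ∀ a ∈ eisOps N S, ∃ n : ℕ, (a ^ n) x = 0}
  zero_mem' := fun a _ => ⟨0, by simp⟩
  add_mem' := by
    intro t t' ht ht' a ha
    obtain ⟨n, hn⟩ := ht a ha
    obtain ⟨n', hn'⟩ := ht' a ha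
    refine ⟨n + n', ?_⟩
    have e1 : (a ^ (n + n')) t = 0 := by
      rw [add_comm, pow_add, Module.End.mul_apply, hn, map_zero]
    have e2 : (a ^ (n + n')) t' = 0 := by
      rw [pow_add, Module.End.mul_apply, hn', map_zero]
    rw [map_add, e1, e2, add_zero]
  neg_mem' := by
    intro t ht a ha
    obtain ⟨n, hn⟩ := ht a ha
    exact ⟨n, by rw [map_neg, hn, neg_zero]⟩

lemma mem_eisAll {x : JZero N} :
    x ∈ eisAll N S ↔ ∀ a ∈ eisOps N S, ∃ n : ℕ, (a ^ n) x = 0 := Iff.rfl

lemma smul_mem_eisAll (σ : GQ) {x : JZero N} (hx : x ∈ eisAll N S) : σ • x ∈ eisAll N S := by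
  intro a ha
  obtain ⟨n, hn⟩ := hx a ha
  refine ⟨n, ?_⟩
  have h1 : a ^ n ∈ Subring.closure (heckeGens N S) :=
    Subring.pow_mem _ (eisOps_subset_closure N S ha) n
  rw [closure_smul N S h1, hn]
  exact smul_zero (A := JZero N) σ

/-! ### The Tate module of the Eisenstein part -/

/-- The sequences of the Tate module all of whose components are Eisenstein. -/
def TeisSub : Submodule ℤ_[P] (Tp P (JZero N)) where
  carrier := {x | ∀ k, x.1 k ∈ eisAll N S}
  zero_mem' := fun k => (eisAll N S).zero_mem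
  add_mem' := fun hx hy k => (eisAll N S).add_mem (hx k) (hy k)
  smul_mem' := by
    intro c x hx k
    rw [Tp.coe_smul_apply]
    exact (eisAll N S).nsmul_mem (hx k) _

lemma mem_TeisSub {x : Tp P (JZero N)} : x ∈ TeisSub N P S ↔ ∀ k, x.1 k ∈ eisAll N S := Iff.rfl

/-- `TeisSub` is saturated in the Tate module. -/
theorem saturated {x : Tp P (JZero N)} (h : (P : ℤ_[P]) • x ∈ TeisSub N P S) :
    x ∈ TeisSub N P S := by
  intro k
  have := h (k + 1)
  rwa [Tp.coe_natCast_smul_apply, Tp.smul_apply_succ] at this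

theorem pow_saturated (n : ℕ) {x : Tp P (JZero N)}
    (h : ((P : ℤ_[P]) ^ n) • x ∈ TeisSub N P S) : x ∈ TeisSub N P S := by
  induction n with
  | zero => simpa using h
  | succ n ih =>
    apply ih
    apply saturated
    rw [smul_smul, ← pow_succ']
    exact h

/-- `TeisSub` is Galois stable. -/
theorem galois_mem (σ : GQ) {x : Tp P (JZero N)} (hx : x ∈ TeisSub N P S) :
    Tp.galoisHom (p := P) GQ σ x ∈ TeisSub N P S := fun k => by
  rw [Tp.coe_galoisHom_apply]
  exact smul_mem_eisAll N S σ (hx k)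

/-- `TeisSub` is stable under every additive endomorphism of `J₀(N)` commuting with the Eisenstein
operators on the `P`-power torsion. -/
theorem mapEnd_mem (f : AddMonoid.End (JZero N))
    (hf : ∀ a ∈ eisOps N S, ∀ y : JZero N, (∃ n : ℕ, P ^ n • y = 0) → a (f y) = f (a y))
    {x : Tp P (JZero N)} (hx : x ∈ TeisSub N P S) : Tp.mapEnd (p := P) f x ∈ TeisSub N P S := by
  intro k a ha
  obtain ⟨n, hn⟩ := hx k a ha
  refine ⟨n, ?_⟩
  rw [Tp.coe_mapEnd_apply]
  have key : ∀ m : ℕ, ∀ y : JZero N, (∃ n : ℕ, P ^ n • y = 0) → (a ^ m) (f y) = f ((a ^ m) y) := by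
    intro m
    induction m with
    | zero => intro y _; simp
    | succ m ih =>
      intro y hy
      have hy' : ∃ n : ℕ, P ^ n • (a y) = 0 := by
        obtain ⟨n, hn⟩ := hy
        exact ⟨n, by rw [← map_nsmul, hn, map_zero]⟩
      rw [pow_succ, Module.End.mul_apply, hf a ha y hy, ih (a y) hy', Module.End.mul_apply]
  rw [key n _ (Tp.isTorsion_apply x k), hn, map_zero]

/-- the Galois action on `TeisSub` -/
def rhoT : GQ →* Module.End ℤ_[P] ↥(TeisSub N P S) where
  toFun σ := (Tp.galoisHom (p := P) GQ σ).restrict fun _ hx => galois_mem N P S σ hx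
  map_one' := by
    ext x k
    simp [LinearMap.restrict_apply]
  map_mul' σ τ := by
    ext x k
    simp [LinearMap.restrict_apply]

@[simp] lemma coe_rhoT_apply (σ : GQ) (x : ↥(TeisSub N P S)) (k : ℕ) :
    ((rhoT N P S σ x : ↥(TeisSub N P S)) : Tp P (JZero N)).1 k = σ • (x : Tp P (JZero N)).1 k :=
  rfl

/-! ### Finiteness and freeness -/

theorem finite_Tp : Module.Finite ℤ_[P] (Tp P (JZero N)) :=
  Tp.finite_of_finite (by
    have := Fermat.Agent.S30.Descent.PhiDictThm.finite_torsion N hP.out.ne_zero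
    exact this)

theorem finite_Teis : Module.Finite ℤ_[P] ↥(TeisSub N P S) := by
  have := finite_Tp N P
  infer_instance

theorem free_Teis : Module.Free ℤ_[P] ↥(TeisSub N P S) := by
  have := finite_Tp N P
  infer_instance

/-! ### The finite levels -/

/-- Evaluation at level `k`, with values in helper24's `Gk N P k S`. -/
def level (k : ℕ) : ↥(TeisSub N P S) →+ Gk N P k S where
  toFun x := ⟨⟨(x : Tp P (JZero N)).1 k, mem_Tm_iff.2 (Tp.pow_smul_apply (x : Tp P (JZero N)) k)⟩,
    fun a ha => x.2 k a ha⟩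
  map_zero' := by
    apply Subtype.ext
    apply Subtype.ext
    rfl
  map_add' x y := by
    apply Subtype.ext
    apply Subtype.ext
    rfl

lemma coe_level (k : ℕ) (x : ↥(TeisSub N P S)) :
    (((level N P S k x).1 : ↥(Tm N (P ^ k))) : JZero N) = (x : Tp P (JZero N)).1 k := rfl

/-- the level maps are Galois equivariant -/
theorem level_rhoT (k : ℕ) (σ : GQ) (x : ↥(TeisSub N P S)) :
    level N P S k (rhoT N P S σ x) = (Gk N P k S).ρ σ (level N P S k x) := by
  apply Subtype.ext
  apply Subtype.ext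
  rfl

theorem level_eq_zero_iff' (k : ℕ) (x : ↥(TeisSub N P S)) :
    level N P S k x = 0 ↔ (x : Tp P (JZero N)).1 k = 0 := by
  constructor
  · intro h
    have := congrArg (fun g : Gk N P k S => (((g.1 : ↥(Tm N (P ^ k))) : JZero N))) h
    exact this
  · intro h
    apply Subtype.ext
    apply Subtype.ext
    exact h

/-- the kernel of the level map is `P ^ k • TeisSub` -/
theorem level_eq_zero_iff (k : ℕ) (x : ↥(TeisSub N P S)) :
    level N P S k x = 0 ↔ ∃ y : ↥(TeisSub N P S), x = (P : ℤ_[P]) ^ k • y := by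
  rw [level_eq_zero_iff']
  constructor
  · intro h
    obtain ⟨y, hy⟩ := Tp.exists_eq_pow_smul (x : Tp P (JZero N)) k h
    have hyT : y ∈ TeisSub N P S := pow_saturated N P S k (by rw [← hy]; exact x.2)
    exact ⟨⟨y, hyT⟩, Subtype.ext hy⟩
  · rintro ⟨y, rfl⟩
    exact Tp.pow_smul_apply_self (y : Tp P (JZero N)) k

/-- **the level maps are onto** as soon as the Hecke operators commute on the `P`-power torsion. -/
theorem level_surjective
    (hcomm : ∀ k : ℕ, ∀ r s : Nat.Primes, (r : ℕ) ∉ S → (s : ℕ) ∉ S → ∀ x : JZero N,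
      P ^ k • x = 0 → heckeOperatorBar N r (heckeOperatorBar N s x) =
        heckeOperatorBar N s (heckeOperatorBar N r x)) (k : ℕ) :
    Function.Surjective (level N P S k) := by
  -- the `P`-power torsion of the Eisenstein part is `P`-divisible
  have hdiv : ∀ (j : ℕ) (y : ↥(eisAll N S)), P ^ j • y = 0 →
      ∃ z : ↥(eisAll N S), P • z = y ∧ P ^ (j + 1) • z = 0 := by
    intro j y hy
    have hy0 : P ^ j • (y : JZero N) = 0 := by
      have := congrArg Subtype.val hy
      simpa using this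
    obtain ⟨z0, hz0⟩ := Fermat.Agent.S17.Div.exists_nsmul_eq N P hP.out.ne_zero (y : JZero N)
    have hz0T : z0 ∈ Tm N (P ^ (j + 1)) := by
      rw [mem_Tm_iff, pow_succ, mul_smul, hz0, hy0]
    have hyT : (y : JZero N) ∈ Tm N (P ^ (j + 1)) := by
      rw [mem_Tm_iff, pow_succ', mul_smul, hy0, smul_zero]
    have : NeZero (P ^ (j + 1)) := ⟨pow_ne_zero _ hP.out.ne_zero⟩
    obtain ⟨e, -, h1, h2, h3, -⟩ :=
      exists_eisProjector (N := N) (P := P) (k := j + 1) (S := S) (hcomm (j + 1))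
    refine ⟨⟨e z0, fun a ha => h2 z0 hz0T a ha⟩, ?_, ?_⟩
    · apply Subtype.ext
      show P • e z0 = (y : JZero N)
      rw [← map_nsmul, hz0]
      exact h3 (y : JZero N) hyT y.2
    · apply Subtype.ext
      show P ^ (j + 1) • e z0 = 0
      exact mem_Tm_iff.1 (h1 z0 hz0T)
  intro g
  have hg : P ^ k • (⟨((g.1 : ↥(Tm N (P ^ k))) : JZero N), g.2⟩ : ↥(eisAll N S)) = 0 := by
    apply Subtype.ext
    show P ^ k • ((g.1 : ↥(Tm N (P ^ k))) : JZero N) = 0
    exact mem_Tm_iff.1 (g.1 : ↥(Tm N (P ^ k))).2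
  obtain ⟨x', hx'⟩ := exists_tp_apply_eq P hdiv k _ hg
  let x : Tp P (JZero N) := Tp.map (eisAll N S).subtype x'
  have hx : x ∈ TeisSub N P S := fun i => (x'.1 i).2
  refine ⟨⟨x, hx⟩, ?_⟩
  apply Subtype.ext
  apply Subtype.ext
  show (eisAll N S).subtype (x'.1 k) = _
  rw [hx']
  rfl

/-- **the number of elements of `Gk`** -/
theorem card_Gk
    (hcomm : ∀ k : ℕ, ∀ r s : Nat.Primes, (r : ℕ) ∉ S → (s : ℕ) ∉ S → ∀ x : JZero N,
      P ^ k • x = 0 → heckeOperatorBar N r (heckeOperatorBar N s x) =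
        heckeOperatorBar N s (heckeOperatorBar N r x)) (k : ℕ) :
    Nat.card (Gk N P k S) = P ^ (k * Module.finrank ℤ_[P] ↥(TeisSub N P S)) := by
  have := finite_Teis N P S
  have := free_Teis N P S
  exact Fermat.Agent.S15.P.RankCount.card_eq_pow (level N P S k) k
    (level_surjective N P S hcomm k) (level_eq_zero_iff N P S k)

/-! ### Transfer of relations from the finite levels to the Tate module -/

/-- the realisation of `Gk` inside `J₀(N)(ℚ̄)` (= helper24's `K/Ord.incl`) -/
def toJ (k : ℕ) : Gk N P k S →+ JZero N where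
  toFun g := ((g.1 : ↥(Tm N (P ^ k))) : JZero N)
  map_zero' := rfl
  map_add' _ _ := rfl

lemma toJ_ρ (k : ℕ) (σ : GQ) (g : Gk N P k S) :
    toJ N P S k ((Gk N P k S).ρ σ g) = σ • toJ N P S k g := rfl

/-- evaluation at level `k`, with values in `J₀(N)(ℚ̄)` -/
def evT (k : ℕ) : ↥(TeisSub N P S) →+ JZero N where
  toFun x := (x : Tp P (JZero N)).1 k
  map_zero' := rfl
  map_add' _ _ := rfl

lemma evT_apply (k : ℕ) (x : ↥(TeisSub N P S)) :
    evT N P S k x = (x : Tp P (JZero N)).1 k := rfl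

lemma ext_evT {x y : ↥(TeisSub N P S)} (h : ∀ k, evT N P S k x = evT N P S k y) : x = y :=
  Subtype.ext (Tp.ext h)

lemma evT_rhoT (k : ℕ) (σ : GQ) (x : ↥(TeisSub N P S)) :
    evT N P S k (rhoT N P S σ x) = σ • evT N P S k x := rfl

lemma evT_smul (k : ℕ) (u : ℤ_[P]) {m : ℕ} (hm : u.appr k ≡ m [MOD P ^ k])
    (x : ↥(TeisSub N P S)) : evT N P S k (u • x) = m • evT N P S k x :=
  Tp.coe_smul_apply_of_modEq u (x : Tp P (JZero N)) k hm

lemma toJ_level (k : ℕ) (x : ↥(TeisSub N P S)) :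
    toJ N P S k (level N P S k x) = evT N P S k x := rfl

lemma toJ_injective (k : ℕ) : Function.Injective (toJ N P S k) := fun _ _ h =>
  Subtype.ext (Subtype.ext h)

lemma level_eq_zero_iff_evT (k : ℕ) (x : ↥(TeisSub N P S)) :
    level N P S k x = 0 ↔ evT N P S k x = 0 := level_eq_zero_iff' N P S k x

/-- the kernel of the level map, in the shape `∃ s, P ^ k • s = t` -/
theorem level_eq_zero_iff_exists (k : ℕ) (x : ↥(TeisSub N P S)) :
    level N P S k x = 0 ↔ ∃ y : ↥(TeisSub N P S), (P : ℤ_[P]) ^ k • y = x :=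
  (level_eq_zero_iff N P S k x).trans
    ⟨fun ⟨y, hy⟩ => ⟨y, hy.symm⟩, fun ⟨y, hy⟩ => ⟨y, hy.symm⟩⟩

/-- **the scalar rule of the level maps**: `ℤ_P` acts on level `k` through any natural number
congruent to `appr k` modulo `P ^ k` -/
theorem level_smul_of_modEq (k : ℕ) (u : ℤ_[P]) {m : ℕ} (hm : u.appr k ≡ m [MOD P ^ k])
    (x : ↥(TeisSub N P S)) : level N P S k (u • x) = m • level N P S k x :=
  toJ_injective N P S k
    ((evT_smul N P S k u hm x).trans (map_nsmul (toJ N P S k) m (level N P S k x)).symm)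

theorem level_smul (k : ℕ) (u : ℤ_[P]) (x : ↥(TeisSub N P S)) :
    level N P S k (u • x) = u.appr k • level N P S k x :=
  level_smul_of_modEq N P S k u (Nat.ModEq.refl _) x

lemma val_toZModPow_modEq (k : ℕ) (u : ℤ_[P]) :
    u.appr k ≡ (PadicInt.toZModPow k u).val [MOD P ^ k] := by
  have h : PadicInt.toZModPow k u = ((u.appr k : ℕ) : ZMod (P ^ k)) := rfl
  rw [h, ZMod.val_natCast]
  exact (Nat.mod_modEq _ _).symm

theorem level_smul_val (k : ℕ) (u : ℤ_[P]) (x : ↥(TeisSub N P S)) :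
    level N P S k (u • x) = (PadicInt.toZModPow k u).val • level N P S k x :=
  level_smul_of_modEq N P S k u (val_toZModPow_modEq P k u) x

/-- the same with the `ZMod (P ^ k)`-module structure of `Gk` -/
theorem level_smul_zmod (k : ℕ) [NeZero (P ^ k)] (u : ℤ_[P]) (x : ↥(TeisSub N P S)) :
    level N P S k (u • x) = (PadicInt.toZModPow k u) • level N P S k x := by
  refine (level_smul_val N P S k u x).trans ?_
  have h := Nat.cast_smul_eq_nsmul (ZMod (P ^ k)) (PadicInt.toZModPow k u).val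
    (level N P S k x)
  rw [ZMod.natCast_zmod_val] at h
  exact h.symm

lemma evT_rhoT_sub (k : ℕ) (σ : GQ) (x : ↥(TeisSub N P S)) :
    evT N P S k (rhoT N P S σ x - x) = σ • evT N P S k x - evT N P S k x :=
  map_sub (evT N P S k) (rhoT N P S σ x) x

/-- the relation at level `k`, on `J₀(N)(ℚ̄)`, from the relation on `Gk` -/
lemma rel_toJ (k : ℕ) (σ τ : GQ) (m : ℕ)
    (h : ∀ g : Gk N P k S, (Gk N P k S).ρ τ ((Gk N P k S).ρ σ g - g) =
      m • ((Gk N P k S).ρ σ g - g)) (g : Gk N P k S) :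
    τ • (σ • toJ N P S k g - toJ N P S k g) = m • (σ • toJ N P S k g - toJ N P S k g) := by
  have h1 := congrArg (toJ N P S k) (h g)
  rwa [toJ_ρ, map_nsmul, map_sub, toJ_ρ] at h1

/-- **(KP-id) on the Tate module from (KP-id) at every level**: if at every level `k` one has
`ρ τ (ρ σ g - g) = m k • (ρ σ g - g)` on `Gk`, with `m k ≡ u` modulo `P ^ k`, then
`rhoT τ (rhoT σ x - x) = u • (rhoT σ x - x)` on `TeisSub`. -/
theorem rel_of_levels (σ τ : GQ) (u : ℤ_[P]) (m : ℕ → ℕ)
    (hm : ∀ k, u.appr k ≡ m k [MOD P ^ k])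
    (h : ∀ k, ∀ g : Gk N P k S, (Gk N P k S).ρ τ ((Gk N P k S).ρ σ g - g) =
      m k • ((Gk N P k S).ρ σ g - g)) (x : ↥(TeisSub N P S)) :
    rhoT N P S τ (rhoT N P S σ x - x) = u • (rhoT N P S σ x - x) := by
  refine ext_evT N P S fun k => ?_
  have h1 : τ • (σ • evT N P S k x - evT N P S k x) =
      m k • (σ • evT N P S k x - evT N P S k x) :=
    rel_toJ N P S k σ τ (m k) (h k) (level N P S k x)
  have e1 := evT_rhoT N P S k τ (rhoT N P S σ x - x)
  have e2 := evT_smul N P S k u (hm k) (rhoT N P S σ x - x)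
  have e3 := evT_rhoT_sub N P S k σ x
  exact e1.trans ((congrArg (fun y => τ • y) e3).trans
    (h1.trans ((congrArg (fun y => m k • y) e3).symm.trans e2.symm)))

/-- a linear-algebra triviality: `s (s x - x) = u (s x - x)` is `(s - 1)(s - u) x = 0` -/
lemma quad_of_rel {R M : Type*} [CommRing R] [AddCommGroup M] [Module R M] (s : M →ₗ[R] M)
    (u : R) (x : M) (h : s (s x - x) = u • (s x - x)) :
    s (s x) - (1 + u) • s x + u • x = 0 := by
  rw [map_sub, smul_sub, ← sub_eq_zero] at h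
  rw [add_smul, one_smul, ← h]
  abel

/-- the quadratic relation `(s - 1)(s - u) = 0` of `RankCount` for `s = rhoT σ` -/
theorem hrel_of_levels (σ : GQ) (u : ℤ_[P]) (m : ℕ → ℕ)
    (hm : ∀ k, u.appr k ≡ m k [MOD P ^ k])
    (h : ∀ k, ∀ g : Gk N P k S, (Gk N P k S).ρ σ ((Gk N P k S).ρ σ g - g) =
      m k • ((Gk N P k S).ρ σ g - g)) (x : ↥(TeisSub N P S)) :
    rhoT N P S σ (rhoT N P S σ x) - (1 + u) • rhoT N P S σ x + u • x = 0 :=
  quad_of_rel (rhoT N P S σ) u x (rel_of_levels N P S σ σ u m hm h x)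

/-- an element whose level-`k` component is a `u`-eigenvector of `σ` is a `u`-eigenvector
modulo `P ^ k` -/
theorem exists_eq_pow_smul_of_level (σ : GQ) (u : ℤ_[P]) (k m : ℕ)
    (hm : u.appr k ≡ m [MOD P ^ k]) (x : ↥(TeisSub N P S))
    (h : (Gk N P k S).ρ σ (level N P S k x) = m • level N P S k x) :
    ∃ y : ↥(TeisSub N P S), rhoT N P S σ x - u • x = (P : ℤ_[P]) ^ k • y := by
  refine (level_eq_zero_iff N P S k _).1 ((level_eq_zero_iff_evT N P S k _).2 ?_)
  have h1 : σ • evT N P S k x = m • evT N P S k x := by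
    have h2 := congrArg (toJ N P S k) h
    rwa [toJ_ρ, map_nsmul] at h2
  have e1 : evT N P S k (rhoT N P S σ x - u • x) =
      evT N P S k (rhoT N P S σ x) - evT N P S k (u • x) :=
    map_sub (evT N P S k) (rhoT N P S σ x) (u • x)
  have e2 := evT_rhoT N P S k σ x
  have e3 := evT_smul N P S k u hm x
  exact e1.trans (sub_eq_zero.2 (e2.trans (h1.trans e3.symm)))

/-- **(P1b') from the determinant, on `Gk`**: the instance of `RankCount.sq_card_le_of_det`. -/
theorem sq_card_le_of_det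
    (hcomm : ∀ k : ℕ, ∀ r s : Nat.Primes, (r : ℕ) ∉ S → (s : ℕ) ∉ S → ∀ x : JZero N,
      P ^ k • x = 0 → heckeOperatorBar N r (heckeOperatorBar N s x) =
        heckeOperatorBar N s (heckeOperatorBar N r x))
    (σ : GQ) (u : ℤ_[P]) (m : ℕ → ℕ) (hm : ∀ k, u.appr k ≡ m k [MOD P ^ k])
    (h : ∀ k, ∀ g : Gk N P k S, (Gk N P k S).ρ σ ((Gk N P k S).ρ σ g - g) =
      m k • ((Gk N P k S).ρ σ g - g))
    {c0 : ℕ} (hu : (u - 1) ∣ (P : ℤ_[P]) ^ c0) {r : ℕ}
    (hrank : Module.finrank ℤ_[P] ↥(TeisSub N P S) = 2 * r)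
    (hdet : LinearMap.det (rhoT N P S σ) = u ^ r) (hu1 : ∀ a b : ℕ, u ^ a = u ^ b → a = b)
    (k : ℕ) (A0 : AddSubgroup (Gk N P k S))
    (hA0 : ∀ g ∈ A0, (Gk N P k S).ρ σ g = m k • g) :
    Nat.card A0 ^ 2 ≤ P ^ (2 * (2 * r) * c0) * Nat.card (Gk N P k S) := by
  have := finite_Teis N P S
  have := free_Teis N P S
  exact Fermat.Agent.S15.P.RankCount.sq_card_le_of_det (rhoT N P S σ) u
    (hrel_of_levels N P S σ u m hm h) hu hrank hdet hu1 (level N P S k) k
    (level_surjective N P S hcomm k) (level_eq_zero_iff N P S k) A0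
    (fun x hx => exists_eq_pow_smul_of_level N P S σ u k (m k) (hm k) x (hA0 _ hx))

end Fermat.Agent.S15.Struct.TateEis
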