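/-
PROJECT M (S15), block [S] (helper8): KERNEL COUNTS ON LATTICES ALONG FILTRATIONS, abstract core.
Mathlib only.

`O` is a commutative ring, `𝔸` an `O`-algebra (think `O[G_ℚ]`), all modules are `𝔸`-modules,
`U : Set 𝔸` is a fixed FAMILY of elements (think `{s - 1 | s ∈ I_N}` or `{σ - χ(σ) | σ ∈ I_P}`).
For an `𝔸`-module `Λ` and `π : O`,

* `piSub Λ π`      : the submodule `π Λ`;
* `kc Λ U π`       : the number of elements of `Λ / π Λ` killed by every `u ∈ U`;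
* `HalfBound ϖ U Λ`: `∃ C, ∀ k, (kc Λ U (ϖ ^ k)) ^ 2 ≤ C * |Λ / ϖ ^ k Λ|`.

`HalfBound` is closed under extensions with torsion-free quotient (kernels are left exact), holds
for every lattice which embeds in a free module `R` of rank `≤ 2` on which some `u ∈ U` does not
vanish, hence (`halfBound_of_chain`) for every lattice with a finite family `Θ` of jointly nilpotent
`𝔸`-endomorphisms whose common kernel embeds in a power of such an `R`, provided no nonzero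
`𝔸`-submodule of `R` is killed by all of `U`.
-/
import Mathlib

set_option autoImplicit false

namespace Fermat.Agent.S15.Struct.Count

open Function

/-! ### Part 1: finite groups -/

section Groups

/-- `|G| = |ker f| * |range f|`. -/
theorem card_eq_card_ker_mul_card_range {G H : Type*} [AddCommGroup G] [AddCommGroup H]
    (f : G →+ H) : Nat.card G = Nat.card f.ker * Nat.card f.range := by
  rw [AddSubgroup.card_eq_card_quotient_mul_card_addSubgroup f.ker,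
    Nat.card_congr (QuotientAddGroup.quotientKerEquivRange f).toEquiv, mul_comm]

variable {𝔸 : Type*} [Ring 𝔸]

/-- The common kernel of the multiplications by the elements of `U` on an `𝔸`-module. -/
def uKer (U : Set 𝔸) (X : Type*) [AddCommGroup X] [Module 𝔸 X] : AddSubgroup X where
  carrier := {x | ∀ u ∈ U, u • x = 0}
  zero_mem' := fun u _ => smul_zero u
  add_mem' := fun {a b} ha hb u hu => by rw [smul_add, ha u hu, hb u hu, add_zero]
  neg_mem' := fun {a} ha u hu => by rw [smul_neg, ha u hu, neg_zero]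

lemma mem_uKer {U : Set 𝔸} {X : Type*} [AddCommGroup X] [Module 𝔸 X] {x : X} :
    x ∈ uKer U X ↔ ∀ u ∈ U, u • x = 0 := Iff.rfl

lemma uKer_le_ker {U : Set 𝔸} {u : 𝔸} (hu : u ∈ U) (X : Type*) [AddCommGroup X] [Module 𝔸 X] :
    uKer U X ≤ (DistribSMul.toAddMonoidHom X u).ker := fun _ hx => hx u hu

/-- Kernels are left exact: `|ker U on X| ≤ |ker U on X'| * |ker U on X''|`. -/
theorem card_uKer_le_mul {X' X X'' : Type*} [AddCommGroup X'] [AddCommGroup X]
    [AddCommGroup X''] [Module 𝔸 X'] [Module 𝔸 X] [Module 𝔸 X''] (i : X' →ₗ[𝔸] X)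
    (p : X →ₗ[𝔸] X'') (hi : Injective i) (hex : ∀ x, p x = 0 → ∃ y, i y = x) [Finite X]
    [Finite X''] (U : Set 𝔸) :
    Nat.card (uKer U X) ≤ Nat.card (uKer U X') * Nat.card (uKer U X'') := by
  classical
  let f : uKer U X →+ uKer U X'' :=
    { toFun := fun x => ⟨p x.1, by
        intro u hu
        rw [← map_smul, mem_uKer.mp x.2 u hu, map_zero]⟩
      map_zero' := by
        apply Subtype.ext
        simp
      map_add' := fun x y => by
        apply Subtype.ext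
        simp }
  have hf : ∀ x, ((f x : uKer U X'') : X'') = p x.1 := fun _ => rfl
  have h1 := card_eq_card_ker_mul_card_range f
  have : Finite X' := Finite.of_injective i hi
  have h2 : Nat.card f.ker ≤ Nat.card (uKer U X') := by
    have hx : ∀ x : f.ker, ∃ y : X', i y = x.1.1 := fun x => by
      apply hex
      have := x.2
      rw [AddMonoidHom.mem_ker] at this
      rw [← hf, this]
      rfl
    let g : f.ker → uKer U X' := fun x => ⟨Classical.choose (hx x), by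
      intro u hu
      apply hi
      rw [map_smul, Classical.choose_spec (hx x), map_zero]
      exact mem_uKer.mp x.1.2 u hu⟩
    refine Nat.card_le_card_of_injective g ?_
    intro x y hxy
    have h3 : (g x : X') = g y := by rw [hxy]
    have h4 : i (g x : X') = i (g y : X') := by rw [h3]
    have h5 : x.1.1 = y.1.1 := by
      have hx' := Classical.choose_spec (hx x)
      have hy' := Classical.choose_spec (hx y)
      rw [← hx', ← hy']
      exact h4
    exact Subtype.ext (Subtype.ext h5)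
  have h3 : Nat.card f.range ≤ Nat.card (uKer U X'') :=
    Nat.card_le_card_of_injective Subtype.val Subtype.val_injective
  rw [h1]
  exact Nat.mul_le_mul h2 h3

end Groups

/-! ### Part 2: reduction of lattices modulo `π` -/

section Quot

variable {O : Type*} [CommRing O] {𝔸 : Type*} [Ring 𝔸] [Algebra O 𝔸]

section Defs

variable (𝔸) (Λ : Type*) [AddCommGroup Λ] [Module O Λ] [Module 𝔸 Λ] [IsScalarTower O 𝔸 Λ]

/-- The `𝔸`-submodule `π Λ`. -/
def piSub (π : O) : Submodule 𝔸 Λ :=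
  LinearMap.range (DistribSMul.toLinearMap 𝔸 Λ π)

variable {𝔸 Λ}

lemma mem_piSub {π : O} {x : Λ} : x ∈ piSub 𝔸 Λ π ↔ ∃ y : Λ, π • y = x := Iff.rfl

lemma smul_mem_piSub (π : O) (y : Λ) : π • y ∈ piSub 𝔸 Λ π := ⟨y, rfl⟩

variable (Λ)

/-- The number of elements of `Λ / π Λ` killed by all `u ∈ U`. -/
noncomputable def kc (U : Set 𝔸) (π : O) : ℕ := Nat.card (uKer U (Λ ⧸ piSub 𝔸 Λ π))

variable (𝔸)

/-- The number of elements of `Λ / π Λ`. -/
noncomputable def qc (π : O) : ℕ := Nat.card (Λ ⧸ piSub 𝔸 Λ π)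

end Defs

variable {Λ' Λ Λ'' : Type*} [AddCommGroup Λ'] [AddCommGroup Λ] [AddCommGroup Λ'']
  [Module O Λ'] [Module O Λ] [Module O Λ''] [Module 𝔸 Λ'] [Module 𝔸 Λ] [Module 𝔸 Λ'']
  [IsScalarTower O 𝔸 Λ'] [IsScalarTower O 𝔸 Λ] [IsScalarTower O 𝔸 Λ'']

/-- The map induced on the reductions modulo `π`. -/
def qmap (f : Λ →ₗ[𝔸] Λ'') (π : O) : (Λ ⧸ piSub 𝔸 Λ π) →ₗ[𝔸] (Λ'' ⧸ piSub 𝔸 Λ'' π) :=
  Submodule.mapQ _ _ f (by
    intro x hx
    obtain ⟨y, rfl⟩ := mem_piSub.mp hx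
    exact mem_piSub.mpr ⟨f y, (f.map_smul_of_tower π y).symm⟩)

@[simp] lemma qmap_mk (f : Λ →ₗ[𝔸] Λ'') (π : O) (x : Λ) :
    qmap f π (Submodule.Quotient.mk x) = Submodule.Quotient.mk (f x) := rfl

/-- A finitely generated module has finite reduction modulo `π` when `O / π` is finite. -/
theorem finite_quot [Module.Finite O Λ] (π : O) [Finite (O ⧸ Ideal.span {π})] :
    Finite (Λ ⧸ piSub 𝔸 Λ π) := by
  obtain ⟨n, f, hf⟩ := Module.Finite.exists_fin' O Λ
  let F : (Fin n → O ⧸ Ideal.span {π}) → Λ ⧸ piSub 𝔸 Λ π := fun c =>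
    Submodule.Quotient.mk (f fun t => Quotient.out (c t))
  refine Finite.of_surjective F ?_
  intro x
  obtain ⟨x, rfl⟩ := Submodule.Quotient.mk_surjective _ x
  obtain ⟨a, rfl⟩ := hf x
  refine ⟨fun t => Ideal.Quotient.mk _ (a t), ?_⟩
  rw [Submodule.Quotient.eq]
  have h : ∀ t, ∃ b : O,
      Quotient.out (Ideal.Quotient.mk (Ideal.span {π}) (a t)) - a t = π * b := by
    intro t
    have h1 : Ideal.Quotient.mk (Ideal.span {π})
        (Quotient.out (Ideal.Quotient.mk (Ideal.span {π}) (a t))) =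
        Ideal.Quotient.mk (Ideal.span {π}) (a t) := Quotient.out_eq _
    rw [Ideal.Quotient.eq, Ideal.mem_span_singleton'] at h1
    obtain ⟨b, hb⟩ := h1
    exact ⟨b, by rw [← hb, mul_comm]⟩
  choose b hb using h
  refine mem_piSub.mpr ⟨f b, ?_⟩
  rw [← map_smul, ← map_sub]
  congr 1
  funext t
  simp only [Pi.smul_apply, Pi.sub_apply, smul_eq_mul]
  exact (hb t).symm

section Exact

variable (i : Λ' →ₗ[𝔸] Λ) (p : Λ →ₗ[𝔸] Λ'') (hi : Injective i) (hp : Surjective p)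
  (hex : ∀ x, p x = 0 → ∃ y, i y = x) (hpi : ∀ y, p (i y) = 0) (π : O)
  (htf : ∀ x : Λ'', π • x = 0 → x = 0)

include hi hex hpi htf in
theorem qmap_injective : Injective (qmap i π) := by
  rw [← LinearMap.ker_eq_bot, LinearMap.ker_eq_bot']
  intro x hx
  obtain ⟨y, rfl⟩ := Submodule.Quotient.mk_surjective _ x
  rw [qmap_mk, Submodule.Quotient.mk_eq_zero] at hx
  obtain ⟨z, hz⟩ := mem_piSub.mp hx
  have h1 : p z = 0 := by
    apply htf
    rw [← p.map_smul_of_tower, hz]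
    exact hpi y
  obtain ⟨y', rfl⟩ := hex z h1
  rw [Submodule.Quotient.mk_eq_zero]
  refine mem_piSub.mpr ⟨y', hi ?_⟩
  rw [i.map_smul_of_tower, hz]

include hp in
theorem qmap_surjective : Surjective (qmap p π) := by
  intro x
  obtain ⟨x, rfl⟩ := Submodule.Quotient.mk_surjective _ x
  obtain ⟨y, rfl⟩ := hp x
  exact ⟨Submodule.Quotient.mk y, rfl⟩

include hp hex in
theorem qmap_exact (x : Λ ⧸ piSub 𝔸 Λ π) (hx : qmap p π x = 0) : ∃ y, qmap i π y = x := by
  obtain ⟨x, rfl⟩ := Submodule.Quotient.mk_surjective _ x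
  rw [qmap_mk, Submodule.Quotient.mk_eq_zero] at hx
  obtain ⟨z, hz⟩ := mem_piSub.mp hx
  obtain ⟨z, rfl⟩ := hp z
  have h1 : p (x - π • z) = 0 := by
    rw [map_sub, p.map_smul_of_tower, hz, sub_self]
  obtain ⟨y, hy⟩ := hex _ h1
  refine ⟨Submodule.Quotient.mk y, ?_⟩
  rw [qmap_mk, hy, Submodule.Quotient.eq]
  refine mem_piSub.mpr ⟨-z, ?_⟩
  rw [smul_neg]
  abel

include hi hp hex hpi htf in
/-- Kernel counts are submultiplicative in short exact sequences with `π`-torsion-free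
quotient. -/
theorem kc_le_mul [Finite (Λ ⧸ piSub 𝔸 Λ π)] (U : Set 𝔸) :
    kc Λ U π ≤ kc Λ' U π * kc Λ'' U π := by
  have : Finite (Λ'' ⧸ piSub 𝔸 Λ'' π) := Finite.of_surjective _ (qmap_surjective p hp π)
  exact card_uKer_le_mul (qmap i π) (qmap p π) (qmap_injective i p hi hex hpi π htf)
    (qmap_exact i p hp hex π) U

include hi hp hex hpi htf in
/-- `|Λ'/π| * |Λ''/π| ≤ |Λ/π|`. -/
theorem qc_mul_le [Finite (Λ ⧸ piSub 𝔸 Λ π)] : qc 𝔸 Λ' π * qc 𝔸 Λ'' π ≤ qc 𝔸 Λ π := by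
  unfold qc
  have h1 := card_eq_card_ker_mul_card_range (qmap p π).toAddMonoidHom
  have h2 : Nat.card (qmap p π).toAddMonoidHom.range = Nat.card (Λ'' ⧸ piSub 𝔸 Λ'' π) := by
    have : (qmap p π).toAddMonoidHom.range = ⊤ := by
      rw [AddMonoidHom.range_eq_top]
      exact qmap_surjective p hp π
    rw [this]
    exact Nat.card_congr (AddSubgroup.topEquiv).toEquiv
  have h3 : Nat.card (Λ' ⧸ piSub 𝔸 Λ' π) ≤ Nat.card (qmap p π).toAddMonoidHom.ker := by
    refine Nat.card_le_card_of_injective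
      (fun y => ⟨qmap i π y, ?_⟩) ?_
    · obtain ⟨y, rfl⟩ := Submodule.Quotient.mk_surjective _ y
      rw [AddMonoidHom.mem_ker]
      change qmap p π (qmap i π (Submodule.Quotient.mk y)) = 0
      rw [qmap_mk, qmap_mk, hpi, Submodule.Quotient.mk_zero]
    · intro y y' h
      exact qmap_injective i p hi hex hpi π htf (Subtype.ext_iff.mp h)
  rw [h1, h2]
  exact Nat.mul_le_mul_right _ h3

end Exact

end Quot

/-! ### Part 3: the half bound and its stability under extensions -/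

section Half

variable {O : Type*} [CommRing O] {𝔸 : Type*} [Ring 𝔸] [Algebra O 𝔸]

/-- `HalfBound ϖ U Λ`: the number of elements of `Λ / ϖ^k Λ` killed by all `u ∈ U` is at most a
constant times the square root of `|Λ / ϖ^k Λ|`, uniformly in `k`. -/
def HalfBound (ϖ : O) (U : Set 𝔸) (Λ : Type*) [AddCommGroup Λ] [Module O Λ] [Module 𝔸 Λ]
    [IsScalarTower O 𝔸 Λ] : Prop :=
  ∃ C : ℕ, ∀ k : ℕ, kc Λ U (ϖ ^ k) ^ 2 ≤ C * qc 𝔸 Λ (ϖ ^ k)

variable {Λ' Λ Λ'' : Type*} [AddCommGroup Λ'] [AddCommGroup Λ] [AddCommGroup Λ'']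
  [Module O Λ'] [Module O Λ] [Module O Λ''] [Module 𝔸 Λ'] [Module 𝔸 Λ] [Module 𝔸 Λ'']
  [IsScalarTower O 𝔸 Λ'] [IsScalarTower O 𝔸 Λ] [IsScalarTower O 𝔸 Λ'']

lemma kc_le_qc (U : Set 𝔸) (π : O) [Finite (Λ ⧸ piSub 𝔸 Λ π)] : kc Λ U π ≤ qc 𝔸 Λ π :=
  Nat.card_le_card_of_injective Subtype.val Subtype.val_injective

lemma kc_pos (U : Set 𝔸) (π : O) [Finite (Λ ⧸ piSub 𝔸 Λ π)] : 0 < kc Λ U π :=
  Nat.card_pos

/-- The kernel count is antitone in the family. -/
lemma kc_anti {U U' : Set 𝔸} (h : U ⊆ U') (π : O) [Finite (Λ ⧸ piSub 𝔸 Λ π)] :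
    kc Λ U' π ≤ kc Λ U π :=
  Nat.card_le_card_of_injective
    (fun x : uKer U' (Λ ⧸ piSub 𝔸 Λ π) =>
      (⟨x.1, fun u hu => x.2 u (h hu)⟩ : uKer U (Λ ⧸ piSub 𝔸 Λ π)))
    (fun a b hxy => Subtype.ext (by
      have h1 := congrArg Subtype.val hxy
      exact h1))

/-- The half bound passes to larger families. -/
theorem HalfBound.mono {U U' : Set 𝔸} (h : U ⊆ U') {ϖ : O}
    (hfin : ∀ k : ℕ, Finite (Λ ⧸ piSub 𝔸 Λ (ϖ ^ k))) (hb : HalfBound ϖ U Λ) :
    HalfBound ϖ U' Λ := by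
  obtain ⟨C, hC⟩ := hb
  refine ⟨C, fun k => ?_⟩
  have := hfin k
  exact (Nat.pow_le_pow_left (kc_anti h (ϖ ^ k)) 2).trans (hC k)

theorem HalfBound.of_subsingleton [Subsingleton Λ] (ϖ : O) (U : Set 𝔸) : HalfBound ϖ U Λ := by
  refine ⟨1, fun k => ?_⟩
  have h0 : Subsingleton (Λ ⧸ piSub 𝔸 Λ (ϖ ^ k)) :=
    (Submodule.Quotient.mk_surjective _).subsingleton
  have h1 : qc 𝔸 Λ (ϖ ^ k) = 1 := Nat.card_eq_one_iff_unique.mpr ⟨h0, ⟨0⟩⟩
  have h2 := kc_le_qc (Λ := Λ) U (ϖ ^ k)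
  rw [h1] at h2 ⊢
  have h3 := kc_pos (Λ := Λ) U (ϖ ^ k)
  have h4 : kc Λ U (ϖ ^ k) = 1 := le_antisymm h2 h3
  rw [h4]
  norm_num

/-- The half bound passes to extensions with torsion-free quotient. -/
theorem HalfBound.of_exact (i : Λ' →ₗ[𝔸] Λ) (p : Λ →ₗ[𝔸] Λ'') (hi : Injective i)
    (hp : Surjective p) (hex : ∀ x, p x = 0 → ∃ y, i y = x) (hpi : ∀ y, p (i y) = 0) {ϖ : O}
    (htf : ∀ (k : ℕ) (x : Λ''), ϖ ^ k • x = 0 → x = 0)
    (hfin : ∀ k : ℕ, Finite (Λ ⧸ piSub 𝔸 Λ (ϖ ^ k))) {U : Set 𝔸} (h' : HalfBound ϖ U Λ')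
    (h'' : HalfBound ϖ U Λ'') : HalfBound ϖ U Λ := by
  obtain ⟨C', hC'⟩ := h'
  obtain ⟨C'', hC''⟩ := h''
  refine ⟨C' * C'', fun k => ?_⟩
  have := hfin k
  have h1 := kc_le_mul i p hi hp hex hpi (ϖ ^ k) (htf k) U
  have h2 := qc_mul_le i p hi hp hex hpi (ϖ ^ k) (htf k)
  calc kc Λ U (ϖ ^ k) ^ 2 ≤ (kc Λ' U (ϖ ^ k) * kc Λ'' U (ϖ ^ k)) ^ 2 :=
        Nat.pow_le_pow_left h1 2
    _ = kc Λ' U (ϖ ^ k) ^ 2 * kc Λ'' U (ϖ ^ k) ^ 2 := mul_pow _ _ _
    _ ≤ (C' * qc 𝔸 Λ' (ϖ ^ k)) * (C'' * qc 𝔸 Λ'' (ϖ ^ k)) := Nat.mul_le_mul (hC' k) (hC'' k)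
    _ = C' * C'' * (qc 𝔸 Λ' (ϖ ^ k) * qc 𝔸 Λ'' (ϖ ^ k)) := by ring
    _ ≤ C' * C'' * qc 𝔸 Λ (ϖ ^ k) := Nat.mul_le_mul_left _ h2

end Half

/-! ### Part 4: lattices of rank at most two -/

section RankTwo

variable {O : Type*} [CommRing O] {𝔸 : Type*} [Ring 𝔸] [Algebra O 𝔸]

/-- A module generated by `n` elements has reduction modulo `π` of order at most `|O/π|^n`. -/
theorem qc_le_pow {Λ : Type*} [AddCommGroup Λ] [Module O Λ] [Module 𝔸 Λ] [IsScalarTower O 𝔸 Λ]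
    (n : ℕ) (f : (Fin n → O) →ₗ[O] Λ) (hf : Surjective f) (π : O)
    [Finite (O ⧸ Ideal.span {π})] :
    qc 𝔸 Λ π ≤ Nat.card (O ⧸ Ideal.span {π}) ^ n := by
  let F : (Fin n → O ⧸ Ideal.span {π}) → Λ ⧸ piSub 𝔸 Λ π := fun c =>
    Submodule.Quotient.mk (f fun t => Quotient.out (c t))
  have hF : Surjective F := by
    intro x
    obtain ⟨x, rfl⟩ := Submodule.Quotient.mk_surjective _ x
    obtain ⟨a, rfl⟩ := hf x
    refine ⟨fun t => Ideal.Quotient.mk _ (a t), ?_⟩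
    rw [Submodule.Quotient.eq]
    have h : ∀ t, ∃ b : O,
        Quotient.out (Ideal.Quotient.mk (Ideal.span {π}) (a t)) - a t = π * b := by
      intro t
      have h1 : Ideal.Quotient.mk (Ideal.span {π})
          (Quotient.out (Ideal.Quotient.mk (Ideal.span {π}) (a t))) =
          Ideal.Quotient.mk (Ideal.span {π}) (a t) := Quotient.out_eq _
      rw [Ideal.Quotient.eq, Ideal.mem_span_singleton'] at h1
      obtain ⟨b, hb⟩ := h1
      exact ⟨b, by rw [← hb, mul_comm]⟩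
    choose b hb using h
    refine mem_piSub.mpr ⟨f b, ?_⟩
    rw [← map_smul, ← map_sub]
    congr 1
    funext t
    simp only [Pi.smul_apply, Pi.sub_apply, smul_eq_mul]
    exact (hb t).symm
  have h1 := Nat.card_le_card_of_surjective F hF
  have h2 : Nat.card (Fin n → O ⧸ Ideal.span {π}) = Nat.card (O ⧸ Ideal.span {π}) ^ n := by
    rw [Nat.card_fun, Nat.card_fin]
  rw [h2] at h1
  exact h1

/-- The additive map `a ↦ α a mod π`. -/
def mulMod (α π : O) : O →+ O ⧸ Ideal.span {π} :=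
  (Ideal.Quotient.mk (Ideal.span {π})).toAddMonoidHom.comp (AddMonoidHom.mulLeft α)

lemma mulMod_apply (α π a : O) : mulMod α π a = Ideal.Quotient.mk (Ideal.span {π}) (α * a) := rfl

/-- `|O/π| ≤ |O/α| * |image of α O in O/π|`. -/
theorem card_quot_le_mul (α π : O) [Finite (O ⧸ Ideal.span {α})] [Finite (O ⧸ Ideal.span {π})] :
    Nat.card (O ⧸ Ideal.span {π}) ≤
      Nat.card (O ⧸ Ideal.span {α}) * Nat.card (mulMod α π).range := by
  rw [AddSubgroup.card_eq_card_quotient_mul_card_addSubgroup (mulMod α π).range]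
  refine Nat.mul_le_mul_right _ ?_
  let F : (O ⧸ Ideal.span {α}) → (O ⧸ Ideal.span {π}) ⧸ (mulMod α π).range := fun c =>
    QuotientAddGroup.mk (Ideal.Quotient.mk _ (Quotient.out c))
  refine Nat.card_le_card_of_surjective F ?_
  intro x
  obtain ⟨x, rfl⟩ := QuotientAddGroup.mk_surjective x
  obtain ⟨a, rfl⟩ := Ideal.Quotient.mk_surjective x
  refine ⟨Ideal.Quotient.mk _ a, ?_⟩
  have h1 : Ideal.Quotient.mk (Ideal.span {α})
      (Quotient.out (Ideal.Quotient.mk (Ideal.span {α}) a)) =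
      Ideal.Quotient.mk (Ideal.span {α}) a := Quotient.out_eq _
  rw [Ideal.Quotient.eq, Ideal.mem_span_singleton'] at h1
  obtain ⟨b, hb⟩ := h1
  change QuotientAddGroup.mk _ = QuotientAddGroup.mk _
  rw [QuotientAddGroup.eq]
  refine ⟨-b, ?_⟩
  rw [mulMod_apply, ← map_neg, ← map_add]
  congr 1
  rw [mul_comm] at hb
  linear_combination (-1 : O) * hb

variable [IsDomain O] [IsPrincipalIdealRing O]

/-- **Rank-two count.** A finitely generated module `Γ` which embeds `O`-linearly into a free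
module of rank `≤ 2`, and on which some `u ∈ U` does not vanish, satisfies the half bound. -/
theorem halfBound_of_rank_le_two {ϖ : O} (hϖ : ϖ ≠ 0)
    (hO : ∀ a : O, a ≠ 0 → Finite (O ⧸ Ideal.span {a}))
    {R : Type*} [AddCommGroup R] [Module O R] [Module.Free O R] [Module.Finite O R]
    (hR : Module.finrank O R ≤ 2)
    {Γ : Type*} [AddCommGroup Γ] [Module O Γ] [Module 𝔸 Γ] [IsScalarTower O 𝔸 Γ]
    [Module.Finite O Γ] (j : Γ →ₗ[O] R) (hj : Injective j) (U : Set 𝔸) (u : 𝔸) (hu : u ∈ U)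
    (x0 : Γ) (hx0 : u • x0 ≠ 0) : HalfBound ϖ U Γ := by
  classical
  -- the functional detecting `y0 = u x0`
  set y0 : Γ := u • x0 with hy0
  have hjy : j y0 ≠ 0 := fun h => hx0 (hj (by rw [h, map_zero]))
  let bR := Module.Free.chooseBasis O R
  obtain ⟨t, ht⟩ : ∃ t, bR.repr (j y0) t ≠ 0 := by
    by_contra hcon
    simp only [not_exists, not_not] at hcon
    apply hjy
    apply bR.repr.injective
    ext t
    rw [hcon t, map_zero, Finsupp.zero_apply]
  let lam : Γ →ₗ[O] O := (bR.coord t).comp j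
  set α0 : O := lam y0 with hα0
  have hα0ne : α0 ≠ 0 := ht
  have := hO α0 hα0ne
  -- `Γ` is free of rank `≤ 2`
  have : Module.IsTorsionFree O Γ :=
    Function.Injective.moduleIsTorsionFree j hj (fun r m => j.map_smul r m)
  have hfree : Module.Free O Γ := inferInstance
  have hr : Module.finrank O Γ ≤ 2 :=
    (LinearMap.finrank_le_finrank_of_injective hj).trans hR
  let bΓ := Module.finBasis O Γ
  refine ⟨Nat.card (O ⧸ Ideal.span {α0}) ^ 2, fun k => ?_⟩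
  have hπ : ϖ ^ k ≠ 0 := pow_ne_zero k hϖ
  have := hO _ hπ
  have hfinX : Finite (Γ ⧸ piSub 𝔸 Γ (ϖ ^ k)) := finite_quot (ϖ ^ k)
  set Q := Nat.card (O ⧸ Ideal.span {ϖ ^ k}) with hQ
  have hQpos : 0 < Q := Nat.card_pos
  -- (i) `|X| ≤ Q ^ 2`
  have hT : qc 𝔸 Γ (ϖ ^ k) ≤ Q ^ 2 := by
    have h1 := qc_le_pow (𝔸 := 𝔸) (Module.finrank O Γ) bΓ.equivFun.symm.toLinearMap
      bΓ.equivFun.symm.surjective (ϖ ^ k)
    exact h1.trans (Nat.pow_le_pow_right hQpos hr)
  -- the multiplication by `u` on `X`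
  let Um : (Γ ⧸ piSub 𝔸 Γ (ϖ ^ k)) →+ (Γ ⧸ piSub 𝔸 Γ (ϖ ^ k)) :=
    DistribSMul.toAddMonoidHom _ u
  have hKI : qc 𝔸 Γ (ϖ ^ k) = Nat.card Um.ker * Nat.card Um.range :=
    card_eq_card_ker_mul_card_range Um
  have hKK : kc Γ U (ϖ ^ k) ≤ Nat.card Um.ker :=
    AddSubgroup.card_le_of_le (uKer_le_ker hu _)
  -- (ii) `Q ≤ C0 * |range U|`
  let ψ : O →+ (Γ ⧸ piSub 𝔸 Γ (ϖ ^ k)) :=
    (Submodule.mkQ (piSub 𝔸 Γ (ϖ ^ k))).toAddMonoidHom.comp ((smulAddHom O Γ).flip y0)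
  have hψ : ∀ a : O, ψ a = Submodule.Quotient.mk (a • y0) := fun a => rfl
  have hψU : ψ.range ≤ Um.range := by
    rintro _ ⟨a, rfl⟩
    refine ⟨Submodule.Quotient.mk (a • x0), ?_⟩
    change u • (Submodule.Quotient.mk (a • x0) : Γ ⧸ piSub 𝔸 Γ (ϖ ^ k)) = ψ a
    rw [hψ, ← Submodule.Quotient.mk_smul, hy0, smul_comm]
  have hker : ψ.ker ≤ (mulMod α0 (ϖ ^ k)).ker := by
    intro a ha
    rw [AddMonoidHom.mem_ker, hψ, Submodule.Quotient.mk_eq_zero] at ha
    obtain ⟨z, hz⟩ := mem_piSub.mp ha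
    rw [AddMonoidHom.mem_ker, mulMod_apply, Ideal.Quotient.eq_zero_iff_mem,
      Ideal.mem_span_singleton']
    refine ⟨lam z, ?_⟩
    have h1 : lam (ϖ ^ k • z) = lam (a • y0) := by rw [hz]
    rw [map_smul, map_smul, smul_eq_mul, smul_eq_mul] at h1
    rw [mul_comm, h1, mul_comm]
  have hcard1 : Nat.card (mulMod α0 (ϖ ^ k)).range ≤ Nat.card ψ.range := by
    have h1 : Nat.card (mulMod α0 (ϖ ^ k)).range = (mulMod α0 (ϖ ^ k)).ker.index := by
      rw [AddSubgroup.index_eq_card]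
      exact (Nat.card_congr
        (QuotientAddGroup.quotientKerEquivRange (mulMod α0 (ϖ ^ k))).toEquiv).symm
    have h2 : Nat.card ψ.range = ψ.ker.index := by
      rw [AddSubgroup.index_eq_card]
      exact (Nat.card_congr (QuotientAddGroup.quotientKerEquivRange ψ).toEquiv).symm
    have h3 : 0 < Nat.card ψ.range := Nat.card_pos
    rw [h1, h2] at *
    exact Nat.le_of_dvd h3 (AddSubgroup.index_dvd_of_le hker)
  have hcard2 : Nat.card ψ.range ≤ Nat.card Um.range := AddSubgroup.card_le_of_le hψU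
  have hQle : Q ≤ Nat.card (O ⧸ Ideal.span {α0}) * Nat.card Um.range :=
    (card_quot_le_mul α0 (ϖ ^ k)).trans
      (Nat.mul_le_mul_left _ (hcard1.trans hcard2))
  -- conclusion
  have hIpos : 0 < Nat.card Um.range := Nat.card_pos
  set K := kc Γ U (ϖ ^ k) with hK
  set K1 := Nat.card Um.ker with hK1
  set I := Nat.card Um.range with hI
  set C0 := Nat.card (O ⧸ Ideal.span {α0}) with hC0
  set T := qc 𝔸 Γ (ϖ ^ k) with hTdef
  have h5 : K ^ 2 * I ^ 2 ≤ C0 ^ 2 * T * I ^ 2 := by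
    calc K ^ 2 * I ^ 2 ≤ K1 ^ 2 * I ^ 2 := Nat.mul_le_mul_right _ (Nat.pow_le_pow_left hKK 2)
      _ = T * T := by rw [hKI]; ring
      _ ≤ T * Q ^ 2 := Nat.mul_le_mul_left _ hT
      _ ≤ T * (C0 * I) ^ 2 := Nat.mul_le_mul_left _ (Nat.pow_le_pow_left hQle 2)
      _ = C0 ^ 2 * T * I ^ 2 := by ring
  exact Nat.le_of_mul_le_mul_right h5 (pow_pos hIpos 2)

end RankTwo

/-! ### Part 5: lattices embedded in a power of `R` -/

section Embedding

universe v

variable {O : Type*} [CommRing O] [IsDomain O] [IsPrincipalIdealRing O] {𝔸 : Type*} [Ring 𝔸]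
  [Algebra O 𝔸] {R : Type*} [AddCommGroup R] [Module O R] [Module 𝔸 R] [IsScalarTower O 𝔸 R]
  [Module.Free O R] [Module.Finite O R]

/-- A submodule of a finitely generated module over the principal ideal domain `O` is finitely
generated over `O`. -/
lemma finite_submodule {Γ : Type*} [AddCommGroup Γ] [Module O Γ] [Module 𝔸 Γ]
    [IsScalarTower O 𝔸 Γ] [Module.Finite O Γ] (S : Submodule 𝔸 Γ) : Module.Finite O ↥S := by
  have : IsNoetherian O Γ := inferInstance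
  have h : Module.Finite O ↥(S.restrictScalars O) := inferInstance
  exact h

omit [IsDomain O] [IsPrincipalIdealRing O] in
lemma finite_quotient {Γ : Type*} [AddCommGroup Γ] [Module O Γ] [Module 𝔸 Γ]
    [IsScalarTower O 𝔸 Γ] [Module.Finite O Γ] (S : Submodule 𝔸 Γ) : Module.Finite O (Γ ⧸ S) :=
  Module.Finite.of_surjective (S.mkQ.restrictScalars O) (Submodule.mkQ_surjective S)

/-- **Lattices in `Rⁿ`.** If `R` is free of rank `≤ 2` over `O` and no nonzero `𝔸`-submodule of `R`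
is killed by all of `U`, then every finitely generated `𝔸`-module which embeds into a finite power
of `R` satisfies the half bound. -/
theorem halfBound_of_embedding {ϖ : O} (hϖ : ϖ ≠ 0)
    (hO : ∀ a : O, a ≠ 0 → Finite (O ⧸ Ideal.span {a})) (hR : Module.finrank O R ≤ 2)
    (U : Set 𝔸) (hu : ∀ S : Submodule 𝔸 R, S ≠ ⊥ → ∃ u ∈ U, ∃ x ∈ S, u • x ≠ 0) :
    ∀ (n : ℕ) (Γ : Type v) [AddCommGroup Γ] [Module O Γ] [Module 𝔸 Γ] [IsScalarTower O 𝔸 Γ]
      [Module.Finite O Γ] (j : Γ →ₗ[𝔸] (Fin n → R)), Injective j → HalfBound ϖ U Γ := by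
  intro n
  induction n with
  | zero =>
    intro Γ _ _ _ _ _ j hj
    have : Subsingleton Γ := hj.subsingleton
    exact HalfBound.of_subsingleton ϖ U
  | succ n ih =>
    intro Γ _ _ _ _ _ j hj
    let f0 : Γ →ₗ[𝔸] R := (LinearMap.proj 0).comp j
    let Γ' : Submodule 𝔸 Γ := LinearMap.ker f0
    have hfin' : Module.Finite O ↥Γ' := finite_submodule Γ'
    have hfin'' : Module.Finite O (Γ ⧸ Γ') := finite_quotient Γ'
    -- the sub
    let j' : ↥Γ' →ₗ[𝔸] (Fin n → R) := ((LinearMap.funLeft 𝔸 R Fin.succ).comp j).comp Γ'.subtype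
    have hj' : Injective j' := by
      rw [← LinearMap.ker_eq_bot, LinearMap.ker_eq_bot']
      intro x hx
      have h0 : j x.1 0 = 0 := x.2
      have hs : ∀ t : Fin n, j x.1 t.succ = 0 := fun t => congrFun hx t
      have : j x.1 = 0 := by
        funext t
        refine Fin.cases ?_ ?_ t
        · exact h0
        · exact hs
      exact Subtype.ext (hj (by rw [this]; exact (map_zero j).symm))
    have h' : HalfBound ϖ U ↥Γ' := ih ↥Γ' j' hj'
    -- the quotient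
    let j'' : (Γ ⧸ Γ') →ₗ[𝔸] R := Γ'.liftQ f0 le_rfl
    have hj'' : Injective j'' := by
      rw [← LinearMap.ker_eq_bot]
      exact Submodule.ker_liftQ_eq_bot _ _ _ le_rfl
    have htf : ∀ (k : ℕ) (x : Γ ⧸ Γ'), ϖ ^ k • x = 0 → x = 0 := by
      intro k x hx
      apply hj''
      have h1 : ϖ ^ k • j'' x = 0 := by rw [← j''.map_smul_of_tower, hx, map_zero]
      rw [map_zero]
      exact (smul_eq_zero_iff_right (pow_ne_zero k hϖ)).mp h1
    have h'' : HalfBound ϖ U (Γ ⧸ Γ') := by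
      by_cases hex : ∃ u ∈ U, ∃ x0 : Γ ⧸ Γ', u • x0 ≠ 0
      · obtain ⟨u, huU, x0, hx0⟩ := hex
        exact halfBound_of_rank_le_two hϖ hO hR (j''.restrictScalars O) hj'' U u huU x0 hx0
      · have hex' : ∀ u ∈ U, ∀ x0 : Γ ⧸ Γ', u • x0 = 0 := by
          intro u huU x0
          by_contra hne
          exact hex ⟨u, huU, x0, hne⟩
        have hbot : LinearMap.range j'' = ⊥ := by
          by_contra hne
          obtain ⟨u, huU, x, ⟨y, rfl⟩, hx⟩ := hu _ hne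
          apply hx
          rw [← map_smul, hex' u huU y, map_zero]
        have : Subsingleton (Γ ⧸ Γ') := by
          refine ⟨fun a b => hj'' ?_⟩
          have ha : j'' a ∈ LinearMap.range j'' := ⟨a, rfl⟩
          have hb : j'' b ∈ LinearMap.range j'' := ⟨b, rfl⟩
          rw [hbot, Submodule.mem_bot] at ha hb
          rw [ha, hb]
        exact HalfBound.of_subsingleton ϖ U
    have hfinq : ∀ k : ℕ, Finite (Γ ⧸ piSub 𝔸 Γ (ϖ ^ k)) := fun k => by
      have := hO _ (pow_ne_zero k hϖ)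
      exact finite_quot (ϖ ^ k)
    refine HalfBound.of_exact Γ'.subtype Γ'.mkQ Subtype.val_injective
      (Submodule.mkQ_surjective Γ') ?_ ?_ htf hfinq h' h''
    · intro x hx
      exact ⟨⟨x, (Submodule.Quotient.mk_eq_zero Γ').mp hx⟩, rfl⟩
    · intro y
      exact (Submodule.Quotient.mk_eq_zero Γ').mpr y.2

end Embedding

/-! ### Part 6: jointly nilpotent families -/

section Chain

universe v

variable {𝔸 : Type*} [Ring 𝔸]

section KcDefs

variable {Λ : Type*} [AddCommGroup Λ] [Module 𝔸 Λ] {τ : Type*}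

/-- The ascending chain `K 0 = 0`, `K (i+1) = {x | ∀ t, Θ t x ∈ K i}`. -/
def Kc (Θ : τ → Λ →ₗ[𝔸] Λ) : ℕ → Submodule 𝔸 Λ
  | 0 => ⊥
  | (i + 1) => ⨅ t, (Kc Θ i).comap (Θ t)

lemma Kc_zero (Θ : τ → Λ →ₗ[𝔸] Λ) : Kc Θ 0 = ⊥ := rfl

lemma mem_Kc_succ {Θ : τ → Λ →ₗ[𝔸] Λ} {i : ℕ} {x : Λ} :
    x ∈ Kc Θ (i + 1) ↔ ∀ t, Θ t x ∈ Kc Θ i := by
  change x ∈ ⨅ t, (Kc Θ i).comap (Θ t) ↔ _
  simp only [Submodule.mem_iInf, Submodule.mem_comap]

lemma mem_Kc_one {Θ : τ → Λ →ₗ[𝔸] Λ} {x : Λ} : x ∈ Kc Θ 1 ↔ ∀ t, Θ t x = 0 := by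
  rw [mem_Kc_succ]
  simp only [Kc_zero, Submodule.mem_bot]

/-- The operators induced on `Λ / K 1`. -/
def thetaQ (Θ : τ → Λ →ₗ[𝔸] Λ) (t : τ) : (Λ ⧸ Kc Θ 1) →ₗ[𝔸] (Λ ⧸ Kc Θ 1) :=
  (Kc Θ 1).mapQ (Kc Θ 1) (Θ t) (by
    intro x hx
    rw [Submodule.mem_comap, mem_Kc_one.mp hx t]
    exact Submodule.zero_mem _)

@[simp] lemma thetaQ_mk (Θ : τ → Λ →ₗ[𝔸] Λ) (t : τ) (x : Λ) :
    thetaQ Θ t (Submodule.Quotient.mk x) = Submodule.Quotient.mk (Θ t x) := rfl

lemma comap_mkQ_Kc (Θ : τ → Λ →ₗ[𝔸] Λ) (i : ℕ) :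
    (Kc (thetaQ Θ) i).comap (Kc Θ 1).mkQ = Kc Θ (i + 1) := by
  induction i with
  | zero =>
    rw [Kc_zero, Submodule.comap_bot, Submodule.ker_mkQ]
  | succ i ih =>
    ext x
    rw [Submodule.mem_comap, mem_Kc_succ, mem_Kc_succ]
    refine forall_congr' fun t => ?_
    rw [Submodule.mkQ_apply, thetaQ_mk, ← ih, Submodule.mem_comap, Submodule.mkQ_apply]

/-- `Θ t` as a map from `Λ / K 1` to `Λ`. -/
def thetaL (Θ : τ → Λ →ₗ[𝔸] Λ) (t : τ) : (Λ ⧸ Kc Θ 1) →ₗ[𝔸] Λ :=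
  (Kc Θ 1).liftQ (Θ t) (by
    intro x hx
    rw [LinearMap.mem_ker]
    exact mem_Kc_one.mp hx t)

@[simp] lemma thetaL_mk (Θ : τ → Λ →ₗ[𝔸] Λ) (t : τ) (x : Λ) :
    thetaL Θ t (Submodule.Quotient.mk x) = Θ t x := rfl

lemma thetaL_mem (Θ : τ → Λ →ₗ[𝔸] Λ) (t : τ) (y : Λ ⧸ Kc Θ 1) (hy : y ∈ Kc (thetaQ Θ) 1) :
    thetaL Θ t y ∈ Kc Θ 1 := by
  obtain ⟨x, rfl⟩ := Submodule.Quotient.mk_surjective _ y
  have h := mem_Kc_one.mp hy t
  rw [thetaQ_mk, Submodule.Quotient.mk_eq_zero] at h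
  exact h

end KcDefs

variable {O : Type*} [CommRing O] [IsDomain O] [IsPrincipalIdealRing O] [Algebra O 𝔸]
  {R : Type*} [AddCommGroup R] [Module O R] [Module 𝔸 R] [IsScalarTower O 𝔸 R]
  [Module.Free O R] [Module.Finite O R]

/-- `halfBound_of_embedding` for an arbitrary finite index type. -/
theorem halfBound_of_embedding' {ϖ : O} (hϖ : ϖ ≠ 0)
    (hO : ∀ a : O, a ≠ 0 → Finite (O ⧸ Ideal.span {a})) (hR : Module.finrank O R ≤ 2)
    (U : Set 𝔸) (hu : ∀ S : Submodule 𝔸 R, S ≠ ⊥ → ∃ u ∈ U, ∃ x ∈ S, u • x ≠ 0)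
    (Γ : Type v) [AddCommGroup Γ] [Module O Γ] [Module 𝔸 Γ] [IsScalarTower O 𝔸 Γ]
    [Module.Finite O Γ] (ι : Type*) [Finite ι] (j : Γ →ₗ[𝔸] (ι → R)) (hj : Injective j) :
    HalfBound ϖ U Γ := by
  obtain ⟨n, ⟨e⟩⟩ := Finite.exists_equiv_fin ι
  let E : (ι → R) ≃ₗ[𝔸] (Fin n → R) := LinearEquiv.funCongrLeft 𝔸 R e.symm
  exact halfBound_of_embedding hϖ hO hR U hu n Γ (E.toLinearMap.comp j)
    (E.injective.comp hj)

/-- **Main count.** `Λ` a finitely generated torsion-free `O`-module with `𝔸`-action, `Θ` a family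
of `𝔸`-endomorphisms which is jointly nilpotent (`Kc Θ m = ⊤`), whose common kernel embeds in a
finite power of `R`; `R` free of rank `≤ 2` over `O`, no nonzero `𝔸`-submodule of `R` killed by
all of `U`.  Then `|ker (U | Λ / ϖ^k)|² ≤ C |Λ / ϖ^k|` for all `k`. -/
theorem halfBound_of_chain {ϖ : O} (hϖ : ϖ ≠ 0)
    (hO : ∀ a : O, a ≠ 0 → Finite (O ⧸ Ideal.span {a})) (hR : Module.finrank O R ≤ 2)
    (U : Set 𝔸) (hu : ∀ S : Submodule 𝔸 R, S ≠ ⊥ → ∃ u ∈ U, ∃ x ∈ S, u • x ≠ 0) {τ : Type}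
    [Finite τ] :
    ∀ (m : ℕ) (Λ : Type v) [AddCommGroup Λ] [Module O Λ] [Module 𝔸 Λ] [IsScalarTower O 𝔸 Λ]
      [Module.Finite O Λ] [Module.IsTorsionFree O Λ] (Θ : τ → Λ →ₗ[𝔸] Λ), Kc Θ m = ⊤ →
      ∀ (ι : Type) [Finite ι] (j : ↥(Kc Θ 1) →ₗ[𝔸] (ι → R)), Injective j →
      HalfBound ϖ U Λ := by
  intro m
  induction m with
  | zero =>
    intro Λ _ _ _ _ _ _ Θ hm ι _ j hj
    rw [Kc_zero] at hm
    have : Subsingleton Λ := (Submodule.subsingleton_iff 𝔸).mp (subsingleton_of_bot_eq_top hm)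
    exact HalfBound.of_subsingleton ϖ U
  | succ m ih =>
    intro Λ _ _ _ _ _ _ Θ hm ι _ j hj
    have hfin1 : Module.Finite O ↥(Kc Θ 1) := finite_submodule _
    have hfinq : Module.Finite O (Λ ⧸ Kc Θ 1) := finite_quotient _
    -- the quotient is torsion-free
    have htfq : ∀ (a : O), a ≠ 0 → ∀ x : Λ ⧸ Kc Θ 1, a • x = 0 → x = 0 := by
      intro a ha x hx
      obtain ⟨x, rfl⟩ := Submodule.Quotient.mk_surjective _ x
      rw [← Submodule.Quotient.mk_smul, Submodule.Quotient.mk_eq_zero] at hx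
      rw [Submodule.Quotient.mk_eq_zero, mem_Kc_one]
      intro t
      have h1 := mem_Kc_one.mp hx t
      rw [(Θ t).map_smul_of_tower] at h1
      exact (smul_eq_zero_iff_right ha).mp h1
    have : Module.IsTorsionFree O (Λ ⧸ Kc Θ 1) := by
      refine ⟨fun r hr x y hxy => ?_⟩
      have hr0 : r ≠ 0 := hr.ne_zero
      have h1 : r • (x - y) = 0 := by
        rw [smul_sub]
        exact sub_eq_zero.mpr hxy
      exact sub_eq_zero.mp (htfq r hr0 _ h1)
    -- the chain of the quotient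
    have hmq : Kc (thetaQ Θ) m = ⊤ := by
      rw [eq_top_iff]
      intro y _
      obtain ⟨x, rfl⟩ := Submodule.Quotient.mk_surjective _ y
      have h1 : x ∈ (Kc (thetaQ Θ) m).comap (Kc Θ 1).mkQ := by
        rw [comap_mkQ_Kc, hm]
        exact Submodule.mem_top
      exact h1
    -- the embedding for the quotient
    let jt : τ → ↥(Kc (thetaQ Θ) 1) →ₗ[𝔸] (ι → R) := fun t =>
      j.comp ((thetaL Θ t).restrict (fun y hy => thetaL_mem Θ t y hy))
    let jq : ↥(Kc (thetaQ Θ) 1) →ₗ[𝔸] (τ × ι → R) :=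
      (LinearEquiv.curry 𝔸 R τ ι).symm.toLinearMap.comp (LinearMap.pi jt)
    have hjq : Injective jq := by
      refine (LinearEquiv.curry 𝔸 R τ ι).symm.injective.comp ?_
      rw [← LinearMap.ker_eq_bot, LinearMap.ker_eq_bot']
      intro y hy
      have h1 : ∀ t, thetaL Θ t y.1 = 0 := by
        intro t
        have h2 : jt t y = 0 := congrFun hy t
        have h3 := hj (h2.trans (map_zero j).symm)
        exact congrArg Subtype.val h3
      obtain ⟨y, hy'⟩ := y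
      obtain ⟨x, rfl⟩ := Submodule.Quotient.mk_surjective _ y
      apply Subtype.ext
      change (Submodule.Quotient.mk x : Λ ⧸ Kc Θ 1) = 0
      rw [Submodule.Quotient.mk_eq_zero, mem_Kc_one]
      exact h1
    have h'' : HalfBound ϖ U (Λ ⧸ Kc Θ 1) := ih (Λ ⧸ Kc Θ 1) (thetaQ Θ) hmq (τ × ι) jq hjq
    have h' : HalfBound ϖ U ↥(Kc Θ 1) :=
      halfBound_of_embedding' hϖ hO hR U hu ↥(Kc Θ 1) ι j hj
    have hfinX : ∀ k : ℕ, Finite (Λ ⧸ piSub 𝔸 Λ (ϖ ^ k)) := fun k => by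
      have := hO _ (pow_ne_zero k hϖ)
      exact finite_quot (ϖ ^ k)
    refine HalfBound.of_exact (Kc Θ 1).subtype (Kc Θ 1).mkQ Subtype.val_injective
      (Submodule.mkQ_surjective _) ?_ ?_ (fun k => htfq _ (pow_ne_zero k hϖ)) hfinX h' h''
    · intro x hx
      exact ⟨⟨x, (Submodule.Quotient.mk_eq_zero _).mp hx⟩, rfl⟩
    · intro y
      exact (Submodule.Quotient.mk_eq_zero _).mpr y.2

end Chain

/-! ### Part 7: commuting nilpotent operators are jointly nilpotent -/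

section Words

variable {𝔸 : Type*} [Ring 𝔸] {Λ : Type*} [AddCommGroup Λ] [Module 𝔸 Λ] {τ : Type*}

/-- Apply the operators of a word, first letter first. -/
def wordProd (Θ : τ → Module.End 𝔸 Λ) : List τ → Module.End 𝔸 Λ
  | [] => 1
  | (t :: w) => wordProd Θ w * Θ t

lemma mem_Kc_of_words (Θ : τ → Module.End 𝔸 Λ) :
    ∀ (i : ℕ) (x : Λ), (∀ w : List τ, w.length = i → wordProd Θ w x = 0) → x ∈ Kc Θ i
  | 0, x, h => by
    have h1 := h [] rfl
    rw [Kc_zero, Submodule.mem_bot]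
    exact h1
  | (i + 1), x, h => by
    rw [mem_Kc_succ]
    intro t
    refine mem_Kc_of_words Θ i _ fun w hw => ?_
    have h1 := h (t :: w) (by rw [List.length_cons, hw])
    exact h1

lemma commute_wordProd {Θ : τ → Module.End 𝔸 Λ} (hcomm : ∀ s t, Commute (Θ s) (Θ t)) (t : τ) :
    ∀ w : List τ, Commute (Θ t) (wordProd Θ w)
  | [] => Commute.one_right _
  | (s :: w) => (commute_wordProd hcomm t w).mul_right (hcomm t s)

lemma wordProd_eq_pow_mul [DecidableEq τ] {Θ : τ → Module.End 𝔸 Λ}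
    (hcomm : ∀ s t, Commute (Θ s) (Θ t)) (t : τ) :
    ∀ w : List τ, ∃ rest : Module.End 𝔸 Λ,
      wordProd Θ w = Θ t ^ w.count t * rest ∧ Commute (Θ t) rest
  | [] => ⟨1, by simp [wordProd], Commute.one_right _⟩
  | (s :: w) => by
    obtain ⟨rest, h1, h2⟩ := wordProd_eq_pow_mul hcomm t w
    by_cases hst : s = t
    · subst hst
      refine ⟨rest, ?_, h2⟩
      rw [List.count_cons_self, pow_succ, mul_assoc, h2.eq]
      change wordProd Θ w * Θ s = _
      rw [h1, mul_assoc]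
    · refine ⟨rest * Θ s, ?_, h2.mul_right (hcomm t s)⟩
      rw [List.count_cons_of_ne hst]
      change wordProd Θ w * Θ s = _
      rw [h1, mul_assoc]

lemma exists_le_count [Fintype τ] [DecidableEq τ] (e : ℕ) (w : List τ)
    (h : Fintype.card τ * e < w.length) : ∃ t, e ≤ w.count t := by
  by_contra hcon
  simp only [not_exists, not_le] at hcon
  have h1 : ∑ a ∈ (w : Multiset τ).toFinset, (w : Multiset τ).count a = w.length := by
    rw [Multiset.toFinset_sum_count_eq, Multiset.coe_card]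
  have h2 : ∑ a ∈ (w : Multiset τ).toFinset, (w : Multiset τ).count a ≤
      ∑ _a ∈ (Finset.univ : Finset τ), e := by
    refine (Finset.sum_le_sum_of_subset (Finset.subset_univ _)).trans ?_
    refine Finset.sum_le_sum fun a _ => ?_
    rw [Multiset.coe_count]
    exact (hcon a).le
  rw [h1, Finset.sum_const, Finset.card_univ, smul_eq_mul] at h2
  omega

/-- A finite family of pairwise commuting nilpotent endomorphisms is jointly nilpotent. -/
theorem exists_Kc_eq_top [Finite τ] (Θ : τ → Module.End 𝔸 Λ)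
    (hcomm : ∀ s t, Commute (Θ s) (Θ t)) (hnil : ∀ t, IsNilpotent (Θ t)) :
    ∃ m, Kc Θ m = ⊤ := by
  classical
  have := Fintype.ofFinite τ
  choose n hn using hnil
  let e := ∑ t, n t
  have he : ∀ t, Θ t ^ e = 0 := fun t =>
    pow_eq_zero_of_le (Finset.single_le_sum (fun _ _ => Nat.zero_le _) (Finset.mem_univ t)) (hn t)
  refine ⟨Fintype.card τ * e + 1, ?_⟩
  rw [eq_top_iff]
  intro x _
  refine mem_Kc_of_words Θ _ x fun w hw => ?_
  obtain ⟨t, ht⟩ := exists_le_count e w (by omega)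
  obtain ⟨rest, h1, _⟩ := wordProd_eq_pow_mul hcomm t w
  rw [h1, pow_eq_zero_of_le ht (he t), zero_mul]
  rfl

end Words

end Fermat.Agent.S15.Struct.Count
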