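/-
PROJECT M (S15), block [S] (helper8): THE HALF BOUND FOR LATTICES WITH A SPLIT COMMUTING FAMILY OF
OPERATORS, by induction on the rank along common eigenlattices.  Mathlib + `Struct/Count` only.

Frame of `Struct/Count`: `O` a principal ideal domain, `𝔸` an `O`-algebra, `U : Set 𝔸`.
`Λ` a finitely generated torsion-free `O`-module with `𝔸`-action, `t : ι → Module.End 𝔸 Λ` a
pairwise commuting family (`ι` arbitrary) such that every `t i` is killed by a product of linear
factors `t i - a` (`a : O`).  `eigen t c` is the common eigenlattice for `c : ι → O`.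

`halfBound_of_eigen`: if every `eigen t c` embeds `𝔸`-linearly into a power of an `𝔸`-module `Rc c`,
free of rank `≤ 2` over `O`, none of whose nonzero `𝔸`-submodules is killed by all of `U`, then
`HalfBound ϖ U Λ`.
-/
import Fermat.Agent.S15.Struct.Count

set_option autoImplicit false
set_option linter.unusedSectionVars false

namespace Fermat.Agent.S15.Struct.Eigen

open Function Fermat.Agent.S15.Struct.Count

/-! ### Part 1: ranks of saturated submodules -/

section Rank

variable {O : Type*} [CommRing O] [IsDomain O] [IsPrincipalIdealRing O]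
  {M : Type*} [AddCommGroup M] [Module O M] [Module.Finite O M]

/-- A submodule of `B`, saturated in `B` and of rank at least the rank of `B`, contains `B`. -/
theorem le_of_finrank_le_of_saturated (A B : Submodule O M) (hAB : A ≤ B)
    (hsat : ∀ a : O, a ≠ 0 → ∀ x ∈ B, a • x ∈ A → x ∈ A)
    (hrank : Module.finrank O ↥B ≤ Module.finrank O ↥A) : B ≤ A := by
  have : IsNoetherian O M := inferInstance
  let A' : Submodule O ↥B := A.comap B.subtype
  have h1 : Module.finrank O (↥B ⧸ A') + Module.finrank O ↥A' = Module.finrank O ↥B :=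
    Submodule.finrank_quotient_add_finrank A'
  have h2 : Module.finrank O ↥A' = Module.finrank O ↥A :=
    (Submodule.comapSubtypeEquivOfLe hAB).finrank_eq
  have h3 : Module.finrank O (↥B ⧸ A') = 0 := by omega
  have htf : Module.IsTorsionFree O (↥B ⧸ A') := by
    refine ⟨fun r hr x y hxy => ?_⟩
    have hr0 : r ≠ 0 := hr.ne_zero
    have h4 : r • (x - y) = 0 := by
      rw [smul_sub]
      exact sub_eq_zero.mpr hxy
    suffices h : x - y = 0 from sub_eq_zero.mp h
    generalize x - y = z at h4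
    obtain ⟨z, rfl⟩ := Submodule.Quotient.mk_surjective _ z
    rw [← Submodule.Quotient.mk_smul, Submodule.Quotient.mk_eq_zero] at h4
    rw [Submodule.Quotient.mk_eq_zero]
    exact hsat r hr0 z.1 z.2 h4
  have h5 : Subsingleton (↥B ⧸ A') := Module.finrank_zero_iff.mp h3
  intro x hx
  have h6 : (Submodule.Quotient.mk (⟨x, hx⟩ : ↥B) : ↥B ⧸ A') = 0 := Subsingleton.elim _ _
  rw [Submodule.Quotient.mk_eq_zero] at h6
  exact h6

/-- Submodules `A ≤ B` of the same rank: every element of `B` has a nonzero multiple in `A`. -/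
theorem exists_smul_mem_of_finrank_le (A B : Submodule O M) (hAB : A ≤ B)
    (hrank : Module.finrank O ↥B ≤ Module.finrank O ↥A) (x : M) (hx : x ∈ B) :
    ∃ a : O, a ≠ 0 ∧ a • x ∈ A := by
  have : IsNoetherian O M := inferInstance
  let A' : Submodule O ↥B := A.comap B.subtype
  have h1 : Module.finrank O (↥B ⧸ A') + Module.finrank O ↥A' = Module.finrank O ↥B :=
    Submodule.finrank_quotient_add_finrank A'
  have h2 : Module.finrank O ↥A' = Module.finrank O ↥A :=
    (Submodule.comapSubtypeEquivOfLe hAB).finrank_eq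
  have h3 : Module.finrank O (↥B ⧸ A') = 0 := by omega
  obtain ⟨a, ha, hax⟩ := Module.finrank_eq_zero_iff.mp h3
    (Submodule.Quotient.mk (⟨x, hx⟩ : ↥B))
  refine ⟨a, ha, ?_⟩
  rw [← Submodule.Quotient.mk_smul, Submodule.Quotient.mk_eq_zero] at hax
  exact hax

end Rank

/-! ### Part 2: embeddings into arbitrary powers -/

section FiniteIndex

universe v

variable {O : Type*} [CommRing O] [IsDomain O] [IsPrincipalIdealRing O] {𝔸 : Type*} [Ring 𝔸]
  [Algebra O 𝔸] {R : Type*} [AddCommGroup R] [Module O R] [Module 𝔸 R] [IsScalarTower O 𝔸 R]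

/-- A finitely generated module embedded in an arbitrary power of a torsion-free module is already
embedded in a finite sub-power. -/
theorem exists_finset_injective [Module.IsTorsionFree O R] {Γ : Type*} [AddCommGroup Γ]
    [Module O Γ] [Module 𝔸 Γ] [IsScalarTower O 𝔸 Γ] [Module.Finite O Γ] {ι : Type*}
    (j : Γ →ₗ[𝔸] (ι → R)) (hj : Injective j) :
    ∃ F : Finset ι, ∀ x : Γ, (∀ i ∈ F, j x i = 0) → x = 0 := by
  classical
  have htf : Module.IsTorsionFree O Γ :=
    Function.Injective.moduleIsTorsionFree j hj (fun r m => j.map_smul_of_tower r m)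
  have : IsNoetherian O Γ := inferInstance
  let K : Finset ι → Submodule O Γ := fun F =>
    { carrier := {x | ∀ i ∈ F, j x i = 0}
      zero_mem' := fun i _ => by rw [map_zero]; rfl
      add_mem' := fun {a b} ha hb i hi => by
        rw [map_add, Pi.add_apply, ha i hi, hb i hi, add_zero]
      smul_mem' := fun a x hx i hi => by
        rw [j.map_smul_of_tower, Pi.smul_apply, hx i hi, smul_zero] }
  have hKmem : ∀ F x, x ∈ K F ↔ ∀ i ∈ F, j x i = 0 := fun _ _ => Iff.rfl
  have hex : ∃ n, ∃ F, Module.finrank O ↥(K F) = n := ⟨_, ∅, rfl⟩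
  obtain ⟨F0, hF0⟩ := Nat.find_spec hex
  refine ⟨F0, fun x hx => ?_⟩
  apply hj
  rw [map_zero]
  funext i
  have hle : K (insert i F0) ≤ K F0 := fun y hy k hk => hy k (Finset.mem_insert_of_mem hk)
  have hsat : ∀ a : O, a ≠ 0 → ∀ y ∈ K F0, a • y ∈ K (insert i F0) → y ∈ K (insert i F0) := by
    intro a ha y _ hay k hk
    have h1 := hay k hk
    rw [j.map_smul_of_tower, Pi.smul_apply] at h1
    exact (smul_eq_zero_iff_right ha).mp h1
  have hrank : Module.finrank O ↥(K F0) ≤ Module.finrank O ↥(K (insert i F0)) := by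
    rw [hF0]
    exact Nat.find_min' hex ⟨insert i F0, rfl⟩
  have h2 := le_of_finrank_le_of_saturated _ _ hle hsat hrank ((hKmem F0 x).mpr hx)
  exact h2 i (Finset.mem_insert_self i F0)

variable [Module.Free O R] [Module.Finite O R]

/-- `halfBound_of_embedding` for an arbitrary (possibly infinite) index type. -/
theorem halfBound_of_embedding'' {ϖ : O} (hϖ : ϖ ≠ 0)
    (hO : ∀ a : O, a ≠ 0 → Finite (O ⧸ Ideal.span {a})) (hR : Module.finrank O R ≤ 2)
    (U : Set 𝔸) (hu : ∀ S : Submodule 𝔸 R, S ≠ ⊥ → ∃ u ∈ U, ∃ x ∈ S, u • x ≠ 0)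
    (Γ : Type v) [AddCommGroup Γ] [Module O Γ] [Module 𝔸 Γ] [IsScalarTower O 𝔸 Γ]
    [Module.Finite O Γ] (ι : Type*) (j : Γ →ₗ[𝔸] (ι → R)) (hj : Injective j) :
    HalfBound ϖ U Γ := by
  have : Module.IsTorsionFree O R := inferInstance
  obtain ⟨F, hF⟩ := exists_finset_injective (O := O) j hj
  let j' : Γ →ₗ[𝔸] (↥F → R) := (LinearMap.funLeft 𝔸 R (Subtype.val : ↥F → ι)).comp j
  have hj' : Injective j' := by
    rw [← LinearMap.ker_eq_bot, LinearMap.ker_eq_bot']
    intro x hx
    refine hF x fun i hi => ?_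
    exact congrFun hx ⟨i, hi⟩
  exact halfBound_of_embedding' hϖ hO hR U hu Γ ↥F j' hj'

end FiniteIndex

/-! ### Part 3: common eigenlattices -/

section EigenDefs

variable {O : Type*} [CommRing O] {𝔸 : Type*} [Ring 𝔸] [Algebra O 𝔸]
  {Λ : Type*} [AddCommGroup Λ] [Module O Λ] [Module 𝔸 Λ] [IsScalarTower O 𝔸 Λ] {ι : Type*}

/-- The common eigenlattice of the operators `t i` for the eigenvalues `c i`. -/
def eigen (t : ι → Module.End 𝔸 Λ) (c : ι → O) : Submodule 𝔸 Λ where
  carrier := {x | ∀ i, t i x = c i • x}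
  zero_mem' := fun i => by rw [map_zero, smul_zero]
  add_mem' := fun {a b} ha hb i => by rw [map_add, ha i, hb i, smul_add]
  smul_mem' := fun a x hx i => by rw [map_smul, hx i, smul_comm]

lemma mem_eigen {t : ι → Module.End 𝔸 Λ} {c : ι → O} {x : Λ} :
    x ∈ eigen t c ↔ ∀ i, t i x = c i • x := Iff.rfl

lemma commute_apply {f g : Module.End 𝔸 Λ} (h : Commute f g) (x : Λ) : f (g x) = g (f x) := by
  have h1 : (f * g) x = (g * f) x := by rw [h.eq]
  exact h1

lemma map_mem_eigen {t : ι → Module.End 𝔸 Λ} {c : ι → O} {g : Module.End 𝔸 Λ}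
    (hg : ∀ i, Commute (t i) g) {x : Λ} (hx : x ∈ eigen t c) : g x ∈ eigen t c := by
  intro k
  rw [commute_apply (hg k), hx k, g.map_smul_of_tower]

/-- The eigenlattice is saturated. -/
lemma mem_eigen_of_smul_mem [IsDomain O] [Module.IsTorsionFree O Λ] {t : ι → Module.End 𝔸 Λ}
    {c : ι → O} {a : O} (ha : a ≠ 0) {x : Λ} (hx : a • x ∈ eigen t c) : x ∈ eigen t c := by
  intro i
  have h1 := hx i
  rw [(t i).map_smul_of_tower, smul_comm] at h1
  have h2 : a • (t i x - c i • x) = 0 := by rw [smul_sub, h1, sub_self]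
  exact sub_eq_zero.mp ((smul_eq_zero_iff_right ha).mp h2)

/-- The operators induced on the quotient by an eigenlattice. -/
def tQ (t : ι → Module.End 𝔸 Λ) (c : ι → O) (hcomm : ∀ i j, Commute (t i) (t j)) (i : ι) :
    Module.End 𝔸 (Λ ⧸ eigen t c) :=
  (eigen t c).mapQ (eigen t c) (t i) (fun _ hx => map_mem_eigen (fun k => hcomm k i) hx)

@[simp] lemma tQ_mk (t : ι → Module.End 𝔸 Λ) (c : ι → O) (hcomm : ∀ i j, Commute (t i) (t j))
    (i : ι) (x : Λ) :
    tQ t c hcomm i (Submodule.Quotient.mk x) = Submodule.Quotient.mk (t i x) := rfl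

lemma tQ_commute (t : ι → Module.End 𝔸 Λ) (c : ι → O) (hcomm : ∀ i j, Commute (t i) (t j))
    (i j : ι) : Commute (tQ t c hcomm i) (tQ t c hcomm j) := by
  refine LinearMap.ext fun y => ?_
  obtain ⟨x, rfl⟩ := Submodule.Quotient.mk_surjective _ y
  change tQ t c hcomm i (tQ t c hcomm j (Submodule.Quotient.mk x)) =
    tQ t c hcomm j (tQ t c hcomm i (Submodule.Quotient.mk x))
  rw [tQ_mk, tQ_mk, tQ_mk, tQ_mk, commute_apply (hcomm i j)]

lemma sub_smul_one_apply (f : Module.End 𝔸 Λ) (a : O) (x : Λ) :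
    (f - a • (1 : Module.End 𝔸 Λ)) x = f x - a • x := by
  rw [LinearMap.sub_apply, LinearMap.smul_apply, Module.End.one_apply]

lemma prod_tQ_mk (t : ι → Module.End 𝔸 Λ) (c : ι → O) (hcomm : ∀ i j, Commute (t i) (t j))
    (i : ι) (s : List O) (x : Λ) :
    (s.map fun a => tQ t c hcomm i - a • (1 : Module.End 𝔸 (Λ ⧸ eigen t c))).prod
        (Submodule.Quotient.mk x) =
      Submodule.Quotient.mk ((s.map fun a => t i - a • (1 : Module.End 𝔸 Λ)).prod x) := by
  induction s with
  | nil => rfl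
  | cons a s ih =>
    rw [List.map_cons, List.prod_cons, List.map_cons, List.prod_cons, Module.End.mul_apply,
      Module.End.mul_apply, ih, sub_smul_one_apply, sub_smul_one_apply, tQ_mk,
      Submodule.Quotient.mk_sub, Submodule.Quotient.mk_smul]

/-- A split operator stays split on the quotient. -/
lemma split_tQ (t : ι → Module.End 𝔸 Λ) (c : ι → O) (hcomm : ∀ i j, Commute (t i) (t j))
    (hsplit : ∀ i, ∃ s : List O, ∀ x, (s.map fun a => t i - a • (1 : Module.End 𝔸 Λ)).prod x = 0)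
    (i : ι) : ∃ s : List O, ∀ y,
      (s.map fun a => tQ t c hcomm i - a • (1 : Module.End 𝔸 (Λ ⧸ eigen t c))).prod y = 0 := by
  obtain ⟨s, hs⟩ := hsplit i
  refine ⟨s, fun y => ?_⟩
  obtain ⟨x, rfl⟩ := Submodule.Quotient.mk_surjective _ y
  rw [prod_tQ_mk, hs, Submodule.Quotient.mk_zero]

end EigenDefs

/-! ### Part 4: existence of a common eigenvector -/

section Exists

variable {O : Type*} [CommRing O] [IsDomain O] [IsPrincipalIdealRing O] {𝔸 : Type*} [Ring 𝔸]
  [Algebra O 𝔸] {Λ : Type*} [AddCommGroup Λ] [Module O Λ] [Module 𝔸 Λ] [IsScalarTower O 𝔸 Λ]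
  {ι : Type*}

omit [IsDomain O] [IsPrincipalIdealRing O] in
lemma prod_apply_mem (E : Submodule O Λ) (f : Module.End 𝔸 Λ) (hE : ∀ x ∈ E, f x ∈ E)
    (s : List O) : ∀ x ∈ E, (s.map fun a => f - a • (1 : Module.End 𝔸 Λ)).prod x ∈ E := by
  induction s with
  | nil => exact fun x hx => hx
  | cons a s ih =>
    intro x hx
    rw [List.map_cons, List.prod_cons, Module.End.mul_apply, sub_smul_one_apply]
    exact E.sub_mem (hE _ (ih x hx)) (E.smul_mem a (ih x hx))

omit [IsDomain O] [IsPrincipalIdealRing O] in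
lemma eq_zero_of_prod_apply_eq_zero (E : Submodule O Λ) (f : Module.End 𝔸 Λ)
    (hE : ∀ x ∈ E, f x ∈ E) (s : List O)
    (hs : ∀ a ∈ s, ∀ x ∈ E, f x = a • x → x = 0) :
    ∀ x ∈ E, (s.map fun a => f - a • (1 : Module.End 𝔸 Λ)).prod x = 0 → x = 0 := by
  induction s with
  | nil => exact fun x _ hx => hx
  | cons a s ih =>
    intro x hx h
    rw [List.map_cons, List.prod_cons, Module.End.mul_apply, sub_smul_one_apply] at h
    have h1 := prod_apply_mem E f hE s x hx
    have h2 := hs a List.mem_cons_self _ h1 (sub_eq_zero.mp h)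
    exact ih (fun b hb => hs b (List.mem_cons_of_mem a hb)) x hx h2

/-- A pairwise commuting family of split operators on a nonzero lattice has a common
eigenvector. -/
theorem exists_eigen_ne_bot [Module.Finite O Λ] [Module.IsTorsionFree O Λ] [Nontrivial Λ]
    (t : ι → Module.End 𝔸 Λ) (hcomm : ∀ i j, Commute (t i) (t j))
    (hsplit : ∀ i, ∃ s : List O, ∀ x, (s.map fun a => t i - a • (1 : Module.End 𝔸 Λ)).prod x = 0) :
    ∃ c : ι → O, eigen t c ≠ ⊥ := by
  classical
  have : IsNoetherian O Λ := inferInstance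
  let Good : Submodule O Λ → Prop := fun E =>
    E ≠ ⊥ ∧ (∀ i, ∀ x ∈ E, t i x ∈ E) ∧ (∀ a : O, a ≠ 0 → ∀ x, a • x ∈ E → x ∈ E)
  have hex : ∃ n, ∃ E, Good E ∧ Module.finrank O ↥E = n :=
    ⟨_, ⊤, ⟨top_ne_bot, fun _ _ _ => Submodule.mem_top, fun _ _ _ _ => Submodule.mem_top⟩, rfl⟩
  obtain ⟨E0, ⟨hE0ne, hE0st, hE0sat⟩, hE0rank⟩ := Nat.find_spec hex
  have hkey : ∀ i, ∃ a : O, ∀ x ∈ E0, t i x = a • x := by
    intro i
    obtain ⟨s, hs⟩ := hsplit i
    have h1 : ∃ a ∈ s, ∃ x ∈ E0, t i x = a • x ∧ x ≠ 0 := by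
      by_contra hcon
      obtain ⟨x, hx, hx0⟩ := (Submodule.ne_bot_iff E0).mp hE0ne
      apply hx0
      refine eq_zero_of_prod_apply_eq_zero E0 (t i) (hE0st i) s ?_ x hx (hs x)
      intro a ha y hy hty
      by_contra hy0
      exact hcon ⟨a, ha, y, hy, hty, hy0⟩
    obtain ⟨a, -, x1, hx1, hx1a, hx10⟩ := h1
    refine ⟨a, ?_⟩
    let E1 : Submodule O Λ :=
      { carrier := {x | x ∈ E0 ∧ t i x = a • x}
        zero_mem' := ⟨E0.zero_mem, by rw [map_zero, smul_zero]⟩
        add_mem' := fun {x y} hx hy =>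
          ⟨E0.add_mem hx.1 hy.1, by rw [map_add, hx.2, hy.2, smul_add]⟩
        smul_mem' := fun b x hx =>
          ⟨E0.smul_mem b hx.1, by rw [(t i).map_smul_of_tower, hx.2, smul_comm]⟩ }
    have hE1le : E1 ≤ E0 := fun x hx => hx.1
    have hE1good : Good E1 := by
      refine ⟨?_, ?_, ?_⟩
      · intro h
        apply hx10
        have h2 : x1 ∈ E1 := ⟨hx1, hx1a⟩
        rw [h, Submodule.mem_bot] at h2
        exact h2
      · intro k x hx
        refine ⟨hE0st k x hx.1, ?_⟩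
        rw [commute_apply (hcomm i k), hx.2, (t k).map_smul_of_tower]
      · intro b hb x hx
        refine ⟨hE0sat b hb x hx.1, ?_⟩
        have h2 := hx.2
        rw [(t i).map_smul_of_tower, smul_comm] at h2
        have h3 : b • (t i x - a • x) = 0 := by rw [smul_sub, h2, sub_self]
        exact sub_eq_zero.mp ((smul_eq_zero_iff_right hb).mp h3)
    have hrank : Module.finrank O ↥E0 ≤ Module.finrank O ↥E1 := by
      rw [hE0rank]
      exact Nat.find_min' hex ⟨E1, hE1good, rfl⟩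
    have h2 := le_of_finrank_le_of_saturated E1 E0 hE1le
      (fun b hb x _ hbx => hE1good.2.2 b hb x hbx) hrank
    exact fun x hx => (h2 hx).2
  choose c hc using hkey
  refine ⟨c, ?_⟩
  obtain ⟨x, hx, hx0⟩ := (Submodule.ne_bot_iff E0).mp hE0ne
  intro h
  apply hx0
  have h2 : x ∈ eigen t c := fun i => hc i x hx
  rw [h, Submodule.mem_bot] at h2
  exact h2

end Exists

/-! ### Part 5: the eigenlattices of the quotient by an eigenlattice -/

section Quotient

variable {O : Type*} [CommRing O] [IsDomain O] {𝔸 : Type*} [Ring 𝔸]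
  [Algebra O 𝔸] {Λ : Type*} [AddCommGroup Λ] [Module O Λ] [Module 𝔸 Λ] [IsScalarTower O 𝔸 Λ]
  {ι : Type*} (t : ι → Module.End 𝔸 Λ) (c : ι → O) (hcomm : ∀ i j, Commute (t i) (t j))

/-- An operator `g` commuting with the `t i` and killing `eigen t c`, as a map from the
`c'`-eigenlattice of the quotient to the `c'`-eigenlattice of `Λ`. -/
def liftEigen (g : Module.End 𝔸 Λ) (hg : ∀ i, Commute (t i) g) (hg0 : ∀ x ∈ eigen t c, g x = 0)
    (c' : ι → O) : ↥(eigen (tQ t c hcomm) c') →ₗ[𝔸] ↥(eigen t c') :=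
  LinearMap.codRestrict (eigen t c')
    (((eigen t c).liftQ g (fun x hx => LinearMap.mem_ker.mpr (hg0 x hx))).comp
      (eigen (tQ t c hcomm) c').subtype)
    (by
      rintro ⟨y, hy⟩
      obtain ⟨x, rfl⟩ := Submodule.Quotient.mk_surjective _ y
      intro j
      change t j (g x) = c' j • g x
      have h1 := hy j
      rw [tQ_mk, ← Submodule.Quotient.mk_smul, ← sub_eq_zero, ← Submodule.Quotient.mk_sub,
        Submodule.Quotient.mk_eq_zero] at h1
      have h2 := hg0 _ h1
      rw [map_sub, g.map_smul_of_tower, sub_eq_zero] at h2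
      rw [commute_apply (hg j), h2])

lemma liftEigen_mk (g : Module.End 𝔸 Λ) (hg : ∀ i, Commute (t i) g)
    (hg0 : ∀ x ∈ eigen t c, g x = 0) (c' : ι → O) (x : Λ)
    (hx : (Submodule.Quotient.mk x : Λ ⧸ eigen t c) ∈ eigen (tQ t c hcomm) c') :
    ((liftEigen t c hcomm g hg hg0 c' ⟨Submodule.Quotient.mk x, hx⟩ : ↥(eigen t c')) : Λ) = g x :=
  rfl

/-- The same character: `(Λ / Λ[c])[c] ↪ Λ[c] ^ ι` by `x ↦ ((t i - c i) x) i`. -/
theorem exists_embedding_same :
    ∃ j : ↥(eigen (tQ t c hcomm) c) →ₗ[𝔸] (ι → ↥(eigen t c)), Injective j := by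
  have hg : ∀ i k, Commute (t k) (t i - c i • (1 : Module.End 𝔸 Λ)) := fun i k =>
    (hcomm k i).sub_right ((Commute.one_right _).smul_right _)
  have hg0 : ∀ i, ∀ x ∈ eigen t c, (t i - c i • (1 : Module.End 𝔸 Λ)) x = 0 := by
    intro i x hx
    rw [sub_smul_one_apply, hx i, sub_self]
  refine ⟨LinearMap.pi fun i => liftEigen t c hcomm _ (hg i) (hg0 i) c, ?_⟩
  rw [← LinearMap.ker_eq_bot, LinearMap.ker_eq_bot']
  rintro ⟨y, hy⟩ h
  obtain ⟨x, rfl⟩ := Submodule.Quotient.mk_surjective _ y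
  apply Subtype.ext
  change (Submodule.Quotient.mk x : Λ ⧸ eigen t c) = 0
  rw [Submodule.Quotient.mk_eq_zero]
  intro i
  have h1 : liftEigen t c hcomm _ (hg i) (hg0 i) c ⟨Submodule.Quotient.mk x, hy⟩ = 0 :=
    congrFun h i
  have h2 := congrArg Subtype.val h1
  rw [liftEigen_mk, sub_smul_one_apply] at h2
  exact sub_eq_zero.mp h2

/-- A different character: `(Λ / Λ[c])[c'] ↪ Λ[c']` by `x ↦ (c i₀ - t i₀) x`. -/
theorem exists_embedding_ne [Module.IsTorsionFree O Λ] (c' : ι → O) (hc : c' ≠ c) :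
    ∃ j : ↥(eigen (tQ t c hcomm) c') →ₗ[𝔸] ↥(eigen t c'), Injective j := by
  obtain ⟨i0, hi0⟩ : ∃ i0, c' i0 ≠ c i0 := by
    by_contra hcon
    apply hc
    funext i
    by_contra hne
    exact hcon ⟨i, hne⟩
  have hg : ∀ k, Commute (t k) (c i0 • (1 : Module.End 𝔸 Λ) - t i0) := fun k =>
    ((Commute.one_right _).smul_right _).sub_right (hcomm k i0)
  have hg0 : ∀ x ∈ eigen t c, (c i0 • (1 : Module.End 𝔸 Λ) - t i0) x = 0 := by
    intro x hx
    rw [LinearMap.sub_apply, LinearMap.smul_apply, Module.End.one_apply, hx i0, sub_self]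
  refine ⟨liftEigen t c hcomm _ hg hg0 c', ?_⟩
  rw [← LinearMap.ker_eq_bot, LinearMap.ker_eq_bot']
  rintro ⟨y, hy⟩ h
  obtain ⟨x, rfl⟩ := Submodule.Quotient.mk_surjective _ y
  apply Subtype.ext
  change (Submodule.Quotient.mk x : Λ ⧸ eigen t c) = 0
  rw [Submodule.Quotient.mk_eq_zero]
  have h2 := congrArg Subtype.val h
  rw [liftEigen_mk, LinearMap.sub_apply, LinearMap.smul_apply, Module.End.one_apply] at h2
  have h3 : t i0 x = c i0 • x := (sub_eq_zero.mp h2).symm
  have h4 := hy i0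
  rw [tQ_mk, ← Submodule.Quotient.mk_smul, ← sub_eq_zero, ← Submodule.Quotient.mk_sub,
    Submodule.Quotient.mk_eq_zero, h3, ← sub_smul] at h4
  exact mem_eigen_of_smul_mem (sub_ne_zero.mpr (Ne.symm hi0)) h4

end Quotient

/-! ### Part 6: the induction -/

section Main

universe v w uι

variable {O : Type*} [CommRing O] [IsDomain O] [IsPrincipalIdealRing O] {𝔸 : Type*} [Ring 𝔸]
  [Algebra O 𝔸]

/-- The quotient of a torsion-free module by an eigenlattice is torsion-free. -/
lemma isTorsionFree_quotient_eigen {Λ : Type*} [AddCommGroup Λ] [Module O Λ] [Module 𝔸 Λ]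
    [IsScalarTower O 𝔸 Λ] [Module.IsTorsionFree O Λ] {ι : Type*} (t : ι → Module.End 𝔸 Λ)
    (c : ι → O) : Module.IsTorsionFree O (Λ ⧸ eigen t c) := by
  refine ⟨fun r hr x y hxy => ?_⟩
  have hr0 : r ≠ 0 := hr.ne_zero
  have h4 : r • (x - y) = 0 := by
    rw [smul_sub]
    exact sub_eq_zero.mpr hxy
  suffices h : x - y = 0 from sub_eq_zero.mp h
  generalize x - y = z at h4
  obtain ⟨z, rfl⟩ := Submodule.Quotient.mk_surjective _ z
  rw [← Submodule.Quotient.mk_smul, Submodule.Quotient.mk_eq_zero] at h4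
  rw [Submodule.Quotient.mk_eq_zero]
  exact mem_eigen_of_smul_mem hr0 h4

/-- The rank drops in the quotient by a nonzero eigenlattice. -/
lemma finrank_quotient_eigen_lt {Λ : Type*} [AddCommGroup Λ] [Module O Λ] [Module 𝔸 Λ]
    [IsScalarTower O 𝔸 Λ] [Module.Finite O Λ] [Module.IsTorsionFree O Λ] {ι : Type*}
    (t : ι → Module.End 𝔸 Λ) (c : ι → O) (hne : eigen t c ≠ ⊥) :
    Module.finrank O (Λ ⧸ eigen t c) < Module.finrank O Λ := by
  have : IsNoetherian O Λ := inferInstance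
  have h1 := Submodule.finrank_quotient_add_finrank ((eigen t c).restrictScalars O)
  have h2 : Module.finrank O (Λ ⧸ (eigen t c).restrictScalars O) =
      Module.finrank O (Λ ⧸ eigen t c) :=
    (Submodule.Quotient.restrictScalarsEquiv O (eigen t c)).finrank_eq
  have h3 : 0 < Module.finrank O ↥((eigen t c).restrictScalars O) := by
    rw [Module.finrank_pos_iff_exists_ne_zero]
    obtain ⟨x, hx, hx0⟩ := (Submodule.ne_bot_iff _).mp hne
    exact ⟨⟨x, hx⟩, fun h => hx0 (congrArg Subtype.val h)⟩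
  omega

/-- **The half bound for split commuting families.**  `Λ` a finitely generated torsion-free
`O`-module with `𝔸`-action, `t` a pairwise commuting family of `𝔸`-endomorphisms, each killed by a
product of linear factors; `Pc` a class of eigen-systems containing all those which occur in `Λ`;
for `c` in the class, `Rc c` is free of rank `≤ 2` over `O` with no nonzero `𝔸`-submodule killed
by all of `U`, and the common eigenlattice `eigen t c` embeds `𝔸`-linearly in a power of `Rc c`.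
Then `|ker (U | Λ / ϖ^k)|² ≤ C |Λ / ϖ^k|` for all `k`. -/
theorem halfBound_of_eigen_aux {ϖ : O} (hϖ : ϖ ≠ 0)
    (hO : ∀ a : O, a ≠ 0 → Finite (O ⧸ Ideal.span {a})) (U : Set 𝔸) {ι : Type uι}
    (Pc : (ι → O) → Prop)
    (Rc : (ι → O) → Type w) [∀ c, AddCommGroup (Rc c)] [∀ c, Module O (Rc c)]
    [∀ c, Module 𝔸 (Rc c)] [∀ c, IsScalarTower O 𝔸 (Rc c)] [∀ c, Module.Free O (Rc c)]
    [∀ c, Module.Finite O (Rc c)] (hR : ∀ c, Pc c → Module.finrank O (Rc c) ≤ 2)
    (hu : ∀ c, Pc c → ∀ S : Submodule 𝔸 (Rc c), S ≠ ⊥ → ∃ u ∈ U, ∃ x ∈ S, u • x ≠ 0) :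
    ∀ (n : ℕ) (Λ : Type v) [AddCommGroup Λ] [Module O Λ] [Module 𝔸 Λ] [IsScalarTower O 𝔸 Λ]
      [Module.Finite O Λ] [Module.IsTorsionFree O Λ] (t : ι → Module.End 𝔸 Λ),
      Module.finrank O Λ ≤ n → (∀ i j, Commute (t i) (t j)) →
      (∀ i, ∃ s : List O, ∀ x, (s.map fun a => t i - a • (1 : Module.End 𝔸 Λ)).prod x = 0) →
      (∀ c, eigen t c ≠ ⊥ → Pc c) →
      (∀ c, Pc c → ∃ (κ : Type uι) (j : ↥(eigen t c) →ₗ[𝔸] (κ → Rc c)), Injective j) →
      HalfBound ϖ U Λ := by
  intro n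
  induction n with
  | zero =>
    intro Λ _ _ _ _ _ _ t hn _ _ _ _
    have : Subsingleton Λ := Module.finrank_zero_iff.mp (Nat.le_zero.mp hn)
    exact HalfBound.of_subsingleton ϖ U
  | succ n ih =>
    intro Λ _ _ _ _ _ _ t hn hcomm hsplit hocc hemb
    rcases subsingleton_or_nontrivial Λ with hsub | hnt
    · exact HalfBound.of_subsingleton ϖ U
    obtain ⟨c, hc⟩ := exists_eigen_ne_bot t hcomm hsplit
    have hPc : Pc c := hocc c hc
    have hfinE : Module.Finite O ↥(eigen t c) := finite_submodule _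
    have hfinQ : Module.Finite O (Λ ⧸ eigen t c) := finite_quotient _
    have htfQ : Module.IsTorsionFree O (Λ ⧸ eigen t c) := isTorsionFree_quotient_eigen t c
    -- the sub
    obtain ⟨κ, j, hj⟩ := hemb c hPc
    have h' : HalfBound ϖ U ↥(eigen t c) :=
      halfBound_of_embedding'' hϖ hO (hR c hPc) U (hu c hPc) ↥(eigen t c) κ j hj
    -- the quotient
    have hrankQ : Module.finrank O (Λ ⧸ eigen t c) ≤ n := by
      have := finrank_quotient_eigen_lt t c hc
      omega
    have hoccQ : ∀ c', eigen (tQ t c hcomm) c' ≠ ⊥ → Pc c' := by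
      intro c' hne
      obtain ⟨y, hy, hy0⟩ := (Submodule.ne_bot_iff _).mp hne
      by_cases hcc : c' = c
      · rw [hcc]
        exact hPc
      · obtain ⟨j1, hj1⟩ := exists_embedding_ne t c hcomm c' hcc
        apply hocc c'
        intro hbot
        apply hy0
        have h1 : j1 ⟨y, hy⟩ = 0 := by
          apply Subtype.ext
          have h2 : ∀ z : Λ, z ∈ eigen t c' → z = 0 := by
            intro z hz
            rw [hbot, Submodule.mem_bot] at hz
            exact hz
          exact h2 _ (j1 ⟨y, hy⟩).2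
        have h3 := hj1 (h1.trans (map_zero j1).symm)
        exact congrArg Subtype.val h3
    have hembQ : ∀ c', Pc c' → ∃ (κ' : Type uι)
        (j' : ↥(eigen (tQ t c hcomm) c') →ₗ[𝔸] (κ' → Rc c')), Injective j' := by
      intro c' hPc'
      by_cases hcc : c' = c
      · subst hcc
        obtain ⟨j1, hj1⟩ := exists_embedding_same t c' hcomm
        let j2 : (ι → ↥(eigen t c')) →ₗ[𝔸] (ι → κ → Rc c') :=
          LinearMap.pi fun i => j.comp (LinearMap.proj i)
        have hj2 : Injective j2 := by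
          intro a b hab
          funext i
          exact hj (congrFun hab i)
        refine ⟨ι × κ, (LinearEquiv.curry 𝔸 (Rc c') ι κ).symm.toLinearMap.comp (j2.comp j1), ?_⟩
        exact (LinearEquiv.curry 𝔸 (Rc c') ι κ).symm.injective.comp (hj2.comp hj1)
      · obtain ⟨j1, hj1⟩ := exists_embedding_ne t c hcomm c' hcc
        obtain ⟨κ', j', hj'⟩ := hemb c' hPc'
        exact ⟨κ', j'.comp j1, hj'.comp hj1⟩
    have h'' : HalfBound ϖ U (Λ ⧸ eigen t c) :=
      ih (Λ ⧸ eigen t c) (tQ t c hcomm) hrankQ (tQ_commute t c hcomm) (split_tQ t c hcomm hsplit)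
        hoccQ hembQ
    have hfinX : ∀ k : ℕ, Finite (Λ ⧸ piSub 𝔸 Λ (ϖ ^ k)) := fun k => by
      have := hO _ (pow_ne_zero k hϖ)
      exact finite_quot (ϖ ^ k)
    refine HalfBound.of_exact (eigen t c).subtype (eigen t c).mkQ Subtype.val_injective
      (Submodule.mkQ_surjective _) ?_ ?_ ?_ hfinX h' h''
    · intro x hx
      exact ⟨⟨x, (Submodule.Quotient.mk_eq_zero _).mp hx⟩, rfl⟩
    · intro y
      exact (Submodule.Quotient.mk_eq_zero _).mpr y.2
    · intro k x hx
      exact (smul_eq_zero_iff_right (pow_ne_zero k hϖ)).mp hx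

/-- `halfBound_of_eigen_aux` without the rank parameter. -/
theorem halfBound_of_eigen {ϖ : O} (hϖ : ϖ ≠ 0)
    (hO : ∀ a : O, a ≠ 0 → Finite (O ⧸ Ideal.span {a})) (U : Set 𝔸) {ι : Type uι}
    (Pc : (ι → O) → Prop)
    (Rc : (ι → O) → Type w) [∀ c, AddCommGroup (Rc c)] [∀ c, Module O (Rc c)]
    [∀ c, Module 𝔸 (Rc c)] [∀ c, IsScalarTower O 𝔸 (Rc c)] [∀ c, Module.Free O (Rc c)]
    [∀ c, Module.Finite O (Rc c)] (hR : ∀ c, Pc c → Module.finrank O (Rc c) ≤ 2)
    (hu : ∀ c, Pc c → ∀ S : Submodule 𝔸 (Rc c), S ≠ ⊥ → ∃ u ∈ U, ∃ x ∈ S, u • x ≠ 0)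
    (Λ : Type v) [AddCommGroup Λ] [Module O Λ] [Module 𝔸 Λ] [IsScalarTower O 𝔸 Λ]
    [Module.Finite O Λ] [Module.IsTorsionFree O Λ] (t : ι → Module.End 𝔸 Λ)
    (hcomm : ∀ i j, Commute (t i) (t j))
    (hsplit : ∀ i, ∃ s : List O, ∀ x,
      (s.map fun a => t i - a • (1 : Module.End 𝔸 Λ)).prod x = 0)
    (hocc : ∀ c, eigen t c ≠ ⊥ → Pc c)
    (hemb : ∀ c, Pc c → ∃ (κ : Type uι) (j : ↥(eigen t c) →ₗ[𝔸] (κ → Rc c)), Injective j) :
    HalfBound ϖ U Λ :=
  halfBound_of_eigen_aux hϖ hO U Pc Rc hR hu _ Λ t le_rfl hcomm hsplit hocc hemb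

end Main

end Fermat.Agent.S15.Struct.Eigen
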