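/-
PROJECT M (S15), block [S] (helper8): `Struct/Eigen.halfBound_of_eigen` IN ELEMENTARY TERMS.
Mathlib + `Struct/{Count,Eigen}` only.

`O` a principal ideal domain, `G` a monoid, `Λ` a finitely generated torsion-free `O`-module,
`ρ : G →* Module.End O Λ`, `t : ι → Module.End O Λ` pairwise commuting, commuting with `ρ`, each
killed by a product of linear factors; `W : Set (G × O)`.  For the eigen-systems `c` occurring in `Λ`
a representation `ρc c` on a free `O`-module `Rc c` of rank `≤ 2` is given, such that no nonzero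
stable submodule `S` of `Rc c` has `ρc c g x = a • x` for all `(g, a) ∈ W`, `x ∈ S`, and the
eigenlattice `Λ[c]` embeds equivariantly in a power of `Rc c`.  Then (`halfBound_rep`)

  `#{x ∈ Λ / ϖ^k Λ | ∀ (g, a) ∈ W, ρ g x = a • x} ^ 2 ≤ C * #(Λ / ϖ^k Λ)`   for all `k`.
-/
import Fermat.Agent.S15.Struct.Eigen

set_option autoImplicit false
set_option linter.unusedSectionVars false

namespace Fermat.Agent.S15.Struct.Rep

open Function Fermat.Agent.S15.Struct.Count Fermat.Agent.S15.Struct.Eigen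

section Synonym

variable {O : Type*} [CommRing O] {G : Type*} [Monoid G]

/-- `M` with the `O[G]`-module structure given by `ρ`. -/
def RepMod {M : Type*} [AddCommGroup M] [Module O M] (_ρ : G →* Module.End O M) : Type _ := M

variable {M : Type*} [AddCommGroup M] [Module O M] (ρ : G →* Module.End O M)

instance : AddCommGroup (RepMod ρ) := inferInstanceAs (AddCommGroup M)
instance : Module O (RepMod ρ) := inferInstanceAs (Module O M)

/-- The identity `M ≃ RepMod ρ`. -/
def toRep : M ≃ₗ[O] RepMod ρ := LinearEquiv.refl O M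

noncomputable instance : Module (MonoidAlgebra O G) (RepMod ρ) :=
  Module.compHom M (MonoidAlgebra.lift O (Module.End O M) G ρ).toRingHom

lemma smul_def (b : MonoidAlgebra O G) (x : M) :
    b • toRep ρ x = toRep ρ (MonoidAlgebra.lift O (Module.End O M) G ρ b x) := rfl

lemma of_smul (g : G) (x : M) :
    MonoidAlgebra.of O G g • toRep ρ x = toRep ρ (ρ g x) := by
  rw [smul_def, MonoidAlgebra.lift_of]

lemma algebraMap_smul' (a : O) (x : M) :
    algebraMap O (MonoidAlgebra O G) a • toRep ρ x = toRep ρ (a • x) := by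
  rw [smul_def, AlgHom.commutes, Module.algebraMap_end_apply]

instance : IsScalarTower O (MonoidAlgebra O G) (RepMod ρ) :=
  ⟨fun a b x => by
    obtain ⟨x, rfl⟩ := (toRep ρ).surjective x
    rw [smul_def, smul_def, map_smul, LinearMap.smul_apply, map_smul]⟩

instance [Module.Finite O M] : Module.Finite O (RepMod ρ) := inferInstanceAs (Module.Finite O M)
instance [Module.Free O M] : Module.Free O (RepMod ρ) := inferInstanceAs (Module.Free O M)
instance [Module.IsTorsionFree O M] : Module.IsTorsionFree O (RepMod ρ) :=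
  inferInstanceAs (Module.IsTorsionFree O M)

/-- An `O`-linear map commuting with the group elements is `O[G]`-linear. -/
def linearOfEquivariant {X Y : Type*} [AddCommGroup X] [AddCommGroup Y] [Module O X] [Module O Y]
    [Module (MonoidAlgebra O G) X] [Module (MonoidAlgebra O G) Y]
    [IsScalarTower O (MonoidAlgebra O G) X] [IsScalarTower O (MonoidAlgebra O G) Y]
    (φ : X →ₗ[O] Y)
    (h : ∀ (g : G) (x : X), φ (MonoidAlgebra.of O G g • x) = MonoidAlgebra.of O G g • φ x) :
    X →ₗ[MonoidAlgebra O G] Y where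
  toFun := φ
  map_add' := φ.map_add
  map_smul' := fun b x => by
    simp only [RingHom.id_apply]
    induction b using MonoidAlgebra.induction_on with
    | of g => exact h g x
    | add b b' hb hb' => rw [add_smul, map_add, hb, hb', add_smul]
    | smul r b hb => rw [smul_assoc, map_smul, hb, smul_assoc]

@[simp] lemma linearOfEquivariant_apply {X Y : Type*} [AddCommGroup X] [AddCommGroup Y]
    [Module O X] [Module O Y]
    [Module (MonoidAlgebra O G) X] [Module (MonoidAlgebra O G) Y]
    [IsScalarTower O (MonoidAlgebra O G) X] [IsScalarTower O (MonoidAlgebra O G) Y]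
    (φ : X →ₗ[O] Y)
    (h : ∀ (g : G) (x : X), φ (MonoidAlgebra.of O G g • x) = MonoidAlgebra.of O G g • φ x)
    (x : X) : linearOfEquivariant φ h x = φ x := rfl

end Synonym

section Wrapper

universe v w uι

variable {O : Type*} [CommRing O] {G : Type*} [Monoid G]

/-- The family of elements `g - a` of `O[G]` attached to a set of pairs `(g, a)`. -/
def famOf (W : Set (G × O)) : Set (MonoidAlgebra O G) :=
  {u | ∃ w ∈ W, u = MonoidAlgebra.of O G w.1 - algebraMap O (MonoidAlgebra O G) w.2}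

variable {M : Type*} [AddCommGroup M] [Module O M] (ρ : G →* Module.End O M)

lemma fam_smul (g : G) (a : O) (x : M) :
    (MonoidAlgebra.of O G g - algebraMap O (MonoidAlgebra O G) a) • toRep ρ x =
      toRep ρ (ρ g x - a • x) := by
  rw [sub_smul, of_smul, algebraMap_smul', map_sub]

/-- An `O`-endomorphism commuting with `ρ`, as an `O[G]`-endomorphism. -/
noncomputable def tRep (t : Module.End O M) (ht : ∀ g, Commute (ρ g) t) :
    Module.End (MonoidAlgebra O G) (RepMod ρ) :=
  linearOfEquivariant ((toRep ρ).toLinearMap.comp (t.comp (toRep ρ).symm.toLinearMap))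
    (fun g x => by
      obtain ⟨x, rfl⟩ := (toRep ρ).surjective x
      rw [of_smul]
      simp only [LinearMap.comp_apply, LinearEquiv.coe_coe, LinearEquiv.symm_apply_apply]
      rw [of_smul, commute_apply (𝔸 := O) (ht g)])

lemma tRep_apply (t : Module.End O M) (ht : ∀ g, Commute (ρ g) t) (x : M) :
    tRep ρ t ht (toRep ρ x) = toRep ρ (t x) := rfl

lemma tRep_sub_smul_apply (t : Module.End O M) (ht : ∀ g, Commute (ρ g) t) (a : O) (x : M) :
    (tRep ρ t ht - a • (1 : Module.End (MonoidAlgebra O G) (RepMod ρ))) (toRep ρ x) =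
      toRep ρ ((t - a • (1 : Module.End O M)) x) := by
  rw [sub_smul_one_apply, sub_smul_one_apply (𝔸 := O), tRep_apply, map_sub, map_smul]

lemma prod_tRep_apply (t : Module.End O M) (ht : ∀ g, Commute (ρ g) t) (s : List O) (x : M) :
    (s.map fun a => tRep ρ t ht - a • (1 : Module.End (MonoidAlgebra O G) (RepMod ρ))).prod
        (toRep ρ x) =
      toRep ρ ((s.map fun a => t - a • (1 : Module.End O M)).prod x) := by
  induction s with
  | nil => rfl
  | cons a s ih =>
    rw [List.map_cons, List.prod_cons, List.map_cons, List.prod_cons, Module.End.mul_apply,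
      Module.End.mul_apply, ih, tRep_sub_smul_apply]

lemma mem_eigen_tRep {ι : Type*} (t : ι → Module.End O M) (ht : ∀ g i, Commute (ρ g) (t i))
    (c : ι → O) (x : M) :
    toRep ρ x ∈ eigen (fun i => tRep ρ (t i) (fun g => ht g i)) c ↔ x ∈ eigen (𝔸 := O) t c := by
  rw [mem_eigen, mem_eigen]
  refine forall_congr' fun i => ?_
  rw [tRep_apply, ← map_smul, (toRep ρ).injective.eq_iff]

end Wrapper

section Bridge

variable {O : Type*} [CommRing O] {G : Type*} [Monoid G]
  {M : Type*} [AddCommGroup M] [Module O M] (ρ : G →* Module.End O M)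

/-- The reduction modulo `π` of `RepMod ρ` is the reduction modulo `π` of `M`. -/
noncomputable def quotEquiv (π : O) :
    (RepMod ρ ⧸ piSub (MonoidAlgebra O G) (RepMod ρ) π) ≃ₗ[O] (M ⧸ piSub O M π) :=
  (Submodule.Quotient.restrictScalarsEquiv O (piSub (MonoidAlgebra O G) (RepMod ρ) π)).symm ≪≫ₗ
    Submodule.Quotient.equiv _ (piSub O M π) (toRep ρ).symm (by
      ext y
      constructor
      · rintro ⟨x, hx, rfl⟩
        obtain ⟨z, rfl⟩ := mem_piSub.mp hx
        exact mem_piSub.mpr ⟨(toRep ρ).symm z, (map_smul _ _ _).symm⟩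
      · intro hy
        obtain ⟨z, rfl⟩ := mem_piSub.mp hy
        exact ⟨toRep ρ (π • z), mem_piSub.mpr ⟨toRep ρ z, (map_smul _ _ _).symm⟩,
          (toRep ρ).symm_apply_apply _⟩)

lemma quotEquiv_mk (π : O) (x : M) :
    quotEquiv ρ π (Submodule.Quotient.mk (toRep ρ x)) = Submodule.Quotient.mk x := by
  unfold quotEquiv
  rw [LinearEquiv.trans_apply, Submodule.Quotient.restrictScalarsEquiv_symm_mk,
    Submodule.Quotient.equiv_apply, Submodule.mapQ_apply]
  rfl

/-- The elementary description of the kernel count. -/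
theorem kc_eq (W : Set (G × O)) (π : O) :
    kc (RepMod ρ) (famOf W) π =
      Nat.card {x : M ⧸ piSub O M π // ∀ w ∈ W, ∃ y : M, Submodule.Quotient.mk y = x ∧
        (Submodule.Quotient.mk (ρ w.1 y) : M ⧸ piSub O M π) = w.2 • x} := by
  unfold kc
  refine Nat.card_congr ((quotEquiv ρ π).toEquiv.subtypeEquiv ?_)
  intro x
  obtain ⟨x, rfl⟩ := Submodule.Quotient.mk_surjective _ x
  obtain ⟨x, rfl⟩ := (toRep ρ).surjective x
  change _ ↔ ∀ w ∈ W, ∃ y : M, Submodule.Quotient.mk y =
      quotEquiv ρ π (Submodule.Quotient.mk (toRep ρ x)) ∧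
      (Submodule.Quotient.mk (ρ w.1 y) : M ⧸ piSub O M π) =
        w.2 • quotEquiv ρ π (Submodule.Quotient.mk (toRep ρ x))
  rw [quotEquiv_mk, mem_uKer]
  constructor
  · intro h w hw
    refine ⟨x, rfl, ?_⟩
    have h1 := h _ ⟨w, hw, rfl⟩
    rw [← Submodule.Quotient.mk_smul, fam_smul] at h1
    have h2 := congrArg (quotEquiv ρ π) h1
    rw [quotEquiv_mk, map_zero, Submodule.Quotient.mk_sub, Submodule.Quotient.mk_smul,
      sub_eq_zero] at h2
    exact h2
  · rintro h u ⟨w, hw, rfl⟩
    obtain ⟨y, hy, hy2⟩ := h w hw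
    have h1 : (Submodule.Quotient.mk (toRep ρ x) :
        RepMod ρ ⧸ piSub (MonoidAlgebra O G) (RepMod ρ) π) = Submodule.Quotient.mk (toRep ρ y) := by
      apply (quotEquiv ρ π).injective
      rw [quotEquiv_mk, quotEquiv_mk, hy]
    rw [h1, ← Submodule.Quotient.mk_smul, fam_smul]
    apply (quotEquiv ρ π).injective
    rw [quotEquiv_mk, map_zero, Submodule.Quotient.mk_sub, Submodule.Quotient.mk_smul, hy2, hy,
      sub_self]

theorem qc_eq (π : O) :
    qc (MonoidAlgebra O G) (RepMod ρ) π = Nat.card (M ⧸ piSub O M π) :=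
  Nat.card_congr (quotEquiv ρ π).toEquiv

end Bridge

section MainThm

universe v w uι

variable {O : Type*} [CommRing O] [IsDomain O] [IsPrincipalIdealRing O] {G : Type*} [Monoid G]

/-- **The half bound in elementary terms.** -/
theorem halfBound_rep {ϖ : O} (hϖ : ϖ ≠ 0)
    (hO : ∀ a : O, a ≠ 0 → Finite (O ⧸ Ideal.span {a})) (W : Set (G × O)) {ι : Type uι}
    (Pc : (ι → O) → Prop)
    (Rc : (ι → O) → Type w) [∀ c, AddCommGroup (Rc c)] [∀ c, Module O (Rc c)]
    [∀ c, Module.Free O (Rc c)] [∀ c, Module.Finite O (Rc c)]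
    (ρc : ∀ c, G →* Module.End O (Rc c))
    (hR : ∀ c, Pc c → Module.finrank O (Rc c) ≤ 2)
    (hu : ∀ c, Pc c → ∀ S : Submodule O (Rc c), (∀ g, ∀ x ∈ S, ρc c g x ∈ S) → S ≠ ⊥ →
      ∃ w ∈ W, ∃ x ∈ S, ρc c w.1 x ≠ w.2 • x)
    (Λ : Type v) [AddCommGroup Λ] [Module O Λ] [Module.Finite O Λ] [Module.IsTorsionFree O Λ]
    (ρ : G →* Module.End O Λ) (t : ι → Module.End O Λ)
    (hcomm : ∀ i j, Commute (t i) (t j)) (hρt : ∀ g i, Commute (ρ g) (t i))
    (hsplit : ∀ i, ∃ s : List O, (s.map fun a => t i - a • (1 : Module.End O Λ)).prod = 0)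
    (hocc : ∀ c, (∃ x : Λ, x ≠ 0 ∧ ∀ i, t i x = c i • x) → Pc c)
    (hemb : ∀ c, Pc c → ∃ (κ : Type uι) (j : ↥(eigen (𝔸 := O) t c) →ₗ[O] (κ → Rc c)),
      Injective j ∧ ∀ (g : G) (x y : ↥(eigen (𝔸 := O) t c)), (y : Λ) = ρ g (x : Λ) →
        ∀ k, j y k = ρc c g (j x k)) :
    ∃ C : ℕ, ∀ k : ℕ,
      Nat.card {x : Λ ⧸ piSub O Λ (ϖ ^ k) // ∀ w ∈ W, ∃ y : Λ, Submodule.Quotient.mk y = x ∧
        (Submodule.Quotient.mk (ρ w.1 y) : Λ ⧸ piSub O Λ (ϖ ^ k)) = w.2 • x} ^ 2 ≤
      C * Nat.card (Λ ⧸ piSub O Λ (ϖ ^ k)) := by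
  have hmain : HalfBound ϖ (famOf W) (RepMod ρ) := by
    refine halfBound_of_eigen hϖ hO (famOf W) Pc (fun c => RepMod (ρc c)) hR ?_ (RepMod ρ)
      (fun i => tRep ρ (t i) (fun g => hρt g i)) ?_ ?_ ?_ ?_
    · -- the rank-two pieces
      intro c hc S hS
      let S' : Submodule O (Rc c) :=
        (S.restrictScalars O).map (toRep (ρc c)).symm.toLinearMap
      have hS'mem : ∀ x : Rc c, x ∈ S' ↔ toRep (ρc c) x ∈ S := by
        intro x
        constructor
        · rintro ⟨y, hy, rfl⟩
          rw [LinearEquiv.coe_coe, LinearEquiv.apply_symm_apply]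
          exact hy
        · intro hx
          exact ⟨toRep (ρc c) x, hx, (toRep (ρc c)).symm_apply_apply x⟩
      have hst : ∀ g, ∀ x ∈ S', ρc c g x ∈ S' := by
        intro g x hx
        rw [hS'mem] at hx ⊢
        rw [← of_smul]
        exact S.smul_mem _ hx
      have hne : S' ≠ ⊥ := by
        intro h
        apply hS
        rw [eq_bot_iff]
        intro x hx
        obtain ⟨x, rfl⟩ := (toRep (ρc c)).surjective x
        have h1 : x ∈ S' := (hS'mem x).mpr hx
        rw [h, Submodule.mem_bot] at h1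
        rw [h1, map_zero]
        exact Submodule.zero_mem _
      obtain ⟨w, hw, x, hx, hne'⟩ := hu c hc S' hst hne
      refine ⟨_, ⟨w, hw, rfl⟩, toRep (ρc c) x, (hS'mem x).mp hx, ?_⟩
      rw [fam_smul]
      intro h
      apply hne'
      have h2 := (toRep (ρc c)).injective (h.trans (map_zero _).symm)
      exact sub_eq_zero.mp h2
    · -- commutation
      intro i j
      refine LinearMap.ext fun x => ?_
      obtain ⟨x, rfl⟩ := (toRep ρ).surjective x
      change tRep ρ (t i) (fun g => hρt g i) (tRep ρ (t j) (fun g => hρt g j) (toRep ρ x)) =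
        tRep ρ (t j) (fun g => hρt g j) (tRep ρ (t i) (fun g => hρt g i) (toRep ρ x))
      rw [tRep_apply, tRep_apply, tRep_apply, tRep_apply, commute_apply (𝔸 := O) (hcomm i j)]
    · -- splitting
      intro i
      obtain ⟨s, hs⟩ := hsplit i
      refine ⟨s, fun x => ?_⟩
      obtain ⟨x, rfl⟩ := (toRep ρ).surjective x
      rw [prod_tRep_apply, hs, LinearMap.zero_apply, map_zero]
    · -- occurring eigen-systems
      intro c hc
      obtain ⟨x, hx, hx0⟩ := (Submodule.ne_bot_iff _).mp hc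
      obtain ⟨x, rfl⟩ := (toRep ρ).surjective x
      refine hocc c ⟨x, fun h => hx0 (by rw [h, map_zero]), ?_⟩
      exact (mem_eigen_tRep ρ t hρt c x).mp hx
    · -- the embeddings
      intro c hc
      obtain ⟨κ, j, hj, hjeq⟩ := hemb c hc
      -- the `O`-linear identification of the eigenlattices
      let e : ↥(eigen (fun i => tRep ρ (t i) (fun g => hρt g i)) c) →ₗ[O] ↥(eigen (𝔸 := O) t c) :=
        { toFun := fun x => ⟨(toRep ρ).symm x.1, by
            have h1 := x.2
            rw [← (toRep ρ).apply_symm_apply x.1, mem_eigen_tRep] at h1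
            exact h1⟩
          map_add' := fun x y => Subtype.ext (map_add _ _ _)
          map_smul' := fun a x => Subtype.ext (map_smul _ _ _) }
      have he : ∀ x, ((e x : ↥(eigen (𝔸 := O) t c)) : Λ) = (toRep ρ).symm x.1 := fun _ => rfl
      have heinj : Injective e := by
        intro x y hxy
        have h1 := congrArg Subtype.val hxy
        rw [he, he] at h1
        exact Subtype.ext ((toRep ρ).symm.injective h1)
      let φ : ↥(eigen (fun i => tRep ρ (t i) (fun g => hρt g i)) c) →ₗ[O] (κ → RepMod (ρc c)) :=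
        (LinearMap.pi fun k => (toRep (ρc c)).toLinearMap.comp (LinearMap.proj k)).comp (j.comp e)
      have hφ : ∀ x k, φ x k = toRep (ρc c) (j (e x) k) := fun _ _ => rfl
      refine ⟨κ, linearOfEquivariant φ ?_, ?_⟩
      · intro g x
        funext k
        rw [Pi.smul_apply, hφ, hφ, of_smul]
        congr 1
        refine hjeq g (e x) (e (MonoidAlgebra.of O G g • x)) ?_ k
        rw [he, he]
        obtain ⟨x, hx⟩ := x
        obtain ⟨x, rfl⟩ := (toRep ρ).surjective x
        change (toRep ρ).symm (MonoidAlgebra.of O G g • toRep ρ x) = _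
        rw [of_smul, LinearEquiv.symm_apply_apply, LinearEquiv.symm_apply_apply]
      · intro x y hxy
        apply heinj
        apply hj
        funext k
        have h1 := congrFun hxy k
        rw [linearOfEquivariant_apply, linearOfEquivariant_apply, hφ, hφ] at h1
        exact (toRep (ρc c)).injective h1
  obtain ⟨C, hC⟩ := hmain
  refine ⟨C, fun k => ?_⟩
  have h1 := hC k
  rw [kc_eq, qc_eq] at h1
  exact h1

/-- The restriction of `ρ` to a common eigenlattice of operators commuting with `ρ`. -/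
def restrictEigen {ι : Type*} {Λ : Type*} [AddCommGroup Λ] [Module O Λ]
    (ρ : G →* Module.End O Λ) (t : ι → Module.End O Λ) (hρt : ∀ g i, Commute (ρ g) (t i))
    (c : ι → O) : G →* Module.End O ↥(eigen (𝔸 := O) t c) where
  toFun g := (ρ g).restrict fun _ hx => map_mem_eigen (𝔸 := O) (fun i => (hρt g i).symm) hx
  map_one' := by
    ext v
    simp
  map_mul' g h := by
    ext v
    simp [Module.End.mul_apply]

lemma restrictEigen_apply {ι : Type*} {Λ : Type*} [AddCommGroup Λ] [Module O Λ]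
    (ρ : G →* Module.End O Λ) (t : ι → Module.End O Λ) (hρt : ∀ g i, Commute (ρ g) (t i))
    (c : ι → O) (g : G) (x : ↥(eigen (𝔸 := O) t c)) :
    ((restrictEigen ρ t hρt c g x : ↥(eigen (𝔸 := O) t c)) : Λ) = ρ g (x : Λ) := rfl

/-- **The half bound in elementary terms, with the eigenlattices of `Λ` itself as pieces.**
`hpiece`: for every eigen-system `c` occurring in `Λ`, the eigenlattice `Λ[c]` has rank `≤ 2` and
no nonzero `ρ`-stable submodule `S ≤ Λ[c]` satisfies `ρ g x = a • x` for all `(g, a) ∈ W`,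
`x ∈ S`. -/
theorem halfBound_rep_self {ϖ : O} (hϖ : ϖ ≠ 0)
    (hO : ∀ a : O, a ≠ 0 → Finite (O ⧸ Ideal.span {a})) (W : Set (G × O)) {ι : Type uι}
    (Λ : Type v) [AddCommGroup Λ] [Module O Λ] [Module.Finite O Λ] [Module.IsTorsionFree O Λ]
    (ρ : G →* Module.End O Λ) (t : ι → Module.End O Λ)
    (hcomm : ∀ i j, Commute (t i) (t j)) (hρt : ∀ g i, Commute (ρ g) (t i))
    (hsplit : ∀ i, ∃ s : List O, (s.map fun a => t i - a • (1 : Module.End O Λ)).prod = 0)
    (hpiece : ∀ c : ι → O, (∃ x : Λ, x ≠ 0 ∧ ∀ i, t i x = c i • x) →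
      Module.finrank O ↥(eigen (𝔸 := O) t c) ≤ 2 ∧
      ∀ S : Submodule O Λ, S ≤ eigen (𝔸 := O) t c → (∀ g, ∀ x ∈ S, ρ g x ∈ S) → S ≠ ⊥ →
        ∃ w ∈ W, ∃ x ∈ S, ρ w.1 x ≠ w.2 • x) :
    ∃ C : ℕ, ∀ k : ℕ,
      Nat.card {x : Λ ⧸ piSub O Λ (ϖ ^ k) // ∀ w ∈ W, ∃ y : Λ, Submodule.Quotient.mk y = x ∧
        (Submodule.Quotient.mk (ρ w.1 y) : Λ ⧸ piSub O Λ (ϖ ^ k)) = w.2 • x} ^ 2 ≤
      C * Nat.card (Λ ⧸ piSub O Λ (ϖ ^ k)) := by
  have : IsNoetherian O Λ := inferInstance
  have hfin : ∀ c : ι → O, Module.Finite O ↥(eigen (𝔸 := O) t c) := fun c => inferInstance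
  have htf : ∀ c : ι → O, Module.IsTorsionFree O ↥(eigen (𝔸 := O) t c) := fun c =>
    Function.Injective.moduleIsTorsionFree (eigen (𝔸 := O) t c).subtype Subtype.val_injective
      (fun _ _ => rfl)
  have hfree : ∀ c : ι → O, Module.Free O ↥(eigen (𝔸 := O) t c) := fun c =>
    Module.free_of_finite_type_torsion_free'
  refine halfBound_rep hϖ hO W (fun c => ∃ x : Λ, x ≠ 0 ∧ ∀ i, t i x = c i • x)
    (fun c => ↥(eigen (𝔸 := O) t c)) (fun c => restrictEigen ρ t hρt c)
    (fun c hc => (hpiece c hc).1) ?_ Λ ρ t hcomm hρt hsplit (fun c hc => hc) ?_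
  · intro c hc S hst hne
    let S' : Submodule O Λ := S.map (eigen (𝔸 := O) t c).subtype
    have hS'le : S' ≤ eigen (𝔸 := O) t c := by
      rintro _ ⟨x, -, rfl⟩
      exact x.2
    have hS'st : ∀ g, ∀ x ∈ S', ρ g x ∈ S' := by
      rintro g _ ⟨x, hx, rfl⟩
      exact ⟨restrictEigen ρ t hρt c g x, hst g x hx, rfl⟩
    have hS'ne : S' ≠ ⊥ := by
      intro h
      apply hne
      rw [eq_bot_iff]
      intro x hx
      have h1 : (x : Λ) ∈ S' := ⟨x, hx, rfl⟩
      rw [h, Submodule.mem_bot] at h1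
      rw [Submodule.mem_bot]
      exact Subtype.ext h1
    obtain ⟨w, hw, _, ⟨x, hx, rfl⟩, hxne⟩ := (hpiece c hc).2 S' hS'le hS'st hS'ne
    refine ⟨w, hw, x, hx, fun h => hxne ?_⟩
    have h1 := congrArg Subtype.val h
    exact h1
  · intro c _
    refine ⟨PUnit, LinearMap.pi fun _ => LinearMap.id, ?_, ?_⟩
    · intro x y hxy
      exact congrFun hxy PUnit.unit
    · intro g x y hxy k
      apply Subtype.ext
      exact hxy

end MainThm

end Fermat.Agent.S15.Struct.Rep
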