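/-
PROJECT M (S15), block [S], leaf (S-g)-FIN (helper21): THE FINITE-LEVEL LITERALS `hinv` AND `hhalf`
FOR `Gk N P k S` FROM A HALF BOUND ON `O ⊗ T`, `T` ANY `ℤ_[P]`-LATTICE WITH LEVEL MAPS ONTO `Gk`.

`T` is a `ℤ_[P]`-module with `lev : T →+ Gk N P k S` surjective, kernel `P ^ k T`, equivariant for
`ρT : GQ → T →ₗ[ℤ_[P]] T` (think helper7's `TeisSub`, `level k`); `O` a finite free nonzero
`ℤ_[P]`-algebra; `q : O ⊗ T →+ Q` any surjection with kernel `P ^ k (O ⊗ T)`.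

* `card_invN_sq_le`  : `#{x ∈ Q | I_N fixes x} ^ 2 ≤ C * #Q` gives
                       `Nat.card ↥(invN N (Gk N P k S)) ^ 2 ≤ C ^ 2 * Nat.card (Gk N P k S)`;
* `card_G0red_sq_le` : `#{x ∈ Q | τ x = cyc τ • x, τ ∈ I_P} ^ 2 ≤ C * #Q` and (Q5a)
                       (`ρ τ a = cycExp P k τ • a` on `G0red`) give
                       `Nat.card ↥(G0red N P k S) ^ 2 ≤ C ^ 2 * Nat.card (Gk N P k S)`.
-/
import Fermat.Agent.S15.Struct.FinLevel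
import Fermat.Agent.S15.K.Ord
import Fermat.Agent.S15.LocalN.Relax
import Fermat.Agent.S15.P.CycAct

set_option autoImplicit false
set_option synthInstance.maxHeartbeats 400000

namespace Fermat.Agent.S15.Struct.FinLevelGk

open Function TensorProduct
open Fermat.Agent.S56.Coh Fermat.Agent.CFT.LC Fermat.Agent.CFT.Bridge Fermat.Agent.CFT.LocalBridge
open Fermat.Agent.S15.K.Star Fermat.Agent.S15.K.Ord Fermat.Agent.S15.K.Count
open Fermat.Agent.S15.LocalN.Relax Fermat.Agent.S15.P.CycAct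

variable {N : ℕ} [NeZero N] {P : ℕ} [hP : Fact P.Prime] {S : Set ℕ} {k : ℕ} {T : Type*}
  [AddCommGroup T] [Module ℤ_[P] T] {O : Type*} [CommRing O] [Algebra ℤ_[P] O]
  [Module.Free ℤ_[P] O] [Module.Finite ℤ_[P] O] [Nontrivial O]

/-- `C ≤ C ^ 2`. -/
theorem le_sq (C : ℕ) : C ≤ C ^ 2 := by
  rw [sq]
  exact Nat.le_mul_self C

/-- the exponent of helper16's `cycExp` is the `k`-th approximation of the `P`-adic cyclotomic
character -/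
theorem cycExp_eq_appr (s : GQ) :
    cycExp P k s =
      (((Fermat.Agent.S30.Algebra.Cyclotomic.cyc P s : ℤ_[P]ˣ) : ℤ_[P])).appr k := by
  change (((((Fermat.Agent.S30.Algebra.Cyclotomic.cyc P s : ℤ_[P]ˣ) : ℤ_[P])).appr k : ℕ) :
    ZMod (P ^ k)).val = _
  rw [ZMod.val_natCast]
  exact Nat.mod_eq_of_lt (PadicInt.appr_lt _ k)

/-- **(hinv) at level `k`.** -/
theorem card_invN_sq_le [Fact N.Prime] (lev : T →+ Gk N P k S) (hlev : Surjective lev)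
    (hker : ∀ t, lev t = 0 ↔ ∃ s, t = (P : ℤ_[P]) ^ k • s) (ρT : GQ → T →ₗ[ℤ_[P]] T)
    (hρ : ∀ g t, lev (ρT g t) = (Gk N P k S).ρ g (lev t))
    (ρΛ : GQ → O ⊗[ℤ_[P]] T →+ O ⊗[ℤ_[P]] T) (hρΛ : ∀ g o t, ρΛ g (o ⊗ₜ t) = o ⊗ₜ ρT g t)
    {Q : Type*} [AddCommGroup Q] (q : O ⊗[ℤ_[P]] T →+ Q) (hq : Surjective q)
    (hqker : ∀ x, q x = 0 ↔ ∃ y : O ⊗[ℤ_[P]] T, x = (P : O) ^ k • y) (pQ : Q → Prop)
    (hpQ : ∀ x, pQ (q x) ↔ ∀ s ∈ Iq N, q (ρΛ s x - x) = 0) {C : ℕ}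
    (hC : Nat.card {x // pQ x} ^ 2 ≤ C * Nat.card Q) :
    Nat.card ↥(invN N (Gk N P k S)) ^ 2 ≤ C ^ 2 * Nat.card (Gk N P k S) := by
  have : NeZero (P ^ k) := ⟨pow_ne_zero k hP.out.ne_zero⟩
  have : Finite (Gk N P k S) := finite_Gk
  have h1 := Fermat.Agent.S15.Struct.FinLevel.half_inv_free (Z := ℤ_[P]) (O := O) lev
    (π := (P : ℤ_[P]) ^ k) hlev (fun t => (hker t).trans (exists_congr fun _ => eq_comm)) (Iq N : Set GQ) ρT
    (fun g => ((Gk N P k S).ρ g).toAddMonoidHom) hρ ρΛ hρΛ q hq (fun x => ?_) pQ hpQ hC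
  · exact h1.trans (Nat.mul_le_mul_right _ (le_sq C))
  · rw [hqker, map_pow, map_natCast]
    exact exists_congr fun _ => eq_comm

/-- **(hhalf) at level `k`.** -/
theorem card_G0red_sq_le (lev : T →+ Gk N P k S) (hlev : Surjective lev)
    (hker : ∀ t, lev t = 0 ↔ ∃ s, t = (P : ℤ_[P]) ^ k • s) (ρT : GQ → T →ₗ[ℤ_[P]] T)
    (hρ : ∀ g t, lev (ρT g t) = (Gk N P k S).ρ g (lev t))
    (hsc : ∀ (a : ℤ_[P]) t, lev (a • t) = a.appr k • lev t)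
    (ρΛ : GQ → O ⊗[ℤ_[P]] T →+ O ⊗[ℤ_[P]] T) (hρΛ : ∀ g o t, ρΛ g (o ⊗ₜ t) = o ⊗ₜ ρT g t)
    {Q : Type*} [AddCommGroup Q] (q : O ⊗[ℤ_[P]] T →+ Q) (hq : Surjective q)
    (hqker : ∀ x, q x = 0 ↔ ∃ y : O ⊗[ℤ_[P]] T, x = (P : O) ^ k • y) (pQ : Q → Prop)
    (hpQ : ∀ x, pQ (q x) ↔ ∀ s ∈ Iq P,
      q (ρΛ s x - algebraMap ℤ_[P] O
        (((Fermat.Agent.S30.Algebra.Cyclotomic.cyc P s : ℤ_[P]ˣ) : ℤ_[P])) • x) = 0) {C : ℕ}
    (hC : Nat.card {x // pQ x} ^ 2 ≤ C * Nat.card Q)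
    (hQ5a : ∀ s ∈ Iq P, ∀ a ∈ G0red N P k S, (Gk N P k S).ρ s a = cycExp P k s • a) :
    Nat.card ↥(G0red N P k S) ^ 2 ≤ C ^ 2 * Nat.card (Gk N P k S) := by
  have : NeZero (P ^ k) := ⟨pow_ne_zero k hP.out.ne_zero⟩
  have : Finite (Gk N P k S) := finite_Gk
  have h1 := Fermat.Agent.S15.Struct.FinLevel.half_sub_free (Z := ℤ_[P]) (O := O) lev
    (π := (P : ℤ_[P]) ^ k) hlev (fun t => (hker t).trans (exists_congr fun _ => eq_comm)) (Iq P : Set GQ)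
    (fun s => (((Fermat.Agent.S30.Algebra.Cyclotomic.cyc P s : ℤ_[P]ˣ) : ℤ_[P]))) ρT
    (fun g => ((Gk N P k S).ρ g).toAddMonoidHom)
    (fun a => (a.appr k) • AddMonoidHom.id (Gk N P k S)) hρ hsc ρΛ hρΛ q hq (fun x => ?_) pQ hpQ
    hC (G0red N P k S).toAddSubgroup (fun s hs y hy => ?_)
  · exact h1.trans (Nat.mul_le_mul_right _ (le_sq C))
  · rw [hqker, map_pow, map_natCast]
    exact exists_congr fun _ => eq_comm
  · rw [AddMonoidHom.smul_apply, AddMonoidHom.id_apply, ← cycExp_eq_appr]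
    exact hQ5a s hs y hy

end Fermat.Agent.S15.Struct.FinLevelGk
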