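/-
PROJECT M (S15), block [S], leaf (S-g)-FIN (helper21): `hinv` AND `hhalf` FOR `Gk N P k S` FROM THE
CONCLUSION OF THE CHIEF'S `Struct/Rep.halfBound_rep` ON `Λ = O ⊗[ℤ_[P]] TeisSub N P S`.

`O` a finite free nonzero `ℤ_[P]`-algebra, `Λ = O ⊗[ℤ_[P]] ↥(TeisSub N P S)` (helper7's Tate module
of the Eisenstein part), `ρ : GQ →* Module.End O Λ` with `ρ g (o ⊗ t) = o ⊗ rhoT g t`.

* `WN N O`, `WP P O` : the sets of pairs `(s, 1)`, `s ∈ I_N`, and `(τ, cyc τ)`, `τ ∈ I_P`, to be fed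
  to `halfBound_rep` as `W`;
* `hinv_of_rep`  : the conclusion of `halfBound_rep` for `W = WN N O`, `ϖ = (P : O)` gives
  `∀ k, Nat.card ↥(invN N (Gk N P k S)) ^ 2 ≤ C ^ 2 * Nat.card (Gk N P k S)`;
* `hhalf_of_rep` : the conclusion of `halfBound_rep` for `W = WP P O`, `ϖ = (P : O)` and (Q5a) give
  `Nat.card ↥(G0red N P k S) ^ 2 ≤ C ^ 2 * Nat.card (Gk N P k S)`.
-/
import Fermat.Agent.S15.Struct.FinLevelGk
import Fermat.Agent.S15.Struct.TateEis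
import Fermat.Agent.S15.Struct.Count

set_option autoImplicit false
set_option synthInstance.maxHeartbeats 400000

namespace Fermat.Agent.S15.Struct.FinLevelMain

open Function TensorProduct AlgebraicCurve ModularCurve
open Fermat.Agent.S56.Coh Fermat.Agent.CFT.LC Fermat.Agent.CFT.Bridge Fermat.Agent.CFT.LocalBridge
open Fermat.Agent.S15.K.Star Fermat.Agent.S15.K.Ord Fermat.Agent.S15.K.Count
open Fermat.Agent.S15.LocalN.Relax Fermat.Agent.S15.P.CycAct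
open Fermat.Agent.S15.Struct.Count Fermat.Agent.S15.Struct.TateEis
open Fermat.Agent.S15.Struct.FinLevelGk

/-! ### The chief's predicate on representatives -/

section Quot

variable {O : Type*} [CommRing O] {Λ : Type*} [AddCommGroup Λ] [Module O Λ] {G : Type*}
  [Monoid G] (ρ : G →* Module.End O Λ) (π : O)

theorem mk_eq_zero_iff (x : Λ) :
    (Submodule.Quotient.mk x : Λ ⧸ piSub O Λ π) = 0 ↔ ∃ y : Λ, x = π • y := by
  rw [Submodule.Quotient.mk_eq_zero, mem_piSub]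
  exact exists_congr fun _ => eq_comm

/-- The kernel predicate of `Struct/Rep.halfBound_rep`, on a representative. -/
theorem rep_pred_iff (W : Set (G × O)) (x : Λ) :
    (∀ w ∈ W, ∃ y : Λ, (Submodule.Quotient.mk y : Λ ⧸ piSub O Λ π) = Submodule.Quotient.mk x ∧
      (Submodule.Quotient.mk (ρ w.1 y) : Λ ⧸ piSub O Λ π) = w.2 • Submodule.Quotient.mk x) ↔
    ∀ w ∈ W, (Submodule.Quotient.mk (ρ w.1 x - w.2 • x) : Λ ⧸ piSub O Λ π) = 0 := by
  refine forall₂_congr fun w _ => ⟨?_, fun h => ⟨x, rfl, ?_⟩⟩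
  · rintro ⟨y, hy, hy2⟩
    have h1 : y - x ∈ piSub O Λ π := (Submodule.Quotient.eq _).1 hy
    obtain ⟨z, hz⟩ := mem_piSub.1 h1
    have h2 : ρ w.1 y - ρ w.1 x ∈ piSub O Λ π := by
      rw [← map_sub, ← hz, map_smul]
      exact smul_mem_piSub π _
    have h3 : (Submodule.Quotient.mk (ρ w.1 y) : Λ ⧸ piSub O Λ π) =
        Submodule.Quotient.mk (ρ w.1 x) := (Submodule.Quotient.eq _).2 h2
    rw [Submodule.Quotient.mk_sub, Submodule.Quotient.mk_smul, ← h3, hy2, sub_self]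
  · rw [Submodule.Quotient.mk_sub, Submodule.Quotient.mk_smul, sub_eq_zero] at h
    exact h

/-- The pairs `(s, 1)`, `s ∈ H`. -/
def pairsOne (O : Type*) [CommRing O] {G : Type*} (H : Set G) : Set (G × O) :=
  {w | w.1 ∈ H ∧ w.2 = 1}

/-- The pairs `(s, c s)`, `s ∈ H`. -/
def pairsChar {O : Type*} {G : Type*} (H : Set G) (c : G → O) : Set (G × O) :=
  {w | w.1 ∈ H ∧ w.2 = c w.1}

theorem rep_pred_one_iff (H : Set G) (x : Λ) :
    (∀ w ∈ pairsOne O H, ∃ y : Λ,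
      (Submodule.Quotient.mk y : Λ ⧸ piSub O Λ π) = Submodule.Quotient.mk x ∧
      (Submodule.Quotient.mk (ρ w.1 y) : Λ ⧸ piSub O Λ π) = w.2 • Submodule.Quotient.mk x) ↔
    ∀ s ∈ H, (Submodule.Quotient.mk (ρ s x - x) : Λ ⧸ piSub O Λ π) = 0 := by
  refine (rep_pred_iff ρ π (pairsOne O H) x).trans ⟨fun h s hs => ?_, fun h w hw => ?_⟩
  · have h1 := h (s, 1) ⟨hs, rfl⟩
    rw [one_smul] at h1
    exact h1
  · obtain ⟨g, a⟩ := w
    obtain ⟨hg, ha⟩ := hw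
    have ha' : a = 1 := ha
    subst ha'
    rw [one_smul]
    exact h g hg

theorem rep_pred_char_iff (H : Set G) (c : G → O) (x : Λ) :
    (∀ w ∈ pairsChar H c, ∃ y : Λ,
      (Submodule.Quotient.mk y : Λ ⧸ piSub O Λ π) = Submodule.Quotient.mk x ∧
      (Submodule.Quotient.mk (ρ w.1 y) : Λ ⧸ piSub O Λ π) = w.2 • Submodule.Quotient.mk x) ↔
    ∀ s ∈ H, (Submodule.Quotient.mk (ρ s x - c s • x) : Λ ⧸ piSub O Λ π) = 0 := by
  refine (rep_pred_iff ρ π (pairsChar H c) x).trans ⟨fun h s hs => ?_, fun h w hw => ?_⟩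
  · exact h (s, c s) ⟨hs, rfl⟩
  · obtain ⟨g, a⟩ := w
    obtain ⟨hg, ha⟩ := hw
    have ha' : a = c g := ha
    subst ha'
    exact h g hg

/-- The `hu` / `hpiece` clause of `Struct/Rep` for `W = pairsOne O H` from its natural form. -/
theorem exists_pairsOne_of {H : Set G} {T : Submodule O Λ}
    (h : ∃ s ∈ H, ∃ x ∈ T, ρ s x ≠ x) :
    ∃ w ∈ pairsOne O H, ∃ x ∈ T, ρ w.1 x ≠ w.2 • x := by
  obtain ⟨s, hs, x, hx, hne⟩ := h
  refine ⟨(s, 1), ⟨hs, rfl⟩, x, hx, ?_⟩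
  rw [one_smul]
  exact hne

/-- The `hu` / `hpiece` clause of `Struct/Rep` for `W = pairsChar H c` from its natural form. -/
theorem exists_pairsChar_of {H : Set G} {c : G → O} {T : Submodule O Λ}
    (h : ∃ s ∈ H, ∃ x ∈ T, ρ s x ≠ c s • x) :
    ∃ w ∈ pairsChar H c, ∃ x ∈ T, ρ w.1 x ≠ w.2 • x := by
  obtain ⟨s, hs, x, hx, hne⟩ := h
  exact ⟨(s, c s), ⟨hs, rfl⟩, x, hx, hne⟩

end Quot

/-! ### The two sets of pairs -/

/-- The pairs `(s, 1)`, `s` in the inertia group at `N`. -/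
def WN (N : ℕ) [Fact N.Prime] (O : Type*) [CommRing O] : Set (GQ × O) :=
  pairsOne O (Iq N : Set GQ)

/-- The pairs `(τ, cyc τ)`, `τ` in the inertia group at `P`. -/
def WP (P : ℕ) [Fact P.Prime] (O : Type*) [CommRing O] [Algebra ℤ_[P] O] : Set (GQ × O) :=
  pairsChar (Iq P : Set GQ) fun s => algebraMap ℤ_[P] O
    (((Fermat.Agent.S30.Algebra.Cyclotomic.cyc P s : ℤ_[P]ˣ) : ℤ_[P]))

/-! ### The finite-level literals -/

variable {N : ℕ} [NeZero N] {P : ℕ} [hP : Fact P.Prime] {S : Set ℕ} {O : Type*} [CommRing O]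
  [Algebra ℤ_[P] O] [Module.Free ℤ_[P] O] [Module.Finite ℤ_[P] O] [Nontrivial O]

/-- **(hinv)** from the conclusion of `halfBound_rep` with `W = WN N O`, `ϖ = (P : O)`. -/
theorem hinv_of_rep [Fact N.Prime]
    (hcomm : ∀ k : ℕ, ∀ r s : Nat.Primes, (r : ℕ) ∉ S → (s : ℕ) ∉ S → ∀ x : JZero N,
      P ^ k • x = 0 → heckeOperatorBar N r (heckeOperatorBar N s x) =
        heckeOperatorBar N s (heckeOperatorBar N r x))
    (ρ : GQ →* Module.End O (O ⊗[ℤ_[P]] ↥(TeisSub N P S)))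
    (hρ : ∀ (g : GQ) (o : O) (t : ↥(TeisSub N P S)), ρ g (o ⊗ₜ t) = o ⊗ₜ rhoT N P S g t) {C : ℕ}
    (k : ℕ)
    (hC : Nat.card {x : (O ⊗[ℤ_[P]] ↥(TeisSub N P S)) ⧸
          piSub O (O ⊗[ℤ_[P]] ↥(TeisSub N P S)) ((P : O) ^ k) //
        ∀ w ∈ WN N O, ∃ y : O ⊗[ℤ_[P]] ↥(TeisSub N P S), Submodule.Quotient.mk y = x ∧
          (Submodule.Quotient.mk (ρ w.1 y) : (O ⊗[ℤ_[P]] ↥(TeisSub N P S)) ⧸
            piSub O (O ⊗[ℤ_[P]] ↥(TeisSub N P S)) ((P : O) ^ k)) = w.2 • x} ^ 2 ≤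
      C * Nat.card ((O ⊗[ℤ_[P]] ↥(TeisSub N P S)) ⧸
        piSub O (O ⊗[ℤ_[P]] ↥(TeisSub N P S)) ((P : O) ^ k))) :
    Nat.card ↥(invN N (Gk N P k S)) ^ 2 ≤ C ^ 2 * Nat.card (Gk N P k S) := by
  exact card_invN_sq_le (level N P S k) (level_surjective N P S hcomm k)
    (level_eq_zero_iff N P S k) (fun g => rhoT N P S g) (level_rhoT N P S k)
    (fun g => (ρ g).toAddMonoidHom) hρ
    (piSub O (O ⊗[ℤ_[P]] ↥(TeisSub N P S)) ((P : O) ^ k)).mkQ.toAddMonoidHom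
    (Submodule.mkQ_surjective _) (fun x => mk_eq_zero_iff _ x) _
    (fun x => rep_pred_one_iff ρ ((P : O) ^ k) (Iq N : Set GQ) x) hC

/-- **(hhalf)** from the conclusion of `halfBound_rep` with `W = WP P O`, `ϖ = (P : O)`, and
(Q5a). -/
theorem hhalf_of_rep
    (hcomm : ∀ k : ℕ, ∀ r s : Nat.Primes, (r : ℕ) ∉ S → (s : ℕ) ∉ S → ∀ x : JZero N,
      P ^ k • x = 0 → heckeOperatorBar N r (heckeOperatorBar N s x) =
        heckeOperatorBar N s (heckeOperatorBar N r x))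
    (ρ : GQ →* Module.End O (O ⊗[ℤ_[P]] ↥(TeisSub N P S)))
    (hρ : ∀ (g : GQ) (o : O) (t : ↥(TeisSub N P S)), ρ g (o ⊗ₜ t) = o ⊗ₜ rhoT N P S g t) {C : ℕ}
    (k : ℕ)
    (hC : Nat.card {x : (O ⊗[ℤ_[P]] ↥(TeisSub N P S)) ⧸
          piSub O (O ⊗[ℤ_[P]] ↥(TeisSub N P S)) ((P : O) ^ k) //
        ∀ w ∈ WP P O, ∃ y : O ⊗[ℤ_[P]] ↥(TeisSub N P S), Submodule.Quotient.mk y = x ∧
          (Submodule.Quotient.mk (ρ w.1 y) : (O ⊗[ℤ_[P]] ↥(TeisSub N P S)) ⧸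
            piSub O (O ⊗[ℤ_[P]] ↥(TeisSub N P S)) ((P : O) ^ k)) = w.2 • x} ^ 2 ≤
      C * Nat.card ((O ⊗[ℤ_[P]] ↥(TeisSub N P S)) ⧸
        piSub O (O ⊗[ℤ_[P]] ↥(TeisSub N P S)) ((P : O) ^ k)))
    (hQ5a : ∀ τ ∈ Iq P, ∀ x ∈ G0red N P k S, (Gk N P k S).ρ τ x = cycExp P k τ • x) :
    Nat.card ↥(G0red N P k S) ^ 2 ≤ C ^ 2 * Nat.card (Gk N P k S) := by
  exact card_G0red_sq_le (level N P S k) (level_surjective N P S hcomm k)
    (level_eq_zero_iff N P S k) (fun g => rhoT N P S g) (level_rhoT N P S k)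
    (fun a t => level_smul N P S k a t) (fun g => (ρ g).toAddMonoidHom) hρ
    (piSub O (O ⊗[ℤ_[P]] ↥(TeisSub N P S)) ((P : O) ^ k)).mkQ.toAddMonoidHom
    (Submodule.mkQ_surjective _) (fun x => mk_eq_zero_iff _ x) _
    (fun x => rep_pred_char_iff ρ ((P : O) ^ k) (Iq P : Set GQ) _ x) hC hQ5a

end Fermat.Agent.S15.Struct.FinLevelMain
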