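/-
PROJECT M (S15), block [S], leaf (S-g)-FIN (helper21): THE SEAM `Struct/Rep.halfBound_rep` →
`Struct/FinLevelMain`, composed: `hinv` and `hhalf` for `Gk N P k S` from the hypotheses of the
chief's `halfBound_rep` / `halfBound_rep_self` on `Λ = O ⊗[ℤ_[P]] ↥(TeisSub N P S)` with `ϖ = (P : O)` and
`W = WN N O` resp. `W = WP P O`.
-/
import Fermat.Agent.S15.Struct.FinLevelMain
import Fermat.Agent.S15.Struct.Rep

set_option autoImplicit false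
set_option synthInstance.maxHeartbeats 400000

namespace Fermat.Agent.S15.Struct.FinLevelRep

open Function TensorProduct AlgebraicCurve ModularCurve
open Fermat.Agent.S56.Coh Fermat.Agent.CFT.LC Fermat.Agent.CFT.Bridge Fermat.Agent.CFT.LocalBridge
open Fermat.Agent.S15.K.Star Fermat.Agent.S15.K.Ord
open Fermat.Agent.S15.LocalN.Relax Fermat.Agent.S15.P.CycAct
open Fermat.Agent.S15.Struct.Count Fermat.Agent.S15.Struct.Eigen Fermat.Agent.S15.Struct.Rep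
open Fermat.Agent.S15.Struct.TateEis Fermat.Agent.S15.Struct.FinLevelMain

universe u w uι

variable {N : ℕ} [NeZero N] {P : ℕ} [hP : Fact P.Prime] {S : Set ℕ} {O : Type u} [CommRing O]
  [IsDomain O] [IsPrincipalIdealRing O] [Algebra ℤ_[P] O] [Module.Free ℤ_[P] O]
  [Module.Finite ℤ_[P] O]

/-- **(hinv) from the hypotheses of `halfBound_rep`**, `W = WN N O`, `ϖ = (P : O)`. -/
theorem hinv_of_pieces [Fact N.Prime]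
    (hcomm : ∀ k : ℕ, ∀ r s : Nat.Primes, (r : ℕ) ∉ S → (s : ℕ) ∉ S → ∀ x : JZero N,
      P ^ k • x = 0 → heckeOperatorBar N r (heckeOperatorBar N s x) =
        heckeOperatorBar N s (heckeOperatorBar N r x))
    (hP0 : (P : O) ≠ 0) (hO : ∀ a : O, a ≠ 0 → Finite (O ⧸ Ideal.span {a})) {ι : Type uι}
    (Pc : (ι → O) → Prop)
    (Rc : (ι → O) → Type w) [∀ c, AddCommGroup (Rc c)] [∀ c, Module O (Rc c)]
    [∀ c, Module.Free O (Rc c)] [∀ c, Module.Finite O (Rc c)]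
    (ρc : ∀ c, GQ →* Module.End O (Rc c))
    (hR : ∀ c, Pc c → Module.finrank O (Rc c) ≤ 2)
    (hu : ∀ c, Pc c → ∀ T : Submodule O (Rc c), (∀ g, ∀ x ∈ T, ρc c g x ∈ T) → T ≠ ⊥ →
      ∃ w ∈ WN N O, ∃ x ∈ T, ρc c w.1 x ≠ w.2 • x)
    (ρ : GQ →* Module.End O (O ⊗[ℤ_[P]] ↥(TeisSub N P S)))
    (hρ : ∀ (g : GQ) (o : O) (t : ↥(TeisSub N P S)), ρ g (o ⊗ₜ t) = o ⊗ₜ rhoT N P S g t)
    (t : ι → Module.End O (O ⊗[ℤ_[P]] ↥(TeisSub N P S)))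
    (htcomm : ∀ i j, Commute (t i) (t j)) (hρt : ∀ g i, Commute (ρ g) (t i))
    (hsplit : ∀ i, ∃ s : List O,
      (s.map fun a => t i - a • (1 : Module.End O (O ⊗[ℤ_[P]] ↥(TeisSub N P S)))).prod = 0)
    (hocc : ∀ c, (∃ x : O ⊗[ℤ_[P]] ↥(TeisSub N P S), x ≠ 0 ∧ ∀ i, t i x = c i • x) → Pc c)
    (hemb : ∀ c, Pc c → ∃ (κ : Type uι) (j : ↥(eigen (𝔸 := O) t c) →ₗ[O] (κ → Rc c)),
      Injective j ∧ ∀ (g : GQ) (x y : ↥(eigen (𝔸 := O) t c)),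
        (y : O ⊗[ℤ_[P]] ↥(TeisSub N P S)) = ρ g (x : O ⊗[ℤ_[P]] ↥(TeisSub N P S)) →
        ∀ k, j y k = ρc c g (j x k)) :
    ∃ n : ℕ, ∀ k : ℕ, Nat.card ↥(invN N (Gk N P k S)) ^ 2 ≤ n ^ 2 * Nat.card (Gk N P k S) := by
  have := finite_Teis N P S
  have := free_Teis N P S
  obtain ⟨C, hC⟩ := halfBound_rep hP0 hO (WN N O) Pc Rc ρc hR hu
    (O ⊗[ℤ_[P]] ↥(TeisSub N P S)) ρ t htcomm hρt hsplit hocc hemb
  exact ⟨C, fun k => hinv_of_rep hcomm ρ hρ k (hC k)⟩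

/-- **(hhalf) from the hypotheses of `halfBound_rep`**, `W = WP P O`, `ϖ = (P : O)`, and (Q5a). -/
theorem hhalf_of_pieces
    (hcomm : ∀ k : ℕ, ∀ r s : Nat.Primes, (r : ℕ) ∉ S → (s : ℕ) ∉ S → ∀ x : JZero N,
      P ^ k • x = 0 → heckeOperatorBar N r (heckeOperatorBar N s x) =
        heckeOperatorBar N s (heckeOperatorBar N r x))
    (hP0 : (P : O) ≠ 0) (hO : ∀ a : O, a ≠ 0 → Finite (O ⧸ Ideal.span {a})) {ι : Type uι}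
    (Pc : (ι → O) → Prop)
    (Rc : (ι → O) → Type w) [∀ c, AddCommGroup (Rc c)] [∀ c, Module O (Rc c)]
    [∀ c, Module.Free O (Rc c)] [∀ c, Module.Finite O (Rc c)]
    (ρc : ∀ c, GQ →* Module.End O (Rc c))
    (hR : ∀ c, Pc c → Module.finrank O (Rc c) ≤ 2)
    (hu : ∀ c, Pc c → ∀ T : Submodule O (Rc c), (∀ g, ∀ x ∈ T, ρc c g x ∈ T) → T ≠ ⊥ →
      ∃ w ∈ WP P O, ∃ x ∈ T, ρc c w.1 x ≠ w.2 • x)
    (ρ : GQ →* Module.End O (O ⊗[ℤ_[P]] ↥(TeisSub N P S)))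
    (hρ : ∀ (g : GQ) (o : O) (t : ↥(TeisSub N P S)), ρ g (o ⊗ₜ t) = o ⊗ₜ rhoT N P S g t)
    (t : ι → Module.End O (O ⊗[ℤ_[P]] ↥(TeisSub N P S)))
    (htcomm : ∀ i j, Commute (t i) (t j)) (hρt : ∀ g i, Commute (ρ g) (t i))
    (hsplit : ∀ i, ∃ s : List O,
      (s.map fun a => t i - a • (1 : Module.End O (O ⊗[ℤ_[P]] ↥(TeisSub N P S)))).prod = 0)
    (hocc : ∀ c, (∃ x : O ⊗[ℤ_[P]] ↥(TeisSub N P S), x ≠ 0 ∧ ∀ i, t i x = c i • x) → Pc c)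
    (hemb : ∀ c, Pc c → ∃ (κ : Type uι) (j : ↥(eigen (𝔸 := O) t c) →ₗ[O] (κ → Rc c)),
      Injective j ∧ ∀ (g : GQ) (x y : ↥(eigen (𝔸 := O) t c)),
        (y : O ⊗[ℤ_[P]] ↥(TeisSub N P S)) = ρ g (x : O ⊗[ℤ_[P]] ↥(TeisSub N P S)) →
        ∀ k, j y k = ρc c g (j x k))
    (hQ5a : ∀ k : ℕ, 0 < k → ∀ τ ∈ Iq P, ∀ x ∈ G0red N P k S,
      (Gk N P k S).ρ τ x = cycExp P k τ • x) :
    ∃ n : ℕ, ∀ k : ℕ, 0 < k →
      Nat.card ↥(G0red N P k S) ^ 2 ≤ n ^ 2 * Nat.card (Gk N P k S) := by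
  have := finite_Teis N P S
  have := free_Teis N P S
  obtain ⟨C, hC⟩ := halfBound_rep hP0 hO (WP P O) Pc Rc ρc hR hu
    (O ⊗[ℤ_[P]] ↥(TeisSub N P S)) ρ t htcomm hρt hsplit hocc hemb
  exact ⟨C, fun k hk => hhalf_of_rep hcomm ρ hρ k (hC k) (hQ5a k hk)⟩

/-- **(hinv) from the hypotheses of `halfBound_rep_self`**, `W = WN N O`, `ϖ = (P : O)`: the
pieces are the eigenlattices of `Λ = O ⊗ TeisSub` itself. -/
theorem hinv_of_piece [Fact N.Prime]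
    (hcomm : ∀ k : ℕ, ∀ r s : Nat.Primes, (r : ℕ) ∉ S → (s : ℕ) ∉ S → ∀ x : JZero N,
      P ^ k • x = 0 → heckeOperatorBar N r (heckeOperatorBar N s x) =
        heckeOperatorBar N s (heckeOperatorBar N r x))
    (hP0 : (P : O) ≠ 0) (hO : ∀ a : O, a ≠ 0 → Finite (O ⧸ Ideal.span {a})) {ι : Type uι}
    (ρ : GQ →* Module.End O (O ⊗[ℤ_[P]] ↥(TeisSub N P S)))
    (hρ : ∀ (g : GQ) (o : O) (t : ↥(TeisSub N P S)), ρ g (o ⊗ₜ t) = o ⊗ₜ rhoT N P S g t)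
    (t : ι → Module.End O (O ⊗[ℤ_[P]] ↥(TeisSub N P S)))
    (htcomm : ∀ i j, Commute (t i) (t j)) (hρt : ∀ g i, Commute (ρ g) (t i))
    (hsplit : ∀ i, ∃ s : List O,
      (s.map fun a => t i - a • (1 : Module.End O (O ⊗[ℤ_[P]] ↥(TeisSub N P S)))).prod = 0)
    (hpiece : ∀ c : ι → O,
      (∃ x : O ⊗[ℤ_[P]] ↥(TeisSub N P S), x ≠ 0 ∧ ∀ i, t i x = c i • x) →
      Module.finrank O ↥(eigen (𝔸 := O) t c) ≤ 2 ∧
      ∀ T : Submodule O (O ⊗[ℤ_[P]] ↥(TeisSub N P S)), T ≤ eigen (𝔸 := O) t c →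
        (∀ g, ∀ x ∈ T, ρ g x ∈ T) → T ≠ ⊥ → ∃ w ∈ WN N O, ∃ x ∈ T, ρ w.1 x ≠ w.2 • x) :
    ∃ n : ℕ, ∀ k : ℕ, Nat.card ↥(invN N (Gk N P k S)) ^ 2 ≤ n ^ 2 * Nat.card (Gk N P k S) := by
  have := finite_Teis N P S
  have := free_Teis N P S
  obtain ⟨C, hC⟩ := halfBound_rep_self hP0 hO (WN N O)
    (O ⊗[ℤ_[P]] ↥(TeisSub N P S)) ρ t htcomm hρt hsplit hpiece
  exact ⟨C, fun k => hinv_of_rep hcomm ρ hρ k (hC k)⟩

/-- **(hhalf) from the hypotheses of `halfBound_rep_self`**, `W = WP P O`, `ϖ = (P : O)`, and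
(Q5a). -/
theorem hhalf_of_piece
    (hcomm : ∀ k : ℕ, ∀ r s : Nat.Primes, (r : ℕ) ∉ S → (s : ℕ) ∉ S → ∀ x : JZero N,
      P ^ k • x = 0 → heckeOperatorBar N r (heckeOperatorBar N s x) =
        heckeOperatorBar N s (heckeOperatorBar N r x))
    (hP0 : (P : O) ≠ 0) (hO : ∀ a : O, a ≠ 0 → Finite (O ⧸ Ideal.span {a})) {ι : Type uι}
    (ρ : GQ →* Module.End O (O ⊗[ℤ_[P]] ↥(TeisSub N P S)))
    (hρ : ∀ (g : GQ) (o : O) (t : ↥(TeisSub N P S)), ρ g (o ⊗ₜ t) = o ⊗ₜ rhoT N P S g t)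
    (t : ι → Module.End O (O ⊗[ℤ_[P]] ↥(TeisSub N P S)))
    (htcomm : ∀ i j, Commute (t i) (t j)) (hρt : ∀ g i, Commute (ρ g) (t i))
    (hsplit : ∀ i, ∃ s : List O,
      (s.map fun a => t i - a • (1 : Module.End O (O ⊗[ℤ_[P]] ↥(TeisSub N P S)))).prod = 0)
    (hpiece : ∀ c : ι → O,
      (∃ x : O ⊗[ℤ_[P]] ↥(TeisSub N P S), x ≠ 0 ∧ ∀ i, t i x = c i • x) →
      Module.finrank O ↥(eigen (𝔸 := O) t c) ≤ 2 ∧
      ∀ T : Submodule O (O ⊗[ℤ_[P]] ↥(TeisSub N P S)), T ≤ eigen (𝔸 := O) t c →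
        (∀ g, ∀ x ∈ T, ρ g x ∈ T) → T ≠ ⊥ → ∃ w ∈ WP P O, ∃ x ∈ T, ρ w.1 x ≠ w.2 • x)
    (hQ5a : ∀ k : ℕ, 0 < k → ∀ τ ∈ Iq P, ∀ x ∈ G0red N P k S,
      (Gk N P k S).ρ τ x = cycExp P k τ • x) :
    ∃ n : ℕ, ∀ k : ℕ, 0 < k →
      Nat.card ↥(G0red N P k S) ^ 2 ≤ n ^ 2 * Nat.card (Gk N P k S) := by
  have := finite_Teis N P S
  have := free_Teis N P S
  obtain ⟨C, hC⟩ := halfBound_rep_self hP0 hO (WP P O)
    (O ⊗[ℤ_[P]] ↥(TeisSub N P S)) ρ t htcomm hρt hsplit hpiece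
  exact ⟨C, fun k hk => hhalf_of_rep hcomm ρ hρ k (hC k) (hQ5a k hk)⟩

end Fermat.Agent.S15.Struct.FinLevelRep
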