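/-
PROJECT M (S15), block [S], TABLE #1 row 13 (helper21): `hinv` AND `hhalf` FOR `Gk N P k S` FROM A
SPLITTING RING `O` AND THE PIECE HYPOTHESES ON `Λ = O ⊗[ℤ_[P]] ↥(TeisSub N P S)`.

`f : ι → Module.End ℤ_[P] ↥(TeisSub N P S)` a pairwise commuting family commuting with `rhoT`
(helper7's `heckeT`), `O` the output of helper24's `(SPLIT)`.  `rhoLam O` is the Galois action on
`Λ`, `opLam O f i` the operators; the chief's `Rep.halfBound_rep_self` and `Struct/FinLevelMain`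
give the finite-level literals of helper28's `D/ToStar` from

* `hsplit` : every `(f i).baseChange O` is killed by a product of `X - a` (row 7);
* `hpiece` : for every eigen-system `c` occurring in `Λ`, `finrank O Λ[c] ≤ 2` (row 8) and no
  nonzero stable `T ≤ Λ[c]` is fixed by `I_N` (row 12), resp. acted on by `I_P` through `cyc`
  (rows 9, 10).
-/
import Fermat.Agent.S15.Struct.FinLevelRep
import Fermat.Agent.CFT.Local.LatticeHelpers

set_option autoImplicit false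
set_option synthInstance.maxHeartbeats 400000

namespace Fermat.Agent.S15.Struct.Final

open Function TensorProduct AlgebraicCurve ModularCurve IsLocalRing
open Fermat.Agent.S56.Coh Fermat.Agent.CFT.LC Fermat.Agent.CFT.Bridge Fermat.Agent.CFT.LocalBridge
open Fermat.Agent.S15.K.Star Fermat.Agent.S15.K.Ord
open Fermat.Agent.S15.LocalN.Relax Fermat.Agent.S15.P.CycAct
open Fermat.Agent.S15.Struct.Count Fermat.Agent.S15.Struct.Eigen
open Fermat.Agent.S15.Struct.TateEis Fermat.Agent.S15.Struct.FinLevelMain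
open Fermat.Agent.S15.Struct.FinLevelRep

/-! ### Base change of a commuting family -/

section BaseChange

variable {Z : Type*} [CommRing Z] (O : Type*) [CommRing O] [Algebra Z O] {T : Type*}
  [AddCommGroup T] [Module Z T]

/-- Base change of a representation. -/
def baseRep {G : Type*} [Monoid G] (r : G →* Module.End Z T) :
    G →* Module.End O (O ⊗[Z] T) :=
  ((Module.End.baseChangeHom Z O T).toRingHom : Module.End Z T →* Module.End O (O ⊗[Z] T)).comp r

theorem baseRep_apply {G : Type*} [Monoid G] (r : G →* Module.End Z T) (g : G) :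
    baseRep O r g = (r g).baseChange O := rfl

theorem baseRep_tmul {G : Type*} [Monoid G] (r : G →* Module.End Z T) (g : G) (o : O) (t : T) :
    baseRep O r g (o ⊗ₜ t) = o ⊗ₜ r g t := rfl

theorem commute_baseChange {a b : Module.End Z T} (h : Commute a b) :
    Commute (a.baseChange O) (b.baseChange O) :=
  h.map (Module.End.baseChangeHom Z O T)

end BaseChange

/-! ### The finite-level literals -/

variable {N : ℕ} [NeZero N] {P : ℕ} [hP : Fact P.Prime] {S : Set ℕ} {O : Type} [CommRing O]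
  [IsDomain O] [IsDiscreteValuationRing O] [Finite (ResidueField O)] [CharZero O]
  [Algebra ℤ_[P] O] [Module.Free ℤ_[P] O] [Module.Finite ℤ_[P] O]

/-- **(hinv) for `Gk N P k S`.** -/
theorem hinv_of_split [Fact N.Prime]
    (hcomm : ∀ k : ℕ, ∀ r s : Nat.Primes, (r : ℕ) ∉ S → (s : ℕ) ∉ S → ∀ x : JZero N,
      P ^ k • x = 0 → heckeOperatorBar N r (heckeOperatorBar N s x) =
        heckeOperatorBar N s (heckeOperatorBar N r x))
    {ι : Type} (f : ι → Module.End ℤ_[P] ↥(TeisSub N P S)) (hf : ∀ i j, Commute (f i) (f j))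
    (hfρ : ∀ g i, Commute (rhoT N P S g) (f i))
    (hsplit : ∀ i, ∃ l : List O, (l.map fun a => (f i).baseChange O -
      a • (1 : Module.End O (O ⊗[ℤ_[P]] ↥(TeisSub N P S)))).prod = 0)
    (hpiece : ∀ c : ι → O,
      (∃ x : O ⊗[ℤ_[P]] ↥(TeisSub N P S), x ≠ 0 ∧ ∀ i, (f i).baseChange O x = c i • x) →
      Module.finrank O ↥(eigen (𝔸 := O) (fun i => (f i).baseChange O) c) ≤ 2 ∧
      ∀ T : Submodule O (O ⊗[ℤ_[P]] ↥(TeisSub N P S)),
        T ≤ eigen (𝔸 := O) (fun i => (f i).baseChange O) c →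
        (∀ g : GQ, ∀ x ∈ T, (rhoT N P S g).baseChange O x ∈ T) → T ≠ ⊥ →
        ∃ s ∈ Iq N, ∃ x ∈ T, (rhoT N P S s).baseChange O x ≠ x) :
    ∃ n : ℕ, ∀ k : ℕ, Nat.card ↥(invN N (Gk N P k S)) ^ 2 ≤ n ^ 2 * Nat.card (Gk N P k S) := by
  have hP0 : (P : O) ≠ 0 := Nat.cast_ne_zero.2 hP.out.ne_zero
  have hO : ∀ a : O, a ≠ 0 → Finite (O ⧸ Ideal.span {a}) := fun a ha =>
    Fermat.Agent.CFT.Local.LatticeHelpers.finite_quotient_span a ha
  have hpiece' : ∀ c : ι → O,
      (∃ x : O ⊗[ℤ_[P]] ↥(TeisSub N P S), x ≠ 0 ∧ ∀ i, (f i).baseChange O x = c i • x) →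
      Module.finrank O ↥(eigen (𝔸 := O) (fun i => (f i).baseChange O) c) ≤ 2 ∧
      ∀ T : Submodule O (O ⊗[ℤ_[P]] ↥(TeisSub N P S)),
        T ≤ eigen (𝔸 := O) (fun i => (f i).baseChange O) c →
        (∀ g : GQ, ∀ x ∈ T, baseRep O (rhoT N P S) g x ∈ T) → T ≠ ⊥ →
        ∃ w ∈ WN N O, ∃ x ∈ T, baseRep O (rhoT N P S) w.1 x ≠ w.2 • x := by
    intro c hc
    exact ⟨(hpiece c hc).1, fun T hT hst hne =>
      exists_pairsOne_of (baseRep O (rhoT N P S)) (H := (Iq N : Set GQ))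
        ((hpiece c hc).2 T hT hst hne)⟩
  exact hinv_of_piece (O := O) hcomm hP0 hO (baseRep O (rhoT N P S))
    (fun g o t => baseRep_tmul O (rhoT N P S) g o t)
    (fun i => (f i).baseChange O) (fun i j => commute_baseChange O (hf i j))
    (fun g i => commute_baseChange O (hfρ g i)) hsplit hpiece'

/-- **(hhalf) for `Gk N P k S`.** -/
theorem hhalf_of_split
    (hcomm : ∀ k : ℕ, ∀ r s : Nat.Primes, (r : ℕ) ∉ S → (s : ℕ) ∉ S → ∀ x : JZero N,
      P ^ k • x = 0 → heckeOperatorBar N r (heckeOperatorBar N s x) =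
        heckeOperatorBar N s (heckeOperatorBar N r x))
    {ι : Type} (f : ι → Module.End ℤ_[P] ↥(TeisSub N P S)) (hf : ∀ i j, Commute (f i) (f j))
    (hfρ : ∀ g i, Commute (rhoT N P S g) (f i))
    (hsplit : ∀ i, ∃ l : List O, (l.map fun a => (f i).baseChange O -
      a • (1 : Module.End O (O ⊗[ℤ_[P]] ↥(TeisSub N P S)))).prod = 0)
    (hpiece : ∀ c : ι → O,
      (∃ x : O ⊗[ℤ_[P]] ↥(TeisSub N P S), x ≠ 0 ∧ ∀ i, (f i).baseChange O x = c i • x) →
      Module.finrank O ↥(eigen (𝔸 := O) (fun i => (f i).baseChange O) c) ≤ 2 ∧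
      ∀ T : Submodule O (O ⊗[ℤ_[P]] ↥(TeisSub N P S)),
        T ≤ eigen (𝔸 := O) (fun i => (f i).baseChange O) c →
        (∀ g : GQ, ∀ x ∈ T, (rhoT N P S g).baseChange O x ∈ T) → T ≠ ⊥ →
        ∃ τ ∈ Iq P, ∃ x ∈ T, (rhoT N P S τ).baseChange O x ≠
          algebraMap ℤ_[P] O
            (((Fermat.Agent.S30.Algebra.Cyclotomic.cyc P τ : ℤ_[P]ˣ) : ℤ_[P])) • x)
    (hQ5a : ∀ k : ℕ, 0 < k → ∀ τ ∈ Iq P, ∀ x ∈ G0red N P k S,
      (Gk N P k S).ρ τ x = cycExp P k τ • x) :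
    ∃ n : ℕ, ∀ k : ℕ, 0 < k →
      Nat.card ↥(G0red N P k S) ^ 2 ≤ n ^ 2 * Nat.card (Gk N P k S) := by
  have hP0 : (P : O) ≠ 0 := Nat.cast_ne_zero.2 hP.out.ne_zero
  have hO : ∀ a : O, a ≠ 0 → Finite (O ⧸ Ideal.span {a}) := fun a ha =>
    Fermat.Agent.CFT.Local.LatticeHelpers.finite_quotient_span a ha
  have hpiece' : ∀ c : ι → O,
      (∃ x : O ⊗[ℤ_[P]] ↥(TeisSub N P S), x ≠ 0 ∧ ∀ i, (f i).baseChange O x = c i • x) →
      Module.finrank O ↥(eigen (𝔸 := O) (fun i => (f i).baseChange O) c) ≤ 2 ∧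
      ∀ T : Submodule O (O ⊗[ℤ_[P]] ↥(TeisSub N P S)),
        T ≤ eigen (𝔸 := O) (fun i => (f i).baseChange O) c →
        (∀ g : GQ, ∀ x ∈ T, baseRep O (rhoT N P S) g x ∈ T) → T ≠ ⊥ →
        ∃ w ∈ WP P O, ∃ x ∈ T, baseRep O (rhoT N P S) w.1 x ≠ w.2 • x := by
    intro c hc
    exact ⟨(hpiece c hc).1, fun T hT hst hne =>
      exists_pairsChar_of (baseRep O (rhoT N P S)) (H := (Iq P : Set GQ))
        (c := fun s => algebraMap ℤ_[P] O
          (((Fermat.Agent.S30.Algebra.Cyclotomic.cyc P s : ℤ_[P]ˣ) : ℤ_[P])))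
        ((hpiece c hc).2 T hT hst hne)⟩
  exact hhalf_of_piece (O := O) hcomm hP0 hO (baseRep O (rhoT N P S))
    (fun g o t => baseRep_tmul O (rhoT N P S) g o t)
    (fun i => (f i).baseChange O) (fun i j => commute_baseChange O (hf i j))
    (fun g i => commute_baseChange O (hfρ g i)) hsplit hpiece' hQ5a

end Fermat.Agent.S15.Struct.Final
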