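import Fermat.Agent.S30.Algebra.Cyclotomic
import Fermat.Agent.S56.Coh.Defs
import Fermat.Agent.S15.Struct.Irred

/-!
# PROJECT M (S15), block [S], leaf `CycFacts` (helper16; table #1 row 10, second hand)

The three hypotheses `hχcont`, `hχunr`, `hχfrob` of `Struct/Irred.no_stable_line` /
`Struct/Irred.irreducible`, **in Irred's literals**, for the `P`-adic cyclotomic character with
values in a `ℤ_[P]`-algebra `O`,

  `chiO P O g = algebraMap ℤ_[P] O ((cyc P g : ℤ_[P]ˣ) : ℤ_[P])`   (`chiO_apply`, by `rfl`),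

i.e. main's `S30/Algebra/Cyclotomic.cycChar P (algebraMap ℤ_[P] O)`:

* `hχcont` : adic continuity, for every ideal `I ∋ (P : O)`;
* `hχunr`  : trivial on the inertia groups `Iq q`, `q ≠ P`;
* `hχfrob` : `χ φ = l` at the Frobenius lifts at `padicPlace l`, `l ∉ S'`, for every `S' ∋ P`;

plus

* `hsep` : `⋂ I ^ j = 0` for `I` the maximal ideal of a discrete valuation ring;
* `exists_mem_Iq_chiO_ne_one`, `exists_mem_Iq_cyc_ne_one` : the `P`-adic cyclotomic character is
  non-trivial on the inertia group at the fixed place over `P`, **`P = 2` included** (Minkowski in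
  the form `Irred.char_eq_of_inertia`).
-/

set_option autoImplicit false

noncomputable section

namespace Fermat.Agent.S15.Struct.CycFacts

open Fermat.Agent.S30.Algebra.Cyclotomic
open Fermat.Agent.S56.Coh Fermat.Agent.CFT.LocalBridge

local notation "Qbar" => AlgebraicClosure ℚ
local notation "GQ" => (AlgebraicClosure ℚ ≃ₐ[ℚ] AlgebraicClosure ℚ)

variable (P : ℕ) [Fact P.Prime] (O : Type*) [CommRing O] [Algebra ℤ_[P] O]

/-- The `P`-adic cyclotomic character with values in the `ℤ_[P]`-algebra `O`. -/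
def chiO : GQ →* O := cycChar P (algebraMap ℤ_[P] O)

theorem chiO_apply (g : GQ) :
    chiO P O g = algebraMap ℤ_[P] O ((cyc P g : ℤ_[P]ˣ) : ℤ_[P]) := rfl

/-- **`hχcont` of `Irred`**: adic continuity. -/
theorem hχcont (I : Ideal O) (hPI : (P : O) ∈ I) :
    ∀ j : ℕ, ∃ F : IntermediateField ℚ Qbar, FiniteDimensional ℚ F ∧
      ∀ g ∈ F.fixingSubgroup, chiO P O g - 1 ∈ I ^ j := by
  intro j
  obtain ⟨L, hL, h⟩ := cycChar_continuous P (algebraMap ℤ_[P] O) I hPI j
  refine ⟨L, hL, fun g hg => h g fun x hx => ?_⟩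
  exact (IntermediateField.mem_fixingSubgroup_iff L g).1 hg x hx

/-- **`hχunr` of `Irred`**: unramified outside `P`. -/
theorem hχunr : ∀ (q : ℕ) [Fact q.Prime], q ≠ P → ∀ s ∈ Iq q, chiO P O s = 1 := by
  intro q hq hqP s hs
  exact cycChar_inertia P (algebraMap ℤ_[P] O) hq.out hqP (padicPlace q)
    (liesOverPrime_padicPlace q) s hs

/-- **`hχfrob` of `Irred`**: the value at the Frobenius lifts. -/
theorem hχfrob (S' : Finset ℕ) (hPS : P ∈ S') :
    ∀ (l : ℕ) [Fact l.Prime], l ∉ S' → ∀ φ : GQ,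
      (padicPlace l).IsFrobeniusAt φ l → chiO P O φ = (l : O) := by
  intro l hl hlS φ hφ
  have hlP : l ≠ P := fun h => hlS (h ▸ hPS)
  exact cycChar_isFrobeniusAt P (algebraMap ℤ_[P] O) hl.out hlP (padicPlace l)
    (liesOverPrime_padicPlace l) φ hφ

/-- **`hsep` of `Irred`** for the maximal ideal of a discrete valuation ring. -/
theorem hsep {O : Type*} [CommRing O] [IsDomain O] [IsDiscreteValuationRing O] :
    ∀ x : O, (∀ j : ℕ, x ∈ IsLocalRing.maximalIdeal O ^ j) → x = 0 := by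
  intro x hx
  have h : x ∈ (⨅ j : ℕ, IsLocalRing.maximalIdeal O ^ j : Ideal O) := by
    rw [Ideal.mem_iInf]
    exact hx
  rw [Ideal.iInf_pow_eq_bot_of_isLocalRing _ (IsLocalRing.maximalIdeal.isMaximal O).ne_top] at h
  exact h

/-- **The `P`-adic cyclotomic character is non-trivial on the inertia group at `P`** (`P = 2`
included), with values in any domain `O ⊇ ℤ_[P]` of characteristic zero in which the powers of an
ideal `I ∋ P` have zero intersection. -/
theorem exists_mem_Iq_chiO_ne_one [IsDomain O] [CharZero O] (I : Ideal O) (hPI : (P : O) ∈ I)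
    (hsepI : ∀ x : O, (∀ j : ℕ, x ∈ I ^ j) → x = 0) :
    ∃ τ ∈ Iq P, chiO P O τ ≠ 1 := by
  by_contra hcon
  have hcon' : ∀ τ ∈ Iq P, chiO P O τ = 1 := fun τ hτ => not_not.1 fun h => hcon ⟨τ, hτ, h⟩
  -- the character agrees with the trivial one on every inertia group, hence everywhere
  have key : ∀ g : GQ, chiO P O g = (1 : GQ →* O) g := by
    refine Fermat.Agent.S15.Struct.Irred.char_eq_of_inertia I hsepI (chiO P O) 1 (t := 1)
      one_ne_zero (fun j => ?_) (fun q hq s hs => ?_)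
    · obtain ⟨F, hF, h⟩ := hχcont P O I hPI j
      refine ⟨F, hF, fun g hg => ?_⟩
      rw [MonoidHom.one_apply, one_mul]
      exact h g hg
    · rw [MonoidHom.one_apply]
      by_cases hqP : q = P
      · subst hqP
        exact hcon' s hs
      · exact hχunr P O q hqP s hs
  -- but the Frobenius at a prime `l ≠ P` has value `l ≠ 1`
  obtain ⟨l, hl, hlP⟩ : ∃ l : ℕ, l.Prime ∧ l ≠ P := by
    by_cases h2 : P = 2
    · exact ⟨3, Nat.prime_three, by omega⟩
    · exact ⟨2, Nat.prime_two, fun h => h2 h.symm⟩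
  have : Fact l.Prime := ⟨hl⟩
  obtain ⟨φ, hφ⟩ := Fermat.Agent.Lib.FrobeniusExists.exists_isFrobeniusAt_algebraicClosure
    (padicPlace l) hl (liesOverPrime_padicPlace l)
  have h1 : chiO P O φ = (l : O) :=
    cycChar_isFrobeniusAt P (algebraMap ℤ_[P] O) hl hlP (padicPlace l)
      (liesOverPrime_padicPlace l) φ hφ
  rw [key φ, MonoidHom.one_apply] at h1
  have h2 : ((1 : ℕ) : O) = (l : O) := by rw [Nat.cast_one]; exact h1
  exact hl.one_lt.ne (Nat.cast_injective h2)

/-- **`∃ τ ∈ Iq P, cyc P τ ≠ 1`**, `P = 2` included. -/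
theorem exists_mem_Iq_cyc_ne_one : ∃ τ ∈ Iq P, cyc P τ ≠ 1 := by
  obtain ⟨τ, hτ, h⟩ := exists_mem_Iq_chiO_ne_one P ℤ_[P] (IsLocalRing.maximalIdeal ℤ_[P])
    (by
      rw [PadicInt.maximalIdeal_eq_span_p]
      exact Ideal.subset_span rfl) hsep
  refine ⟨τ, hτ, fun h1 => h ?_⟩
  rw [chiO_apply, h1, Units.val_one, map_one]

end Fermat.Agent.S15.Struct.CycFacts
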