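import Fermat.Agent.S15.Struct.RhoChi
import Fermat.Agent.S15.KN.EisExclChar

/-!
# PROJECT M (S15), block [S], row 10 hypothesis `hE`: Eisenstein exclusion for an eigen-system
which OCCURS in `O ⊗ Tp p (JZero N)`

No character of a Hecke algebra is needed: if `c ℓ = 1 + ℓ` at all good primes outside a finite set,
the eigen-lattice `lat N p c` maps (main's `EigenCompare`) into the joint eigenspace of the good
primes for the RATIONAL eigenvalues `1 + ℓ` in `Frac O ⊗ M`, `M` the Eichler–Shimura lattice; by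
main's tower lemma that eigenspace has the dimension of the one in `ℂ ⊗ M`, which is zero by Hecke's
bound (`KN/EisExclChar.eigen_complex_eq_bot`).

* `eigen_field_eq_bot`      : the Eisenstein system of the good primes does not occur in `L ⊗ M`,
  `L` ANY field of characteristic zero;
* `exists_good_ne_one_add`  : `lat N p c ≠ ⊥ → ∃ ℓ` good, `ℓ ∉ S'`, `c ℓ ≠ 1 + ℓ`;
* `exists_prime_ne_one_add` : the same in the literal shape of `hE` of `Struct/Irred.irreducible`
  for `a := RhoChi.aOf c`.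
-/

set_option autoImplicit false
set_option linter.unusedSectionVars false
set_option linter.style.haveILetI false

noncomputable section

namespace Fermat.Agent.S15.Struct.EisOcc

open scoped TensorProduct
open CongruenceSubgroup ModularCurve ModularCurve.Period
open Fermat.Agent.S30.Eigen.Transfer
open Fermat.Agent.S30.Padic Fermat.Agent.S30.Padic.TateModule
open Fermat.Agent.S30.Padic.EigenLattice
open Fermat.Agent.S30.Final.Chain
open Fermat.Agent.S30.Hecke.Parabolic
open Fermat.Agent.S15.KN.EisExclChar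
open Fermat.Agent.S15.Struct.EigenRank

variable (N : ℕ) [NeZero N]

/-- **Over any field of characteristic zero**: no nonzero vector of `L ⊗ M` is a joint eigenvector
of the `τ_ℓ`, `ℓ` good, for the eigenvalues `1 + ℓ`. -/
theorem eigen_field_eq_bot (S : Finset ℕ) (L : Type*) [Field L] [CharZero L] :
    eigen (fun i : Good N S => (tauPar ℤ ℤ N (i.1 : ℕ) i.1.2).baseChange L)
      (fun i : Good N S => algebraMap ℚ L (1 + ((i.1 : ℕ) : ℚ))) = ⊥ := by
  have hL := finrank_eigen_baseChange_tower (R := ℤ) (F₀ := ℚ) (F := L)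
    (fun i : Good N S => tauPar ℤ ℤ N (i.1 : ℕ) i.1.2) (fun i => 1 + ((i.1 : ℕ) : ℚ))
  have hC := finrank_eigen_baseChange_tower (R := ℤ) (F₀ := ℚ) (F := ℂ)
    (fun i : Good N S => tauPar ℤ ℤ N (i.1 : ℕ) i.1.2) (fun i => 1 + ((i.1 : ℕ) : ℚ))
  rw [eigen_complex_eq_bot N S, finrank_bot] at hC
  rw [← hC] at hL
  exact Submodule.finrank_eq_zero.mp hL

/-- an eigen-system of ALL the `τ_r` with `c ℓ = 1 + ℓ` at the good primes outside `S` does not
occur in `L ⊗ M`, `L` any field of characteristic zero -/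
theorem eigenLattice_field_eq_bot (S : Finset ℕ) (L : Type*) [Field L] [CharZero L]
    (c : Nat.Primes → L)
    (hall : ∀ l : Nat.Primes, ¬ (l : ℕ) ∣ N → (l : ℕ) ∉ S → c l = 1 + ((l : ℕ) : L)) :
    eigenLattice (fun r : Nat.Primes => (tauPar ℤ ℤ N r r.2).baseChange L) c = ⊥ := by
  rw [eq_bot_iff, ← eigen_field_eq_bot N S L]
  intro v hv
  rw [mem_eigen]
  intro i
  rw [mem_eigenLattice] at hv
  have e : c i.1 = algebraMap ℚ L (1 + ((i.1 : ℕ) : ℚ)) := by
    rw [hall i.1 i.2.1 i.2.2, map_add, map_one, map_natCast]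
  rw [← e]
  exact hv i.1

variable (p : ℕ) [Fact p.Prime]
variable {O : Type} [CommRing O] [IsDomain O] [IsPrincipalIdealRing O] [CharZero O]
  [Algebra ℤ_[p] O]

/-- **Eisenstein exclusion for an eigen-system which occurs**: some good prime outside any given
finite set has `c ℓ ≠ 1 + ℓ`. -/
theorem exists_good_ne_one_add (c : Nat.Primes → O) (hne : lat N p c ≠ ⊥) (S' : Finset ℕ) :
    ∃ l : Nat.Primes, ¬ (l : ℕ) ∣ N ∧ (l : ℕ) ∉ S' ∧ c l ≠ 1 + ((l : ℕ) : O) := by
  classical
  by_contra hcon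
  have hall : ∀ l : Nat.Primes, ¬ (l : ℕ) ∣ N → (l : ℕ) ∉ S' → c l = 1 + ((l : ℕ) : O) := by
    intro l h1 h2
    by_contra h3
    exact hcon ⟨l, h1, h2, h3⟩
  have H2 := finite_torsion N p
  haveI : Module.Finite ℤ_[p] (Tp p (JZero N)) := Tp.finite_of_finite H2
  haveI : Module.Free ℤ_[p] (Tp p (JZero N)) := Tp.free_of_finite H2
  obtain ⟨e, H3⟩ := exists_compare N p
  have h1 := EigenCompare.finrank_eigenLattice_of_equiv (L := FractionRing O)
    (fun r : Nat.Primes => heckeV (O := O) N p r) c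
    (fun r : Nat.Primes => tauPar ℤ ℤ N r r.2) (compareEquiv p O e)
    (fun r v => compareEquiv_intertwines p O e _ (tauPar ℤ ℤ N r r.2) (H3 r) v)
  haveI hVnoeth : IsNoetherian O (O ⊗[ℤ_[p]] Tp p (JZero N)) :=
    isNoetherian_of_isNoetherianRing_of_finite O _
  haveI hLfin : Module.Finite O ↥(lat N p c) := Module.IsNoetherian.finite O _
  have hpos : 0 < Module.finrank O ↥(lat N p c) := by
    obtain ⟨x, hx, hx0⟩ := (Submodule.ne_bot_iff _).1 hne
    exact (Module.finrank_pos_iff_exists_ne_zero (R := O) (M := ↥(lat N p c))).2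
      ⟨⟨x, hx⟩, fun h => hx0 (congrArg Subtype.val h)⟩
  rw [h1] at hpos
  rw [eigenLattice_field_eq_bot N S' (FractionRing O) _ (fun l h1 h2 => by
    rw [hall l h1 h2, map_add, map_one, map_natCast]), finrank_bot] at hpos
  exact lt_irrefl _ hpos

/-- the literal shape of the hypothesis `hE` of `Struct/Irred.irreducible`, for `a := aOf c` -/
theorem exists_prime_ne_one_add (c : Nat.Primes → O) (hne : lat N p c ≠ ⊥) (S' : Finset ℕ) :
    ∃ l : ℕ, l.Prime ∧ l ∉ S' ∧ Fermat.Agent.S15.Struct.RhoChi.aOf c l ≠ 1 + (l : O) := by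
  obtain ⟨l, -, hlS, hne'⟩ := exists_good_ne_one_add N p c hne S'
  refine ⟨(l : ℕ), l.2, hlS, ?_⟩
  have e : Fermat.Agent.S15.Struct.RhoChi.aOf c (l : ℕ) = c ⟨(l : ℕ), l.2⟩ := dif_pos l.2
  rw [e]
  exact hne'

end Fermat.Agent.S15.Struct.EisOcc

end
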