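import Fermat.Agent.S15.Struct.RhoChi
import Fermat.Agent.S15.Struct.CycFacts
import Fermat.Agent.S15.Struct.EisOcc

/-!
# PROJECT M (S15), block [S], row 10, (S-d)-INST: `ρ_χ` has no stable line and is irreducible

`N ≠ P` primes, `O` a discrete valuation ring of characteristic zero which is a `ℤ_[P]`-algebra with
`P` in its maximal ideal, `c : Nat.Primes → O` a system of eigenvalues of ALL the Hecke operators
on `O ⊗ Tp P (JZero N)` whose eigen-lattice `lat N P c` has rank two (automatic when it is non-zero: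
`EigenRank.finrank_eigenLattice_eq_two`), `ρ_χ := RhoChi.rhoChi N P hpO c h2` the Galois
representation on it.

The hypotheses of `Struct/Irred` for `(ρ_χ, χ_cyc)`, in its literals (`hcont`, `hunr`, `hU`, `hES`,
`hE`; `hχcont`, `hχunr`, `hχfrob`, `hsep` are `Struct/CycFacts`), and the conclusions

* `no_stable_line` : no non-zero vector of `lat N P c` spans a Galois-stable line;
* `irreducible`    : every Galois-stable submodule of `lat N P c` is zero or contains `ϖ ^ j`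
  times the lattice;

under the ONE remaining hypothesis `hKP` (row 11, (KP-id)): `(ρ_χ τ - χ_cyc τ) (ρ_χ σ - 1) = 0` for
`σ`, `τ` in the inertia group at `P`; `no_stable_line_of_levels`, `irreducible_of_levels` take it
in the finite-level form of `RhoChi.kpid_cyc`.
-/

set_option autoImplicit false
set_option linter.unusedSectionVars false
set_option linter.style.haveILetI false

noncomputable section

namespace Fermat.Agent.S15.Struct.RhoChiIrred

open scoped TensorProduct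
open IsLocalRing
open Fermat.Agent.S30.Padic Fermat.Agent.S30.Padic.TateModule
open Fermat.Agent.S30.Algebra
open Fermat.Agent.CFT.LC Fermat.Agent.CFT.Bridge Fermat.Agent.CFT.LocalBridge
open Fermat.Agent.S56.Coh
open Fermat.Agent.S15.Struct.EigenRank Fermat.Agent.S15.Struct.RhoChi

variable {N : ℕ} [NeZero N] [Fact N.Prime] {P : ℕ} [Fact P.Prime]
variable {O : Type} [CommRing O] [IsDomain O] [IsDiscreteValuationRing O] [CharZero O]
  [Algebra ℤ_[P] O]
variable {hpO : (P : O) ∈ maximalIdeal O} {c : Nat.Primes → O}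
  {h2 : Module.finrank O (lat N P c) = 2}

/-- the eigen-lattice of `ρ_χ` is non-zero -/
theorem lat_ne_bot (h2 : Module.finrank O (lat N P c) = 2) : lat N P c ≠ ⊥ := by
  intro h
  rw [h, finrank_bot] at h2
  exact absurd h2 (by decide)

/-- **`hcont` of `Irred`** -/
theorem hcont :
    ∀ j : ℕ, ∃ F : IntermediateField ℚ (AlgebraicClosure ℚ), FiniteDimensional ℚ F ∧
      ∀ g ∈ F.fixingSubgroup, ∀ v : (rhoChi N P hpO c h2).V,
        (rhoChi N P hpO c h2).ρ g v - v ∈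
          (maximalIdeal O ^ j • ⊤ : Submodule O (rhoChi N P hpO c h2).V) := by
  intro j
  obtain ⟨L, hL, h⟩ := (rhoChi N P hpO c h2).isAdicContinuous j
  exact ⟨L, hL, fun g hg v =>
    h g (fun x hx => (IntermediateField.mem_fixingSubgroup_iff L g).1 hg x hx) v⟩

/-- **`hunr` of `Irred`** -/
theorem hunr :
    ∀ (q : ℕ) [Fact q.Prime], q ≠ N → q ≠ P → ∀ s ∈ Iq q, (rhoChi N P hpO c h2).ρ s = 1 := by
  intro q hq hqN hqP s hs
  have hN : N.Prime := Fact.out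
  have hdvd : ¬ q ∣ N := fun hd =>
    hqN ((Nat.prime_dvd_prime_iff_eq hq.out hN).1 hd)
  exact isUnramifiedAt hq.out hdvd hqP (padicPlace q) (liesOverPrime_padicPlace q) s hs

/-- **`hU` of `Irred`** -/
theorem hU (hNP : N ≠ P) :
    ∀ s ∈ Iq N, ((rhoChi N P hpO c h2).ρ s - 1) * ((rhoChi N P hpO c h2).ρ s - 1) = 0 := by
  intro s hs
  have hN : N.Prime := Fact.out
  have hsq : ¬ N ^ 2 ∣ N := by
    intro hd
    have h1 := Nat.le_of_dvd hN.pos hd
    have h3 : N * 2 ≤ N ^ 2 := by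
      rw [pow_two]
      exact Nat.mul_le_mul_left N hN.two_le
    have h4 := hN.pos
    omega
  exact unipotent_of_dvd hN hNP (dvd_refl N) hsq (padicPlace N) (liesOverPrime_padicPlace N) s hs

/-- **`hES` of `Irred`**, `a := RhoChi.aOf c` -/
theorem hES (S' : Finset ℕ) (hPS : P ∈ S') (hNS : N ∈ S') :
    ∀ (l : ℕ) [Fact l.Prime], l ∉ S' → ∀ φ : AlgebraicClosure ℚ ≃ₐ[ℚ] AlgebraicClosure ℚ,
      (padicPlace l).IsFrobeniusAt φ l →
      (rhoChi N P hpO c h2).ρ φ * (rhoChi N P hpO c h2).ρ φ -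
        aOf c l • (rhoChi N P hpO c h2).ρ φ +
        (l : O) • (1 : Module.End O (rhoChi N P hpO c h2).V) = 0 := by
  intro l hl hlS φ hφ
  have hN : N.Prime := Fact.out
  have hNS' : ∀ q : ℕ, q.Prime → q ∣ N → q ∈ S' := by
    intro q hq hd
    rw [(Nat.prime_dvd_prime_iff_eq hq hN).1 hd]
    exact hNS
  exact frobRelation (hpO := hpO) (c := c) (h2 := h2) S' hPS hNS' l hl.out hlS (padicPlace l)
    (liesOverPrime_padicPlace l) φ hφ

/-- **`hE` of `Irred`**, `a := RhoChi.aOf c` -/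
theorem hE (h2 : Module.finrank O (lat N P c) = 2) (S' : Finset ℕ) :
    ∃ l : ℕ, l.Prime ∧ l ∉ S' ∧ aOf c l ≠ 1 + (l : O) :=
  Fermat.Agent.S15.Struct.EisOcc.exists_prime_ne_one_add N P c (lat_ne_bot h2) S'

/-- **(S-d) for `ρ_χ`: no stable line** -/
theorem no_stable_line (hNP : N ≠ P)
    (hKP : ∀ σ ∈ Iq P, ∀ τ ∈ Iq P,
      ((rhoChi N P hpO c h2).ρ τ - Cyclotomic.cycChar P (algebraMap ℤ_[P] O) τ •
        (1 : Module.End O (rhoChi N P hpO c h2).V)) * ((rhoChi N P hpO c h2).ρ σ - 1) = 0) :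
    ¬ ∃ v : (rhoChi N P hpO c h2).V, v ≠ 0 ∧
      ∀ g : AlgebraicClosure ℚ ≃ₐ[ℚ] AlgebraicClosure ℚ, ∃ a : O,
        (rhoChi N P hpO c h2).ρ g v = a • v := by
  classical
  have hPS : P ∈ ({N, P} : Finset ℕ) := Finset.mem_insert_of_mem (Finset.mem_singleton_self P)
  have hNS : N ∈ ({N, P} : Finset ℕ) := Finset.mem_insert_self N _
  exact Fermat.Agent.S15.Struct.Irred.no_stable_line (maximalIdeal O) (rhoChi N P hpO c h2).ρ
    (Fermat.Agent.S15.Struct.CycFacts.chiO P O) {N, P} (aOf c)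
    Fermat.Agent.S15.Struct.CycFacts.hsep hNP
    (Fermat.Agent.S15.Struct.Irred.exists_functional
      (Module.Free.chooseBasis O (rhoChi N P hpO c h2).V))
    hcont (Fermat.Agent.S15.Struct.CycFacts.hχcont P O _ hpO)
    (Fermat.Agent.S15.Struct.CycFacts.hχunr P O)
    (Fermat.Agent.S15.Struct.CycFacts.hχfrob P O {N, P} hPS)
    hunr (hU hNP) hKP (hES {N, P} hPS hNS) (hE h2 {N, P})

/-- a basis of the rank-two lattice of `ρ_χ` -/
def basis (hpO : (P : O) ∈ maximalIdeal O) (c : Nat.Primes → O)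
    (h2 : Module.finrank O (lat N P c) = 2) :
    Module.Basis (Fin 2) O (rhoChi N P hpO c h2).V :=
  Module.finBasisOfFinrankEq O (rhoChi N P hpO c h2).V (rhoChi N P hpO c h2).finrank_eq

/-- **(S-d) for `ρ_χ`: irreducibility**, every stable submodule is zero or contains `ϖ ^ j` times
the lattice -/
theorem irreducible (hNP : N ≠ P) {ϖ : O} (hϖ : Irreducible ϖ)
    (hKP : ∀ σ ∈ Iq P, ∀ τ ∈ Iq P,
      ((rhoChi N P hpO c h2).ρ τ - Cyclotomic.cycChar P (algebraMap ℤ_[P] O) τ •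
        (1 : Module.End O (rhoChi N P hpO c h2).V)) * ((rhoChi N P hpO c h2).ρ σ - 1) = 0)
    (M : Submodule O (rhoChi N P hpO c h2).V)
    (hM : ∀ g, ∀ v ∈ M, (rhoChi N P hpO c h2).ρ g v ∈ M) :
    M = ⊥ ∨ ∃ j : ℕ, ∀ w : (rhoChi N P hpO c h2).V, ϖ ^ j • w ∈ M :=
  Fermat.Agent.S15.Struct.Irred.irreducible_of_no_stable_line (rhoChi N P hpO c h2).ρ
    (basis hpO c h2) hϖ (no_stable_line hNP hKP) M hM

/-- `hKP` from the finite levels (`RhoChi.kpid_cyc`) -/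
theorem hKP_of_levels (A : ℕ → AddSubgroup (ModularCurve.JZero N))
    (h : ∀ σ ∈ Iq P, ∀ τ ∈ Iq P, ∀ k : ℕ, ∃ m : ℕ,
      ((Cyclotomic.cyc P τ : ℤ_[P]ˣ) : ℤ_[P]).appr k ≡ m [MOD P ^ k] ∧
      ∀ y ∈ A k, P ^ k • y = 0 → τ • (σ • y - y) = m • (σ • y - y))
    (hlat : lat N P c ≤ tensorOf P O A) :
    ∀ σ ∈ Iq P, ∀ τ ∈ Iq P,
      ((rhoChi N P hpO c h2).ρ τ - Cyclotomic.cycChar P (algebraMap ℤ_[P] O) τ •
        (1 : Module.End O (rhoChi N P hpO c h2).V)) * ((rhoChi N P hpO c h2).ρ σ - 1) = 0 :=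
  fun σ hσ τ hτ => kpid_cyc A σ τ (h σ hσ τ hτ) hlat

/-- `no_stable_line` with `hKP` in the finite-level form -/
theorem no_stable_line_of_levels (hNP : N ≠ P) (A : ℕ → AddSubgroup (ModularCurve.JZero N))
    (h : ∀ σ ∈ Iq P, ∀ τ ∈ Iq P, ∀ k : ℕ, ∃ m : ℕ,
      ((Cyclotomic.cyc P τ : ℤ_[P]ˣ) : ℤ_[P]).appr k ≡ m [MOD P ^ k] ∧
      ∀ y ∈ A k, P ^ k • y = 0 → τ • (σ • y - y) = m • (σ • y - y))
    (hlat : lat N P c ≤ tensorOf P O A) :
    ¬ ∃ v : (rhoChi N P hpO c h2).V, v ≠ 0 ∧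
      ∀ g : AlgebraicClosure ℚ ≃ₐ[ℚ] AlgebraicClosure ℚ, ∃ a : O,
        (rhoChi N P hpO c h2).ρ g v = a • v :=
  no_stable_line hNP (hKP_of_levels A h hlat)

/-- `irreducible` with `hKP` in the finite-level form -/
theorem irreducible_of_levels (hNP : N ≠ P) {ϖ : O} (hϖ : Irreducible ϖ)
    (A : ℕ → AddSubgroup (ModularCurve.JZero N))
    (h : ∀ σ ∈ Iq P, ∀ τ ∈ Iq P, ∀ k : ℕ, ∃ m : ℕ,
      ((Cyclotomic.cyc P τ : ℤ_[P]ˣ) : ℤ_[P]).appr k ≡ m [MOD P ^ k] ∧
      ∀ y ∈ A k, P ^ k • y = 0 → τ • (σ • y - y) = m • (σ • y - y))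
    (hlat : lat N P c ≤ tensorOf P O A)
    (M : Submodule O (rhoChi N P hpO c h2).V)
    (hM : ∀ g, ∀ v ∈ M, (rhoChi N P hpO c h2).ρ g v ∈ M) :
    M = ⊥ ∨ ∃ j : ℕ, ∀ w : (rhoChi N P hpO c h2).V, ϖ ^ j • w ∈ M :=
  irreducible hNP hϖ (hKP_of_levels A h hlat) M hM

end Fermat.Agent.S15.Struct.RhoChiIrred

end
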