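import Fermat.Agent.S30

/-!
# PROJECT M (S15), block [S], leaf (S-c), rank two: every eigen-system which occurs has a
two-dimensional eigenspace

Everything from main.  `N` a level, `p` a prime, `O` a complete-DVR-like coefficient ring (a local
principal ideal domain of characteristic zero which is a `ℤ_[p]`-algebra with `p` in the maximal
ideal), `c : Nat.Primes → O` a system of eigenvalues of ALL the Hecke operators `T_r` (`U_r` for
`r ∣ N`) on `O ⊗ Tp p (JZero N)`.

* `finrank_eigen_eq_two_of_ne_bot`   : (abstract, main's `S30/Eigen/Transfer` frame) an eigen-system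
  of the full family which OCCURS in `L ⊗ M` has a joint eigenspace of dimension exactly `2`;
* `finrank_eigenLattice_eq_two`      : the same for the eigen-lattice of `O ⊗ Tp p (JZero N)`;
-/

set_option autoImplicit false
set_option linter.unusedSectionVars false
set_option linter.style.haveILetI false

noncomputable section

namespace Fermat.Agent.S15.Struct.EigenRank

open scoped TensorProduct
open Fermat.Agent.S30.Eigen.Transfer

/-! ### An eigen-system which occurs has a two-dimensional eigenspace -/

section Occur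

variable {ι : Type*}
  {M : Type*} [AddCommGroup M] [Module.Free ℤ M] [Module.Finite ℤ M]
  {τ : ι → Module.End ℤ M}
  {W : Type*} [AddCommGroup W] [Module ℂ W] [FiniteDimensional ℂ W]
  {T : ι → Module.End ℂ W}
  {e : ℂ ⊗[ℤ] M ≃ₗ[ℂ] W × W}
  {a₁ : W →ₗ[ℂ] ℂ}

omit [Module.Free ℤ M] [Module.Finite ℤ M] [FiniteDimensional ℂ W] in
/-- every element of the pair algebra acts on a joint eigenvector through a scalar -/
theorem exists_scalar {L : Type*} [Field L] (c : ι → L) {x : L ⊗[ℤ] M}
    (hx : ∀ i, (τ i).baseChange L x = c i • x)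
    {q : Module.End ℤ M × Module.End ℂ W} (hq : q ∈ pairAlg τ T) :
    ∃ l : L, q.1.baseChange L x = l • x := by
  induction hq using Algebra.adjoin_induction with
  | mem q hq =>
    obtain ⟨i, rfl⟩ := hq
    exact ⟨c i, hx i⟩
  | algebraMap r =>
    refine ⟨(r : L), ?_⟩
    rw [Prod.algebraMap_apply]
    simp only [Algebra.algebraMap_eq_smul_one, LinearMap.baseChange_smul,
      LinearMap.baseChange_one, LinearMap.smul_apply, Module.End.one_apply]
    exact (Int.cast_smul_eq_zsmul L r x).symm
  | add q q' _ _ hq hq' =>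
    obtain ⟨l, hl⟩ := hq
    obtain ⟨l', hl'⟩ := hq'
    exact ⟨l + l', by
      rw [Prod.fst_add, LinearMap.baseChange_add, LinearMap.add_apply, hl, hl', add_smul]⟩
  | mul q q' _ _ hq hq' =>
    obtain ⟨l, hl⟩ := hq
    obtain ⟨l', hl'⟩ := hq'
    exact ⟨l * l', by
      rw [Prod.fst_mul, LinearMap.baseChange_mul, Module.End.mul_apply, hl', map_smul, hl,
        smul_smul, mul_comm]⟩

/-- **an eigen-system of the full family which occurs in `L ⊗ M` has a joint eigenspace of
dimension exactly two** (main's Theorem A applied to the character of the pair algebra cut out by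
a joint eigenvector) -/
theorem finrank_eigen_eq_two_of_ne_bot
    (he : ∀ i x, e ((τ i).baseChange ℂ x) = Prod.map (T i) (T i) (e x))
    (hT : ∀ i j, T i * T j = T j * T i)
    (hpair : ∀ w, (∀ b ∈ Algebra.adjoin ℤ (Set.range T), a₁ (b w) = 0) → w = 0)
    {L : Type*} [Field L] [CharZero L] (c : ι → L)
    (hne : eigen (fun i => (τ i).baseChange L) c ≠ ⊥) :
    Module.finrank L (eigen (fun i => (τ i).baseChange L) c) = 2 := by
  classical
  obtain ⟨x, hxmem, hx0⟩ := (Submodule.ne_bot_iff _).1 hne
  have hx : ∀ i, (τ i).baseChange L x = c i • x := mem_eigen.1 hxmem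
  have hcomm : ∀ a b : pairAlg τ T, a * b = b * a := by
    have h := Algebra.isMulCommutative_adjoin ℤ (s := Set.range (gen τ T)) (by
      rintro _ ⟨i, rfl⟩ _ ⟨j, rfl⟩
      exact gen_commute he hT i j)
    exact fun a b => h.is_comm.comm a b
  let _ : CommRing (pairAlg τ T) := { (inferInstance : Ring (pairAlg τ T)) with mul_comm := hcomm }
  let ρM : pairAlg τ T →+* Module.End ℤ M :=
    (RingHom.fst _ _).comp (pairAlg τ T).val.toRingHom
  let ρW : pairAlg τ T →+* Module.End ℂ W :=
    (RingHom.snd _ _).comp (pairAlg τ T).val.toRingHom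
  have hρM : Function.Injective ρM := fun p p' h =>
    Subtype.ext (fst_injective_pairAlg he p.2 p'.2 h)
  have heQ : ∀ (q : pairAlg τ T) x,
      e ((ρM q).baseChange ℂ x) = Prod.map (ρW q) (ρW q) (e x) := fun q x => he_pairAlg he q.2 x
  have hfin : Module.Finite ℤ (pairAlg τ T) :=
    Module.Finite.of_injective ((ρM : pairAlg τ T →+ Module.End ℤ M).toIntLinearMap) hρM
  have htf : Module.IsTorsionFree ℤ (pairAlg τ T) :=
    Function.Injective.moduleIsTorsionFree ρM hρM (fun r m => map_zsmul ρM r m)
  have hfree : Module.Free ℤ (pairAlg τ T) := Module.free_of_finite_type_torsion_free'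
  have hpairQ : ∀ w, (∀ q : pairAlg τ T, a₁ (ρW q w) = 0) → w = 0 := by
    intro w hw
    apply hpair
    intro b hb
    obtain ⟨q, rfl⟩ := exists_snd_eq τ T hb
    exact hw q
  -- the character
  have hex : ∀ q : pairAlg τ T, ∃ l : L,
      (q : Module.End ℤ M × Module.End ℂ W).1.baseChange L x = l • x :=
    fun q => exists_scalar c hx q.2
  choose f hf using hex
  have huniq : ∀ {l l' : L}, l • x = l' • x → l = l' := fun h =>
    smul_left_injective L hx0 h
  let χ : pairAlg τ T →+* L :=
    { toFun := f
      map_one' := huniq (by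
        rw [← hf 1, one_smul]
        change (1 : Module.End ℤ M).baseChange L x = x
        rw [LinearMap.baseChange_one, Module.End.one_apply])
      map_mul' := fun q q' => huniq (by
        rw [← hf (q * q')]
        change ((q : Module.End ℤ M × Module.End ℂ W).1 *
          (q' : Module.End ℤ M × Module.End ℂ W).1).baseChange L x = _
        rw [LinearMap.baseChange_mul, Module.End.mul_apply, hf q', map_smul, hf q, smul_smul,
          mul_comm])
      map_zero' := huniq (by
        rw [← hf 0, zero_smul]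
        change (0 : Module.End ℤ M).baseChange L x = 0
        rw [LinearMap.baseChange_zero, LinearMap.zero_apply])
      map_add' := fun q q' => huniq (by
        rw [← hf (q + q')]
        change ((q : Module.End ℤ M × Module.End ℂ W).1 +
          (q' : Module.End ℤ M × Module.End ℂ W).1).baseChange L x = _
        rw [LinearMap.baseChange_add, LinearMap.add_apply, hf q, hf q', add_smul]) }
  have hχgen : ∀ i, χ (genQ τ T i) = c i := fun i => huniq (by
    rw [← hx i]
    exact (hf (genQ τ T i)).symm)
  have h3 := finrank_eigen_eq_two hρM heQ hpairQ χ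
  have h4 := eigen_pairAlg_eq τ T χ
  have h5 : (fun i => χ (genQ τ T i)) = c := funext hχgen
  rw [h5] at h4
  exact (congrArg (fun S : Submodule L (L ⊗[ℤ] M) => Module.finrank L S) h4).symm.trans h3

end Occur

/-! ### The level `Γ₀(N)`: the eigen-lattices of `O ⊗ Tp p (JZero N)` -/

section X0

open CongruenceSubgroup ModularCurve ModularCurve.Period IsLocalRing
open Fermat.Agent.S30.Padic Fermat.Agent.S30.Padic.TateModule
open Fermat.Agent.S30.Padic.EigenLattice
open Fermat.Agent.S30.Final.Chain
open Fermat.Agent.S30.Hecke.Parabolic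
open Fermat.Agent.S30.Eigen.MultOne Fermat.Agent.S30.Eigen.EichlerShimura

local notation "GQ" => (AlgebraicClosure ℚ ≃ₐ[ℚ] AlgebraicClosure ℚ)

variable (N : ℕ) [NeZero N]

/-- an eigen-system of all the `τ_r` which occurs in `L ⊗ M`, `M` the Eichler–Shimura lattice of
`Γ₀(N)`, has a joint eigenspace of dimension exactly two -/
theorem finrank_eigenLattice_field {L : Type*} [Field L] [CharZero L] (c : Nat.Primes → L)
    (hne : eigenLattice (fun r : Nat.Primes => (tauPar ℤ ℤ N r r.2).baseChange L) c ≠ ⊥) :
    Module.finrank L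
      (eigenLattice (fun r : Nat.Primes => (tauPar ℤ ℤ N r r.2).baseChange L) c) = 2 := by
  haveI : FiniteDimensional ℂ (CuspForm (Gamma0 N) 2) :=
    Fermat.Agent.S23.FinDim.finiteDimensional_cuspForm N 2
  exact finrank_eigen_eq_two_of_ne_bot (a₁ := a1 N 2) (e := latticeEquiv N)
    (Fermat.Agent.S30.Eigen.H4Final.latticeEquiv_tauPar N) (Tr_comm N 2)
    (fun w hw => hpair N 2 w hw) c hne

/-- the Hecke-equivariant comparison of the Tate module with the Eichler–Shimura lattice (S31's
`ep`, `H3`) -/
theorem exists_compare (p : ℕ) [Fact p.Prime] :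
    ∃ e : Tp p (JZero N) ≃ₗ[ℤ_[p]] ℤ_[p] ⊗[ℤ] (parabolicHoms ℤ (Gamma0 N) ℤ),
      ∀ (r : Nat.Primes) (x : Tp p (JZero N)),
        e (Tp.mapEnd (heckeEnd N r) x) = (tauPar ℤ ℤ N r r.2).baseChange ℤ_[p] (e x) := by
  obtain ⟨ι⟩ := Fermat.Agent.S30.Descent.PhiDictThm.nonempty_ringHom
  have h : Fermat.Agent.S30.Spec.PhiDict N ι := Fermat.Agent.S30.Descent.PhiDictThm.phiDict N ι
  exact Fermat.Agent.S30.Final.TateCompare.h3_of_phiDict (h := h) p
    (Fermat.Agent.S30.frickeChar N)
    (fun r => Fermat.Agent.S30.Padic.TateChar.tauChar N r r.2)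
    (Fermat.Agent.S30.frickeChar_hecke N h)
    (fun r => Fermat.Agent.S30.Hecke.Parabolic.tauPar ℤ ℤ N r r.2)
    (Fermat.Agent.S30.Padic.TateChar.tateLattice N p)
    (fun r x => Fermat.Agent.S30.Padic.TateChar.tateLattice_tauChar p N r r.2 x)

variable (p : ℕ) [Fact p.Prime]

/-- `J₀(N)[p]` is finite -/
theorem finite_torsion : {y : JZero N | p • y = 0}.Finite :=
  Fermat.Agent.S30.Descent.PhiDictThm.finite_torsion N (Fact.out : p.Prime).ne_zero

variable {O : Type} [CommRing O] [IsDomain O] [IsPrincipalIdealRing O] [CharZero O]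
  [Algebra ℤ_[p] O]

/-- the Hecke operators on `O ⊗ Tp p (JZero N)` -/
abbrev heckeV (r : Nat.Primes) : Module.End O (O ⊗[ℤ_[p]] Tp p (JZero N)) :=
  Assembly.opVHom p O (JZero N) (heckeEnd N r)

/-- the eigen-lattice of the system of eigenvalues `c` -/
abbrev lat (c : Nat.Primes → O) : Submodule O (O ⊗[ℤ_[p]] Tp p (JZero N)) :=
  eigenLattice (fun r : Nat.Primes => heckeV (O := O) N p r) c

/-- **an eigen-system which occurs in `O ⊗ Tp p (JZero N)` has an eigen-lattice of rank two** -/
theorem finrank_eigenLattice_eq_two (c : Nat.Primes → O) (hne : lat N p c ≠ ⊥) :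
    Module.finrank O (lat N p c) = 2 := by
  classical
  have H2 := finite_torsion N p
  haveI : Module.Finite ℤ_[p] (Tp p (JZero N)) := Tp.finite_of_finite H2
  haveI : Module.Free ℤ_[p] (Tp p (JZero N)) := Tp.free_of_finite H2
  obtain ⟨e, H3⟩ := exists_compare N p
  have h1 := EigenCompare.finrank_eigenLattice_of_equiv (L := FractionRing O)
    (fun r : Nat.Primes => heckeV (O := O) N p r) c
    (fun r : Nat.Primes => tauPar ℤ ℤ N r r.2) (compareEquiv p O e)
    (fun r v => compareEquiv_intertwines p O e _ (tauPar ℤ ℤ N r r.2) (H3 r) v)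
  haveI hVfin : Module.Finite O (O ⊗[ℤ_[p]] Tp p (JZero N)) := inferInstance
  haveI hVfree : Module.Free O (O ⊗[ℤ_[p]] Tp p (JZero N)) := inferInstance
  haveI hVnoeth : IsNoetherian O (O ⊗[ℤ_[p]] Tp p (JZero N)) :=
    isNoetherian_of_isNoetherianRing_of_finite O _
  haveI hLfin : Module.Finite O ↥(lat N p c) := Module.IsNoetherian.finite O _
  haveI hVtf : Module.IsTorsionFree O (O ⊗[ℤ_[p]] Tp p (JZero N)) := inferInstance
  haveI hLtf : Module.IsTorsionFree O ↥(lat N p c) := inferInstance
  have hpos : 0 < Module.finrank O ↥(lat N p c) := by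
    obtain ⟨x, hx, hx0⟩ := (Submodule.ne_bot_iff _).1 hne
    exact (Module.finrank_pos_iff_exists_ne_zero (R := O) (M := ↥(lat N p c))).2
      ⟨⟨x, hx⟩, fun h => hx0 (congrArg Subtype.val h)⟩
  rw [h1] at hpos ⊢
  refine finrank_eigenLattice_field N _ ?_
  intro hbot
  rw [hbot, finrank_bot] at hpos
  exact lt_irrefl _ hpos

end X0

end Fermat.Agent.S15.Struct.EigenRank

end
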