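/-
PROJECT M (S15), block [S]: hypothesis-free glue on the Tate module of the Eisenstein part
(`Struct/TateEis`).

Standing hypothesis `hS`: every prime outside `S` is prime to `N` and different from `P`.

* `hcomm_of_hS`: the commutation hypothesis of `TateEis.level_surjective` (helper3's `HeckeComm`);
  `level_surjective_of_hS`, `card_Gk_of_hS`.
* `hecke_mem`, `heckeT r`: every Hecke operator `T_r` (bad primes included) preserves `TeisSub`;
  it commutes with the Galois action, and ALL the `T_r` commute pairwise (`commute_mapEnd_hecke`: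
  helper10's comparison `EigenRank.exists_compare` of the Tate module with the Eichler-Shimura
  lattice and main's `S41.Forms.tauPar_comm`; for one good prime different from `P` also
  helper3's `HeckeComm`).
* `rhoLam O`, `heckeLam O r`: the base changes to `O ⊗ TeisSub`, `O` a commutative `ℤ_P`-algebra.
* `lamIncl O : O ⊗ TeisSub → O ⊗ Tp P (JZero N)`: injective for flat `O`, compatible with main's
  `Assembly.rhoV` and `Assembly.opVHom`; eigenvectors go to main's `EigenLattice.eigenLattice`.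
-/
import Fermat.Agent.S15.Struct.TateEis
import Fermat.Agent.S15.G.HeckeComm
import Fermat.Agent.S30.Padic.Assembly
import Fermat.Agent.S15.Struct.EigenRank
import Fermat.Agent.S41.Forms

set_option autoImplicit false
set_option synthInstance.maxHeartbeats 400000
set_option linter.unusedSectionVars false

noncomputable section

namespace Fermat.Agent.S15.Struct.TateEisHecke

open AlgebraicCurve ModularCurve TensorProduct
open Fermat.Agent.CFT.Bridge
open Fermat.Agent.S15.K.Kummer Fermat.Agent.S15.K.Star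
open Fermat.Agent.S30.Padic.TateModule Fermat.Agent.S30.Padic.Assembly
open Fermat.Agent.S30.Padic.EigenLattice Fermat.Agent.S30.Arith.TateInputs
open Fermat.Agent.S15.Struct.TateEis

variable (N : ℕ) [NeZero N] (P : ℕ) [hP : Fact P.Prime] (S : Set ℕ)

/-! ### The commutation hypothesis -/

/-- the hypothesis `hcomm` of `TateEis.level_surjective` -/
theorem hcomm_of_hS (hS : ∀ r : Nat.Primes, (r : ℕ) ∉ S → ¬ (r : ℕ) ∣ N ∧ (r : ℕ) ≠ P) :
    ∀ k : ℕ, ∀ r s : Nat.Primes, (r : ℕ) ∉ S → (s : ℕ) ∉ S → ∀ x : JZero N,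
      P ^ k • x = 0 → heckeOperatorBar N r (heckeOperatorBar N s x) =
        heckeOperatorBar N s (heckeOperatorBar N r x) :=
  fun k r s hr _ _ hx =>
    Fermat.Agent.S15.G.HeckeComm.hecke_comm_torsion N hP.out r s (hS r hr).1 (hS r hr).2 ⟨k, hx⟩

theorem level_surjective_of_hS
    (hS : ∀ r : Nat.Primes, (r : ℕ) ∉ S → ¬ (r : ℕ) ∣ N ∧ (r : ℕ) ≠ P) (k : ℕ) :
    Function.Surjective (level N P S k) :=
  level_surjective N P S (hcomm_of_hS N P S hS) k

theorem card_Gk_of_hS
    (hS : ∀ r : Nat.Primes, (r : ℕ) ∉ S → ¬ (r : ℕ) ∣ N ∧ (r : ℕ) ≠ P) (k : ℕ) :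
    Nat.card (Gk N P k S) = P ^ (k * Module.finrank ℤ_[P] ↥(TeisSub N P S)) :=
  card_Gk N P S (hcomm_of_hS N P S hS) k

/-! ### The Hecke operators on `TeisSub` -/

/-- every Hecke operator preserves the Tate module of the Eisenstein part -/
theorem hecke_mem (hS : ∀ r : Nat.Primes, (r : ℕ) ∉ S → ¬ (r : ℕ) ∣ N ∧ (r : ℕ) ≠ P)
    (r : Nat.Primes) {x : Tp P (JZero N)} (hx : x ∈ TeisSub N P S) :
    Tp.mapEnd (p := P) (heckeEnd N r) x ∈ TeisSub N P S := by
  refine mapEnd_mem N P S (heckeEnd N r) ?_ hx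
  rintro a ⟨s, hs, rfl⟩ y hy
  have h1 := Fermat.Agent.S15.G.HeckeComm.hecke_comm_torsion N hP.out s r (hS s hs).1 (hS s hs).2 hy
  have e1 : ∀ z : JZero N, (heckeOperatorBar N s - ((1 + (s : ℕ) : ℕ) : ℤ) • 1) z =
      heckeOperatorBar N s z - (1 + (s : ℕ)) • z := fun z => eisOps_apply N rfl z
  rw [e1, e1, heckeEnd_apply, map_sub, map_nsmul, h1]
  rfl

/-- the Hecke operator `T_r` on `TeisSub` -/
def heckeT (hS : ∀ r : Nat.Primes, (r : ℕ) ∉ S → ¬ (r : ℕ) ∣ N ∧ (r : ℕ) ≠ P)
    (r : Nat.Primes) : Module.End ℤ_[P] ↥(TeisSub N P S) :=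
  (Tp.mapEnd (p := P) (heckeEnd N r)).restrict fun _ hx => hecke_mem N P S hS r hx

variable (hS : ∀ r : Nat.Primes, (r : ℕ) ∉ S → ¬ (r : ℕ) ∣ N ∧ (r : ℕ) ≠ P)

lemma coe_heckeT_apply (r : Nat.Primes) (x : ↥(TeisSub N P S)) :
    ((heckeT N P S hS r x : ↥(TeisSub N P S)) : Tp P (JZero N)) =
      Tp.mapEnd (p := P) (heckeEnd N r) (x : Tp P (JZero N)) := rfl

lemma evT_heckeT (r : Nat.Primes) (k : ℕ) (x : ↥(TeisSub N P S)) :
    evT N P S k (heckeT N P S hS r x) = heckeOperatorBar N r (evT N P S k x) := rfl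

/-- level compatibility: at level `k` the operator `heckeT r` is `T_r` on `Gk ⊆ J₀(N)(ℚ̄)` -/
lemma toJ_level_heckeT (r : Nat.Primes) (k : ℕ) (x : ↥(TeisSub N P S)) :
    toJ N P S k (level N P S k (heckeT N P S hS r x)) =
      heckeOperatorBar N r (toJ N P S k (level N P S k x)) := rfl

/-- the Hecke operators commute with the Galois action -/
theorem heckeT_rhoT (r : Nat.Primes) (σ : GQ) (x : ↥(TeisSub N P S)) :
    heckeT N P S hS r (rhoT N P S σ x) = rhoT N P S σ (heckeT N P S hS r x) :=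
  ext_evT N P S fun k =>
    Fermat.Agent.S30.Arith.HeckeGalois.heckeOperatorBar_smul N r σ (evT N P S k x)

theorem commute_rhoT_heckeT (σ : GQ) (r : Nat.Primes) :
    Commute (rhoT N P S σ) (heckeT N P S hS r) :=
  LinearMap.ext fun x => (heckeT_rhoT N P S hS r σ x).symm

/-- `T_r` and `T_s` commute as soon as one of `r`, `s` is prime to `N` and different from `P` -/
theorem heckeT_comm (r s : Nat.Primes)
    (h : (¬ (r : ℕ) ∣ N ∧ (r : ℕ) ≠ P) ∨ (¬ (s : ℕ) ∣ N ∧ (s : ℕ) ≠ P))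
    (x : ↥(TeisSub N P S)) :
    heckeT N P S hS r (heckeT N P S hS s x) = heckeT N P S hS s (heckeT N P S hS r x) :=
  ext_evT N P S fun k =>
    Fermat.Agent.S15.G.HeckeComm.hecke_comm_torsion' N hP.out r s h
      (Tp.isTorsion_apply (x : Tp P (JZero N)) k)

theorem commute_heckeT (r s : Nat.Primes)
    (h : (¬ (r : ℕ) ∣ N ∧ (r : ℕ) ≠ P) ∨ (¬ (s : ℕ) ∣ N ∧ (s : ℕ) ≠ P)) :
    Commute (heckeT N P S hS r) (heckeT N P S hS s) :=
  LinearMap.ext fun x => heckeT_comm N P S hS r s h x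

/-- **all the Hecke operators commute on the Tate module** (the bad primes included) -/
theorem commute_mapEnd_hecke (r s : Nat.Primes) :
    Commute (Tp.mapEnd (p := P) (heckeEnd N r)) (Tp.mapEnd (p := P) (heckeEnd N s)) := by
  obtain ⟨e, H3⟩ := Fermat.Agent.S15.Struct.EigenRank.exists_compare N P
  have H3' : ∀ (q : Nat.Primes) (y : Tp P (JZero N)),
      e (Tp.mapEnd (p := P) (heckeEnd N q) y) =
        (Fermat.Agent.S30.Hecke.Parabolic.tauPar ℤ ℤ N q q.2).baseChange ℤ_[P] (e y) :=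
    fun q y => H3 q y
  have hc : (Fermat.Agent.S30.Hecke.Parabolic.tauPar ℤ ℤ N r r.2).baseChange ℤ_[P] ∘ₗ
      (Fermat.Agent.S30.Hecke.Parabolic.tauPar ℤ ℤ N s s.2).baseChange ℤ_[P] =
      (Fermat.Agent.S30.Hecke.Parabolic.tauPar ℤ ℤ N s s.2).baseChange ℤ_[P] ∘ₗ
        (Fermat.Agent.S30.Hecke.Parabolic.tauPar ℤ ℤ N r r.2).baseChange ℤ_[P] := by
    rw [← LinearMap.baseChange_comp, ← LinearMap.baseChange_comp]
    congr 1
    exact LinearMap.ext fun y => Fermat.Agent.S41.Forms.tauPar_comm N r.2 s.2 y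
  refine LinearMap.ext fun x => e.injective ?_
  rw [Module.End.mul_apply, Module.End.mul_apply, H3', H3', H3', H3']
  exact LinearMap.congr_fun hc (e x)

theorem heckeT_comm_all (r s : Nat.Primes) (x : ↥(TeisSub N P S)) :
    heckeT N P S hS r (heckeT N P S hS s x) = heckeT N P S hS s (heckeT N P S hS r x) :=
  Subtype.ext (LinearMap.congr_fun (commute_mapEnd_hecke N P r s).eq (x : Tp P (JZero N)))

theorem commute_heckeT_all (r s : Nat.Primes) :
    Commute (heckeT N P S hS r) (heckeT N P S hS s) :=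
  LinearMap.ext fun x => heckeT_comm_all N P S hS r s x

/-- the Eisenstein relation at finite level: on `Gk`, `T_r - (1 + r)` is nilpotent (`r ∉ S`) -/
theorem exists_pow_eis_evT (r : Nat.Primes) (hr : (r : ℕ) ∉ S) (k : ℕ) (x : ↥(TeisSub N P S)) :
    ∃ n : ℕ, ((heckeOperatorBar N r - ((1 + (r : ℕ) : ℕ) : ℤ) • 1) ^ n) (evT N P S k x) = 0 :=
  x.2 k _ ⟨r, hr, rfl⟩

/-! ### Base change to a `ℤ_P`-algebra -/

variable (O : Type*) [CommRing O] [Algebra ℤ_[P] O]

/-- the Galois action on `O ⊗ TeisSub` -/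
def rhoLam : GQ →* Module.End O (O ⊗[ℤ_[P]] ↥(TeisSub N P S)) :=
  (Module.End.baseChangeHom ℤ_[P] O ↥(TeisSub N P S)).toRingHom.toMonoidHom.comp (rhoT N P S)

lemma rhoLam_apply (σ : GQ) : rhoLam N P S O σ = (rhoT N P S σ).baseChange O := rfl

lemma rhoLam_tmul (σ : GQ) (o : O) (x : ↥(TeisSub N P S)) :
    rhoLam N P S O σ (o ⊗ₜ x) = o ⊗ₜ rhoT N P S σ x := rfl

/-- the Hecke operators on `O ⊗ TeisSub` -/
def heckeLam (r : Nat.Primes) : Module.End O (O ⊗[ℤ_[P]] ↥(TeisSub N P S)) :=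
  (heckeT N P S hS r).baseChange O

lemma heckeLam_tmul (r : Nat.Primes) (o : O) (x : ↥(TeisSub N P S)) :
    heckeLam N P S hS O r (o ⊗ₜ x) = o ⊗ₜ heckeT N P S hS r x := rfl

theorem commute_rhoLam_heckeLam (σ : GQ) (r : Nat.Primes) :
    Commute (rhoLam N P S O σ) (heckeLam N P S hS O r) :=
  (commute_rhoT_heckeT N P S hS σ r).map (Module.End.baseChangeHom ℤ_[P] O ↥(TeisSub N P S))

theorem commute_heckeLam (r s : Nat.Primes)
    (h : (¬ (r : ℕ) ∣ N ∧ (r : ℕ) ≠ P) ∨ (¬ (s : ℕ) ∣ N ∧ (s : ℕ) ≠ P)) :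
    Commute (heckeLam N P S hS O r) (heckeLam N P S hS O s) :=
  (commute_heckeT N P S hS r s h).map (Module.End.baseChangeHom ℤ_[P] O ↥(TeisSub N P S))

theorem commute_heckeLam_all (r s : Nat.Primes) :
    Commute (heckeLam N P S hS O r) (heckeLam N P S hS O s) :=
  (commute_heckeT_all N P S hS r s).map (Module.End.baseChangeHom ℤ_[P] O ↥(TeisSub N P S))

/-- the inclusion of `O ⊗ TeisSub` in `O ⊗ Tp P (JZero N)` -/
def lamIncl : O ⊗[ℤ_[P]] ↥(TeisSub N P S) →ₗ[O] O ⊗[ℤ_[P]] ↥(Tp P (JZero N)) :=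
  (TeisSub N P S).subtype.baseChange O

lemma lamIncl_tmul (o : O) (x : ↥(TeisSub N P S)) :
    lamIncl N P S O (o ⊗ₜ x) = o ⊗ₜ (x : Tp P (JZero N)) := rfl

theorem lamIncl_injective [Module.Flat ℤ_[P] O] : Function.Injective (lamIncl N P S O) := by
  have h := Module.Flat.lTensor_preserves_injective_linearMap (M := O)
    (TeisSub N P S).subtype (Submodule.subtype_injective _)
  exact h

/-- compatibility with main's Galois action on `O ⊗ Tp` -/
theorem lamIncl_rho (σ : GQ) (x : O ⊗[ℤ_[P]] ↥(TeisSub N P S)) :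
    lamIncl N P S O (rhoLam N P S O σ x) = rhoV P O (JZero N) σ (lamIncl N P S O x) := by
  induction x using TensorProduct.induction_on with
  | zero => rw [map_zero, map_zero, map_zero]
  | tmul o t => rfl
  | add a b ha hb => rw [map_add, map_add, map_add, map_add, ha, hb]

/-- compatibility with main's Hecke operators on `O ⊗ Tp` -/
theorem lamIncl_hecke (r : Nat.Primes) (x : O ⊗[ℤ_[P]] ↥(TeisSub N P S)) :
    lamIncl N P S O (heckeLam N P S hS O r x) =
      opVHom P O (JZero N) (heckeEnd N r) (lamIncl N P S O x) := by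
  induction x using TensorProduct.induction_on with
  | zero => rw [map_zero, map_zero, map_zero]
  | tmul o t => rfl
  | add a b ha hb => rw [map_add, map_add, map_add, map_add, ha, hb]

/-- eigenvectors of the Hecke operators on `O ⊗ TeisSub` lie in main's eigenlattice of
`O ⊗ Tp P (JZero N)` -/
theorem lamIncl_mem_eigenLattice (c : Nat.Primes → O) (x : O ⊗[ℤ_[P]] ↥(TeisSub N P S))
    (h : ∀ r, heckeLam N P S hS O r x = c r • x) :
    lamIncl N P S O x ∈ eigenLattice (fun r => opVHom P O (JZero N) (heckeEnd N r)) c :=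
  mem_eigenLattice.2 fun r => by
    rw [← lamIncl_hecke N P S hS O r x, h r, map_smul]

theorem lamIncl_mem_eigenLattice_iff [Module.Flat ℤ_[P] O] (c : Nat.Primes → O)
    (x : O ⊗[ℤ_[P]] ↥(TeisSub N P S)) :
    lamIncl N P S O x ∈ eigenLattice (fun r => opVHom P O (JZero N) (heckeEnd N r)) c ↔
      ∀ r, heckeLam N P S hS O r x = c r • x := by
  refine ⟨fun h r => ?_, lamIncl_mem_eigenLattice N P S hS O c x⟩
  apply lamIncl_injective N P S O
  rw [lamIncl_hecke N P S hS O r x, mem_eigenLattice.1 h r, map_smul]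

/-- the same for any spelling `f r` of the Hecke endomorphisms (`TateInputs.heckeEnd`,
`Final.Chain.heckeEnd`, ...) -/
theorem lamIncl_mem_eigenLattice' (f : Nat.Primes → AddMonoid.End (JZero N))
    (hf : ∀ r y, f r y = heckeOperatorBar N r y) (c : Nat.Primes → O)
    (x : O ⊗[ℤ_[P]] ↥(TeisSub N P S)) (h : ∀ r, heckeLam N P S hS O r x = c r • x) :
    lamIncl N P S O x ∈ eigenLattice (fun r => opVHom P O (JZero N) (f r)) c := by
  have e : f = fun r => heckeEnd N r := funext fun r => AddMonoidHom.ext fun y => hf r y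
  rw [e]
  exact lamIncl_mem_eigenLattice N P S hS O c x h

/-- the image of `lamIncl` is spanned by the `1 ⊗ t`, `t ∈ TeisSub` -/
theorem lamIncl_mem_span (x : O ⊗[ℤ_[P]] ↥(TeisSub N P S)) :
    lamIncl N P S O x ∈
      Submodule.span O {v | ∃ t ∈ TeisSub N P S, v = (1 : O) ⊗ₜ[ℤ_[P]] t} := by
  induction x using TensorProduct.induction_on with
  | zero => rw [map_zero]; exact Submodule.zero_mem _
  | tmul o t =>
    have e : lamIncl N P S O (o ⊗ₜ t) = o • ((1 : O) ⊗ₜ[ℤ_[P]] (t : Tp P (JZero N))) := by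
      rw [lamIncl_tmul, TensorProduct.smul_tmul', smul_eq_mul, mul_one]
    rw [e]
    exact Submodule.smul_mem _ _ (Submodule.subset_span ⟨t, t.2, rfl⟩)
  | add a b ha hb => rw [map_add]; exact Submodule.add_mem _ ha hb

/-! ### The inclusion of an eigen-submodule of `O ⊗ TeisSub` in main's eigenlattice -/

section EigIncl

variable (f : Nat.Primes → AddMonoid.End (JZero N)) (hf : ∀ r y, f r y = heckeOperatorBar N r y)
  (c : Nat.Primes → O) (E : Submodule O (O ⊗[ℤ_[P]] ↥(TeisSub N P S)))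
  (hE : ∀ x ∈ E, ∀ r, heckeLam N P S hS O r x = c r • x)

/-- a submodule of `O ⊗ TeisSub` of eigenvectors, inside main's eigenlattice of `O ⊗ Tp` -/
def eigIncl : ↥E →ₗ[O] ↥(eigenLattice (fun r => opVHom P O (JZero N) (f r)) c) :=
  ((lamIncl N P S O).domRestrict E).codRestrict _ fun x =>
    lamIncl_mem_eigenLattice' N P S hS O f hf c (x : O ⊗[ℤ_[P]] ↥(TeisSub N P S)) (hE _ x.2)

lemma coe_eigIncl (x : ↥E) :
    ((eigIncl N P S hS O f hf c E hE x :
      ↥(eigenLattice (fun r => opVHom P O (JZero N) (f r)) c)) : O ⊗[ℤ_[P]] ↥(Tp P (JZero N))) =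
      lamIncl N P S O (x : O ⊗[ℤ_[P]] ↥(TeisSub N P S)) := rfl

theorem eigIncl_injective [Module.Flat ℤ_[P] O] :
    Function.Injective (eigIncl N P S hS O f hf c E hE) := fun _ _ h =>
  Subtype.ext (lamIncl_injective N P S O (congrArg Subtype.val h))

/-- equivariance, in the shape of the hypothesis `hemb` of `Struct/Rep.halfBound_rep` -/
theorem eigIncl_rho
    (hcomm : ∀ σ r, Commute (rhoV P O (JZero N) σ) (opVHom P O (JZero N) (f r)))
    (σ : GQ) (x y : ↥E)
    (hxy : (y : O ⊗[ℤ_[P]] ↥(TeisSub N P S)) =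
      rhoLam N P S O σ (x : O ⊗[ℤ_[P]] ↥(TeisSub N P S))) :
    eigIncl N P S hS O f hf c E hE y =
      restrictHom (fun r => opVHom P O (JZero N) (f r)) c (rhoV P O (JZero N)) hcomm σ
        (eigIncl N P S hS O f hf c E hE x) :=
  Subtype.ext (by
    rw [coe_restrictHom_apply, coe_eigIncl, coe_eigIncl, hxy, lamIncl_rho])

end EigIncl

/-! ### Finiteness -/

theorem finite_Lam : Module.Finite O (O ⊗[ℤ_[P]] ↥(TeisSub N P S)) := by
  have := finite_Teis N P S
  infer_instance

theorem free_Lam : Module.Free O (O ⊗[ℤ_[P]] ↥(TeisSub N P S)) := by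
  have := free_Teis N P S
  infer_instance

theorem finrank_Lam [Nontrivial O] :
    Module.finrank O (O ⊗[ℤ_[P]] ↥(TeisSub N P S)) = Module.finrank ℤ_[P] ↥(TeisSub N P S) := by
  have := finite_Teis N P S
  have := free_Teis N P S
  exact Module.finrank_baseChange

end Fermat.Agent.S15.Struct.TateEisHecke
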