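/-
PROJECT M (S15), block [S], TABLE #1 row 13, THE `W_P` RUN (helper21): `hhalf` FOR `Gk N P k S`.

Frame (C) of the chief's p44: `f r := heckeT N P S hS r` (helper7, ALL primes `r`), `O` the output of
helper24's `(SPLIT)`, `Λ = O ⊗[ℤ_[P]] ↥(TeisSub N P S)`, `lamIncl : Λ → O ⊗ Tp` (helper7).

* `lat_ne_bot_of_occ`   : an eigen-system occurring in `Λ` occurs in `O ⊗ Tp`;
* `finrank_eigen_le_two`: `finrank O Λ[c] ≤ 2` (helper10's rank two + helper7's `eigIncl`);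
* `pieceP`              : the `hpiece` clause of `Final.hhalf_of_split` from `hKP` on `rhoChi`
                          (helper10's `RhoChiIrred.no_stable_line` + helper11's `PieceP`);
* `hhalf_of_KP`         : `∃ n, ∀ k > 0, |G0red N P k S| ^ 2 ≤ n ^ 2 |Gk N P k S|` from `hsplit`,
                          `hKP` and (Q5a).
-/
import Fermat.Agent.S15.Struct.Final
import Fermat.Agent.S15.Struct.TateEisHecke
import Fermat.Agent.S15.Struct.RhoChiIrred
import Fermat.Agent.S15.G.PieceP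

set_option autoImplicit false
set_option linter.unusedSectionVars false
set_option synthInstance.maxHeartbeats 400000
set_option maxSynthPendingDepth 3

namespace Fermat.Agent.S15.Struct.FinalP

open Function TensorProduct AlgebraicCurve ModularCurve IsLocalRing
open Fermat.Agent.S56.Coh Fermat.Agent.CFT.LC Fermat.Agent.CFT.Bridge Fermat.Agent.CFT.LocalBridge
open Fermat.Agent.S15.K.Star Fermat.Agent.S15.K.Ord
open Fermat.Agent.S15.P.CycAct
open Fermat.Agent.S30.Padic Fermat.Agent.S30.Padic.TateModule Fermat.Agent.S30.Padic.Assembly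
open Fermat.Agent.S15.Struct.Count Fermat.Agent.S15.Struct.Eigen
open Fermat.Agent.S15.Struct.TateEis Fermat.Agent.S15.Struct.TateEisHecke
open Fermat.Agent.S15.Struct.EigenRank Fermat.Agent.S15.Struct.RhoChi

variable (N : ℕ) [NeZero N] (P : ℕ) [hP : Fact P.Prime] (S : Set ℕ)
  (hS : ∀ r : Nat.Primes, (r : ℕ) ∉ S → ¬ (r : ℕ) ∣ N ∧ (r : ℕ) ≠ P)
  (O : Type) [CommRing O] [IsDomain O] [IsDiscreteValuationRing O] [CharZero O]
  [Algebra ℤ_[P] O] [Module.Free ℤ_[P] O] [Module.Finite ℤ_[P] O]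

/-- An eigen-system occurring in `Λ = O ⊗ TeisSub` occurs in `O ⊗ Tp`. -/
theorem lat_ne_bot_of_occ (c : Nat.Primes → O)
    (hocc : ∃ x : O ⊗[ℤ_[P]] ↥(TeisSub N P S), x ≠ 0 ∧
      ∀ r, heckeLam N P S hS O r x = c r • x) : lat N P c ≠ ⊥ := by
  obtain ⟨x, hx0, hx⟩ := hocc
  intro h
  have h1 : lamIncl N P S O x ∈ lat N P c :=
    lamIncl_mem_eigenLattice' N P S hS O (fun r => Fermat.Agent.S30.Final.Chain.heckeEnd N r)
      (fun _ _ => rfl) c x hx
  exact hx0 (lamIncl_injective N P S O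
    (((Submodule.eq_bot_iff _).1 h _ h1).trans (map_zero _).symm))

/-- **`finrank O Λ[c] ≤ 2`.** -/
theorem finrank_eigen_le_two (c : Nat.Primes → O)
    (hocc : ∃ x : O ⊗[ℤ_[P]] ↥(TeisSub N P S), x ≠ 0 ∧
      ∀ r, heckeLam N P S hS O r x = c r • x) :
    Module.finrank O ↥(eigen (𝔸 := O) (fun r => heckeLam N P S hS O r) c) ≤ 2 := by
  have h2 := finrank_eigenLattice_eq_two (N := N) (p := P) c (lat_ne_bot_of_occ N P S hS O c hocc)
  have : Module.Finite ℤ_[P] (Tp P (JZero N)) := finite_Tp N P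
  have : Module.Finite O ↥(lat N P c) := by
    have : IsNoetherian O (O ⊗[ℤ_[P]] Tp P (JZero N)) := inferInstance
    infer_instance
  have h3 := LinearMap.finrank_le_finrank_of_injective
    (eigIncl_injective N P S hS O (fun r => Fermat.Agent.S30.Final.Chain.heckeEnd N r)
      (fun _ _ => rfl) c (eigen (𝔸 := O) (fun r => heckeLam N P S hS O r) c) (fun x hx r => hx r))
  exact h3.trans h2.le

variable [IsAdicComplete (maximalIdeal O) O] [Fact N.Prime]

/-- **The `W_P` clause of `hpiece`** for `Λ = O ⊗ TeisSub`, from `hKP` on `rhoChi`. -/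
theorem pieceP (hNP : N ≠ P) (hpO : (P : O) ∈ maximalIdeal O) (c : Nat.Primes → O)
    (hocc : ∃ x : O ⊗[ℤ_[P]] ↥(TeisSub N P S), x ≠ 0 ∧
      ∀ r, heckeLam N P S hS O r x = c r • x)
    (hKP : ∀ h2 : Module.finrank O (lat N P c) = 2, ∀ σ ∈ Iq P, ∀ τ ∈ Iq P,
      ((rhoChi N P hpO c h2).ρ τ -
        Fermat.Agent.S30.Algebra.Cyclotomic.cycChar P (algebraMap ℤ_[P] O) τ •
          (1 : Module.End O (rhoChi N P hpO c h2).V)) * ((rhoChi N P hpO c h2).ρ σ - 1) = 0)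
    (T : Submodule O (O ⊗[ℤ_[P]] ↥(TeisSub N P S)))
    (hT : T ≤ eigen (𝔸 := O) (fun r => heckeLam N P S hS O r) c)
    (hst : ∀ g : GQ, ∀ x ∈ T, (rhoT N P S g).baseChange O x ∈ T) (hne : T ≠ ⊥) :
    ∃ τ ∈ Iq P, ∃ x ∈ T, (rhoT N P S τ).baseChange O x ≠
      algebraMap ℤ_[P] O
        (((Fermat.Agent.S30.Algebra.Cyclotomic.cyc P τ : ℤ_[P]ˣ) : ℤ_[P])) • x := by
  have h2 := finrank_eigenLattice_eq_two (N := N) (p := P) c (lat_ne_bot_of_occ N P S hS O c hocc)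
  have hline := Fermat.Agent.S15.Struct.RhoChiIrred.no_stable_line (hpO := hpO) (c := c)
    (h2 := h2) hNP (hKP h2)
  -- the image of `T` in `O ⊗ Tp`
  have hS' : T.map (lamIncl N P S O) ≤ lat N P c := by
    rintro _ ⟨x, hx, rfl⟩
    exact lamIncl_mem_eigenLattice' N P S hS O
      (fun r => Fermat.Agent.S30.Final.Chain.heckeEnd N r) (fun _ _ => rfl) c x
      (fun r => hT hx r)
  have hst' : ∀ g : GQ, ∀ y ∈ T.map (lamIncl N P S O),
      rhoV P O (JZero N) g y ∈ T.map (lamIncl N P S O) := by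
    rintro g _ ⟨x, hx, rfl⟩
    exact ⟨rhoLam N P S O g x, hst g x hx, lamIncl_rho N P S O g x⟩
  have hne' : T.map (lamIncl N P S O) ≠ ⊥ := fun h =>
    hne ((Submodule.eq_bot_iff _).2 fun x hx => lamIncl_injective N P S O
      (((Submodule.eq_bot_iff _).1 h (lamIncl N P S O x) ⟨x, hx, rfl⟩).trans (map_zero _).symm))
  refine Exists.elim
    (Fermat.Agent.S15.G.PieceP.exists_ne_cycChar_of_stable N P O hpO (algebraMap ℤ_[P] O) c h2
      hline (T.map (lamIncl N P S O)) hS' hst' hne' (liesOverPrime_padicPlace P))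
    fun τ hτ => ?_
  refine Exists.elim hτ.2 fun y hy => ?_
  refine Exists.elim (Submodule.mem_map.1 hy.1) fun x hx => ?_
  have hxy : lamIncl N P S O x = y := hx.2
  refine ⟨τ, hτ.1, x, hx.1, fun h => hy.2 ?_⟩
  have e1 : rhoV P O (JZero N) τ y = rhoV P O (JZero N) τ (lamIncl N P S O x) :=
    congrArg (rhoV P O (JZero N) τ) hxy.symm
  have e2 : rhoV P O (JZero N) τ (lamIncl N P S O x) =
      lamIncl N P S O (rhoLam N P S O τ x) := (lamIncl_rho N P S O τ x).symm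
  have e3 : lamIncl N P S O (rhoLam N P S O τ x) =
      lamIncl N P S O (algebraMap ℤ_[P] O
        (((Fermat.Agent.S30.Algebra.Cyclotomic.cyc P τ : ℤ_[P]ˣ) : ℤ_[P])) • x) :=
    congrArg (lamIncl N P S O) h
  have e4 : lamIncl N P S O (algebraMap ℤ_[P] O
        (((Fermat.Agent.S30.Algebra.Cyclotomic.cyc P τ : ℤ_[P]ˣ) : ℤ_[P])) • x) =
      algebraMap ℤ_[P] O
        (((Fermat.Agent.S30.Algebra.Cyclotomic.cyc P τ : ℤ_[P]ˣ) : ℤ_[P])) •
          lamIncl N P S O x := map_smul _ _ _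
  have e5 : algebraMap ℤ_[P] O
        (((Fermat.Agent.S30.Algebra.Cyclotomic.cyc P τ : ℤ_[P]ˣ) : ℤ_[P])) •
          lamIncl N P S O x =
      algebraMap ℤ_[P] O
        (((Fermat.Agent.S30.Algebra.Cyclotomic.cyc P τ : ℤ_[P]ˣ) : ℤ_[P])) • y :=
    congrArg (fun z => algebraMap ℤ_[P] O
        (((Fermat.Agent.S30.Algebra.Cyclotomic.cyc P τ : ℤ_[P]ˣ) : ℤ_[P])) • z) hxy
  exact e1.trans (e2.trans (e3.trans (e4.trans e5)))

/-- **(hhalf) for `Gk N P k S`** from `hsplit`, `hKP` and (Q5a). -/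
theorem hhalf_of_KP [Finite (ResidueField O)] (hNP : N ≠ P) (hpO : (P : O) ∈ maximalIdeal O)
    (hsplit : ∀ r : Nat.Primes, ∃ l : List O, (l.map fun a => (heckeT N P S hS r).baseChange O -
      a • (1 : Module.End O (O ⊗[ℤ_[P]] ↥(TeisSub N P S)))).prod = 0)
    (hKP : ∀ c : Nat.Primes → O, (∃ x : O ⊗[ℤ_[P]] ↥(TeisSub N P S), x ≠ 0 ∧
        ∀ r, heckeLam N P S hS O r x = c r • x) →
      ∀ h2 : Module.finrank O (lat N P c) = 2, ∀ σ ∈ Iq P, ∀ τ ∈ Iq P,
      ((rhoChi N P hpO c h2).ρ τ -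
        Fermat.Agent.S30.Algebra.Cyclotomic.cycChar P (algebraMap ℤ_[P] O) τ •
          (1 : Module.End O (rhoChi N P hpO c h2).V)) * ((rhoChi N P hpO c h2).ρ σ - 1) = 0)
    (hQ5a : ∀ k : ℕ, 0 < k → ∀ τ ∈ Iq P, ∀ x ∈ G0red N P k S,
      (Gk N P k S).ρ τ x = cycExp P k τ • x) :
    ∃ n : ℕ, ∀ k : ℕ, 0 < k →
      Nat.card ↥(G0red N P k S) ^ 2 ≤ n ^ 2 * Nat.card (Gk N P k S) :=
  Fermat.Agent.S15.Struct.Final.hhalf_of_split (O := O) (hcomm_of_hS N P S hS)
    (fun r : Nat.Primes => heckeT N P S hS r) (fun r s => commute_heckeT_all N P S hS r s)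
    (fun g r => commute_rhoT_heckeT N P S hS g r) hsplit
    (fun c hc => ⟨finrank_eigen_le_two N P S hS O c hc, fun T hT hst hne =>
      pieceP N P S hS O hNP hpO c hc (hKP c hc) T hT hst hne⟩) hQ5a

end Fermat.Agent.S15.Struct.FinalP
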