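/-
PROJECT M (S15), block [S], leaf (S-b)-abstract (helper24): DEVISSAGE OF A LATTICE WITH COMMUTING
SPLIT OPERATORS ALONG ITS COMMON EIGEN-SUBMODULES.  Mathlib only.

`O` is a principal ideal domain, `𝔸` an `O`-algebra (think `O[G_ℚ]`), `Λ` a finitely generated
torsion-free `O`-module with `𝔸`-action, `T : τ → Λ →ₗ[𝔸] Λ` a finite family of pairwise commuting
`𝔸`-endomorphisms, each killed by a product `∏ (T t - a)`, `a ∈ O` (`IsSplit`).  For `χ : τ → O`,

* `eig T χ` : the common eigen-submodule `{x | ∀ t, T t x = χ t • x}` (an `𝔸`-submodule);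
* `HasEmb R T` : every `eig T χ` embeds `𝔸`-linearly into a finite power of `R χ`.

`devissage`: every property `HB` of `𝔸`-lattices which passes to extensions with torsion-free
quotient and holds for the finitely generated modules embedding into a finite power of some `R χ`,
holds for `Λ`.  One induction on the rank: `Λ ≠ 0` has a nonzero `E = eig T χ`; `Λ / E` is
torsion-free of smaller rank, carries the induced commuting split operators, and `HasEmb` passes to
it (`hasEmb_quotient`): `eig (Λ/E) χ ↪ E^τ` through `x ↦ ((T t - χ t) x)_t`, and for `χ' ≠ χ`, say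
`χ' t₀ ≠ χ t₀`, `eig (Λ/E) χ' ↪ eig Λ χ'` through `x ↦ (T t₀ - χ t₀) x`.
-/
import Mathlib

set_option autoImplicit false

namespace Fermat.Agent.S15.Struct.EigenDev

open Function

universe v w

/-! ### Part 1: shifts and common eigen-submodules -/

section Defs

variable {O : Type*} [CommRing O] {𝔸 : Type*} [Ring 𝔸] [Algebra O 𝔸]
variable {Λ : Type*} [AddCommGroup Λ] [Module O Λ] [Module 𝔸 Λ] [IsScalarTower O 𝔸 Λ]
variable {τ : Type*}

/-- The operator `f - a`. -/
def shift (f : Λ →ₗ[𝔸] Λ) (a : O) : Λ →ₗ[𝔸] Λ := f - DistribSMul.toLinearMap 𝔸 Λ a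

@[simp] lemma shift_apply (f : Λ →ₗ[𝔸] Λ) (a : O) (x : Λ) : shift f a x = f x - a • x := rfl

/-- Shifts of commuting operators commute. -/
lemma shift_comm {f g : Λ →ₗ[𝔸] Λ} (h : ∀ x, f (g x) = g (f x)) (a b : O) (x : Λ) :
    shift f a (shift g b x) = shift g b (shift f a x) := by
  simp only [shift_apply, map_sub, LinearMap.map_smul_of_tower, h x, smul_sub]
  rw [smul_comm a b x]
  abel

/-- Apply the shifts `f - a`, `a ∈ l`, first letter first. -/
def shiftList (f : Λ →ₗ[𝔸] Λ) : List O → Λ → Λ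
  | [], x => x
  | a :: l, x => shiftList f l (shift f a x)

@[simp] lemma shiftList_nil (f : Λ →ₗ[𝔸] Λ) (x : Λ) : shiftList f ([] : List O) x = x := rfl

@[simp] lemma shiftList_cons (f : Λ →ₗ[𝔸] Λ) (a : O) (l : List O) (x : Λ) :
    shiftList f (a :: l) x = shiftList f l (shift f a x) := rfl

variable (O) in
/-- `f` is killed by a product of shifts `f - a`, `a : O`. -/
def IsSplit (f : Λ →ₗ[𝔸] Λ) : Prop := ∃ l : List O, ∀ x, shiftList f l x = 0

/-- The common eigen-submodule of the family `T` for the eigen-system `χ`. -/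
def eig (T : τ → Λ →ₗ[𝔸] Λ) (χ : τ → O) : Submodule 𝔸 Λ :=
  ⨅ t, LinearMap.ker (shift (T t) (χ t))

lemma mem_eig {T : τ → Λ →ₗ[𝔸] Λ} {χ : τ → O} {x : Λ} :
    x ∈ eig T χ ↔ ∀ t, T t x = χ t • x := by
  simp only [eig, Submodule.mem_iInf, LinearMap.mem_ker, shift_apply, sub_eq_zero]

lemma eig_le_ker (T : τ → Λ →ₗ[𝔸] Λ) (χ : τ → O) (t : τ) :
    eig T χ ≤ LinearMap.ker (shift (T t) (χ t)) := iInf_le _ t

/-- The common eigen-submodules are stable under the (commuting) operators. -/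
lemma eig_stable {T : τ → Λ →ₗ[𝔸] Λ} (hcomm : ∀ s t x, T s (T t x) = T t (T s x)) (χ : τ → O)
    (t : τ) : eig T χ ≤ (eig T χ).comap (T t) := by
  intro x hx
  rw [Submodule.mem_comap, mem_eig]
  intro s
  rw [hcomm s t x, mem_eig.mp hx s, LinearMap.map_smul_of_tower]

/-- The common eigen-submodules are saturated. -/
lemma eig_saturated [IsDomain O] [Module.IsTorsionFree O Λ] (T : τ → Λ →ₗ[𝔸] Λ) (χ : τ → O)
    {a : O} (ha : a ≠ 0) {x : Λ} (hx : a • x ∈ eig T χ) : x ∈ eig T χ := by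
  rw [mem_eig] at hx ⊢
  intro t
  have h1 := hx t
  rw [LinearMap.map_smul_of_tower, smul_comm (χ t) a x, ← sub_eq_zero, ← smul_sub] at h1
  exact sub_eq_zero.mp ((smul_eq_zero_iff_right ha).mp h1)

/-- Walk along the list: a nonzero vector killed by a product of shifts of `f` inside an
`f`-stable submodule produces an eigenvector there. -/
lemma exists_eigen_of_shiftList (f : Λ →ₗ[𝔸] Λ) (W : Submodule O Λ)
    (hW : ∀ y ∈ W, f y ∈ W) :
    ∀ (l : List O) (x : Λ), x ∈ W → x ≠ 0 → shiftList f l x = 0 →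
      ∃ (a : O) (y : Λ), y ∈ W ∧ y ≠ 0 ∧ f y = a • y
  | [], _, _, hx0, h => absurd h hx0
  | a :: l, x, hxW, hx0, h => by
    by_cases hy : shift f a x = 0
    · exact ⟨a, x, hxW, hx0, sub_eq_zero.mp hy⟩
    · exact exists_eigen_of_shiftList f W hW l (shift f a x)
        (W.sub_mem (hW x hxW) (W.smul_mem a hxW)) hy h

/-- **Common eigenvector.** A finite family of pairwise commuting split operators on a nonzero
module has a nonzero common eigen-submodule. -/
theorem exists_eig_ne_bot [Finite τ] [Nontrivial Λ] (T : τ → Λ →ₗ[𝔸] Λ)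
    (hcomm : ∀ s t x, T s (T t x) = T t (T s x)) (hsplit : ∀ t, IsSplit O (T t)) :
    ∃ χ : τ → O, eig T χ ≠ ⊥ := by
  classical
  have := Fintype.ofFinite τ
  have key : ∀ F : Finset τ, ∃ (χ : τ → O) (x : Λ), x ≠ 0 ∧ ∀ t ∈ F, T t x = χ t • x := by
    intro F
    induction F using Finset.induction_on with
    | empty =>
      obtain ⟨x, hx⟩ := exists_ne (0 : Λ)
      exact ⟨fun _ => 0, x, hx, fun t ht => absurd ht (Finset.notMem_empty t)⟩
    | insert t0 F ht0 ih =>
      obtain ⟨χ, x, hx, hχ⟩ := ih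
      let W : Submodule O Λ :=
        { carrier := {y | ∀ t ∈ F, T t y = χ t • y}
          zero_mem' := fun t _ => by rw [map_zero, smul_zero]
          add_mem' := fun {y z} hy hz t ht => by rw [map_add, hy t ht, hz t ht, smul_add]
          smul_mem' := fun c y hy t ht => by
            rw [LinearMap.map_smul_of_tower, hy t ht, smul_comm] }
      have hWstab : ∀ y ∈ W, T t0 y ∈ W := by
        intro y hy t ht
        rw [hcomm t t0 y, hy t ht, LinearMap.map_smul_of_tower]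
      obtain ⟨l, hl⟩ := hsplit t0
      obtain ⟨a, y, hyW, hy0, hya⟩ :=
        exists_eigen_of_shiftList (T t0) W hWstab l x hχ hx (hl x)
      refine ⟨Function.update χ t0 a, y, hy0, fun t ht => ?_⟩
      rcases Finset.mem_insert.mp ht with rfl | htF
      · rw [Function.update_self]
        exact hya
      · have hne : t ≠ t0 := fun h => ht0 (h ▸ htF)
        rw [Function.update_of_ne hne]
        exact hyW t htF
  obtain ⟨χ, x, hx, hχ⟩ := key Finset.univ
  refine ⟨χ, fun h => hx ?_⟩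
  have h1 : x ∈ eig T χ := mem_eig.mpr fun t => hχ t (Finset.mem_univ t)
  rw [h] at h1
  exact (Submodule.mem_bot 𝔸).mp h1

end Defs

/-! ### Part 2: the quotient by a common eigen-submodule -/

section Quot

variable {O : Type*} [CommRing O] {𝔸 : Type*} [Ring 𝔸] [Algebra O 𝔸]
variable {Λ : Type*} [AddCommGroup Λ] [Module O Λ] [Module 𝔸 Λ] [IsScalarTower O 𝔸 Λ]
variable {τ : Type}

/-- The operators induced on the quotient by a stable submodule. -/
def TQ (T : τ → Λ →ₗ[𝔸] Λ) (E : Submodule 𝔸 Λ) (hE : ∀ t, E ≤ E.comap (T t)) (t : τ) :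
    (Λ ⧸ E) →ₗ[𝔸] (Λ ⧸ E) := E.mapQ E (T t) (hE t)

@[simp] lemma TQ_mk (T : τ → Λ →ₗ[𝔸] Λ) (E : Submodule 𝔸 Λ) (hE : ∀ t, E ≤ E.comap (T t)) (t : τ)
    (x : Λ) : TQ T E hE t (Submodule.Quotient.mk x) = Submodule.Quotient.mk (T t x) := rfl

lemma shift_mapQ_mk (f : Λ →ₗ[𝔸] Λ) (E : Submodule 𝔸 Λ) (hE : E ≤ E.comap f) (a : O) (x : Λ) :
    shift (E.mapQ E f hE) a (Submodule.Quotient.mk x) =
      (Submodule.Quotient.mk (shift f a x) : Λ ⧸ E) := by
  rw [shift_apply, shift_apply, Submodule.mapQ_apply, Submodule.Quotient.mk_sub,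
    Submodule.Quotient.mk_smul]

lemma shiftList_mapQ_mk (f : Λ →ₗ[𝔸] Λ) (E : Submodule 𝔸 Λ) (hE : E ≤ E.comap f) :
    ∀ (l : List O) (x : Λ), shiftList (E.mapQ E f hE) l (Submodule.Quotient.mk x) =
      (Submodule.Quotient.mk (shiftList f l x) : Λ ⧸ E)
  | [], _ => rfl
  | a :: l, x => by
    rw [shiftList_cons, shiftList_cons, shift_mapQ_mk, shiftList_mapQ_mk f E hE l]

lemma isSplit_mapQ {f : Λ →ₗ[𝔸] Λ} (h : IsSplit O f) (E : Submodule 𝔸 Λ) (hE : E ≤ E.comap f) :
    IsSplit O (E.mapQ E f hE) := by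
  obtain ⟨l, hl⟩ := h
  refine ⟨l, fun x => ?_⟩
  obtain ⟨x, rfl⟩ := Submodule.Quotient.mk_surjective _ x
  rw [shiftList_mapQ_mk, hl, Submodule.Quotient.mk_zero]

lemma TQ_comm {T : τ → Λ →ₗ[𝔸] Λ} (hcomm : ∀ s t x, T s (T t x) = T t (T s x))
    (E : Submodule 𝔸 Λ) (hE : ∀ t, E ≤ E.comap (T t)) (s t : τ) (x : Λ ⧸ E) :
    TQ T E hE s (TQ T E hE t x) = TQ T E hE t (TQ T E hE s x) := by
  obtain ⟨x, rfl⟩ := Submodule.Quotient.mk_surjective _ x
  rw [TQ_mk, TQ_mk, TQ_mk, TQ_mk, hcomm]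

/-- Membership in a common eigen-submodule of the quotient, on representatives. -/
lemma mk_mem_eig_TQ {T : τ → Λ →ₗ[𝔸] Λ} {E : Submodule 𝔸 Λ} {hE : ∀ t, E ≤ E.comap (T t)}
    {χ : τ → O} {x : Λ} :
    (Submodule.Quotient.mk x : Λ ⧸ E) ∈ eig (TQ T E hE) χ ↔ ∀ t, shift (T t) (χ t) x ∈ E := by
  rw [mem_eig]
  refine forall_congr' fun t => ?_
  rw [TQ_mk, ← Submodule.Quotient.mk_smul, Submodule.Quotient.eq, shift_apply]

/-- `T t - χ t` as a map from `Λ / eig T χ` to `Λ`. -/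
def shiftL (T : τ → Λ →ₗ[𝔸] Λ) (χ : τ → O) (t : τ) : (Λ ⧸ eig T χ) →ₗ[𝔸] Λ :=
  (eig T χ).liftQ (shift (T t) (χ t)) (eig_le_ker T χ t)

@[simp] lemma shiftL_mk (T : τ → Λ →ₗ[𝔸] Λ) (χ : τ → O) (t : τ) (x : Λ) :
    shiftL T χ t (Submodule.Quotient.mk x) = shift (T t) (χ t) x := rfl

/-- `shiftL T χ t₀` maps the `χ'`-eigen-submodule of the quotient into the `χ'`-eigen-submodule of
`Λ`. -/
lemma shiftL_mem_eig {T : τ → Λ →ₗ[𝔸] Λ} (hcomm : ∀ s t x, T s (T t x) = T t (T s x))
    (χ χ' : τ → O) (t0 : τ) (y : Λ ⧸ eig T χ)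
    (hy : y ∈ eig (TQ T (eig T χ) (eig_stable hcomm χ)) χ') : shiftL T χ t0 y ∈ eig T χ' := by
  obtain ⟨x, rfl⟩ := Submodule.Quotient.mk_surjective _ y
  rw [mk_mem_eig_TQ] at hy
  rw [shiftL_mk, mem_eig]
  intro s
  have h1 : shift (T s) (χ' s) (shift (T t0) (χ t0) x) = 0 := by
    rw [shift_comm (fun z => hcomm s t0 z)]
    exact LinearMap.mem_ker.mp (eig_le_ker T χ t0 (hy s))
  rw [shift_apply] at h1
  exact sub_eq_zero.mp h1

variable (R : (τ → O) → Type w) [∀ χ, AddCommGroup (R χ)] [∀ χ, Module 𝔸 (R χ)]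

/-- Every common eigen-submodule embeds `𝔸`-linearly into a finite power of `R χ`. -/
def HasEmb (T : τ → Λ →ₗ[𝔸] Λ) : Prop :=
  ∀ χ : τ → O, ∃ (ι : Type) (_ : Finite ι) (j : ↥(eig T χ) →ₗ[𝔸] (ι → R χ)), Injective j

/-- **`HasEmb` passes to the quotient by a common eigen-submodule.** -/
theorem hasEmb_quotient [Finite τ] {T : τ → Λ →ₗ[𝔸] Λ}
    (hcomm : ∀ s t x, T s (T t x) = T t (T s x)) (χ0 : τ → O)
    (htfq : ∀ a : O, a ≠ 0 → ∀ x : Λ ⧸ eig T χ0, a • x = 0 → x = 0) (hH : HasEmb R T) :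
    HasEmb R (TQ T (eig T χ0) (eig_stable hcomm χ0)) := by
  classical
  intro χ'
  obtain ⟨ι, hι, j, hj⟩ := hH χ'
  by_cases hχ : χ' = χ0
  · subst hχ
    -- `x ↦ ((T t - χ t) x)_t`
    let jt : τ → ↥(eig (TQ T (eig T χ') (eig_stable hcomm χ')) χ') →ₗ[𝔸] (ι → R χ') := fun t =>
      j.comp ((shiftL T χ' t).restrict (fun y hy => shiftL_mem_eig hcomm χ' χ' t y hy))
    let jq : ↥(eig (TQ T (eig T χ') (eig_stable hcomm χ')) χ') →ₗ[𝔸] (τ × ι → R χ') :=
      (LinearEquiv.curry 𝔸 (R χ') τ ι).symm.toLinearMap.comp (LinearMap.pi jt)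
    refine ⟨τ × ι, inferInstance, jq, ?_⟩
    refine (LinearEquiv.curry 𝔸 (R χ') τ ι).symm.injective.comp ?_
    rw [← LinearMap.ker_eq_bot, LinearMap.ker_eq_bot']
    intro y hy
    have h1 : ∀ t, shiftL T χ' t y.1 = 0 := by
      intro t
      have h2 : jt t y = 0 := congrFun hy t
      have h3 := hj (h2.trans (map_zero j).symm)
      exact congrArg Subtype.val h3
    obtain ⟨y, hy'⟩ := y
    obtain ⟨x, rfl⟩ := Submodule.Quotient.mk_surjective _ y
    apply Subtype.ext
    change (Submodule.Quotient.mk x : Λ ⧸ eig T χ') = 0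
    rw [Submodule.Quotient.mk_eq_zero, mem_eig]
    intro t
    have h2 := h1 t
    rw [shiftL_mk, shift_apply] at h2
    exact sub_eq_zero.mp h2
  · -- `x ↦ (T t₀ - χ t₀) x`
    obtain ⟨t0, ht0⟩ := Function.ne_iff.mp hχ
    let j' : ↥(eig (TQ T (eig T χ0) (eig_stable hcomm χ0)) χ') →ₗ[𝔸] (ι → R χ') :=
      j.comp ((shiftL T χ0 t0).restrict (fun y hy => shiftL_mem_eig hcomm χ0 χ' t0 y hy))
    refine ⟨ι, hι, j', ?_⟩
    rw [← LinearMap.ker_eq_bot, LinearMap.ker_eq_bot']
    intro y hy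
    have h1 : shiftL T χ0 t0 y.1 = 0 := by
      have h3 := hj (hy.trans (map_zero j).symm)
      exact congrArg Subtype.val h3
    obtain ⟨y, hy'⟩ := y
    obtain ⟨x, rfl⟩ := Submodule.Quotient.mk_surjective _ y
    apply Subtype.ext
    change (Submodule.Quotient.mk x : Λ ⧸ eig T χ0) = 0
    rw [shiftL_mk] at h1
    have h2 : shift (T t0) (χ' t0) x ∈ eig T χ0 := mk_mem_eig_TQ.mp hy' t0
    have h3 : (χ0 t0 - χ' t0) • x ∈ eig T χ0 := by
      have h4 : (χ0 t0 - χ' t0) • x = shift (T t0) (χ' t0) x - shift (T t0) (χ0 t0) x := by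
        rw [shift_apply, shift_apply, sub_smul]
        abel
      rw [h4, h1, sub_zero]
      exact h2
    refine htfq (χ0 t0 - χ' t0) (sub_ne_zero.mpr (Ne.symm ht0)) _ ?_
    rw [← Submodule.Quotient.mk_smul, Submodule.Quotient.mk_eq_zero]
    exact h3

end Quot

/-! ### Part 3: the dévissage -/

section Devissage

variable {O : Type*} [CommRing O] [IsDomain O] [IsPrincipalIdealRing O]
  {𝔸 : Type*} [Ring 𝔸] [Algebra O 𝔸] {τ : Type} [Finite τ]

omit [Finite τ] in
/-- A submodule of a finitely generated module over the principal ideal domain `O` is finitely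
generated over `O`. -/
lemma moduleFinite_sub {Γ : Type*} [AddCommGroup Γ] [Module O Γ] [Module 𝔸 Γ]
    [IsScalarTower O 𝔸 Γ] [Module.Finite O Γ] (S : Submodule 𝔸 Γ) : Module.Finite O ↥S := by
  have : IsNoetherian O Γ := inferInstance
  have h : Module.Finite O ↥(S.restrictScalars O) := inferInstance
  exact h

omit [IsDomain O] [IsPrincipalIdealRing O] [Finite τ] in
lemma moduleFinite_quot {Γ : Type*} [AddCommGroup Γ] [Module O Γ] [Module 𝔸 Γ]
    [IsScalarTower O 𝔸 Γ] [Module.Finite O Γ] (S : Submodule 𝔸 Γ) : Module.Finite O (Γ ⧸ S) :=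
  Module.Finite.of_surjective (S.mkQ.restrictScalars O) (Submodule.mkQ_surjective S)

omit [IsDomain O] [IsPrincipalIdealRing O] [Finite τ] in
lemma isTorsionFree_sub {Γ : Type*} [AddCommGroup Γ] [Module O Γ] [Module 𝔸 Γ]
    [IsScalarTower O 𝔸 Γ] [Module.IsTorsionFree O Γ] (S : Submodule 𝔸 Γ) :
    Module.IsTorsionFree O ↥S :=
  Function.Injective.moduleIsTorsionFree S.subtype Subtype.val_injective (fun _ _ => rfl)

/-- **Dévissage.** `HB` a property of `𝔸`-lattices which passes to extensions with torsion-free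
quotient (`hext`) and holds for the finitely generated modules embedding into a finite power of
some `R χ` (`hemb`).  Then `HB Λ` for every finitely generated torsion-free `O`-module `Λ` with
`𝔸`-action and a finite family `T` of pairwise commuting split `𝔸`-endomorphisms all of whose
common eigen-submodules embed into finite powers of the `R χ`. -/
theorem devissage (R : (τ → O) → Type w) [∀ χ, AddCommGroup (R χ)] [∀ χ, Module 𝔸 (R χ)]
    (HB : ∀ (Λ : Type v) [AddCommGroup Λ] [Module O Λ] [Module 𝔸 Λ] [IsScalarTower O 𝔸 Λ], Prop)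
    (hext : ∀ (Λ' Λ Λ'' : Type v) [AddCommGroup Λ'] [AddCommGroup Λ] [AddCommGroup Λ'']
      [Module O Λ'] [Module O Λ] [Module O Λ''] [Module 𝔸 Λ'] [Module 𝔸 Λ] [Module 𝔸 Λ'']
      [IsScalarTower O 𝔸 Λ'] [IsScalarTower O 𝔸 Λ] [IsScalarTower O 𝔸 Λ''] [Module.Finite O Λ]
      (i : Λ' →ₗ[𝔸] Λ) (p : Λ →ₗ[𝔸] Λ''), Injective i → Surjective p →
      (∀ x, p x = 0 → ∃ y, i y = x) → (∀ y, p (i y) = 0) →
      (∀ a : O, a ≠ 0 → ∀ x : Λ'', a • x = 0 → x = 0) → HB Λ' → HB Λ'' → HB Λ)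
    (hemb : ∀ (χ : τ → O) (Γ : Type v) [AddCommGroup Γ] [Module O Γ] [Module 𝔸 Γ]
      [IsScalarTower O 𝔸 Γ] [Module.Finite O Γ] (ι : Type) [Finite ι]
      (j : Γ →ₗ[𝔸] (ι → R χ)), Injective j → HB Γ) :
    ∀ (n : ℕ) (Λ : Type v) [AddCommGroup Λ] [Module O Λ] [Module 𝔸 Λ] [IsScalarTower O 𝔸 Λ]
      [Module.Finite O Λ] [Module.IsTorsionFree O Λ] (T : τ → Λ →ₗ[𝔸] Λ),
      (∀ s t x, T s (T t x) = T t (T s x)) → (∀ t, IsSplit O (T t)) → HasEmb R T →
      Module.finrank O Λ ≤ n → HB Λ := by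
  intro n
  induction n with
  | zero =>
    intro Λ _ _ _ _ _ _ T _ _ _ hn
    have h0 : Module.finrank O Λ = 0 := Nat.le_zero.mp hn
    have : Subsingleton Λ := Module.finrank_zero_iff.mp h0
    exact hemb (fun _ => 0) Λ Empty 0 (fun x y _ => Subsingleton.elim x y)
  | succ n ih =>
    intro Λ _ _ _ _ _ _ T hcomm hsplit hH hn
    by_cases hsub : Subsingleton Λ
    · exact hemb (fun _ => 0) Λ Empty 0 (fun x y _ => Subsingleton.elim x y)
    have hnt : Nontrivial Λ := not_subsingleton_iff_nontrivial.mp hsub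
    obtain ⟨χ, hχ⟩ := exists_eig_ne_bot T hcomm hsplit
    -- the sub
    have hfinE : Module.Finite O ↥(eig T χ) := moduleFinite_sub (eig T χ)
    have htfE : Module.IsTorsionFree O ↥(eig T χ) := isTorsionFree_sub (eig T χ)
    obtain ⟨ι, hι, j, hj⟩ := hH χ
    have h' : HB ↥(eig T χ) := hemb χ ↥(eig T χ) ι j hj
    -- the quotient
    have hfinQ : Module.Finite O (Λ ⧸ eig T χ) := moduleFinite_quot (eig T χ)
    have htfq : ∀ a : O, a ≠ 0 → ∀ x : Λ ⧸ eig T χ, a • x = 0 → x = 0 := by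
      intro a ha x hx
      obtain ⟨x, rfl⟩ := Submodule.Quotient.mk_surjective _ x
      rw [← Submodule.Quotient.mk_smul, Submodule.Quotient.mk_eq_zero] at hx
      rw [Submodule.Quotient.mk_eq_zero]
      exact eig_saturated T χ ha hx
    have htfQ : Module.IsTorsionFree O (Λ ⧸ eig T χ) := by
      refine ⟨fun r hr x y hxy => ?_⟩
      have hr0 : r ≠ 0 := hr.ne_zero
      have h1 : r • (x - y) = 0 := by
        rw [smul_sub]
        exact sub_eq_zero.mpr hxy
      exact sub_eq_zero.mp (htfq r hr0 _ h1)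
    have hrank : Module.finrank O (Λ ⧸ eig T χ) ≤ n := by
      have h1 : Module.finrank O (Λ ⧸ eig T χ) =
          Module.finrank O Λ - Module.finrank O ↥(eig T χ) := Submodule.finrank_quotient _
      have hntE : Nontrivial ↥(eig T χ) := (Submodule.nontrivial_iff_ne_bot).mpr hχ
      have h2 : 0 < Module.finrank O ↥(eig T χ) := Module.finrank_pos
      omega
    have h'' : HB (Λ ⧸ eig T χ) :=
      ih (Λ ⧸ eig T χ) (TQ T (eig T χ) (eig_stable hcomm χ))
        (TQ_comm hcomm _ _) (fun t => isSplit_mapQ (hsplit t) _ _)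
        (hasEmb_quotient R hcomm χ htfq hH) hrank
    refine hext ↥(eig T χ) Λ (Λ ⧸ eig T χ) (eig T χ).subtype (eig T χ).mkQ
      Subtype.val_injective (Submodule.mkQ_surjective _) ?_ ?_ htfq h' h''
    · intro x hx
      exact ⟨⟨x, (Submodule.Quotient.mk_eq_zero _).mp hx⟩, rfl⟩
    · intro y
      exact (Submodule.Quotient.mk_eq_zero _).mpr y.2

end Devissage

/-! ### Part 4: bridges for the consumer -/

section Bridges

variable {O : Type*} [CommRing O] {𝔸 : Type*} [Ring 𝔸] [Algebra O 𝔸]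
variable {Λ : Type*} [AddCommGroup Λ] [Module O Λ] [Module 𝔸 Λ] [IsScalarTower O 𝔸 Λ]

open Polynomial in
/-- `shiftList` is the evaluation of the product of the `X - a`. -/
lemma shiftList_eq_aeval (f : Λ →ₗ[𝔸] Λ) :
    ∀ (l : List O) (x : Λ), shiftList f l x =
      aeval (f.restrictScalars O) ((l.map fun a => (X - C a : O[X])).prod) x
  | [], x => by simp
  | a :: l, x => by
    rw [shiftList_cons, shiftList_eq_aeval f l, List.map_cons, List.prod_cons, mul_comm,
      map_mul, Module.End.mul_apply]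
    congr 1
    simp [shift_apply]

open Polynomial in
/-- An operator killed by a product of `X - a` is split. -/
theorem isSplit_of_aeval (f : Λ →ₗ[𝔸] Λ) (s : Multiset O)
    (h : aeval (f.restrictScalars O) ((s.map fun a => (X - C a : O[X])).prod) = 0) :
    IsSplit O f := by
  refine ⟨s.toList, fun x => ?_⟩
  rw [shiftList_eq_aeval]
  have h1 : ((s.toList.map fun a => (X - C a : O[X])).prod) =
      (s.map fun a => (X - C a : O[X])).prod := by
    conv_rhs => rw [← Multiset.coe_toList s]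
    rw [Multiset.map_coe, Multiset.prod_coe]
  rw [h1, h]
  rfl

/-- An operator on a finite free module whose characteristic polynomial splits is split. -/
theorem isSplit_of_charpoly_splits [IsDomain O] [Module.Free O Λ] [Module.Finite O Λ]
    (f : Λ →ₗ[𝔸] Λ) (h : (f.restrictScalars O).charpoly.Splits) : IsSplit O f := by
  refine isSplit_of_aeval f (f.restrictScalars O).charpoly.roots ?_
  rw [← h.eq_prod_roots_of_monic (LinearMap.charpoly_monic _)]
  exact LinearMap.aeval_self_charpoly _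

variable {τ : Type}

/-- The tautological embedding datum: `R χ` the `χ`-eigen-submodule itself. -/
theorem hasEmb_self (T : τ → Λ →ₗ[𝔸] Λ) : HasEmb (fun χ : τ → O => ↥(eig T χ)) T := by
  intro χ
  refine ⟨Unit, inferInstance, LinearMap.pi fun _ => LinearMap.id, ?_⟩
  intro x y hxy
  exact congrFun hxy ()

end Bridges

end Fermat.Agent.S15.Struct.EigenDev
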