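/-
PROJECT M (S15), block [S] (helper24): TWO COROLLARIES OF THE RANK INDUCTION OF `Struct/EigenDev`.
Mathlib + `Struct/EigenDev` only.

* `isSplit_of_sum`: an `O`-linear combination of finitely many pairwise commuting split operators
  on a finitely generated torsion-free module over a principal ideal domain is split (it is a
  scalar on a nonzero common eigen-submodule `E`; induction on `Λ / E`; append the lists).
* `exists_fin_span`: the endomorphisms of a finitely generated torsion-free `O`-module form a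
  noetherian `O`-module, so every family `T : τ → End Λ` lies in the `O`-span of a FINITE
  subfamily.
* `devissage_arb`: the dévissage of `Struct/EigenDev` for an ARBITRARY (possibly infinite) index
  type, as a corollary of the finite case: every `T t` acts on a common eigen-submodule of the
  finite subfamily as a scalar, so those are common eigen-submodules of the whole family.
-/
import Fermat.Agent.S15.Struct.EigenDev

set_option autoImplicit false

namespace Fermat.Agent.S15.Struct.EigenSpan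

open Function Fermat.Agent.S15.Struct.EigenDev

universe v w

/-! ### Part 1: more on `shiftList` and `IsSplit` -/

section Lists

variable {O : Type*} [CommRing O] {𝔸 : Type*} [Ring 𝔸] [Algebra O 𝔸]
variable {Λ : Type*} [AddCommGroup Λ] [Module O Λ] [Module 𝔸 Λ] [IsScalarTower O 𝔸 Λ]

lemma shiftList_append (f : Λ →ₗ[𝔸] Λ) :
    ∀ (l l' : List O) (x : Λ), shiftList f (l ++ l') x = shiftList f l' (shiftList f l x)
  | [], _, _ => rfl
  | a :: l, l', x => by
    rw [List.cons_append, shiftList_cons, shiftList_cons, shiftList_append f l l']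

/-- `shiftList` only depends on the underlying function (the ring of linearity is irrelevant). -/
lemma shiftList_congr {𝔹 : Type*} [Ring 𝔹] [Algebra O 𝔹] [Module 𝔹 Λ] [IsScalarTower O 𝔹 Λ]
    (f : Λ →ₗ[𝔸] Λ) (g : Λ →ₗ[𝔹] Λ) (h : ∀ x, f x = g x) :
    ∀ (l : List O) (x : Λ), shiftList f l x = shiftList g l x
  | [], _ => rfl
  | a :: l, x => by
    rw [shiftList_cons, shiftList_cons, shiftList_congr f g h l, shift_apply, shift_apply, h]

/-- `IsSplit` only depends on the underlying function. -/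
lemma isSplit_congr {𝔹 : Type*} [Ring 𝔹] [Algebra O 𝔹] [Module 𝔹 Λ] [IsScalarTower O 𝔹 Λ]
    {f : Λ →ₗ[𝔸] Λ} {g : Λ →ₗ[𝔹] Λ} (h : ∀ x, f x = g x) (hf : IsSplit O f) : IsSplit O g := by
  obtain ⟨l, hl⟩ := hf
  exact ⟨l, fun x => by rw [← shiftList_congr f g h l x, hl]⟩

/-- `shiftList` as a product in `Module.End`. -/
lemma shiftList_eq_prod (f : Module.End 𝔸 Λ) :
    ∀ (l : List O) (x : Λ),
      shiftList f l x = ((l.reverse.map fun a => f - a • (1 : Module.End 𝔸 Λ)).prod) x
  | [], _ => rfl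
  | a :: l, x => by
    rw [shiftList_cons, shiftList_eq_prod f l, List.reverse_cons, List.map_append,
      List.prod_append, Module.End.mul_apply]
    simp [shift_apply]

/-- The product form of `IsSplit` (the literal of `GenEigen.halfBound_of_eigen'`). -/
theorem isSplit_iff_prod (f : Module.End 𝔸 Λ) :
    IsSplit O f ↔ ∃ l : List O, (l.map fun a => f - a • (1 : Module.End 𝔸 Λ)).prod = 0 := by
  constructor
  · rintro ⟨l, hl⟩
    refine ⟨l.reverse, LinearMap.ext fun x => ?_⟩
    have h := shiftList_eq_prod f l x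
    rw [hl] at h
    exact h.symm
  · rintro ⟨l, hl⟩
    refine ⟨l.reverse, fun x => ?_⟩
    rw [shiftList_eq_prod, List.reverse_reverse, hl]
    rfl

end Lists

/-! ### Part 2: combinations of commuting split operators are split -/

section Sum

variable {O : Type*} [CommRing O] [IsDomain O] [IsPrincipalIdealRing O]
  {𝔸 : Type*} [Ring 𝔸] [Algebra O 𝔸] {τ : Type} [Fintype τ]

/-- **Combinations of commuting split operators are split.** -/
theorem isSplit_of_sum :
    ∀ (n : ℕ) (Λ : Type v) [AddCommGroup Λ] [Module O Λ] [Module 𝔸 Λ] [IsScalarTower O 𝔸 Λ]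
      [Module.Finite O Λ] [Module.IsTorsionFree O Λ] (T : τ → Λ →ₗ[𝔸] Λ),
      (∀ s t x, T s (T t x) = T t (T s x)) → (∀ t, IsSplit O (T t)) →
      Module.finrank O Λ ≤ n →
      ∀ (c : τ → O) (h : Λ →ₗ[𝔸] Λ), (∀ x, h x = ∑ t, c t • T t x) → IsSplit O h := by
  intro n
  induction n with
  | zero =>
    intro Λ _ _ _ _ _ _ T _ _ hn c h _
    have h0 : Module.finrank O Λ = 0 := Nat.le_zero.mp hn
    have : Subsingleton Λ := Module.finrank_zero_iff.mp h0
    exact ⟨[], fun x => Subsingleton.elim _ _⟩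
  | succ n ih =>
    intro Λ _ _ _ _ _ _ T hcomm hsplit hn c h hh
    by_cases hsub : Subsingleton Λ
    · exact ⟨[], fun x => Subsingleton.elim _ _⟩
    have hnt : Nontrivial Λ := not_subsingleton_iff_nontrivial.mp hsub
    obtain ⟨χ, hχ⟩ := exists_eig_ne_bot T hcomm hsplit
    have hfinE : Module.Finite O ↥(eig T χ) := moduleFinite_sub (eig T χ)
    have htfE : Module.IsTorsionFree O ↥(eig T χ) := isTorsionFree_sub (eig T χ)
    have hfinQ : Module.Finite O (Λ ⧸ eig T χ) := moduleFinite_quot (eig T χ)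
    have htfq : ∀ a : O, a ≠ 0 → ∀ x : Λ ⧸ eig T χ, a • x = 0 → x = 0 := by
      intro a ha x hx
      obtain ⟨x, rfl⟩ := Submodule.Quotient.mk_surjective _ x
      rw [← Submodule.Quotient.mk_smul, Submodule.Quotient.mk_eq_zero] at hx
      rw [Submodule.Quotient.mk_eq_zero]
      exact eig_saturated T χ ha hx
    have htfQ : Module.IsTorsionFree O (Λ ⧸ eig T χ) := by
      refine ⟨fun r hr x y hxy => ?_⟩
      have hr0 : r ≠ 0 := hr.ne_zero
      have h1 : r • (x - y) = 0 := by
        rw [smul_sub]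
        exact sub_eq_zero.mpr hxy
      exact sub_eq_zero.mp (htfq r hr0 _ h1)
    have hrank : Module.finrank O (Λ ⧸ eig T χ) ≤ n := by
      have h1 : Module.finrank O (Λ ⧸ eig T χ) =
          Module.finrank O Λ - Module.finrank O ↥(eig T χ) := Submodule.finrank_quotient _
      have hntE : Nontrivial ↥(eig T χ) := (Submodule.nontrivial_iff_ne_bot).mpr hχ
      have h2 : 0 < Module.finrank O ↥(eig T χ) := Module.finrank_pos
      omega
    -- `h` is the scalar `a` on `E`
    set a : O := ∑ t, c t * χ t with ha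
    have hscal : ∀ z ∈ eig T χ, h z = a • z := by
      intro z hz
      rw [hh z, ha, Finset.sum_smul]
      refine Finset.sum_congr rfl fun t _ => ?_
      rw [mem_eig.mp hz t, smul_smul]
    have hEh : eig T χ ≤ (eig T χ).comap h := by
      intro z hz
      rw [Submodule.mem_comap, hscal z hz]
      exact Submodule.smul_of_tower_mem _ a hz
    -- the induced operator
    have hhQ : ∀ y, (eig T χ).mapQ (eig T χ) h hEh y =
        ∑ t, c t • TQ T (eig T χ) (eig_stable hcomm χ) t y := by
      intro y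
      obtain ⟨x, rfl⟩ := Submodule.Quotient.mk_surjective _ y
      rw [Submodule.mapQ_apply, hh x]
      have h1 : (Submodule.Quotient.mk (∑ t, c t • T t x) : Λ ⧸ eig T χ) =
          ∑ t, Submodule.Quotient.mk (c t • T t x) := map_sum (eig T χ).mkQ _ _
      rw [h1]
      refine Finset.sum_congr rfl fun t _ => ?_
      rw [TQ_mk, Submodule.Quotient.mk_smul]
    obtain ⟨l, hl⟩ := ih (Λ ⧸ eig T χ) (TQ T (eig T χ) (eig_stable hcomm χ))
      (TQ_comm hcomm _ _) (fun t => isSplit_mapQ (hsplit t) _ _) hrank c _ hhQ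
    refine ⟨l ++ [a], fun x => ?_⟩
    rw [shiftList_append]
    have hz : shiftList h l x ∈ eig T χ := by
      rw [← Submodule.Quotient.mk_eq_zero, ← shiftList_mapQ_mk h (eig T χ) hEh l x]
      exact hl _
    rw [shiftList_cons, shiftList_nil, shift_apply, hscal _ hz, sub_self]

end Sum

/-! ### Part 3: arbitrary index types -/

section Span

variable {O : Type*} [CommRing O] [IsDomain O] [IsPrincipalIdealRing O]
  {𝔸 : Type*} [Ring 𝔸] [Algebra O 𝔸]
  {Λ : Type*} [AddCommGroup Λ] [Module O Λ] [Module 𝔸 Λ] [IsScalarTower O 𝔸 Λ]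
  [Module.Finite O Λ] [Module.IsTorsionFree O Λ] {τ : Type*}

omit [Module.IsTorsionFree O Λ] in
/-- **The span trick.** Every family of endomorphisms of a finitely generated module over a
principal ideal domain lies in the `O`-span of a finite subfamily. -/
theorem exists_fin_span (T : τ → Λ →ₗ[𝔸] Λ) :
    ∃ (n : ℕ) (g : Fin n → τ) (c : τ → Fin n → O),
      ∀ (t : τ) (x : Λ), T t x = ∑ k, c t k • T (g k) x := by
  classical
  let v : τ → (Λ →ₗ[O] Λ) := fun t => (T t).restrictScalars O
  have hfg : (Submodule.span O (Set.range v)).FG := IsNoetherian.noetherian _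
  obtain ⟨s', hs's, hss'⟩ := (Submodule.fg_span_iff_fg_span_finset_subset _).mp hfg
  have hpre : ∀ e : ↥s', ∃ t, v t = e.1 := fun e => hs's e.2
  choose g' hg' using hpre
  let e := s'.equivFin
  let g : Fin s'.card → τ := fun k => g' (e.symm k)
  have hle : Submodule.span O (Set.range v) ≤
      Submodule.span O (Set.range fun k : Fin s'.card => v (g k)) := by
    rw [hss']
    refine Submodule.span_le.mpr fun a ha => ?_
    refine Submodule.subset_span ⟨e ⟨a, ha⟩, ?_⟩
    change v (g' (e.symm (e ⟨a, ha⟩))) = a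
    rw [Equiv.symm_apply_apply]
    exact hg' ⟨a, ha⟩
  have hmem : ∀ t, ∃ c : Fin s'.card → O, ∑ k, c k • v (g k) = v t := fun t =>
    (Submodule.mem_span_range_iff_exists_fun O).mp (hle (Submodule.subset_span ⟨t, rfl⟩))
  choose c hc using hmem
  refine ⟨s'.card, g, c, fun t x => ?_⟩
  have h1 : v t x = (∑ k, c t k • v (g k)) x := by rw [hc t]
  rw [LinearMap.sum_apply] at h1
  exact h1

omit [IsDomain O] [IsPrincipalIdealRing O] [Module.Finite O Λ] [Module.IsTorsionFree O Λ] in
/-- On a common eigen-submodule of the subfamily `g`, every `T t` in the span of the subfamily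
acts as a scalar. -/
lemma eig_fin_le (T : τ → Λ →ₗ[𝔸] Λ) {n : ℕ} (g : Fin n → τ) (c : τ → Fin n → O)
    (hc : ∀ (t : τ) (x : Λ), T t x = ∑ k, c t k • T (g k) x) (χF : Fin n → O) :
    eig (fun k => T (g k)) χF ≤ eig T (fun t => ∑ k, c t k * χF k) := by
  intro x hx
  rw [mem_eig] at hx ⊢
  intro t
  rw [hc t x, Finset.sum_smul]
  refine Finset.sum_congr rfl fun k _ => ?_
  rw [hx k, smul_smul]

end Span

section DevissageArb

variable {O : Type*} [CommRing O] [IsDomain O] [IsPrincipalIdealRing O]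
  {𝔸 : Type*} [Ring 𝔸] [Algebra O 𝔸] {τ : Type}

/-- **Dévissage, arbitrary index type.** As `EigenDev.devissage`, for a possibly infinite family of
pairwise commuting split operators. -/
theorem devissage_arb (R : (τ → O) → Type w) [∀ χ, AddCommGroup (R χ)] [∀ χ, Module 𝔸 (R χ)]
    (HB : ∀ (Λ : Type v) [AddCommGroup Λ] [Module O Λ] [Module 𝔸 Λ] [IsScalarTower O 𝔸 Λ], Prop)
    (hext : ∀ (Λ' Λ Λ'' : Type v) [AddCommGroup Λ'] [AddCommGroup Λ] [AddCommGroup Λ'']
      [Module O Λ'] [Module O Λ] [Module O Λ''] [Module 𝔸 Λ'] [Module 𝔸 Λ] [Module 𝔸 Λ'']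
      [IsScalarTower O 𝔸 Λ'] [IsScalarTower O 𝔸 Λ] [IsScalarTower O 𝔸 Λ''] [Module.Finite O Λ]
      (i : Λ' →ₗ[𝔸] Λ) (p : Λ →ₗ[𝔸] Λ''), Injective i → Surjective p →
      (∀ x, p x = 0 → ∃ y, i y = x) → (∀ y, p (i y) = 0) →
      (∀ a : O, a ≠ 0 → ∀ x : Λ'', a • x = 0 → x = 0) → HB Λ' → HB Λ'' → HB Λ)
    (hemb : ∀ (χ : τ → O) (Γ : Type v) [AddCommGroup Γ] [Module O Γ] [Module 𝔸 Γ]
      [IsScalarTower O 𝔸 Γ] [Module.Finite O Γ] (ι : Type) [Finite ι]
      (j : Γ →ₗ[𝔸] (ι → R χ)), Injective j → HB Γ)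
    (Λ : Type v) [AddCommGroup Λ] [Module O Λ] [Module 𝔸 Λ] [IsScalarTower O 𝔸 Λ]
    [Module.Finite O Λ] [Module.IsTorsionFree O Λ] (T : τ → Λ →ₗ[𝔸] Λ)
    (hcomm : ∀ s t x, T s (T t x) = T t (T s x)) (hsplit : ∀ t, IsSplit O (T t))
    (hH : HasEmb R T) : HB Λ := by
  obtain ⟨n, g, c, hc⟩ := exists_fin_span (O := O) T
  let ext : (Fin n → O) → (τ → O) := fun χF t => ∑ k, c t k * χF k
  refine devissage (τ := Fin n) (fun χF => R (ext χF)) HB hext (fun χF => hemb (ext χF))
    (Module.finrank O Λ) Λ (fun k => T (g k)) (fun s t x => hcomm (g s) (g t) x)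
    (fun k => hsplit (g k)) ?_ le_rfl
  intro χF
  obtain ⟨ι, hι, j, hj⟩ := hH (ext χF)
  refine ⟨ι, hι, j.comp (Submodule.inclusion (eig_fin_le T g c hc χF)), ?_⟩
  exact hj.comp (Submodule.inclusion_injective _)

end DevissageArb

end Fermat.Agent.S15.Struct.EigenSpan
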