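/-
PROJECT M (S15), block [S], leaf (SPLIT) (helper24): A COMPLETE DISCRETE VALUATION RING OVER WHICH
A COMMUTING FAMILY OF ENDOMORPHISMS OF A `ℤ_[P]`-LATTICE SPLITS.

`T` a finite free `ℤ_[P]`-module, `f : ι → Module.End ℤ_[P] T` pairwise commuting, `ι` arbitrary.
Then there is a complete discrete valuation ring `O`, finite free over `ℤ_[P]`, with finite residue
field, such that every `(f i).baseChange O` is killed by a product of `X - a`, `a : O`
(`EigenDev.IsSplit`, the `List.prod` form of `Struct/Rep` and the `aeval` form).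

Proof: the `f i` lie in the `ℤ_[P]`-span of a finite subfamily `F` (`EigenSpan.exists_fin_span`);
`L` := the splitting field of `∏_{s ∈ F} charpoly (f s)` over the fraction field; `O` := the integral
closure of `ℤ_[P]` in `L` (main's `S30.Algebra.CompleteDVRExt.exists_completeDVR_ext`); the roots are
integral, so the characteristic polynomial of `(f s).baseChange O` is a product of `X - a`, `a : O`,
for `s ∈ F`; the other `(f i).baseChange O` are `O`-combinations of these finitely many commuting
split operators (`EigenSpan.isSplit_of_sum`).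
-/
import Fermat.Agent.S15.Struct.EigenSpan
import Fermat.Agent.S30.Algebra.CompleteDVRExt

set_option autoImplicit false

namespace Fermat.Agent.S15.Struct.Split

open Function Polynomial TensorProduct IsLocalRing
open Fermat.Agent.S15.Struct.EigenDev Fermat.Agent.S15.Struct.EigenSpan

/-! ### Part 1: monic polynomials whose roots are integral -/

section Poly

variable {A B L : Type*} [CommRing A] [CommRing B] [Field L] [Algebra A B]
  [Algebra B L] [Algebra A L] [IsScalarTower A B L]

/-- A monic polynomial over `A` which splits over `L`, all of whose roots come from `B`, is a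
product of `X - a`, `a : B`, over `B`. -/
theorem exists_multiset_of_splits (hinj : Injective (algebraMap B L))
    (hlift : ∀ x : L, IsIntegral A x → ∃ y : B, algebraMap B L y = x)
    (p : A[X]) (hp : p.Monic) (hs : (p.map (algebraMap A L)).Splits) :
    ∃ s : Multiset B, p.map (algebraMap A B) = (s.map fun a => (X - C a : B[X])).prod := by
  classical
  set m : L[X] := p.map (algebraMap A L) with hm
  have hmm : m.Monic := hp.map _
  have hint : ∀ r ∈ m.roots, IsIntegral A r := by
    intro r hr
    refine ⟨p, hp, ?_⟩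
    have h1 : m.IsRoot r := (mem_roots hmm.ne_zero).mp hr
    rw [IsRoot.def, hm, eval_map] at h1
    exact h1
  have hpre : ∀ r : {r // r ∈ m.roots}, ∃ y : B, algebraMap B L y = r.1 := fun r =>
    hlift r.1 (hint r.1 r.2)
  choose y hy using hpre
  refine ⟨m.roots.attach.map y, ?_⟩
  apply Polynomial.map_injective _ hinj
  rw [Polynomial.map_map, ← IsScalarTower.algebraMap_eq, ← hm, Polynomial.map_multiset_prod,
    Multiset.map_map, Multiset.map_map]
  have h2 : (m.roots.attach.map
      (((Polynomial.map (algebraMap B L)) ∘ fun a => (X - C a : B[X])) ∘ y))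
      = m.roots.attach.map fun r => (X - C r.1 : L[X]) := by
    refine Multiset.map_congr rfl fun r _ => ?_
    simp only [Function.comp_apply, Polynomial.map_sub, Polynomial.map_X, Polynomial.map_C, hy]
  rw [h2]
  have h3 : (m.roots.attach.map fun r => (X - C r.1 : L[X])) =
      m.roots.map fun r => (X - C r : L[X]) := by
    conv_rhs => rw [← Multiset.attach_map_val m.roots, Multiset.map_map]
    rfl
  rw [h3]
  exact hs.eq_prod_roots_of_monic hmm

end Poly

/-! ### Part 2: the ring `O` -/

section Main

variable (P : ℕ) [Fact P.Prime] {T : Type*} [AddCommGroup T] [Module ℤ_[P] T]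
  [Module.Finite ℤ_[P] T] [Module.Free ℤ_[P] T] {ι : Type*}

/-- **(SPLIT).** -/
theorem exists_split (f : ι → Module.End ℤ_[P] T) (hcomm : ∀ i j, Commute (f i) (f j)) :
    ∃ (O : Type) (_ : CommRing O) (_ : IsDomain O) (_ : IsDiscreteValuationRing O)
      (_ : IsAdicComplete (maximalIdeal O) O) (_ : Finite (ResidueField O)) (_ : CharZero O)
      (_ : Algebra ℤ_[P] O) (_ : Module.Finite ℤ_[P] O) (_ : Module.Free ℤ_[P] O)
      (_ : IsLocalHom (algebraMap ℤ_[P] O)),
      Injective (algebraMap ℤ_[P] O) ∧ (P : O) ∈ maximalIdeal O ∧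
      (∀ i, IsSplit O ((f i).baseChange O)) ∧
      (∀ i, ∃ l : List O,
        (l.map fun a => (f i).baseChange O - a • (1 : Module.End O (O ⊗[ℤ_[P]] T))).prod = 0) ∧
      ∀ i, ∃ s : Multiset O,
        aeval ((f i).baseChange O) ((s.map fun a => (X - C a : O[X])).prod) = 0 := by
  classical
  -- the finite subfamily
  obtain ⟨n, g, c, hc⟩ := exists_fin_span (O := ℤ_[P]) (𝔸 := ℤ_[P]) f
  -- the field
  let K := FractionRing ℤ_[P]
  let q : K[X] := ∏ k : Fin n, ((f (g k)).charpoly).map (algebraMap ℤ_[P] K)
  let L := q.SplittingField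
  have hres : Finite (ResidueField ℤ_[P]) :=
    Finite.of_equiv _ (PadicInt.residueField (p := P)).symm.toEquiv
  obtain ⟨O, _, _, _, _, _, _, _, _, _, _, _, _, hinj, hlift⟩ :=
    Fermat.Agent.S30.Algebra.CompleteDVRExt.exists_completeDVR_ext ℤ_[P] K L
  have hinjL : Injective (algebraMap O L) := IsFractionRing.injective O L
  -- `O` is free over `ℤ_[P]`
  have htfO : Module.IsTorsionFree ℤ_[P] O := by
    refine Module.IsTorsionFree.of_smul_eq_zero fun r m h => ?_
    rw [Algebra.smul_def, mul_eq_zero] at h
    rcases h with h | h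
    · left
      exact hinj (h.trans (map_zero _).symm)
    · exact Or.inr h
  have hfreeO : Module.Free ℤ_[P] O := Module.free_of_finite_type_torsion_free'
  -- `P` is in the maximal ideal
  have hP : (P : O) ∈ maximalIdeal O := by
    have h0 : (P : ℤ_[P]) ∈ maximalIdeal ℤ_[P] := by
      rw [PadicInt.maximalIdeal_eq_span_p]
      exact Ideal.mem_span_singleton_self _
    rw [mem_maximalIdeal, mem_nonunits_iff] at h0 ⊢
    intro hu
    apply h0
    have : IsUnit (algebraMap ℤ_[P] O (P : ℤ_[P])) := by rwa [map_natCast]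
    exact (isUnit_map_iff (algebraMap ℤ_[P] O) _).1 this
  -- the split operators of the subfamily
  have hqne : q ≠ 0 := by
    refine Finset.prod_ne_zero_iff.mpr fun k _ => ?_
    exact ((LinearMap.charpoly_monic (f (g k))).map _).ne_zero
  have hsplitF : ∀ k : Fin n, IsSplit O ((f (g k)).baseChange O) := by
    intro k
    have h1 : (((f (g k)).charpoly).map (algebraMap ℤ_[P] L)).Splits := by
      have h2 : (q.map (algebraMap K L)).Splits := SplittingField.splits q
      have h3 : ((f (g k)).charpoly).map (algebraMap ℤ_[P] L) ∣ q.map (algebraMap K L) := by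
        rw [IsScalarTower.algebraMap_eq ℤ_[P] K L, ← Polynomial.map_map]
        exact Polynomial.map_dvd _ (Finset.dvd_prod_of_mem _ (Finset.mem_univ k))
      exact h2.of_dvd (Polynomial.map_ne_zero hqne) h3
    obtain ⟨m, hm⟩ := exists_multiset_of_splits (A := ℤ_[P]) (B := O) (L := L) hinjL hlift
      (f (g k)).charpoly (LinearMap.charpoly_monic _) h1
    refine isSplit_of_aeval ((f (g k)).baseChange O) m ?_
    have h4 : ((f (g k)).baseChange O).restrictScalars O = (f (g k)).baseChange O :=
      LinearMap.ext fun _ => rfl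
    rw [h4, ← hm, ← LinearMap.charpoly_baseChange]
    exact LinearMap.aeval_self_charpoly _
  -- the whole family
  have hfree : Module.Free O (O ⊗[ℤ_[P]] T) := inferInstance
  have hfin : Module.Finite O (O ⊗[ℤ_[P]] T) := inferInstance
  have htf : Module.IsTorsionFree O (O ⊗[ℤ_[P]] T) := inferInstance
  have hsplit : ∀ i, IsSplit O ((f i).baseChange O) := by
    intro i
    refine isSplit_of_sum (O := O) (𝔸 := O) (τ := Fin n) (Module.finrank O (O ⊗[ℤ_[P]] T))
      (O ⊗[ℤ_[P]] T) (fun k => (f (g k)).baseChange O) ?_ hsplitF le_rfl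
      (fun k => algebraMap ℤ_[P] O (c i k)) ((f i).baseChange O) ?_
    · intro s t x
      have h5 : (f (g s)).baseChange O ∘ₗ (f (g t)).baseChange O =
          (f (g t)).baseChange O ∘ₗ (f (g s)).baseChange O := by
        rw [← LinearMap.baseChange_comp, ← LinearMap.baseChange_comp]
        congr 1
        exact (hcomm (g s) (g t)).eq
      exact LinearMap.congr_fun h5 x
    · intro x
      have h6 : f i = ∑ k : Fin n, c i k • f (g k) := by
        refine LinearMap.ext fun y => ?_
        rw [hc i y, LinearMap.sum_apply]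
        rfl
      have h7 : (f i).baseChange O = ∑ k : Fin n, c i k • (f (g k)).baseChange O := by
        conv_lhs => rw [h6]
        have e : ∀ h : Module.End ℤ_[P] T,
            Module.End.baseChangeHom ℤ_[P] O T h = h.baseChange O := fun _ => rfl
        have := map_sum (Module.End.baseChangeHom ℤ_[P] O T) (fun k : Fin n => c i k • f (g k))
          Finset.univ
        simp only [e, LinearMap.baseChange_smul] at this
        exact this
      rw [h7, LinearMap.sum_apply]
      refine Finset.sum_congr rfl fun s _ => ?_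
      rw [LinearMap.smul_apply, algebraMap_smul]
  refine ⟨O, inferInstance, inferInstance, inferInstance, inferInstance, inferInstance,
    inferInstance, inferInstance, inferInstance, hfreeO, inferInstance, hinj, hP, hsplit,
    fun i => ?_, fun i => ?_⟩
  · exact (isSplit_iff_prod (O := O) (𝔸 := O) ((f i).baseChange O)).mp (hsplit i)
  · obtain ⟨l, hl⟩ := hsplit i
    refine ⟨(l : Multiset O), LinearMap.ext fun x => ?_⟩
    have h8 := shiftList_eq_aeval (O := O) (𝔸 := O) ((f i).baseChange O) l x
    rw [hl x] at h8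
    rw [Multiset.map_coe, Multiset.prod_coe]
    exact h8.symm

end Main

/-! ### Part 3: a convenience for the consumer of `Struct/Count` -/

section DVR

/-- In a discrete valuation ring with finite residue field every nonzero principal ideal has
finite index (the hypothesis `hO` of `Struct/Count`). -/
theorem finite_quotient_span {O : Type*} [CommRing O] [IsDomain O] [IsDiscreteValuationRing O]
    [Finite (ResidueField O)] (a : O) (ha : a ≠ 0) : Finite (O ⧸ Ideal.span {a}) := by
  obtain ⟨ϖ, hϖ⟩ := IsDiscreteValuationRing.exists_irreducible O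
  have hne : Ideal.span {a} ≠ ⊥ := by
    rw [Ne, Ideal.span_singleton_eq_bot]
    exact ha
  obtain ⟨n, hn⟩ := IsDiscreteValuationRing.ideal_eq_span_pow_irreducible hne hϖ
  have hmax : maximalIdeal O = Ideal.span {ϖ} :=
    (IsDiscreteValuationRing.irreducible_iff_uniformizer ϖ).mp hϖ
  have hfin : Finite (O ⧸ maximalIdeal O) := ‹Finite (ResidueField O)›
  have h1 : Finite (O ⧸ maximalIdeal O ^ n) :=
    Ideal.finite_quotient_pow (IsNoetherian.noetherian _) n
  rw [hn, ← Ideal.span_singleton_pow, ← hmax]
  exact h1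

/-- In a discrete valuation ring, a power of a non-unit is divisible by any given power of a
nonzero element (the hypothesis `hO` of `Struct/EigenTensor`). -/
theorem exists_pow_eq_mul {O : Type*} [CommRing O] [IsDomain O] [IsDiscreteValuationRing O]
    {p : O} (hp : p ≠ 0) (c : O) (hc : ¬ IsUnit c) (k : ℕ) : ∃ (n : ℕ) (d : O), c ^ n = p ^ k * d := by
  by_cases hc0 : c = 0
  · exact ⟨1, 0, by rw [hc0, pow_one, mul_zero]⟩
  obtain ⟨ϖ, hϖ⟩ := IsDiscreteValuationRing.exists_irreducible O
  obtain ⟨e, u, hu⟩ := IsDiscreteValuationRing.eq_unit_mul_pow_irreducible hp hϖ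
  obtain ⟨a, v, hv⟩ := IsDiscreteValuationRing.eq_unit_mul_pow_irreducible hc0 hϖ
  have ha : 1 ≤ a := by
    rcases Nat.eq_zero_or_pos a with h | h
    · exfalso
      apply hc
      rw [hv, h, pow_zero, mul_one]
      exact v.isUnit
    · exact h
  refine ⟨e * k, (v : O) ^ (e * k) * ((u⁻¹ : Oˣ) : O) ^ k * ϖ ^ ((a - 1) * (e * k)), ?_⟩
  have h1 : ((u : O) * ((u⁻¹ : Oˣ) : O)) = 1 := by rw [← Units.val_mul, mul_inv_cancel, Units.val_one]
  have h2 : a * (e * k) = e * k + (a - 1) * (e * k) := by
    obtain ⟨b, rfl⟩ := Nat.exists_eq_add_of_le ha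
    rw [Nat.add_sub_cancel_left]
    ring
  calc c ^ (e * k) = (v : O) ^ (e * k) * ϖ ^ (a * (e * k)) := by rw [hv, mul_pow, ← pow_mul]
    _ = (v : O) ^ (e * k) * (ϖ ^ (e * k) * ϖ ^ ((a - 1) * (e * k))) := by rw [h2, pow_add]
    _ = ((u : O) * ((u⁻¹ : Oˣ) : O)) ^ k * ((v : O) ^ (e * k) *
          (ϖ ^ (e * k) * ϖ ^ ((a - 1) * (e * k)))) := by rw [h1, one_pow, one_mul]
    _ = p ^ k * ((v : O) ^ (e * k) * ((u⁻¹ : Oˣ) : O) ^ k * ϖ ^ ((a - 1) * (e * k))) := by
        rw [hu, mul_pow, mul_pow, ← pow_mul]
        ring

end DVR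

end Fermat.Agent.S15.Struct.Split
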