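/-
PROJECT M (S15), block [S], TABLE #1 row 13, TOP (helper21): `hhalf` FOR `Gk N P k S` WITH THE
SPLITTING RING CHOSEN INSIDE (helper24's `Split.exists_split` applied to helper7's `heckeT`).

The only inputs left are `hKP` (the (KP-id) on `rhoChi`, rows 11 + 8(e)), quantified over the rings
`O` produced by `(SPLIT)`, and (Q5a).
-/
import Fermat.Agent.S15.Struct.FinalP
import Fermat.Agent.S15.Struct.Split

set_option autoImplicit false
set_option linter.unusedSectionVars false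
set_option synthInstance.maxHeartbeats 400000
set_option maxSynthPendingDepth 3

namespace Fermat.Agent.S15.Struct.FinalTop

open Function TensorProduct AlgebraicCurve ModularCurve IsLocalRing
open Fermat.Agent.S56.Coh Fermat.Agent.CFT.LC Fermat.Agent.CFT.Bridge Fermat.Agent.CFT.LocalBridge
open Fermat.Agent.S15.K.Star Fermat.Agent.S15.K.Ord
open Fermat.Agent.S15.P.CycAct
open Fermat.Agent.S15.Struct.TateEis Fermat.Agent.S15.Struct.TateEisHecke
open Fermat.Agent.S15.Struct.EigenRank Fermat.Agent.S15.Struct.RhoChi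

variable (N : ℕ) [NeZero N] [Fact N.Prime] (P : ℕ) [hP : Fact P.Prime] (S : Set ℕ)
  (hS : ∀ r : Nat.Primes, (r : ℕ) ∉ S → ¬ (r : ℕ) ∣ N ∧ (r : ℕ) ≠ P)

/-- **(hhalf) for `Gk N P k S`**, the ring `O` chosen inside. -/
theorem hhalf_Gk (hNP : N ≠ P)
    (hKP : ∀ (O : Type) [CommRing O] [IsDomain O] [IsDiscreteValuationRing O] [CharZero O]
      [Algebra ℤ_[P] O] [Module.Free ℤ_[P] O] [Module.Finite ℤ_[P] O]
      [IsAdicComplete (maximalIdeal O) O] [Finite (ResidueField O)]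
      (hpO : (P : O) ∈ maximalIdeal O) (c : Nat.Primes → O),
      (∃ x : O ⊗[ℤ_[P]] ↥(TeisSub N P S), x ≠ 0 ∧ ∀ r, heckeLam N P S hS O r x = c r • x) →
      ∀ h2 : Module.finrank O (lat N P c) = 2, ∀ σ ∈ Iq P, ∀ τ ∈ Iq P,
      ((rhoChi N P hpO c h2).ρ τ -
        Fermat.Agent.S30.Algebra.Cyclotomic.cycChar P (algebraMap ℤ_[P] O) τ •
          (1 : Module.End O (rhoChi N P hpO c h2).V)) * ((rhoChi N P hpO c h2).ρ σ - 1) = 0)
    (hQ5a : ∀ k : ℕ, 0 < k → ∀ τ ∈ Iq P, ∀ x ∈ G0red N P k S,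
      (Gk N P k S).ρ τ x = cycExp P k τ • x) :
    ∃ n : ℕ, ∀ k : ℕ, 0 < k →
      Nat.card ↥(G0red N P k S) ^ 2 ≤ n ^ 2 * Nat.card (Gk N P k S) := by
  have := finite_Teis N P S
  have := free_Teis N P S
  obtain ⟨O, _, _, _, _, _, _, _, _, _, _, _, hpO, _, hsplit, _⟩ :=
    Fermat.Agent.S15.Struct.Split.exists_split P (fun r : Nat.Primes => heckeT N P S hS r)
      (fun r s => commute_heckeT_all N P S hS r s)
  exact Fermat.Agent.S15.Struct.FinalP.hhalf_of_KP N P S hS O hNP hpO hsplit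
    (fun c hc => hKP O hpO c hc) hQ5a

end Fermat.Agent.S15.Struct.FinalTop
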