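/-
PROJECT M (S15), block [S], TABLE #2 row 13 (B), THE `W_N` RUN (helper13): `hinv` FOR `Gk N P k S`.

Frame of helper21's `Struct/FinalP`, `Struct/FinalTop` (the `W_P` run): `f r := heckeT N P S hS r`
(helper7), `O` the output of helper24's `(SPLIT)`, `Λ = O ⊗[ℤ_[P]] ↥(TeisSub N P S)`.

* `pieceN`     : the `W_N` clause of `hpiece` of `Final.hinv_of_split`, from the `W_P` clause
                 `FinalP.pieceP` of the SAME eigenlattice through `KN/RGlue.hpiece_inertiaN'`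
                 (block (S-f): Tate duality at finite level, `KN/R*`, `KN/GkData`);
* `hinv_of_KP` : `∃ n, ∀ k, |invN N (Gk N P k S)| ^ 2 ≤ n ^ 2 |Gk N P k S|` from `hsplit` and `hKP`;
* `hinv_Gk`    : the same with the ring `O` chosen inside, in the literal of `D/ToStar` (`invI`).
-/
import Fermat.Agent.S15.Struct.FinalTop
import Fermat.Agent.S15.KN.RGlue

set_option autoImplicit false
set_option linter.unusedSectionVars false
set_option synthInstance.maxHeartbeats 400000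
set_option maxSynthPendingDepth 3

namespace Fermat.Agent.S15.Struct.FinalN

open Function TensorProduct AlgebraicCurve ModularCurve IsLocalRing
open Fermat.Agent.S56.Coh Fermat.Agent.CFT.LC Fermat.Agent.CFT.Bridge Fermat.Agent.CFT.LocalBridge
open Fermat.Agent.S15.K.Star Fermat.Agent.S15.K.Ord
open Fermat.Agent.S15.D Fermat.Agent.S15.LocalN.Relax
open Fermat.Agent.S15.Struct.Count Fermat.Agent.S15.Struct.Eigen
open Fermat.Agent.S15.Struct.TateEis Fermat.Agent.S15.Struct.TateEisHecke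
open Fermat.Agent.S15.Struct.EigenRank Fermat.Agent.S15.Struct.RhoChi

variable (N : ℕ) [NeZero N] [Fact N.Prime] (P : ℕ) [hP : Fact P.Prime] (S : Set ℕ)
  (hS : ∀ r : Nat.Primes, (r : ℕ) ∉ S → ¬ (r : ℕ) ∣ N ∧ (r : ℕ) ≠ P)

section Ring

variable (O : Type) [CommRing O] [IsDomain O] [IsDiscreteValuationRing O] [CharZero O]
  [Algebra ℤ_[P] O] [Module.Free ℤ_[P] O] [Module.Finite ℤ_[P] O]
  [IsAdicComplete (maximalIdeal O) O] [Finite (ResidueField O)]

/-- **The `W_N` clause of `hpiece`** for `Λ = O ⊗ TeisSub`, from `hKP` on `rhoChi`. -/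
theorem pieceN (hN5 : 5 ≤ N) (hNP : N ≠ P) (hSfin : S.Finite) (hpO : (P : O) ∈ maximalIdeal O)
    (c : Nat.Primes → O)
    (hocc : ∃ x : O ⊗[ℤ_[P]] ↥(TeisSub N P S), x ≠ 0 ∧
      ∀ r, heckeLam N P S hS O r x = c r • x)
    (hKP : ∀ h2 : Module.finrank O (lat N P c) = 2, ∀ σ ∈ Iq P, ∀ τ ∈ Iq P,
      ((rhoChi N P hpO c h2).ρ τ -
        Fermat.Agent.S30.Algebra.Cyclotomic.cycChar P (algebraMap ℤ_[P] O) τ •
          (1 : Module.End O (rhoChi N P hpO c h2).V)) * ((rhoChi N P hpO c h2).ρ σ - 1) = 0)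
    (T : Submodule O (O ⊗[ℤ_[P]] ↥(TeisSub N P S)))
    (hT : T ≤ eigen (𝔸 := O) (fun r => heckeLam N P S hS O r) c)
    (hst : ∀ g : GQ, ∀ x ∈ T, (rhoT N P S g).baseChange O x ∈ T) (hne : T ≠ ⊥) :
    ∃ s ∈ Iq N, ∃ x ∈ T, (rhoT N P S s).baseChange O x ≠ x :=
  Fermat.Agent.S15.KN.RGlue.hpiece_inertiaN' hN5 hNP hSfin hS
    (fun r : Nat.Primes => heckeT N P S hS r) (fun g r => commute_rhoT_heckeT N P S hS g r) c
    (Fermat.Agent.S15.Struct.FinalP.finrank_eigen_le_two N P S hS O c hocc)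
    (fun T' hT' hst' hne' =>
      Fermat.Agent.S15.Struct.FinalP.pieceP N P S hS O hNP hpO c hocc hKP T' hT' hst' hne')
    T hT hst hne

/-- **(hinv) for `Gk N P k S`** from `hsplit` and `hKP`. -/
theorem hinv_of_KP (hN5 : 5 ≤ N) (hNP : N ≠ P) (hSfin : S.Finite)
    (hpO : (P : O) ∈ maximalIdeal O)
    (hsplit : ∀ r : Nat.Primes, ∃ l : List O, (l.map fun a => (heckeT N P S hS r).baseChange O -
      a • (1 : Module.End O (O ⊗[ℤ_[P]] ↥(TeisSub N P S)))).prod = 0)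
    (hKP : ∀ c : Nat.Primes → O, (∃ x : O ⊗[ℤ_[P]] ↥(TeisSub N P S), x ≠ 0 ∧
        ∀ r, heckeLam N P S hS O r x = c r • x) →
      ∀ h2 : Module.finrank O (lat N P c) = 2, ∀ σ ∈ Iq P, ∀ τ ∈ Iq P,
      ((rhoChi N P hpO c h2).ρ τ -
        Fermat.Agent.S30.Algebra.Cyclotomic.cycChar P (algebraMap ℤ_[P] O) τ •
          (1 : Module.End O (rhoChi N P hpO c h2).V)) * ((rhoChi N P hpO c h2).ρ σ - 1) = 0) :
    ∃ n : ℕ, ∀ k : ℕ,
      Nat.card ↥(invN N (Gk N P k S)) ^ 2 ≤ n ^ 2 * Nat.card (Gk N P k S) :=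
  Fermat.Agent.S15.Struct.Final.hinv_of_split (O := O) (hcomm_of_hS N P S hS)
    (fun r : Nat.Primes => heckeT N P S hS r) (fun r s => commute_heckeT_all N P S hS r s)
    (fun g r => commute_rhoT_heckeT N P S hS g r) hsplit
    (fun c hc => ⟨Fermat.Agent.S15.Struct.FinalP.finrank_eigen_le_two N P S hS O c hc,
      fun T hT hst hne =>
        pieceN N P S hS O hN5 hNP hSfin hpO c hc (hKP c hc) T hT hst hne⟩)

end Ring

/-- **(hinv) for `Gk N P k S`**, the ring `O` chosen inside, in the literal of `D/ToStar`. -/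
theorem hinv_Gk (hN5 : 5 ≤ N) (hNP : N ≠ P) (hSfin : S.Finite)
    (hKP : ∀ (O : Type) [CommRing O] [IsDomain O] [IsDiscreteValuationRing O] [CharZero O]
      [Algebra ℤ_[P] O] [Module.Free ℤ_[P] O] [Module.Finite ℤ_[P] O]
      [IsAdicComplete (maximalIdeal O) O] [Finite (ResidueField O)]
      (hpO : (P : O) ∈ maximalIdeal O) (c : Nat.Primes → O),
      (∃ x : O ⊗[ℤ_[P]] ↥(TeisSub N P S), x ≠ 0 ∧ ∀ r, heckeLam N P S hS O r x = c r • x) →
      ∀ h2 : Module.finrank O (lat N P c) = 2, ∀ σ ∈ Iq P, ∀ τ ∈ Iq P,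
      ((rhoChi N P hpO c h2).ρ τ -
        Fermat.Agent.S30.Algebra.Cyclotomic.cycChar P (algebraMap ℤ_[P] O) τ •
          (1 : Module.End O (rhoChi N P hpO c h2).V)) * ((rhoChi N P hpO c h2).ρ σ - 1) = 0) :
    ∃ n : ℕ, ∀ k : ℕ, 0 < k →
      Nat.card ↥(invI N (Gk N P k S)) ^ 2 ≤ n ^ 2 * Nat.card (Gk N P k S) := by
  have := finite_Teis N P S
  have := free_Teis N P S
  obtain ⟨O, _, _, _, _, _, _, _, _, _, _, _, hpO, _, hsplit, _⟩ :=
    Fermat.Agent.S15.Struct.Split.exists_split P (fun r : Nat.Primes => heckeT N P S hS r)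
      (fun r s => commute_heckeT_all N P S hS r s)
  obtain ⟨n, hn⟩ := hinv_of_KP N P S hS O hN5 hNP hSfin hpO hsplit (fun c hc => hKP O hpO c hc)
  exact ⟨n, fun k _ => hn k⟩

end Fermat.Agent.S15.Struct.FinalN
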