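/-
PROJECT M (S15), block [S], TABLE #2 row 13, BOTH RUNS WITHOUT HYPOTHESES, AT `S = insert P {N}`
(helper21): the first two components of `A/StarFinal.StarInputs N P`.

* `hinv_Gk`      : helper13's `FinalN.hinv_Gk` with `hKP := FinalKP.hKP_of_Q5a` on
                   `FinalGk.hQ5a_all` (the SAME `hKP` term as in the `W_P` run);
* `hinv_Gk_star` : the instance `S = insert P {N}`;
* `star_inputs`  : `hinv ∧ hhalf` at `S = insert P {N}`.
-/
import Fermat.Agent.S15.Struct.FinalGk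
import Fermat.Agent.S15.Struct.FinalN

set_option autoImplicit false
set_option linter.unusedSectionVars false
set_option synthInstance.maxHeartbeats 400000
set_option maxSynthPendingDepth 3

namespace Fermat.Agent.S15.Struct.FinalStar

open AlgebraicCurve ModularCurve
open Fermat.Agent.S56.Coh Fermat.Agent.CFT.LocalBridge
open Fermat.Agent.S15.K.Star Fermat.Agent.S15.K.Ord Fermat.Agent.S15.D

variable (N : ℕ) [NeZero N] [hN : Fact N.Prime] (P : ℕ) [hP : Fact P.Prime] (S : Set ℕ)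

/-- **(hinv) for `Gk N P k S`, no hypothesis left** (`5 ≤ N` is the torsion bound of `J₀(N)(ℚ)`). -/
theorem hinv_Gk (hN5 : 5 ≤ N) (hNP : N ≠ P) (hSfin : S.Finite)
    (hS : ∀ r : Nat.Primes, (r : ℕ) ∉ S → ¬ (r : ℕ) ∣ N ∧ (r : ℕ) ≠ P) :
    ∃ n : ℕ, ∀ k : ℕ, 0 < k →
      Nat.card ↥(invI N (Gk N P k S)) ^ 2 ≤ n ^ 2 * Nat.card (Gk N P k S) :=
  Fermat.Agent.S15.Struct.FinalN.hinv_Gk N P S hS hN5 hNP hSfin
    (fun O _ _ _ _ _ _ _ _ _ hpO c hocc h2 =>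
      Fermat.Agent.S15.Struct.FinalKP.hKP_of_Q5a N P S hS hNP
        (Fermat.Agent.S15.Struct.FinalGk.hQ5a_all N P S hNP hSfin hS) O hpO c hocc h2)

/-- **(hinv) for `Gk N P k (insert P {N})`.** -/
theorem hinv_Gk_star (hN5 : 5 ≤ N) (hNP : N ≠ P) :
    ∃ n : ℕ, ∀ k : ℕ, 0 < k →
      Nat.card ↥(invI N (Gk N P k (insert P {N}))) ^ 2 ≤ n ^ 2 * Nat.card (Gk N P k (insert P {N})) :=
  hinv_Gk N P (insert P {N}) hN5 hNP ((Set.finite_singleton N).insert P)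
    (Fermat.Agent.S15.Struct.FinalGk.hS_insert N P)

/-- **The first two inputs of (STAR)** at `(N, P)`, `S = insert P {N}`. -/
theorem star_inputs (hN5 : 5 ≤ N) (hNP : N ≠ P) :
    (∃ n : ℕ, ∀ k : ℕ, 0 < k → Nat.card ↥(invI N (Gk N P k (insert P {N}))) ^ 2 ≤
      n ^ 2 * Nat.card (Gk N P k (insert P {N}))) ∧
    (∃ Ch0 : ℕ, ∀ k : ℕ, 0 < k → Nat.card ↥(G0red N P k (insert P {N})) ^ 2 ≤
      Ch0 ^ 2 * Nat.card (Gk N P k (insert P {N}))) :=
  ⟨hinv_Gk_star N P hN5 hNP, Fermat.Agent.S15.Struct.FinalGk.hhalf_Gk_star N P hNP⟩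

end Fermat.Agent.S15.Struct.FinalStar
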