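/-
PROJECT M (S15), block [S], leaf (S-h) = (TP-const), step 2(a) (helper23): LINEAR ARTIN-REES FOR AN
INJECTIVE MAP OF FREE MODULES OVER A PID, AND THE CONSTANT BOUND FOR COMMON KERNELS MODULO `ϖ ^ k`.

`O` a principal ideal domain, `ϖ` a prime element, `U : Γ → M` an injective `O`-linear map into a
finite free module.  Then there is `w` such that `U x ∈ ϖ ^ (k + w) M` implies `x ∈ ϖ ^ k Γ`, for
all `k` (Smith normal form).  Consequently, if the residue ring `O ⧸ ϖ` is finite and `Γ` is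
generated by `m` elements, the set of classes modulo `ϖ ^ k` killed by `U` modulo `ϖ ^ k` has at
most `|O ⧸ ϖ| ^ (w * m)` elements, for EVERY `k`: in particular the common kernel modulo `ϖ ^ k`
of a finite family of endomorphisms of `Γ` with trivial common kernel is bounded independently
of `k`.  Mathlib only.
-/
import Mathlib

set_option autoImplicit false

namespace Fermat.Agent.S15.Struct.CommonKer

open Module

section AR

variable {O Γ M : Type*} [CommRing O] [IsDomain O] [IsPrincipalIdealRing O]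
  [AddCommGroup Γ] [Module O Γ] [AddCommGroup M] [Module O M] [Module.Free O M] [Module.Finite O M]

/-- **Linear Artin-Rees** for an injective linear map into a finite free module over a PID. -/
theorem exists_pow_dvd_of_injective {ϖ : O} (hϖ : Prime ϖ) (U : Γ →ₗ[O] M)
    (hU : Function.Injective U) :
    ∃ w : ℕ, ∀ (k : ℕ) (x : Γ), (∃ μ : M, U x = ϖ ^ (k + w) • μ) → ∃ y : Γ, x = ϖ ^ k • y := by
  classical
  let b := Module.Free.chooseBasis O M
  obtain ⟨n, snf⟩ := (LinearMap.range U).smithNormalForm b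
  have ha0 : ∀ i, snf.a i ≠ 0 := by
    intro i h0
    have h1 : ((snf.bN i : LinearMap.range U) : M) = 0 := by rw [snf.snf i, h0, zero_smul]
    exact snf.bN.ne_zero i (Subtype.ext h1)
  have ha : (∏ i, snf.a i) ≠ 0 := Finset.prod_ne_zero_iff.2 fun i _ => ha0 i
  obtain ⟨w, a', ha', haeq⟩ := WfDvdMonoid.max_power_factor ha hϖ.irreducible
  refine ⟨w, fun k x ⟨μ, hμ⟩ => ?_⟩
  let z : LinearMap.range U := ⟨U x, LinearMap.mem_range_self U x⟩
  have hdiv : ∀ i, ϖ ^ k ∣ snf.bN.repr z i := by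
    intro i
    have h1 : snf.bM.repr (z : M) (snf.f i) = snf.a i * snf.bN.repr z i := by
      rw [snf.repr_apply_embedding_eq_repr_smul z, map_smul, Finsupp.smul_apply, smul_eq_mul]
    have h2 : snf.bM.repr (z : M) (snf.f i) = ϖ ^ (k + w) * snf.bM.repr μ (snf.f i) := by
      show snf.bM.repr (U x) (snf.f i) = _
      rw [hμ, map_smul, Finsupp.smul_apply, smul_eq_mul]
    obtain ⟨bi, hbi⟩ : snf.a i ∣ ∏ j, snf.a j := Finset.dvd_prod_of_mem _ (Finset.mem_univ i)
    have h3 : ϖ ^ w * (snf.bN.repr z i * a') = ϖ ^ w * (ϖ ^ k * (snf.bM.repr μ (snf.f i) * bi)) := by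
      have h4 : snf.bN.repr z i * (∏ j, snf.a j) =
          ϖ ^ (k + w) * snf.bM.repr μ (snf.f i) * bi := by
        rw [hbi, ← h2, h1]; ring
      rw [haeq] at h4
      rw [pow_add] at h4
      linear_combination h4
    have h5 := mul_left_cancel₀ (pow_ne_zero w hϖ.ne_zero) h3
    exact hϖ.pow_dvd_of_dvd_mul_right k ha' ⟨_, h5⟩
  choose c' hc' using hdiv
  let y' : LinearMap.range U := ∑ i, c' i • snf.bN i
  have hz : z = ϖ ^ k • y' := by
    rw [← snf.bN.sum_repr z, Finset.smul_sum]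
    refine Finset.sum_congr rfl fun i _ => ?_
    rw [hc' i, mul_smul]
  obtain ⟨y, hy⟩ := y'.2
  refine ⟨y, hU ?_⟩
  rw [map_smul, hy]
  exact congrArg Subtype.val hz

end AR

section Count

variable {O Γ : Type*} [CommRing O] [IsDomain O] [IsPrincipalIdealRing O]
  [AddCommGroup Γ] [Module O Γ]

/-- The residue ring modulo `ϖ ^ j` is finite of order `|O ⧸ ϖ| ^ j`. -/
lemma card_quot_pow {ϖ : O} (hϖ : Prime ϖ) [Finite (O ⧸ Ideal.span {ϖ})] (j : ℕ) :
    Finite (O ⧸ Ideal.span {ϖ} ^ j) ∧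
      Nat.card (O ⧸ Ideal.span {ϖ} ^ j) = Nat.card (O ⧸ Ideal.span {ϖ}) ^ j := by
  haveI : (Ideal.span {ϖ}).IsPrime := (Ideal.span_singleton_prime hϖ.ne_zero).2 hϖ
  have hne : Ideal.span {ϖ} ≠ ⊥ := by
    rw [Ne, Ideal.span_singleton_eq_bot]; exact hϖ.ne_zero
  have h := cardQuot_pow_of_prime (P := Ideal.span {ϖ}) hne (i := j)
  rw [Submodule.cardQuot_apply, Submodule.cardQuot_apply] at h
  refine ⟨?_, h⟩
  have hpos : 0 < Nat.card (O ⧸ Ideal.span {ϖ} ^ j) := by
    rw [h]; exact pow_pos Nat.card_pos j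
  exact (Nat.card_pos_iff.1 hpos).2

/-- An additive map on a module generated by `m` elements which kills `ϖ ^ j Γ` has at most
`|O ⧸ ϖ| ^ (j * m)` values. -/
theorem ncard_range_le {ϖ : O} (hϖ : Prime ϖ) [Finite (O ⧸ Ideal.span {ϖ})] {m : ℕ} (b : Fin m → Γ)
    (hb : Submodule.span O (Set.range b) = ⊤) {B : Type*} [AddCommGroup B] (f : Γ →+ B) (j : ℕ)
    (hf : ∀ x : Γ, f (ϖ ^ j • x) = 0) :
    (Set.range f).Finite ∧ (Set.range f).ncard ≤ Nat.card (O ⧸ Ideal.span {ϖ}) ^ (j * m) := by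
  classical
  obtain ⟨hfin, hcard⟩ := card_quot_pow hϖ j
  haveI := hfin
  let Q := O ⧸ Ideal.span {ϖ} ^ j
  let g : (Fin m → Q) → B := fun c => f (∑ i, (Quotient.out (c i) : O) • b i)
  have hsub : Set.range f ⊆ Set.range g := by
    rintro _ ⟨x, rfl⟩
    have hx : x ∈ Submodule.span O (Set.range b) := by rw [hb]; trivial
    obtain ⟨a, rfl⟩ := (Submodule.mem_span_range_iff_exists_fun O).1 hx
    refine ⟨fun i => Ideal.Quotient.mk _ (a i), ?_⟩
    have key : ∀ r s : O, Ideal.Quotient.mk (Ideal.span {ϖ} ^ j) r =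
        Ideal.Quotient.mk (Ideal.span {ϖ} ^ j) s → ∃ t : O, r - s = ϖ ^ j * t := by
      intro r s h
      have h1 : r - s ∈ Ideal.span {ϖ} ^ j := Ideal.Quotient.eq.1 h
      rw [Ideal.span_singleton_pow, Ideal.mem_span_singleton] at h1
      exact h1
    have hdiff : ∀ i, ∃ t : O,
        (Quotient.out (Ideal.Quotient.mk (Ideal.span {ϖ} ^ j) (a i)) : O) - a i = ϖ ^ j * t :=
      fun i => key _ _ (Quotient.out_eq _)
    choose t ht using hdiff
    show f (∑ i, (Quotient.out (Ideal.Quotient.mk (Ideal.span {ϖ} ^ j) (a i)) : O) • b i) =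
      f (∑ i, a i • b i)
    have h2 : ∑ i, (Quotient.out (Ideal.Quotient.mk (Ideal.span {ϖ} ^ j) (a i)) : O) • b i =
        ∑ i, a i • b i + ϖ ^ j • ∑ i, t i • b i := by
      rw [Finset.smul_sum, ← Finset.sum_add_distrib]
      refine Finset.sum_congr rfl fun i _ => ?_
      rw [← mul_smul, ← ht i, ← add_smul, add_sub_cancel]
    rw [h2, map_add, hf, add_zero]
  have hgfin : (Set.range g).Finite := Set.finite_range g
  refine ⟨hgfin.subset hsub, (Set.ncard_le_ncard hsub hgfin).trans ?_⟩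
  calc (Set.range g).ncard ≤ Nat.card (Fin m → Q) := by
        rw [← Set.image_univ]
        refine (Set.ncard_image_le (Set.finite_univ)).trans ?_
        rw [Set.ncard_univ]
    _ = Nat.card (O ⧸ Ideal.span {ϖ}) ^ (j * m) := by
        rw [Nat.card_fun, hcard, Nat.card_fin, ← pow_mul]

/-- From the linear Artin-Rees bound `w`: the classes modulo `ϖ ^ k` which have a lift `x` with
`U x ∈ ϖ ^ k M` are at most `|O ⧸ ϖ| ^ (w * m)`, for every `k`. -/
theorem ncard_le_of_AR {M : Type*} [AddCommGroup M] [Module O M] {ϖ : O} (hϖ : Prime ϖ)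
    [Finite (O ⧸ Ideal.span {ϖ})] (U : Γ →ₗ[O] M) {w : ℕ}
    (hAR : ∀ (k : ℕ) (x : Γ), (∃ μ : M, U x = ϖ ^ (k + w) • μ) → ∃ y : Γ, x = ϖ ^ k • y)
    {m : ℕ} (b : Fin m → Γ) (hb : Submodule.span O (Set.range b) = ⊤) (k : ℕ)
    {B : Type*} [AddCommGroup B] (π : Γ →+ B) (hπ : ∀ x : Γ, π (ϖ ^ k • x) = 0) (Y : Set B)
    (hY : ∀ a ∈ Y, ∃ x : Γ, π x = a ∧ ∃ μ : M, U x = ϖ ^ k • μ) :
    Y.Finite ∧ Y.ncard ≤ Nat.card (O ⧸ Ideal.span {ϖ}) ^ (w * m) := by
  have hq : 0 < Nat.card (O ⧸ Ideal.span {ϖ}) := Nat.card_pos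
  rcases le_or_gt w k with hwk | hkw
  · -- `k = (k - w) + w`
    let f : Γ →+ B := π.comp (DistribMulAction.toAddMonoidHom Γ (ϖ ^ (k - w)))
    have hf : ∀ x : Γ, f (ϖ ^ w • x) = 0 := by
      intro x
      show π (ϖ ^ (k - w) • ϖ ^ w • x) = 0
      rw [← mul_smul, ← pow_add, Nat.sub_add_cancel hwk]
      exact hπ x
    obtain ⟨h1, h2⟩ := ncard_range_le hϖ b hb f w hf
    have hsub : Y ⊆ Set.range f := by
      intro a ha
      obtain ⟨x, rfl, μ, hμ⟩ := hY a ha
      have hk : k = (k - w) + w := (Nat.sub_add_cancel hwk).symm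
      obtain ⟨y, rfl⟩ := hAR (k - w) x ⟨μ, by rw [← hk]; exact hμ⟩
      exact ⟨y, rfl⟩
    exact ⟨h1.subset hsub, (Set.ncard_le_ncard hsub h1).trans h2⟩
  · obtain ⟨h1, h2⟩ := ncard_range_le hϖ b hb π k hπ
    have hsub : Y ⊆ Set.range π := by
      intro a ha
      obtain ⟨x, rfl, -⟩ := hY a ha
      exact ⟨x, rfl⟩
    refine ⟨h1.subset hsub, (Set.ncard_le_ncard hsub h1).trans (h2.trans ?_)⟩
    exact Nat.pow_le_pow_right hq (Nat.mul_le_mul_right m hkw.le)

end Count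

section Family

universe u

variable {O Γ : Type*} [CommRing O] [IsDomain O] [IsPrincipalIdealRing O]
  [AddCommGroup Γ] [Module O Γ] [Module.Free O Γ] [Module.Finite O Γ]

/-- **The constant bound.** A finite family of endomorphisms of a finite free module `Γ` with
trivial common kernel: the common kernel modulo `ϖ ^ k` is bounded independently of `k`.
`π : Γ → B` is any additive map killing `ϖ ^ k Γ` (think of `B = Γ ⧸ ϖ ^ k Γ`), and `Y` any set of
values of `π` at points `x` with `u i x ∈ ϖ ^ k Γ` for all `i`. -/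
theorem exists_ncard_common_ker_le {ι : Type*} [Finite ι] {ϖ : O} (hϖ : Prime ϖ)
    [Finite (O ⧸ Ideal.span {ϖ})] (u : ι → Γ →ₗ[O] Γ)
    (hu : ∀ x : Γ, (∀ i, u i x = 0) → x = 0) :
    ∃ C : ℕ, ∀ (k : ℕ) (B : Type u) [AddCommGroup B] (π : Γ →+ B),
      (∀ x : Γ, π (ϖ ^ k • x) = 0) → ∀ Y : Set B,
      (∀ a ∈ Y, ∃ x : Γ, π x = a ∧ ∀ i, ∃ μ : Γ, u i x = ϖ ^ k • μ) →
      Y.Finite ∧ Y.ncard ≤ C := by
  classical
  cases nonempty_fintype ι
  let U : Γ →ₗ[O] (ι → Γ) := LinearMap.pi u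
  have hU : Function.Injective U := by
    rw [← LinearMap.ker_eq_bot, LinearMap.ker_eq_bot']
    intro x hx
    exact hu x fun i => congrFun hx i
  obtain ⟨w, hw⟩ := exists_pow_dvd_of_injective hϖ U hU
  obtain ⟨m, b, hb⟩ := Module.Finite.exists_fin (R := O) (M := Γ)
  refine ⟨Nat.card (O ⧸ Ideal.span {ϖ}) ^ (w * m), fun k B _ π hπ Y hY => ?_⟩
  refine ncard_le_of_AR hϖ U hw b hb k π hπ Y fun a ha => ?_
  obtain ⟨x, hx, hμ⟩ := hY a ha
  choose μ hμ' using hμ
  exact ⟨x, hx, μ, funext fun i => by rw [Pi.smul_apply]; exact hμ' i⟩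

end Family

end Fermat.Agent.S15.Struct.CommonKer
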