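/-
PROJECT M (S15), block [S], leaf (S-h) = (TP-const), finite-level assembly (helper23):
FROM "NO COMMON KERNEL ON THE TATE LATTICE" TO THE UNIFORM BOUND OF THE CONSTANT OF (T-P).

`Γ` a finite free `ℤ_[P]`-module (the Tate module of the Eisenstein part) with two endomorphisms
`sτ`, `sφ` (an inertia element `τ` and a Frobenius lift `φ ∈ D_P`) such that no non-zero `x` has
`sτ x = cyc τ • x` and `sφ x = cyc φ • x`.  Then there is ONE constant `C` such that for every level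
`n` and every finite representation `A` killed by `P ^ n` which is a quotient `π : Γ → A` with
kernel `P ^ n Γ`, compatible with `τ`, `φ` and the scalars, and every `A0 ≤ A` on which `τ` acts
through the cyclotomic character: `|Ch A ⧸ chNull P A A0| ≤ C`.
-/
import Fermat.Agent.S15.D.GreenbergConst
import Fermat.Agent.S15.Struct.CommonKer
import Fermat.Agent.S30.Algebra.Cyclotomic

set_option autoImplicit false

namespace Fermat.Agent.S15.Struct.CoinvBound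

open Fermat.Agent.S56.Coh Fermat.Agent.CFT.LC Fermat.Agent.CFT.Bridge
  Fermat.Agent.CFT.LocalBridge Fermat.Agent.S15.D Fermat.Agent.S15.D.Greenberg
  Fermat.Agent.S15.D.GreenbergConst Fermat.Agent.S15.Struct.CommonKer
  Fermat.Agent.S30.Algebra

variable {P : ℕ} [Fact P.Prime]

section Ev

variable {𝕜 : Type} [CommRing 𝕜] {A : Rep.{0} 𝕜 GQ}

lemma ev_nsmul (d : Ch A) (m : ℕ) (a : A) : ev d (m • a) = ev d a ^ m := by
  induction m with
  | zero => rw [zero_smul, ev_zero, pow_zero]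
  | succ m ih => rw [succ_nsmul, ev_add, ih, pow_succ]

/-- The Galois group acts on the values of the characters of a group killed by `P ^ n` through the
cyclotomic character modulo `P ^ n`. -/
theorem map_ev_eq {n : ℕ} (hA : ∀ a : A, P ^ n • a = 0) (σ : GQ) (d : Ch A) (a : A) :
    σ (ev d a) = ev d ((((Cyclotomic.cyc P σ : ℤ_[P]ˣ) : ℤ_[P]).toZModPow n).val • a) := by
  have h1 : ev d a ^ P ^ n = 1 := by rw [← ev_nsmul, hA a, ev_zero]
  rw [Cyclotomic.cyc_spec P σ n (ev d a) h1, ev_nsmul]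

end Ev

lemma nsmul_congr_mod {J : Type*} [AddCommGroup J] {n m m' : ℕ} (h : m ≡ m' [MOD n]) {y : J}
    (hy : n • y = 0) : m • y = m' • y := by
  have key : ∀ a : ℕ, a • y = (a % n) • y := by
    intro a
    conv_lhs => rw [← Nat.div_add_mod a n]
    rw [add_nsmul, mul_nsmul, hy, smul_zero, zero_add]
  rw [key m, key m', h]

/-- The residue ring of `ℤ_[P]` modulo `P` is finite. -/
lemma finite_quot : Finite (ℤ_[P] ⧸ Ideal.span {(P : ℤ_[P])}) := by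
  rw [← PadicInt.maximalIdeal_eq_span_p]
  exact Finite.of_equiv _ (PadicInt.residueField (p := P)).symm.toEquiv

/-- **(TP-const), finite-level assembly.** -/
theorem exists_card_coinv_le {Γ : Type*} [AddCommGroup Γ] [Module ℤ_[P] Γ] [Module.Free ℤ_[P] Γ]
    [Module.Finite ℤ_[P] Γ] (sτ sφ : Γ →ₗ[ℤ_[P]] Γ) (τ φ : GQ) (hφ : φ ∈ Dq P)
    (hker : ∀ x : Γ, sτ x = ((Cyclotomic.cyc P τ : ℤ_[P]ˣ) : ℤ_[P]) • x →
      sφ x = ((Cyclotomic.cyc P φ : ℤ_[P]ˣ) : ℤ_[P]) • x → x = 0) :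
    ∃ C : ℕ, ∀ (n : ℕ) (𝕜 : Type) [CommRing 𝕜] (A : Rep.{0} 𝕜 GQ) [Finite A] (A0 : Submodule 𝕜 A)
      (π : Γ →+ A), (∀ a : A, P ^ n • a = 0) → (∀ a ∈ A0, ∃ x : Γ, π x = a) →
      (∀ x : Γ, π x = 0 → ∃ y : Γ, x = (P : ℤ_[P]) ^ n • y) →
      (∀ x : Γ, π (sτ x) = A.ρ τ (π x)) → (∀ x : Γ, π (sφ x) = A.ρ φ (π x)) →
      (∀ (c : ℤ_[P]) (x : Γ), ∃ m : ℕ, (m : ZMod (P ^ n)) = c.toZModPow n ∧ π (c • x) = m • π x) →
      (∀ a ∈ A0, A.ρ τ a = (((Cyclotomic.cyc P τ : ℤ_[P]ˣ) : ℤ_[P]).toZModPow n).val • a) →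
      Nat.card (Ch A ⧸ chNull P A A0) ≤ C := by
  haveI := finite_quot (P := P)
  let cτ : ℤ_[P] := ((Cyclotomic.cyc P τ : ℤ_[P]ˣ) : ℤ_[P])
  let cφ : ℤ_[P] := ((Cyclotomic.cyc P φ : ℤ_[P]ˣ) : ℤ_[P])
  let u : Fin 2 → Γ →ₗ[ℤ_[P]] Γ := ![sτ - cτ • LinearMap.id, sφ - cφ • LinearMap.id]
  have hu : ∀ x : Γ, (∀ i, u i x = 0) → x = 0 := by
    intro x hx
    have h0 := hx 0
    have h1 := hx 1
    refine hker x (sub_eq_zero.1 ?_) (sub_eq_zero.1 ?_)
    · exact h0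
    · exact h1
  obtain ⟨C, hC⟩ := exists_ncard_common_ker_le.{_, _, _, 0} (PadicInt.prime_p (p := P)) u hu
  refine ⟨C, fun n 𝕜 _ A _ A0 π hA hlift hπ hπτ hπφ hsm hQ5a => ?_⟩
  -- scalars at level `n`
  have hsm' : ∀ (c : ℤ_[P]) (x : Γ), π (c • x) = (c.toZModPow n).val • π x := by
    intro c x
    obtain ⟨m, hm, hmx⟩ := hsm c x
    rw [hmx]
    refine nsmul_congr_mod (n := P ^ n) ?_ (hA _)
    haveI : NeZero (P ^ n) := ⟨pow_ne_zero _ (Fact.out : P.Prime).ne_zero⟩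
    rw [← ZMod.natCast_eq_natCast_iff, hm, ZMod.natCast_val, ZMod.cast_id', id]
  have hπ0 : ∀ x : Γ, π ((P : ℤ_[P]) ^ n • x) = 0 := by
    intro x
    rw [hsm', map_pow, map_natCast]
    have h0 : ((P : ZMod (P ^ n)) ^ n) = 0 := by
      have := ZMod.natCast_self (P ^ n)
      rwa [Nat.cast_pow] at this
    rw [h0, ZMod.val_zero, zero_smul]
  set nφ : ℕ := (cφ.toZModPow n).val with hnφ
  set nτ : ℕ := (cτ.toZModPow n).val with hnτ
  refine (card_coinv_le_of_frob hφ nφ fun d a _ => map_ev_eq hA φ d a).trans ?_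
  let Y : Set A := {a | a ∈ A0 ∧ A.ρ φ a = nφ • a}
  have hY : ∀ a ∈ Y, ∃ x : Γ, π x = a ∧ ∀ i, ∃ μ : Γ, u i x = (P : ℤ_[P]) ^ n • μ := by
    intro a ha
    obtain ⟨x, rfl⟩ := hlift a ha.1
    refine ⟨x, rfl, fun i => ?_⟩
    fin_cases i
    · refine hπ _ ?_
      show π (sτ x - cτ • x) = 0
      rw [map_sub, hπτ, hsm', hQ5a _ ha.1, sub_self]
    · refine hπ _ ?_
      show π (sφ x - cφ • x) = 0
      rw [map_sub, hπφ, hsm', ha.2, sub_self]
  obtain ⟨-, h2⟩ := hC n A π hπ0 Y hY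
  have h3 : Nat.card {a : A // a ∈ A0 ∧ A.ρ φ a = nφ • a} = Y.ncard :=
    (_root_.Nat.card_coe_set_eq Y)
  rw [h3]
  exact h2

end Fermat.Agent.S15.Struct.CoinvBound
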