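import Fermat.Agent.S35.DetCyc
import Fermat.Agent.S13.Minkowski
import Fermat.Agent.CFT.LocalBridge.Conjugacy
import Fermat.Agent.S56.Coh.Defs

/-!
# PROJECT M (S15), block [S], leaf (S-c), abstract half

`ρ : GaloisRepAdic 𝒪` (`𝒪` a complete local domain of characteristic zero, `p` in its maximal
ideal) with the Frobenius quadratic relation `ρ(τ)² - a_ℓ ρ(τ) + ℓ = 0` outside `Sg ∋ p`.

* `exists_not_isScalar`   : no stable line ⇒ some `ρ(σ₀)` is not a scalar;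
* `det_eq_cycChar`        : no stable line ⇒ `det ρ = χ_cyc` (main's `DetGalois.det_eq_cycChar`,
  the non-scalar element coming from irreducibility, NOT from complex conjugation);
* `ne_smul_of_cycChar_ne_one`, `exists_sub_smul_ne_zero` : for `σ` with `χ_cyc(σ) ≠ 1`, `ρ(σ)` is
  not the scalar `χ_cyc(σ)` (otherwise `det = c² = c`);
* `exists_mem_Iq_cyc_ne_one` : the inertia group of the fixed place over `p` contains an element
  with `cyc p σ ≠ 1` (Minkowski: otherwise `ℚ(ζ_{p²})` is unramified everywhere);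
* `cycChar_ne_one` : `ι : ℤ_[p] →+* 𝒪` is injective for a domain of characteristic zero.
-/

set_option autoImplicit false
set_option linter.unusedSectionVars false
set_option linter.style.haveILetI false

namespace Fermat.Agent.S15.Struct.DetNe

open Polynomial IsLocalRing
open Fermat.Agent.S30.Algebra
open Fermat.Agent.S30.Algebra.DetGalois (Qbar GQ Density FrobRelation)

variable {𝒪 : Type} [CommRing 𝒪] [IsLocalRing 𝒪]

/-- **no stable line ⇒ a non-scalar element** -/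
theorem exists_not_isScalar (ρ : GaloisRepAdic 𝒪)
    (hline : ¬ ∃ v : ρ.V, v ≠ 0 ∧ ∀ g : GQ, ∃ c : 𝒪, ρ.ρ g v = c • v) :
    ∃ σ₀ : GQ, ¬ DetLemma.End.IsScalar (ρ.ρ σ₀) := by
  by_contra h
  push Not at h
  apply hline
  let b := Module.finBasisOfFinrankEq 𝒪 ρ.V ρ.finrank_eq
  refine ⟨b 0, b.ne_zero 0, fun g => ?_⟩
  obtain ⟨c, hc⟩ := h g
  exact ⟨c, by rw [hc, LinearMap.smul_apply, Module.End.one_apply]⟩

section Main

variable (p : ℕ) [Fact p.Prime] [IsDomain 𝒪] [IsAdicComplete (maximalIdeal 𝒪) 𝒪] [CharZero 𝒪]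

/-- **`det ρ = χ_cyc` from irreducibility** -/
theorem det_eq_cycChar (hp : (p : 𝒪) ∈ maximalIdeal 𝒪) (ι : ℤ_[p] →+* 𝒪)
    (Sg : Finset ℕ) (hpS : p ∈ Sg) (a : ℕ → 𝒪) (ρ : GaloisRepAdic 𝒪)
    (hrel : FrobRelation ρ Sg a)
    (hline : ¬ ∃ v : ρ.V, v ≠ 0 ∧ ∀ g : GQ, ∃ c : 𝒪, ρ.ρ g v = c • v) (σ : GQ) :
    LinearMap.det (ρ.ρ σ) = Cyclotomic.cycChar p ι σ :=
  DetGalois.det_eq_cycChar p hp ι Sg hpS a ρ hrel (Fermat.Agent.S35.DetCyc.density Sg)
    (exists_not_isScalar ρ hline) σ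

/-- **(S-c)**: `ρ(σ)` is not the scalar `χ_cyc(σ)` when `χ_cyc(σ) ≠ 1`. -/
theorem ne_smul_of_cycChar_ne_one (hp : (p : 𝒪) ∈ maximalIdeal 𝒪) (ι : ℤ_[p] →+* 𝒪)
    (Sg : Finset ℕ) (hpS : p ∈ Sg) (a : ℕ → 𝒪) (ρ : GaloisRepAdic 𝒪)
    (hrel : FrobRelation ρ Sg a)
    (hline : ¬ ∃ v : ρ.V, v ≠ 0 ∧ ∀ g : GQ, ∃ c : 𝒪, ρ.ρ g v = c • v) (σ : GQ)
    (hσ : Cyclotomic.cycChar p ι σ ≠ 1) :
    ρ.ρ σ ≠ Cyclotomic.cycChar p ι σ • (1 : Module.End 𝒪 ρ.V) := by
  intro h
  have hdet := det_eq_cycChar p hp ι Sg hpS a ρ hrel hline σ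
  rw [h, LinearMap.det_smul, ρ.finrank_eq, map_one, mul_one] at hdet
  have hu : Cyclotomic.cycChar p ι σ * Cyclotomic.cycChar p ι σ⁻¹ = 1 := by
    rw [← map_mul, mul_inv_cancel, map_one]
  apply hσ
  calc Cyclotomic.cycChar p ι σ
      = Cyclotomic.cycChar p ι σ ^ 2 * Cyclotomic.cycChar p ι σ⁻¹ := by
        rw [sq, mul_assoc, hu, mul_one]
    _ = 1 := by rw [hdet, hu]

/-- pointwise form of `ne_smul_of_cycChar_ne_one` (the `u ≠ 0 on R` of (S-0)) -/
theorem exists_sub_smul_ne_zero (hp : (p : 𝒪) ∈ maximalIdeal 𝒪) (ι : ℤ_[p] →+* 𝒪)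
    (Sg : Finset ℕ) (hpS : p ∈ Sg) (a : ℕ → 𝒪) (ρ : GaloisRepAdic 𝒪)
    (hrel : FrobRelation ρ Sg a)
    (hline : ¬ ∃ v : ρ.V, v ≠ 0 ∧ ∀ g : GQ, ∃ c : 𝒪, ρ.ρ g v = c • v) (σ : GQ)
    (hσ : Cyclotomic.cycChar p ι σ ≠ 1) :
    ∃ v : ρ.V, ρ.ρ σ v - Cyclotomic.cycChar p ι σ • v ≠ 0 := by
  by_contra h
  push Not at h
  refine ne_smul_of_cycChar_ne_one p hp ι Sg hpS a ρ hrel hline σ hσ (LinearMap.ext fun v => ?_)
  rw [LinearMap.smul_apply, Module.End.one_apply]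
  exact sub_eq_zero.1 (h v)

omit [IsLocalRing 𝒪] [IsAdicComplete (maximalIdeal 𝒪) 𝒪] in
/-- a ring homomorphism from `ℤ_[p]` to a domain of characteristic zero is injective -/
theorem injective_of_charZero (ι : ℤ_[p] →+* 𝒪) : Function.Injective ι := by
  rw [injective_iff_map_eq_zero]
  intro x hx
  by_contra hx0
  obtain ⟨u, n, rfl⟩ : ∃ (u : ℤ_[p]ˣ) (n : ℕ), x = (u : ℤ_[p]) * (p : ℤ_[p]) ^ n :=
    ⟨PadicInt.unitCoeff hx0, x.valuation, PadicInt.unitCoeff_spec hx0⟩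
  rw [map_mul, map_pow, map_natCast] at hx
  rcases mul_eq_zero.1 hx with h | h
  · exact (u.isUnit.map ι).ne_zero h
  · exact pow_ne_zero n (Nat.cast_ne_zero.2 (Fact.out : p.Prime).ne_zero) h

omit [IsLocalRing 𝒪] [IsAdicComplete (maximalIdeal 𝒪) 𝒪] in
theorem cycChar_ne_one (ι : ℤ_[p] →+* 𝒪) {σ : GQ} (hσ : Cyclotomic.cyc p σ ≠ 1) :
    Cyclotomic.cycChar p ι σ ≠ 1 := by
  intro h
  apply hσ
  apply Units.ext
  apply injective_of_charZero p ι
  rw [← Cyclotomic.cycChar_apply, h, Units.val_one, map_one]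

end Main

/-! ### Inertia at `p` is not killed by the cyclotomic character -/

section Inertia

open Fermat.Agent.CFT.LocalBridge Fermat.Agent.S56.Coh

variable (p : ℕ) [Fact p.Prime]

/-- a rational root of unity has square one -/
theorem sq_eq_one_of_rat {x : ℚ} {n : ℕ} (hn : n ≠ 0) (hx : x ^ n = 1) : x ^ 2 = 1 := by
  have h1 : |x| ^ n = 1 := by rw [← abs_pow, hx, abs_one]
  have h2 : |x| = 1 := (pow_eq_one_iff_of_nonneg (abs_nonneg x) hn).1 h1
  rw [← sq_abs, h2, one_pow]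

/-- **the inertia group at `p` contains an element with non-trivial cyclotomic character** -/
theorem exists_mem_Iq_cyc_ne_one : ∃ σ ∈ Iq p, Cyclotomic.cyc p σ ≠ 1 := by
  by_contra hcon0
  have hcon : ∀ σ ∈ Iq p, Cyclotomic.cyc p σ = 1 := fun σ hσ =>
    Classical.byContradiction fun h => hcon0 ⟨σ, hσ, h⟩
  have hp : p.Prime := Fact.out
  haveI : NeZero (p ^ 2) := ⟨pow_ne_zero _ hp.ne_zero⟩
  obtain ⟨ζ, hζ⟩ := HasEnoughRootsOfUnity.exists_primitiveRoot Qbar (p ^ 2)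
  have halg : Algebra.IsAlgebraic ℚ Qbar := AlgebraicClosure.isAlgebraic ℚ
  have hint : IsIntegral ℚ ζ := (halg.isAlgebraic ζ).isIntegral
  let K : IntermediateField ℚ Qbar := IntermediateField.adjoin ℚ {ζ}
  haveI : FiniteDimensional ℚ K := IntermediateField.adjoin.finiteDimensional hint
  -- every element with trivial cyclotomic character fixes `ζ`
  have hfix : ∀ σ : GQ, Cyclotomic.cyc p σ = 1 → σ ∈ K.fixingSubgroup := by
    intro σ hσ
    rw [IntermediateField.mem_fixingSubgroup_iff]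
    have h1 : σ ζ = ζ := by
      have := Cyclotomic.cyc_spec p σ 2 ζ hζ.pow_eq_one
      rw [hσ, Units.val_one, map_one] at this
      have hv : (1 : ZMod (p ^ 2)).val = 1 := by
        haveI : Fact (1 < p ^ 2) := ⟨Nat.one_lt_pow (by norm_num) hp.one_lt⟩
        exact ZMod.val_one (p ^ 2)
      rw [hv, pow_one] at this
      exact this
    have hle : K ≤ IntermediateField.fixedField (Subgroup.zpowers σ) := by
      rw [IntermediateField.adjoin_simple_le_iff, IntermediateField.mem_fixedField_iff]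
      intro f hf
      obtain ⟨k, rfl⟩ := Subgroup.mem_zpowers_iff.1 hf
      have h2 : ∀ n : ℕ, (σ ^ n) ζ = ζ := by
        intro n
        induction n with
        | zero => rfl
        | succ n ih => rw [pow_succ, AlgEquiv.mul_apply, h1, ih]
      rcases Int.eq_nat_or_neg k with ⟨n, rfl | rfl⟩
      · rw [zpow_natCast]; exact h2 n
      · rw [zpow_neg, zpow_natCast]
        have h3 := h2 n
        calc (σ ^ n)⁻¹ ζ = (σ ^ n)⁻¹ ((σ ^ n) ζ) := by rw [h3]
          _ = ((σ ^ n)⁻¹ * σ ^ n) ζ := rfl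
          _ = ζ := by rw [inv_mul_cancel]; rfl
    intro x hx
    exact (IntermediateField.mem_fixedField_iff _ x).1 (hle hx) σ (Subgroup.mem_zpowers σ)
  -- all inertia groups fix `ζ`
  have hall : ∀ σ : GQ, σ ∈ K.fixingSubgroup := by
    intro σ
    refine Fermat.Agent.S13.Minkowski.mem_of_inertia_le K.fixingSubgroup K le_rfl ?_ σ
    intro l hl A hA τ hτ
    by_cases hlp : l = p
    · obtain ⟨g, rfl⟩ := exists_smul_padicPlace_eq p (hlp ▸ hA)
      rw [mem_inertiaSubgroupIn_smul_iff] at hτ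
      have h1 := hcon _ hτ
      rw [map_mul, map_mul, map_inv, mul_comm, ← mul_assoc, mul_inv_cancel, one_mul] at h1
      exact hfix τ h1
    · exact hfix τ (Cyclotomic.cyc_inertia p hl hlp A hA τ hτ)
  -- hence `ζ` is rational
  have hζbot : ζ ∈ (⊥ : IntermediateField ℚ Qbar) := by
    rw [InfiniteGalois.mem_bot_iff_fixed]
    intro f
    exact (IntermediateField.mem_fixingSubgroup_iff K f).1 (hall f) ζ
      (IntermediateField.mem_adjoin_simple_self ℚ ζ)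
  obtain ⟨x, hx⟩ := IntermediateField.mem_bot.1 hζbot
  have hx2 : x ^ (p ^ 2) = 1 := by
    apply (algebraMap ℚ Qbar).injective
    rw [map_pow, hx, hζ.pow_eq_one, map_one]
  have hx3 : x ^ 2 = 1 := sq_eq_one_of_rat (pow_ne_zero _ hp.ne_zero) hx2
  have hζ2 : ζ ^ 2 = 1 := by rw [← hx, ← map_pow, hx3, map_one]
  have hdvd : p ^ 2 ∣ 2 := hζ.dvd_of_pow_eq_one 2 hζ2
  have h4 : 4 ≤ p ^ 2 := by nlinarith [hp.two_le]
  have := Nat.le_of_dvd (by norm_num) hdvd
  omega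

end Inertia

end Fermat.Agent.S15.Struct.DetNe
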