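/-
PROJECT M (S15), block [S], leaf (S-h) = (TP-const), step 2(b), abstract core (helper23):
NO COMMON EIGENVECTOR.

`Lam` a torsion-free module over a domain `O`, separated for the `p`-adic topology; `R` a free
module of rank two with an injective equivariant map `j : R → Lam` (the eigenlattice); `τ`
(an inertia element with `c = χ(τ) ≠ 1`) and `φ` (a Frobenius lift) act on both, with
`det τ = c` and `det φ = cφ` on `R`.  `Lam0 k ≤ Lam` are the elements whose class modulo `p ^ k`
lies in the connected part, `Lam' ≤ Lam` is a submodule containing the image of `R` (the Eisenstein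
part) on which the finite-level hypotheses hold.  Hypotheses, all at finite level:
 * `hdesc` : `p • z ∈ Lam0 (k + 1) → z ∈ Lam0 k`;
 * `hQ5b`  : `τ z - z ∈ Lam0 k` (inertia maps into the connected part);
 * `hQ5a`  : on `Lam0 k`, `τ = c` modulo `p ^ k` (inertia acts on the connected part through `χ`);
 * `hfix`  : `φ y - y ∈ Lam0 k → p ^ e0 • y ∈ Lam0 k` (the fixed points of Frobenius on the étale
   quotient are killed by `p ^ e0`).
Then there is no `x ≠ 0` in `R` with `τ x = c • x` and `φ x = cφ • x`.  Mathlib only.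
-/
import Mathlib

set_option autoImplicit false

namespace Fermat.Agent.S15.Struct.NoEigen

open Module

section Rank2

variable {O R : Type*} [CommRing O] [IsDomain O] [AddCommGroup R] [Module O R]
  (b : Basis (Fin 2) O R)

/-- The determinant form of a rank-two free module in coordinates. -/
noncomputable def om (u v : R) : O := b.repr u 0 * b.repr v 1 - b.repr u 1 * b.repr v 0

lemma om_map (g : R →ₗ[O] R) (u v : R) : om b (g u) (g v) = LinearMap.det g * om b u v := by
  classical
  have hrepr : ∀ (w : R) (i : Fin 2), b.repr (g w) i =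
      LinearMap.toMatrix b b g i 0 * b.repr w 0 + LinearMap.toMatrix b b g i 1 * b.repr w 1 := by
    intro w i
    have h := congrFun (LinearMap.toMatrix_mulVec_repr b b g w) i
    rw [← h, Matrix.mulVec, dotProduct, Fin.sum_univ_two]
  rw [← LinearMap.det_toMatrix b g, Matrix.det_fin_two]
  unfold om
  rw [hrepr u 0, hrepr u 1, hrepr v 0, hrepr v 1]
  ring

lemma om_sub_left (u u' v : R) : om b (u - u') v = om b u v - om b u' v := by
  unfold om
  rw [map_sub, Finsupp.sub_apply, Finsupp.sub_apply]
  ring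

lemma om_smul_right (a : O) (u v : R) : om b u (a • v) = a * om b u v := by
  unfold om
  rw [map_smul, Finsupp.smul_apply, Finsupp.smul_apply, smul_eq_mul, smul_eq_mul]
  ring

/-- Vanishing of the determinant form against a non-zero vector: proportionality. -/
lemma exists_smul_eq_of_om_eq_zero {z x : R} (hx : x ≠ 0) (h : om b z x = 0) :
    ∃ a c : O, a ≠ 0 ∧ a • z = c • x := by
  unfold om at h
  have hx' : b.repr x 0 ≠ 0 ∨ b.repr x 1 ≠ 0 := by
    by_contra hcon
    push_neg at hcon
    apply hx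
    apply b.ext_elem
    intro i
    fin_cases i
    · simpa using hcon.1
    · simpa using hcon.2
  rcases hx' with h0 | h1
  · refine ⟨b.repr x 0, b.repr z 0, h0, b.ext_elem fun i => ?_⟩
    rw [map_smul, map_smul, Finsupp.smul_apply, Finsupp.smul_apply, smul_eq_mul, smul_eq_mul]
    fin_cases i
    · exact mul_comm _ _
    · show b.repr x 0 * b.repr z 1 = b.repr z 0 * b.repr x 1
      linear_combination -h
  · refine ⟨b.repr x 1, b.repr z 1, h1, b.ext_elem fun i => ?_⟩
    rw [map_smul, map_smul, Finsupp.smul_apply, Finsupp.smul_apply, smul_eq_mul, smul_eq_mul]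
    fin_cases i
    · show b.repr x 1 * b.repr z 0 = b.repr z 1 * b.repr x 0
      linear_combination h
    · exact mul_comm _ _

include b in
/-- If `g` has determinant `cg ≠ 0` and an eigenvector `x ≠ 0` of eigenvalue `cg`, then `g - 1`
maps the whole module into the line of `x`. -/
theorem exists_smul_sub_eq (g : R →ₗ[O] R) {x : R} (hx : x ≠ 0) {cg : O} (hcg : cg ≠ 0)
    (hdet : LinearMap.det g = cg) (hgx : g x = cg • x) (y : R) :
    ∃ a c : O, a ≠ 0 ∧ a • (g y - y) = c • x := by
  refine exists_smul_eq_of_om_eq_zero b hx ?_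
  have h1 := om_map b g y x
  rw [hgx, om_smul_right, hdet] at h1
  have h2 := mul_left_cancel₀ hcg h1
  rw [om_sub_left, h2, sub_self]

end Rank2

section Main

variable {O Lam R : Type*} [CommRing O] [IsDomain O] [AddCommGroup Lam] [Module O Lam]
  [Module.IsTorsionFree O Lam] [AddCommGroup R] [Module O R]

/-- **No common eigenvector** (abstract core of (TP-const), step 2(b)). -/
theorem no_common_eigenvector (b : Basis (Fin 2) O R) (j : R →ₗ[O] Lam)
    (hj : Function.Injective j) (τ φ : Lam →ₗ[O] Lam) (τR φR : R →ₗ[O] R)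
    (hτ : ∀ r, j (τR r) = τ (j r)) (hφ : ∀ r, j (φR r) = φ (j r))
    (p : O) (hp : p ≠ 0) (hsep : ∀ v : Lam, (∀ k : ℕ, ∃ u : Lam, v = p ^ k • u) → v = 0)
    (c cφ : O) (hc0 : c ≠ 0) (hcφ : cφ ≠ 0) (hdetτ : LinearMap.det τR = c)
    (hdetφ : LinearMap.det φR = cφ)
    (j0 : ℕ) (u : O) (hu : IsUnit u) (hc1 : c - 1 = p ^ j0 * u)
    (Lam' : Submodule O Lam) (hjR : ∀ r, j r ∈ Lam') (Lam0 : ℕ → Submodule O Lam)
    (hdesc : ∀ (k : ℕ) (z : Lam), p • z ∈ Lam0 (k + 1) → z ∈ Lam0 k)
    (hQ5b : ∀ (k : ℕ), ∀ z ∈ Lam', τ z - z ∈ Lam0 k)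
    (hQ5a : ∀ (k : ℕ), ∀ z ∈ Lam0 k, ∃ v : Lam, τ z - c • z = p ^ k • v)
    (e0 : ℕ) (hfix : ∀ (k : ℕ), ∀ y ∈ Lam', φ y - y ∈ Lam0 k → p ^ e0 • y ∈ Lam0 k) :
    ¬ ∃ x : R, x ≠ 0 ∧ τR x = c • x ∧ φR x = cφ • x := by
  rintro ⟨x, hx, hτx, hφx⟩
  -- iterated descent
  have hdesc' : ∀ (m k : ℕ) (z : Lam), p ^ m • z ∈ Lam0 (k + m) → z ∈ Lam0 k := by
    intro m
    induction m with
    | zero => intro k z h; simpa using h
    | succ m ih =>
      intro k z h
      refine ih k z (hdesc (k + m) (p ^ m • z) ?_)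
      rw [← mul_smul, ← pow_succ']
      exact h
  -- every element of `R` is an eigenvector of `τ`
  have hall : ∀ y : R, τR y = c • y := by
    intro y
    obtain ⟨a, b', ha, hab⟩ := exists_smul_sub_eq b φR hx hcφ hdetφ hφx y
    set z : R := φR y - y with hz
    -- `τ z = c z`
    have hτz : τR z = c • z := by
      have h1 : a • (τR z - c • z) = 0 := by
        rw [smul_sub, ← map_smul, smul_comm a c z, hab, map_smul, hτx, smul_comm b' c x, sub_self]
      have h2 : j (a • (τR z - c • z)) = 0 := by rw [h1, map_zero]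
      rw [map_smul] at h2
      have h3 : j (τR z - c • z) = 0 := (smul_eq_zero.1 h2).resolve_left ha
      have h4 : τR z - c • z = 0 := hj (by rw [h3, map_zero])
      exact sub_eq_zero.1 h4
    -- `j z` lies in every `Lam0 k`
    have hz0 : ∀ k, j z ∈ Lam0 k := by
      intro k
      refine hdesc' j0 k (j z) ?_
      have h1 : τ (j z) - j z ∈ Lam0 (k + j0) := hQ5b (k + j0) (j z) (hjR z)
      rw [← hτ, hτz, map_smul] at h1
      have h2 : c • j z - j z = u • (p ^ j0 • j z) := by
        rw [← mul_smul, mul_comm u, ← hc1, sub_smul, one_smul]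
      rw [h2] at h1
      obtain ⟨u', hu'⟩ := hu.exists_left_inv
      have h3 := (Lam0 (k + j0)).smul_mem u' h1
      rwa [← mul_smul, hu', one_smul] at h3
    -- so `p ^ e0 • j y` lies in every `Lam0 k`
    have hy0 : ∀ k, p ^ e0 • j y ∈ Lam0 k := by
      intro k
      refine hfix k (j y) (hjR y) ?_
      have h1 := hz0 k
      rwa [hz, map_sub, hφ] at h1
    -- hence `τ = c` on `p ^ e0 • j y`
    have h5 : τ (p ^ e0 • j y) - c • (p ^ e0 • j y) = 0 :=
      hsep _ fun k => hQ5a k _ (hy0 k)
    have h6 : p ^ e0 • (τ (j y) - c • j y) = 0 := by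
      rw [smul_sub, ← map_smul, smul_comm (p ^ e0) c]
      exact h5
    have h7 : τ (j y) - c • j y = 0 :=
      (smul_eq_zero.1 h6).resolve_left (pow_ne_zero e0 hp)
    refine hj ?_
    rw [hτ, map_smul]
    exact sub_eq_zero.1 h7
  -- `τ` is the scalar `c`, so its determinant is `c ^ 2`
  have hτR : τR = c • LinearMap.id := LinearMap.ext fun y => by
    rw [hall y]; rfl
  have hdet2 : LinearMap.det τR = c ^ 2 := by
    haveI : Module.Free O R := Module.Free.of_basis b
    haveI : Module.Finite O R := Module.Finite.of_basis b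
    rw [hτR, LinearMap.det_smul, LinearMap.det_id, mul_one, Module.finrank_eq_card_basis b,
      Fintype.card_fin]
  rw [hdetτ] at hdet2
  have hc : c = 1 := by
    have h8 : c * (c - 1) = 0 := by linear_combination -hdet2
    exact sub_eq_zero.1 ((mul_eq_zero.1 h8).resolve_left hc0)
  rw [hc, sub_self] at hc1
  have h9 := (mul_eq_zero.1 hc1.symm)
  rcases h9 with h9 | h9
  · exact pow_ne_zero j0 hp h9
  · exact hu.ne_zero h9

end Main

end Fermat.Agent.S15.Struct.NoEigen
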