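/-
PROJECT M (S15), block [S], leaf (S-h) = (TP-const) (helper23): SIMULTANEOUS EIGENVECTORS IN A
STABLE SUBMODULE.

`Λ` a module over a commutative ring `O`, `t i` a finite commuting family of endomorphisms such
that `∏ a ∈ rts i, (X - a) ^ n` kills `t i` for finite sets `rts i` of scalars (Cayley-Hamilton
with a split characteristic polynomial).  Every non-zero submodule stable under all the `t i` contains a
non-zero simultaneous eigenvector.  Mathlib only.
-/
import Mathlib

set_option autoImplicit false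

namespace Fermat.Agent.S15.Struct.SimulEigen

variable {O Λ : Type*} [CommRing O] [AddCommGroup Λ] [Module O Λ]

/-- The simultaneous eigen-submodule of a family of endomorphisms. -/
def eigenLat {κ : Type*} (t : κ → Module.End O Λ) (χ : κ → O) : Submodule O Λ :=
  ⨅ i, LinearMap.ker (t i - χ i • (1 : Module.End O Λ))

lemma mem_eigenLat {κ : Type*} {t : κ → Module.End O Λ} {χ : κ → O} {x : Λ} :
    x ∈ eigenLat t χ ↔ ∀ i, t i x = χ i • x := by
  unfold eigenLat
  rw [Submodule.mem_iInf]
  refine forall_congr' fun i => ?_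
  rw [LinearMap.mem_ker, LinearMap.sub_apply, LinearMap.smul_apply, Module.End.one_apply,
    sub_eq_zero]

/-- A nilpotent-on-`z` operator preserving `K` has a non-zero kernel vector in `K`. -/
lemma exists_ker_of_pow (f : Module.End O Λ) (K : Submodule O Λ) (hK : ∀ x ∈ K, f x ∈ K)
    {z : Λ} (hzK : z ∈ K) (hz : z ≠ 0) {n : ℕ} (hn : (f ^ n) z = 0) :
    ∃ y ∈ K, y ≠ 0 ∧ f y = 0 := by
  classical
  have hex : ∃ m, (f ^ m) z = 0 := ⟨n, hn⟩
  have hm0 : Nat.find hex ≠ 0 := by
    intro h0
    have h1 := Nat.find_spec hex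
    rw [h0, pow_zero, Module.End.one_apply] at h1
    exact hz h1
  obtain ⟨m, hm⟩ := Nat.exists_eq_succ_of_ne_zero hm0
  have hpowK : ∀ j : ℕ, (f ^ j) z ∈ K := by
    intro j
    induction j with
    | zero => rwa [pow_zero, Module.End.one_apply]
    | succ j ih => rw [pow_succ', Module.End.mul_apply]; exact hK _ ih
  refine ⟨(f ^ m) z, hpowK m, ?_, ?_⟩
  · exact Nat.find_min hex (by rw [hm]; exact Nat.lt_succ_self m)
  · have h1 := Nat.find_spec hex
    rw [hm, pow_succ', Module.End.mul_apply] at h1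
    exact h1

/-- A submodule stable under `f` is stable under every polynomial in `f`. -/
lemma aeval_mem (f : Module.End O Λ) (K : Submodule O Λ) (hK : ∀ x ∈ K, f x ∈ K)
    (q : Polynomial O) : ∀ y ∈ K, (Polynomial.aeval f q) y ∈ K := by
  have hpow : ∀ (j : ℕ), ∀ y ∈ K, (f ^ j) y ∈ K := by
    intro j
    induction j with
    | zero => intro y hy; rwa [pow_zero, Module.End.one_apply]
    | succ j ih => intro y hy; rw [pow_succ', Module.End.mul_apply]; exact hK _ (ih y hy)
  induction q using Polynomial.induction_on' with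
  | add p q hp hq =>
    intro y hy
    rw [map_add, LinearMap.add_apply]
    exact K.add_mem (hp y hy) (hq y hy)
  | monomial j a =>
    intro y hy
    rw [Polynomial.aeval_monomial, Algebra.algebraMap_eq_smul_one, smul_mul_assoc, one_mul,
      LinearMap.smul_apply]
    exact K.smul_mem a (hpow j y hy)

lemma aeval_X_sub_C_pow (f : Module.End O Λ) (a : O) (n : ℕ) :
    Polynomial.aeval f ((Polynomial.X - Polynomial.C a) ^ n) =
      (f - a • (1 : Module.End O Λ)) ^ n := by
  rw [map_pow, map_sub, Polynomial.aeval_X, Polynomial.aeval_C, Algebra.algebraMap_eq_smul_one]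

/-- One operator with a split annihilating polynomial: a non-zero stable submodule contains an
eigenvector. -/
lemma exists_eigen_one (f : Module.End O Λ) (rts : Finset O) (n : ℕ)
    (K : Submodule O Λ) (hK : ∀ x ∈ K, f x ∈ K) :
    ∀ x ∈ K, x ≠ 0 →
      (Polynomial.aeval f (∏ a ∈ rts, (Polynomial.X - Polynomial.C a) ^ n)) x = 0 →
      ∃ a ∈ rts, ∃ y ∈ K, y ≠ 0 ∧ f y = a • y := by
  classical
  induction rts using Finset.induction_on with
  | empty =>
    intro x _ hx h
    rw [Finset.prod_empty, map_one, Module.End.one_apply] at h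
    exact absurd h hx
  | insert b s hb ih =>
    intro x hxK hx h
    rw [Finset.prod_insert hb, map_mul, Module.End.mul_apply, aeval_X_sub_C_pow] at h
    set z := (Polynomial.aeval f (∏ a ∈ s, (Polynomial.X - Polynomial.C a) ^ n)) x with hz
    have hstab : ∀ (a : O), ∀ y ∈ K, (f - a • (1 : Module.End O Λ)) y ∈ K := by
      intro a y hy
      rw [LinearMap.sub_apply, LinearMap.smul_apply, Module.End.one_apply]
      exact K.sub_mem (hK y hy) (K.smul_mem a hy)
    have hzK : z ∈ K := aeval_mem f K hK _ x hxK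
    by_cases hz0 : z = 0
    · obtain ⟨a, ha, y, hy, hy0, hfy⟩ := ih x hxK hx hz0
      exact ⟨a, Finset.mem_insert_of_mem ha, y, hy, hy0, hfy⟩
    · obtain ⟨y, hy, hy0, hfy⟩ :=
        exists_ker_of_pow (f - b • (1 : Module.End O Λ)) K (hstab b) hzK hz0 h
      refine ⟨b, Finset.mem_insert_self b s, y, hy, hy0, ?_⟩
      rw [LinearMap.sub_apply, LinearMap.smul_apply, Module.End.one_apply] at hfy
      exact sub_eq_zero.1 hfy

/-- Adapter: a split annihilating polynomial given by a multiset of roots. -/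
lemma aeval_finset_of_multiset [DecidableEq O] (f : Module.End O Λ) (s : Multiset O)
    (h : Polynomial.aeval f ((s.map fun a => Polynomial.X - Polynomial.C a).prod) = 0) :
    Polynomial.aeval f
      (∏ a ∈ s.toFinset, (Polynomial.X - Polynomial.C a) ^ Multiset.card s) = 0 := by
  have hdvd : (s.map fun a => Polynomial.X - Polynomial.C a).prod ∣
      ∏ a ∈ s.toFinset, (Polynomial.X - Polynomial.C a) ^ Multiset.card s := by
    rw [Finset.prod_multiset_map_count]
    exact Finset.prod_dvd_prod_of_dvd _ _ fun a _ => pow_dvd_pow _ (Multiset.count_le_card a s)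
  obtain ⟨q, hq⟩ := hdvd
  rw [hq, map_mul, h, zero_mul]

/-- **Simultaneous eigenvector.** -/
theorem exists_simul_eigen {κ : Type*} [Finite κ] (t : κ → Module.End O Λ)
    (hcomm : ∀ i j, Commute (t i) (t j)) (rts : κ → Finset O) (n : κ → ℕ)
    (hsplit : ∀ i, Polynomial.aeval (t i)
      (∏ a ∈ rts i, (Polynomial.X - Polynomial.C a) ^ n i) = 0)
    (K : Submodule O Λ) (hK : ∀ i, ∀ x ∈ K, t i x ∈ K) (hK0 : K ≠ ⊥) :
    ∃ χ : κ → O, ∃ x ∈ K, x ≠ 0 ∧ x ∈ eigenLat t χ := by
  classical
  cases nonempty_fintype κ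
  -- induction on a finite set of indices
  have key : ∀ s : Finset κ, ∃ χ : κ → O, ∃ x ∈ K, x ≠ 0 ∧ ∀ i ∈ s, t i x = χ i • x := by
    intro s
    induction s using Finset.induction_on with
    | empty =>
      obtain ⟨x, hx, hx0⟩ := (Submodule.ne_bot_iff K).1 hK0
      exact ⟨fun _ => 0, x, hx, hx0, fun i hi => absurd hi (Finset.notMem_empty i)⟩
    | insert j s hj ih =>
      obtain ⟨χ, x, hxK, hx0, hχ⟩ := ih
      let K' : Submodule O Λ := K ⊓ ⨅ i ∈ s, LinearMap.ker (t i - χ i • (1 : Module.End O Λ))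
      have hmemK' : ∀ y, y ∈ K' ↔ y ∈ K ∧ ∀ i ∈ s, t i y = χ i • y := by
        intro y
        show y ∈ K ⊓ _ ↔ _
        rw [Submodule.mem_inf, Submodule.mem_iInf]
        refine and_congr_right fun _ => forall_congr' fun i => ?_
        rw [Submodule.mem_iInf]
        refine forall_congr' fun _ => ?_
        rw [LinearMap.mem_ker, LinearMap.sub_apply, LinearMap.smul_apply, Module.End.one_apply,
          sub_eq_zero]
      have hK'stab : ∀ y ∈ K', t j y ∈ K' := by
        intro y hy
        rw [hmemK'] at hy ⊢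
        refine ⟨hK j y hy.1, fun i hi => ?_⟩
        have hc : t i (t j y) = t j (t i y) := by
          have := (hcomm i j).eq
          exact DFunLike.congr_fun this y
        rw [hc, hy.2 i hi, map_smul]
      have hxK' : x ∈ K' := (hmemK' x).2 ⟨hxK, hχ⟩
      have hprod : (Polynomial.aeval (t j)
          (∏ a ∈ rts j, (Polynomial.X - Polynomial.C a) ^ n j)) x = 0 := by
        rw [hsplit j, LinearMap.zero_apply]
      obtain ⟨a, -, y, hyK', hy0, hty⟩ :=
        exists_eigen_one (t j) (rts j) (n j) K' hK'stab x hxK' hx0 hprod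
      rw [hmemK'] at hyK'
      refine ⟨Function.update χ j a, y, hyK'.1, hy0, fun i hi => ?_⟩
      rcases Finset.mem_insert.1 hi with rfl | hi'
      · rw [Function.update_self]; exact hty
      · have hij : i ≠ j := fun h => hj (h ▸ hi')
        rw [Function.update_of_ne hij]
        exact hyK'.2 i hi'
  obtain ⟨χ, x, hxK, hx0, hχ⟩ := key Finset.univ
  exact ⟨χ, x, hxK, hx0, mem_eigenLat.2 fun i => hχ i (Finset.mem_univ i)⟩

section General

variable {O Λ : Type*} [CommRing O] [IsDomain O] [IsPrincipalIdealRing O] [AddCommGroup Λ]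
  [Module O Λ] [Module.Finite O Λ] [Module.IsTorsionFree O Λ]

/-- A proper kernel has smaller rank. -/
lemma finrank_inf_ker_lt (f : Module.End O Λ) (K : Submodule O Λ) {x : Λ} (hxK : x ∈ K)
    (hfx : f x ≠ 0) : Module.finrank O ↥(K ⊓ LinearMap.ker f) < Module.finrank O ↥K := by
  let g : ↥K →ₗ[O] Λ := f.comp K.subtype
  have h1 := Submodule.finrank_quotient_add_finrank (LinearMap.ker g)
  have h2 : Module.finrank O (↥K ⧸ LinearMap.ker g) = Module.finrank O ↥(LinearMap.range g) :=
    LinearEquiv.finrank_eq g.quotKerEquivRange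
  have h3 : 0 < Module.finrank O ↥(LinearMap.range g) := by
    rw [Module.finrank_pos_iff_exists_ne_zero]
    refine ⟨⟨g ⟨x, hxK⟩, LinearMap.mem_range_self g _⟩, fun h => hfx ?_⟩
    exact congrArg Subtype.val h
  have h4 : Module.finrank O ↥(K ⊓ LinearMap.ker f) = Module.finrank O ↥(LinearMap.ker g) := by
    have e : ↥(LinearMap.ker g) ≃ₗ[O] ↥((LinearMap.ker g).map K.subtype) :=
      Submodule.equivMapOfInjective K.subtype (Submodule.subtype_injective K) (LinearMap.ker g)
    have hmap : (LinearMap.ker g).map K.subtype = K ⊓ LinearMap.ker f := by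
      ext y
      constructor
      · rintro ⟨z, hz, rfl⟩
        exact ⟨z.2, hz⟩
      · rintro ⟨hyK, hy⟩
        exact ⟨⟨y, hyK⟩, hy, rfl⟩
    rw [← hmap]
    exact (LinearEquiv.finrank_eq e).symm
  omega

/-- **Simultaneous eigenvector**, arbitrary commuting family on a finite torsion-free module over a
principal ideal domain. -/
theorem exists_simul_eigen_of_finite {κ : Type*} (t : κ → Module.End O Λ)
    (hcomm : ∀ i j, Commute (t i) (t j)) (rts : κ → Finset O) (n : κ → ℕ)
    (hsplit : ∀ i, Polynomial.aeval (t i)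
      (∏ a ∈ rts i, (Polynomial.X - Polynomial.C a) ^ n i) = 0)
    (K : Submodule O Λ) (hK : ∀ i, ∀ x ∈ K, t i x ∈ K) (hK0 : K ≠ ⊥) :
    ∃ χ : κ → O, ∃ x ∈ K, x ≠ 0 ∧ x ∈ eigenLat t χ := by
  classical
  suffices key : ∀ (m : ℕ) (K : Submodule O Λ), Module.finrank O ↥K = m →
      (∀ i, ∀ x ∈ K, t i x ∈ K) → K ≠ ⊥ → ∃ χ : κ → O, ∃ x ∈ K, x ≠ 0 ∧ x ∈ eigenLat t χ from
    key _ K rfl hK hK0
  intro m
  induction m using Nat.strong_induction_on with
  | _ m ih =>
    intro K hm hK hK0
    by_cases hsc : ∀ i, ∃ a : O, ∀ x ∈ K, t i x = a • x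
    · choose χ hχ using hsc
      obtain ⟨x, hx, hx0⟩ := (Submodule.ne_bot_iff K).1 hK0
      exact ⟨χ, x, hx, hx0, mem_eigenLat.2 fun i => hχ i x hx⟩
    · push_neg at hsc
      obtain ⟨i, hi⟩ := hsc
      obtain ⟨x0, hx0K, hx00⟩ := (Submodule.ne_bot_iff K).1 hK0
      have hprod : (Polynomial.aeval (t i)
          (∏ a ∈ rts i, (Polynomial.X - Polynomial.C a) ^ n i)) x0 = 0 := by
        rw [hsplit i, LinearMap.zero_apply]
      obtain ⟨a, -, y, hyK, hy0, hty⟩ :=
        exists_eigen_one (t i) (rts i) (n i) K (hK i) x0 hx0K hx00 hprod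
      obtain ⟨x1, hx1K, hx1⟩ := hi a
      let f : Module.End O Λ := t i - a • (1 : Module.End O Λ)
      have hfx1 : f x1 ≠ 0 := by
        show (t i - a • (1 : Module.End O Λ)) x1 ≠ 0
        rw [LinearMap.sub_apply, LinearMap.smul_apply, Module.End.one_apply]
        exact sub_ne_zero.2 hx1
      let K' : Submodule O Λ := K ⊓ LinearMap.ker f
      have hlt : Module.finrank O ↥K' < m := hm ▸ finrank_inf_ker_lt f K hx1K hfx1
      have hK'stab : ∀ j, ∀ x ∈ K', t j x ∈ K' := by
        intro j x hx
        refine ⟨hK j x hx.1, ?_⟩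
        have hxk : f x = 0 := hx.2
        show f (t j x) = 0
        have hc : f (t j x) = t j (f x) := by
          show (t i - a • (1 : Module.End O Λ)) (t j x) = t j ((t i - a • (1 : Module.End O Λ)) x)
          rw [LinearMap.sub_apply, LinearMap.sub_apply, LinearMap.smul_apply, LinearMap.smul_apply,
            Module.End.one_apply, Module.End.one_apply, map_sub, map_smul]
          congr 1
          exact DFunLike.congr_fun (hcomm i j).eq x
        rw [hc, hxk, map_zero]
      have hyK' : y ∈ K' := by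
        refine ⟨hyK, ?_⟩
        show (t i - a • (1 : Module.End O Λ)) y = 0
        rw [LinearMap.sub_apply, LinearMap.smul_apply, Module.End.one_apply, hty, sub_self]
      have hK'0 : K' ≠ ⊥ := fun h => hy0 ((Submodule.eq_bot_iff K').1 h y hyK')
      obtain ⟨χ, x, hxK', hx0, hxχ⟩ := ih _ hlt K' rfl hK'stab hK'0
      exact ⟨χ, x, hxK'.1, hx0, hxχ⟩

end General

end Fermat.Agent.S15.Struct.SimulEigen
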