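/-
PROJECT M (S15), block [S], leaf (S-h) = (TP-const), step 2(b), tensor bookkeeping (helper23):
FROM THE EIGENLATTICES OF `O ⊗ T` TO "NO COMMON KERNEL ON `T`".

`Z` a domain (think `ℤ_[P]`), `O` a principal ideal domain which is a free `Z`-module of finite
rank (the integers of a finite extension containing the Hecke eigenvalues), `T` a finite free
`Z`-module (the full Tate module), separated for the `p`-adic topology, with endomorphisms `sτ`,
`sφ` and a commuting family `t i` (Hecke, any index type) commuting with them, whose characteristic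
polynomials split over `O`.  `T_E ≤ T` is the part on which the `t i - e i`, for the indices `i`
with `E i` (a sub-family: the good primes), are topologically nilpotent (the Eisenstein part),
`T0 k ≤ T` the elements whose class at level `k` lies in the connected part.  If on every non-zero simultaneous eigenlattice of `O ⊗ T` (free of rank two) `sτ`
and `sφ` have determinants `cτ ≠ 1` and `cφ`, then no `x ≠ 0` in `T_E` has `sτ x = cτ • x` and
`sφ x = cφ • x`.  An eigenlattice which meets `O ⊗ T_E` lies in it (topological nilpotence), so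
the finite-level hypotheses are only needed on `T_E`.
All finite-level hypotheses are stated on `T`; the passage to `O ⊗ T` is done here by coordinates
in a `Z`-basis of `O`.  Mathlib only (+ `NoEigen`, `SimulEigen`).
-/
import Fermat.Agent.S15.Struct.NoEigen
import Fermat.Agent.S15.Struct.SimulEigen

set_option autoImplicit false

namespace Fermat.Agent.S15.Struct.EigenTensor

open TensorProduct Fermat.Agent.S15.Struct.SimulEigen Fermat.Agent.S15.Struct.NoEigen

section Coord

variable {Z O T : Type*} [CommRing Z] [CommRing O] [Algebra Z O] [AddCommGroup T] [Module Z T]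
  {ι : Type*} [Fintype ι] [DecidableEq ι] (ω : Module.Basis ι Z O)

/-- The coordinates of an element of `O ⊗ T` in a `Z`-basis of `O`. -/
noncomputable def crd (z : O ⊗[Z] T) (i : ι) : T := equivFinsuppOfBasisLeft ω z i

lemma crd_tmul (o : O) (t : T) (i : ι) : crd ω (o ⊗ₜ[Z] t) i = ω.repr o i • t :=
  equivFinsuppOfBasisLeft_apply_tmul_apply ω o t i

lemma crd_add (z z' : O ⊗[Z] T) (i : ι) : crd ω (z + z') i = crd ω z i + crd ω z' i := by
  unfold crd; rw [map_add, Finsupp.add_apply]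

lemma crd_sub (z z' : O ⊗[Z] T) (i : ι) : crd ω (z - z') i = crd ω z i - crd ω z' i := by
  unfold crd; rw [map_sub, Finsupp.sub_apply]

lemma crd_zero (i : ι) : crd ω (0 : O ⊗[Z] T) i = 0 := by
  unfold crd; rw [map_zero, Finsupp.zero_apply]

lemma crd_smul (a : Z) (z : O ⊗[Z] T) (i : ι) : crd ω (a • z) i = a • crd ω z i := by
  unfold crd; rw [map_smul, Finsupp.smul_apply]

lemma crd_algebraMap_smul (a : Z) (z : O ⊗[Z] T) (i : ι) :
    crd ω (algebraMap Z O a • z) i = a • crd ω z i := by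
  rw [algebraMap_smul, crd_smul]

lemma crd_baseChange (s : T →ₗ[Z] T) (z : O ⊗[Z] T) (i : ι) :
    crd ω (s.baseChange O z) i = s (crd ω z i) := by
  induction z using TensorProduct.induction_on with
  | zero => rw [map_zero, crd_zero, map_zero]
  | tmul o t => rw [LinearMap.baseChange_tmul, crd_tmul, crd_tmul, map_smul]
  | add z z' h h' => rw [map_add, crd_add, crd_add, h, h', map_add]

lemma ext_crd {z z' : O ⊗[Z] T} (h : ∀ i, crd ω z i = crd ω z' i) : z = z' :=
  (equivFinsuppOfBasisLeft ω).injective (Finsupp.ext h)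

lemma exists_crd (v : ι → T) : ∃ z : O ⊗[Z] T, ∀ i, crd ω z i = v i := by
  refine ⟨(equivFinsuppOfBasisLeft ω).symm (Finsupp.equivFunOnFinite.symm v), fun i => ?_⟩
  unfold crd
  rw [LinearEquiv.apply_symm_apply]
  rfl

lemma eq_sum_crd (z : O ⊗[Z] T) : z = ∑ i, ω i ⊗ₜ[Z] crd ω z i := by
  have h := (equivFinsuppOfBasisLeft ω).symm_apply_apply z
  rw [equivFinsuppOfBasisLeft_symm_apply, Finsupp.sum_fintype _ _ (fun i => tmul_zero _ _)] at h
  exact h.symm

/-- Membership in the base change of a submodule, by coordinates. -/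
lemma mem_baseChange_iff (T0 : Submodule Z T) (z : O ⊗[Z] T) :
    z ∈ T0.baseChange O ↔ ∀ i, crd ω z i ∈ T0 := by
  constructor
  · rintro ⟨w, rfl⟩ i
    induction w using TensorProduct.induction_on with
    | zero => rw [map_zero, crd_zero]; exact T0.zero_mem
    | tmul o t =>
      rw [LinearMap.baseChange_tmul, crd_tmul]
      exact T0.smul_mem _ t.2
    | add w w' h h' => rw [map_add, crd_add]; exact T0.add_mem h h'
  · intro h
    rw [eq_sum_crd ω z]
    exact Submodule.sum_mem _ fun i _ => Submodule.tmul_mem_baseChange_of_mem (ω i) (h i)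

end Coord

section Main

variable {Z O T : Type*} [CommRing Z] [IsDomain Z] [CommRing O] [IsDomain O]
  [IsPrincipalIdealRing O] [Algebra Z O]
  [AddCommGroup T] [Module Z T] [Module.Free Z T] [Module.Finite Z T]
  {ι : Type*} [Fintype ι] [DecidableEq ι]

/-- Powers of an endomorphism preserve divisibility by `p ^ k`. -/
lemma pow_succ_apply_of_dvd (a : T →ₗ[Z] T) (p : Z) (k : ℕ) {n : ℕ} {x : T}
    (h : ∃ v : T, (a ^ n) x = p ^ k • v) (m : ℕ) : ∃ v : T, (a ^ (n + m)) x = p ^ k • v := by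
  obtain ⟨v, hv⟩ := h
  refine ⟨(a ^ m) v, ?_⟩
  rw [add_comm, pow_add, Module.End.mul_apply, hv, map_smul]

/-- **(TP-const), step 2(b).** No common kernel on the Eisenstein part `T_E ≤ T`, from the
eigenlattices of `O ⊗ T`. -/
theorem common_kernel_trivial (ω : Module.Basis ι Z O) (p : Z) (hp : p ≠ 0)
    (hinj : Function.Injective (algebraMap Z O))
    (hO : ∀ c : O, ¬ IsUnit c → ∀ k : ℕ, ∃ (n : ℕ) (d : O), c ^ n = algebraMap Z O p ^ k * d)
    (hsepT : ∀ v : T, (∀ k : ℕ, ∃ u : T, v = p ^ k • u) → v = 0)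
    (sτ sφ : T →ₗ[Z] T) (cτ cφ : Z) (hcτ0 : cτ ≠ 0) (hcφ0 : cφ ≠ 0)
    (j0 : ℕ) (u : Z) (hu : IsUnit u) (hc1 : cτ - 1 = p ^ j0 * u)
    {κ : Type*} (t : κ → T →ₗ[Z] T) (hcomm : ∀ i j, Commute (t i) (t j))
    (hcτ : ∀ i, Commute (t i) sτ) (hcφ : ∀ i, Commute (t i) sφ)
    (E : κ → Prop) (e : κ → Z) (T_E : Submodule Z T)
    (hTE : ∀ x : T, x ∈ T_E ↔
      ∀ (i : κ), E i → ∀ (k : ℕ),
        ∃ (n : ℕ) (v : T), ((t i - e i • (1 : Module.End Z T)) ^ n) x = p ^ k • v)
    (T0 : ℕ → Submodule Z T)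
    (hdesc : ∀ (k : ℕ) (z : T), p • z ∈ T0 (k + 1) → z ∈ T0 k)
    (hQ5b : ∀ (k : ℕ), ∀ z ∈ T_E, sτ z - z ∈ T0 k)
    (hQ5a : ∀ (k : ℕ), ∀ z ∈ T0 k, ∃ v : T, sτ z - cτ • z = p ^ k • v)
    (e0 : ℕ) (hfix : ∀ (k : ℕ), ∀ y ∈ T_E, sφ y - y ∈ T0 k → p ^ e0 • y ∈ T0 k)
    (rts : κ → Finset O) (n : κ → ℕ)
    (hsplit : ∀ i, Polynomial.aeval ((t i).baseChange O)
      (∏ a ∈ rts i, (Polynomial.X - Polynomial.C a) ^ n i) = 0)
    (hdet : ∀ (χ : κ → O)
      (hτs : ∀ x ∈ eigenLat (fun i => (t i).baseChange O) χ,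
        sτ.baseChange O x ∈ eigenLat (fun i => (t i).baseChange O) χ)
      (hφs : ∀ x ∈ eigenLat (fun i => (t i).baseChange O) χ,
        sφ.baseChange O x ∈ eigenLat (fun i => (t i).baseChange O) χ),
      eigenLat (fun i => (t i).baseChange O) χ ≠ ⊥ →
      ∃ _b : Module.Basis (Fin 2) O ↥(eigenLat (fun i => (t i).baseChange O) χ),
        LinearMap.det ((sτ.baseChange O).restrict hτs) = algebraMap Z O cτ ∧
        LinearMap.det ((sφ.baseChange O).restrict hφs) = algebraMap Z O cφ) :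
    ∀ x ∈ T_E, sτ x = cτ • x → sφ x = cφ • x → x = 0 := by
  classical
  intro x hxE hτx hφx
  by_contra hx0
  -- notation
  set Sτ : Module.End O (O ⊗[Z] T) := sτ.baseChange O with hSτ
  set Sφ : Module.End O (O ⊗[Z] T) := sφ.baseChange O with hSφ
  let tO : κ → Module.End O (O ⊗[Z] T) := fun i => (t i).baseChange O
  set c' : O := algebraMap Z O cτ with hc'
  set cφ' : O := algebraMap Z O cφ with hcφ'
  set p' : O := algebraMap Z O p with hp'def
  let a : κ → Module.End Z T := fun i => t i - e i • (1 : Module.End Z T)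
  let Lam' : Submodule O (O ⊗[Z] T) := T_E.baseChange O
  -- `T_E` is stable under everything commuting with the `t i`
  have hcomm_a : ∀ (i : κ) (s : T →ₗ[Z] T), Commute (t i) s → ∀ (m : ℕ) (z : T),
      (a i ^ m) (s z) = s ((a i ^ m) z) := by
    intro i s hs m z
    have h1 : Commute (a i) s := by
      show Commute (t i - e i • (1 : Module.End Z T)) s
      exact (hs.sub_left ((Commute.one_left s).smul_left (e i)))
    exact DFunLike.congr_fun (h1.pow_left m).eq z
  have hTEstab : ∀ (s : T →ₗ[Z] T), (∀ i, Commute (t i) s) → ∀ z ∈ T_E, s z ∈ T_E := by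
    intro s hs z hz
    rw [hTE] at hz ⊢
    intro i hi k
    obtain ⟨m, v, hv⟩ := hz i hi k
    exact ⟨m, s v, by rw [hcomm_a i s (hs i), hv, map_smul]⟩
  have hmemLam' : ∀ z, z ∈ Lam' ↔ ∀ i, crd ω z i ∈ T_E := fun z => mem_baseChange_iff ω T_E z
  -- the common kernel upstairs, inside the Eisenstein part
  let K : Submodule O (O ⊗[Z] T) :=
    (LinearMap.ker (Sτ - c' • (1 : Module.End O (O ⊗[Z] T))) ⊓
      LinearMap.ker (Sφ - cφ' • (1 : Module.End O (O ⊗[Z] T)))) ⊓ Lam'
  have hmemK : ∀ z, z ∈ K ↔ (Sτ z = c' • z ∧ Sφ z = cφ' • z) ∧ z ∈ Lam' := by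
    intro z
    show z ∈ (LinearMap.ker _ ⊓ LinearMap.ker _) ⊓ Lam' ↔ _
    rw [Submodule.mem_inf, Submodule.mem_inf, LinearMap.mem_ker, LinearMap.mem_ker,
      LinearMap.sub_apply, LinearMap.sub_apply, LinearMap.smul_apply, LinearMap.smul_apply,
      Module.End.one_apply, sub_eq_zero, sub_eq_zero]
  have hcommO : ∀ (i : κ) (s : T →ₗ[Z] T), Commute (t i) s →
      ∀ z, tO i (s.baseChange O z) = s.baseChange O (tO i z) := by
    intro i s hs z
    have h1 : (t i).baseChange O * s.baseChange O = s.baseChange O * (t i).baseChange O := by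
      rw [← LinearMap.baseChange_mul, ← LinearMap.baseChange_mul, hs.eq]
    exact DFunLike.congr_fun h1 z
  have hKstab : ∀ i, ∀ z ∈ K, tO i z ∈ K := by
    intro i z hz
    rw [hmemK] at hz ⊢
    refine ⟨⟨?_, ?_⟩, ?_⟩
    · rw [← hcommO i sτ (hcτ i) z, hz.1.1, map_smul]
    · rw [← hcommO i sφ (hcφ i) z, hz.1.2, map_smul]
    · rw [hmemLam'] at hz ⊢
      intro l
      show crd ω ((t i).baseChange O z) l ∈ T_E
      rw [crd_baseChange]
      exact hTEstab (t i) (fun i' => hcomm i' i) _ (hz.2 l)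
  -- `1 ⊗ x` is a non-zero element of `K`
  have hx1K : (1 : O) ⊗ₜ[Z] x ∈ K := by
    rw [hmemK]
    refine ⟨⟨?_, ?_⟩, Submodule.tmul_mem_baseChange_of_mem 1 hxE⟩
    · show sτ.baseChange O _ = _
      rw [LinearMap.baseChange_tmul, hτx, tmul_smul, ← algebraMap_smul O cτ ((1 : O) ⊗ₜ[Z] x)]
    · show sφ.baseChange O _ = _
      rw [LinearMap.baseChange_tmul, hφx, tmul_smul, ← algebraMap_smul O cφ ((1 : O) ⊗ₜ[Z] x)]
  have hx1 : (1 : O) ⊗ₜ[Z] x ≠ 0 := by
    intro h0
    have hrepr : ω.repr (1 : O) ≠ 0 := by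
      intro h
      exact one_ne_zero (ω.repr.injective (by rw [h, map_zero]))
    obtain ⟨i, hi⟩ := Finsupp.ne_iff.1 hrepr
    rw [Finsupp.zero_apply] at hi
    have h1 : crd ω ((1 : O) ⊗ₜ[Z] x) i = 0 := by rw [h0, crd_zero]
    rw [crd_tmul] at h1
    exact hx0 ((smul_eq_zero.1 h1).resolve_left hi)
  have hK0 : K ≠ ⊥ := fun h => hx1 ((Submodule.eq_bot_iff K).1 h _ hx1K)
  have hcommtO : ∀ i j, Commute (tO i) (tO j) := by
    intro i j
    show (t i).baseChange O * (t j).baseChange O = (t j).baseChange O * (t i).baseChange O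
    rw [← LinearMap.baseChange_mul, ← LinearMap.baseChange_mul, (hcomm i j).eq]
  obtain ⟨χ, x', hx'K, hx'0, hx'χ⟩ :=
    exists_simul_eigen_of_finite tO hcommtO rts n hsplit K hKstab hK0
  have hp' : p' ≠ 0 := fun h => hp (hinj (by rw [map_zero]; exact h))
  have hsep : ∀ v : O ⊗[Z] T, (∀ k : ℕ, ∃ w : O ⊗[Z] T, v = p' ^ k • w) → v = 0 := by
    intro v hv
    refine ext_crd ω fun i => ?_
    rw [crd_zero]
    refine hsepT _ fun k => ?_
    obtain ⟨w, hw⟩ := hv k
    refine ⟨crd ω w i, ?_⟩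
    rw [hw, ← map_pow, crd_algebraMap_smul]
  -- the eigenlattice
  set R : Submodule O (O ⊗[Z] T) := eigenLat tO χ with hR
  -- the operators `a i` upstairs
  have haO : ∀ (i : κ) (m : ℕ) (z : O ⊗[Z] T) (l : ι),
      crd ω ((((t i).baseChange O - algebraMap Z O (e i) • (1 : Module.End O (O ⊗[Z] T))) ^ m) z) l
        = (a i ^ m) (crd ω z l) := by
    intro i m
    induction m with
    | zero => intro z l; rw [pow_zero, pow_zero, Module.End.one_apply, Module.End.one_apply]
    | succ m ih =>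
      intro z l
      rw [pow_succ, pow_succ, Module.End.mul_apply, Module.End.mul_apply, ih]
      congr 1
      rw [LinearMap.sub_apply, LinearMap.smul_apply, Module.End.one_apply, crd_sub,
        crd_baseChange, crd_algebraMap_smul]
      show _ = (t i - e i • (1 : Module.End Z T)) (crd ω z l)
      rw [LinearMap.sub_apply, LinearMap.smul_apply, Module.End.one_apply]
  have haR : ∀ (i : κ) (m : ℕ), ∀ z ∈ R,
      (((t i).baseChange O - algebraMap Z O (e i) • (1 : Module.End O (O ⊗[Z] T))) ^ m) z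
        = (χ i - algebraMap Z O (e i)) ^ m • z := by
    intro i m z hz
    have hz' := (mem_eigenLat.1 hz) i
    induction m with
    | zero => rw [pow_zero, pow_zero, Module.End.one_apply, one_smul]
    | succ m ih =>
      rw [pow_succ', Module.End.mul_apply, ih, map_smul, LinearMap.sub_apply,
        LinearMap.smul_apply, Module.End.one_apply]
      show (χ i - algebraMap Z O (e i)) ^ m • (tO i z - algebraMap Z O (e i) • z) = _
      rw [hz', ← sub_smul, ← mul_smul, ← pow_succ]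
  -- the eigenvalues of the `a i` on `R` are non-units
  have hx'Lam : x' ∈ Lam' := ((hmemK x').1 hx'K).2
  have hnonunit : ∀ i, E i → ¬ IsUnit (χ i - algebraMap Z O (e i)) := by
    intro i hi hunit
    apply hx'0
    refine hsep x' fun k => ?_
    -- a uniform exponent for the coordinates of `x'`
    have hcoord : ∀ l : ι, ∃ (m : ℕ) (v : T), (a i ^ m) (crd ω x' l) = p ^ k • v := fun l =>
      (hTE _).1 ((hmemLam' x').1 hx'Lam l) i hi k
    choose m v hv using hcoord
    let M := Finset.univ.sup m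
    have hM : ∀ l : ι, ∃ v' : T, (a i ^ M) (crd ω x' l) = p ^ k • v' := by
      intro l
      have hle : m l ≤ M := Finset.le_sup (Finset.mem_univ l)
      obtain ⟨v', hv'⟩ := pow_succ_apply_of_dvd (a i) p k ⟨v l, hv l⟩ (M - m l)
      exact ⟨v', by rw [← hv', Nat.add_sub_cancel' hle]⟩
    choose v' hv' using hM
    obtain ⟨w, hw⟩ := exists_crd ω v'
    have h1 : (χ i - algebraMap Z O (e i)) ^ M • x' = p' ^ k • w := by
      rw [← haR i M x' hx'χ]
      refine ext_crd ω fun l => ?_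
      rw [haO, hv' l, ← map_pow, crd_algebraMap_smul, hw l]
    obtain ⟨d, hd⟩ := (hunit.pow M).exists_left_inv
    refine ⟨d • w, ?_⟩
    rw [smul_comm, ← h1, ← mul_smul, hd, one_smul]
  -- hence the whole eigenlattice lies in the Eisenstein part
  have hRLam : ∀ z ∈ R, z ∈ Lam' := by
    intro z hz
    rw [hmemLam']
    intro l
    rw [hTE]
    intro i hi k
    obtain ⟨m, d, hd⟩ := hO _ (hnonunit i hi) k
    obtain ⟨w, hw⟩ := exists_crd ω fun l' => crd ω (d • z) l'
    refine ⟨m, crd ω (d • z) l, ?_⟩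
    show (a i ^ m) (crd ω z l) = _
    rw [← haO, haR i m z hz, hd, mul_smul, ← map_pow, crd_algebraMap_smul]
  have hτs : ∀ z ∈ R, Sτ z ∈ R := by
    intro z hz
    rw [hR, mem_eigenLat] at hz ⊢
    intro i
    rw [hcommO i sτ (hcτ i) z, hz i, map_smul]
  have hφs : ∀ z ∈ R, Sφ z ∈ R := by
    intro z hz
    rw [hR, mem_eigenLat] at hz ⊢
    intro i
    rw [hcommO i sφ (hcφ i) z, hz i, map_smul]
  have hR0 : R ≠ ⊥ := fun h => hx'0 ((Submodule.eq_bot_iff R).1 h _ hx'χ)
  obtain ⟨b, hdτ, hdφ⟩ := hdet χ hτs hφs hR0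
  -- the hypotheses of `no_common_eigenvector` upstairs
  have hc1' : c' - 1 = p' ^ j0 * algebraMap Z O u := by
    rw [hc', hp'def, ← map_one (algebraMap Z O), ← map_sub, hc1, map_mul, map_pow]
  let Lam0 : ℕ → Submodule O (O ⊗[Z] T) := fun k => (T0 k).baseChange O
  have hdesc' : ∀ (k : ℕ) (z : O ⊗[Z] T), p' • z ∈ Lam0 (k + 1) → z ∈ Lam0 k := by
    intro k z hz
    rw [mem_baseChange_iff ω] at hz ⊢
    intro i
    have := hz i
    rw [crd_algebraMap_smul] at this
    exact hdesc k _ this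
  have hQ5b' : ∀ (k : ℕ), ∀ z ∈ Lam', Sτ z - z ∈ Lam0 k := by
    intro k z hz
    rw [mem_baseChange_iff ω]
    intro i
    rw [crd_sub, crd_baseChange]
    exact hQ5b k _ ((hmemLam' z).1 hz i)
  have hQ5a' : ∀ (k : ℕ), ∀ z ∈ Lam0 k, ∃ v : O ⊗[Z] T, Sτ z - c' • z = p' ^ k • v := by
    intro k z hz
    rw [mem_baseChange_iff ω] at hz
    choose v hv using fun i => hQ5a k _ (hz i)
    obtain ⟨w, hw⟩ := exists_crd ω v
    refine ⟨w, ext_crd ω fun i => ?_⟩
    rw [crd_sub, crd_baseChange, crd_algebraMap_smul, ← map_pow, crd_algebraMap_smul, hw i, hv i]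
  have hfix' : ∀ (k : ℕ), ∀ y ∈ Lam', Sφ y - y ∈ Lam0 k → p' ^ e0 • y ∈ Lam0 k := by
    intro k y hyL hy
    rw [mem_baseChange_iff ω] at hy ⊢
    intro i
    have := hy i
    rw [crd_sub, crd_baseChange] at this
    rw [← map_pow, crd_algebraMap_smul]
    exact hfix k _ ((hmemLam' y).1 hyL i) this
  have hc0' : c' ≠ 0 := fun h => hcτ0 (hinj (by rw [map_zero]; exact h))
  have hcφ0' : cφ' ≠ 0 := fun h => hcφ0 (hinj (by rw [map_zero]; exact h))
  have hno := no_common_eigenvector (O := O) (Lam := O ⊗[Z] T) (R := ↥R) b R.subtype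
    (Submodule.subtype_injective R) Sτ Sφ
    (Sτ.restrict hτs) (Sφ.restrict hφs) (fun r => rfl) (fun r => rfl) p' hp' hsep c' cφ' hc0' hcφ0'
    hdτ hdφ j0 (algebraMap Z O u) (hu.map (algebraMap Z O)) hc1' Lam' (fun r => hRLam r.1 r.2) Lam0
    hdesc' hQ5b' hQ5a' e0 hfix'
  refine hno ⟨⟨x', hx'χ⟩, ?_, ?_, ?_⟩
  · intro h
    exact hx'0 (congrArg Subtype.val h)
  · apply Subtype.ext
    exact ((hmemK x').1 hx'K).1.1
  · apply Subtype.ext
    exact ((hmemK x').1 hx'K).1.2

end Main

end Fermat.Agent.S15.Struct.EigenTensor
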