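/-
PROJECT M (S15), block [S], leaf (S-h) = (TP-const), the concrete frame (helper23):
THE FINITE-LEVEL INPUTS OF `EigenTensor.common_kernel_trivial` ON THE TATE MODULE OF `J₀(N)`.

`T = Tp P (JZero N)` (main), `T_E = TeisSub N P S` (helper7), `t r = Tp.mapEnd (heckeEnd N r)` for
ALL primes `r`, `e r = 1 + r`, Eisenstein conditions at the `r ∉ S`.

* `commute_heckeT`   : ALL the `t r` commute on `T` (through main's comparison of `T` with the
                       Eichler-Shimura lattice, where the Hecke operators commute);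
* `mem_TeisSub_iff`  : `x ∈ T_E ↔ ∀ r ∉ S, ∀ k, ∃ n v, (t r - e r) ^ n x = P ^ k v`  [`hTE`];
* `T0 k`             : the elements of `T_E` whose level-`k` component reduces to `0` at the place
                       over `P` (`level k x ∈ G0red`);
* `T0_desc`, `T0_inertia`, `T0_cyc`, `exists_T0_frob`, `sep_T` : `hdesc`, `hQ5b`, `hQ5a`, `hfix`,
                       `hsepT` (helper24 `inertia_Gk`, helper16 `rho_eq_cyc_nsmul` + helper18
                       `flagW_Gk`, helper29 `exists_pow_fixed`).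
-/
import Fermat.Agent.S15.Struct.TateEis
import Fermat.Agent.S15.Struct.EigenRank
import Fermat.Agent.S15.P.Q5a
import Fermat.Agent.S15.P.GkFinal
import Fermat.Agent.S15.P.FrobFixed.Gk

set_option autoImplicit false
set_option synthInstance.maxHeartbeats 400000
set_option linter.unusedSectionVars false

noncomputable section

namespace Fermat.Agent.S15.Struct.TPFrame

open scoped TensorProduct
open AlgebraicCurve ModularCurve
open Fermat.Agent.S56.Coh Fermat.Agent.CFT.LC Fermat.Agent.CFT.Bridge Fermat.Agent.CFT.LocalBridge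
open Fermat.Agent.S15.K.Kummer Fermat.Agent.S15.K.Star Fermat.Agent.S15.K.Ord
open Fermat.Agent.S30.Padic.TateModule Fermat.Agent.S30.Final.Chain
open Fermat.Agent.S30.Algebra
open Fermat.Agent.S15.Struct.TateEis

variable (N : ℕ) [NeZero N] (P : ℕ) [hP : Fact P.Prime] (S : Set ℕ)

/-- The Hecke operator `T_r` (`U_r` for `r ∣ N`) on the Tate module. -/
abbrev heckeT (r : Nat.Primes) : Module.End ℤ_[P] (Tp P (JZero N)) :=
  Tp.mapEnd (p := P) (heckeEnd N r)

/-! ### (A) all the Hecke operators commute on the Tate module -/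

open Fermat.Agent.S30.Eigen.Transfer Fermat.Agent.S30.Hecke.Parabolic
  Fermat.Agent.S30.Eigen.MultOne Fermat.Agent.S30.Eigen.EichlerShimura CongruenceSubgroup in
/-- the Hecke operators of the Eichler-Shimura lattice commute -/
theorem tauPar_comm (r s : Nat.Primes) :
    tauPar ℤ ℤ N r r.2 * tauPar ℤ ℤ N s s.2 = tauPar ℤ ℤ N s s.2 * tauPar ℤ ℤ N r r.2 := by
  haveI : FiniteDimensional ℂ (CuspForm (Gamma0 N) 2) :=
    Fermat.Agent.S23.FinDim.finiteDimensional_cuspForm N 2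
  have h := gen_commute (τ := fun r : Nat.Primes => tauPar ℤ ℤ N r r.2) (T := Tr N 2)
    (e := latticeEquiv N) (Fermat.Agent.S30.Eigen.H4Final.latticeEquiv_tauPar N) (Tr_comm N 2) r s
  exact congrArg Prod.fst h

/-- **all the Hecke operators commute on `Tp P (JZero N)`** -/
theorem commute_heckeT (r s : Nat.Primes) : Commute (heckeT N P r) (heckeT N P s) := by
  obtain ⟨e, H3⟩ := Fermat.Agent.S15.Struct.EigenRank.exists_compare N P
  refine LinearMap.ext fun x => e.injective ?_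
  have h1 : ∀ r s : Nat.Primes, e ((heckeT N P r * heckeT N P s) x) =
      ((Fermat.Agent.S30.Hecke.Parabolic.tauPar ℤ ℤ N r r.2 *
        Fermat.Agent.S30.Hecke.Parabolic.tauPar ℤ ℤ N s s.2).baseChange ℤ_[P]) (e x) := by
    intro r s
    rw [Module.End.mul_apply, H3, H3, LinearMap.baseChange_mul, Module.End.mul_apply]
  rw [h1 r s, h1 s r, tauPar_comm N r s]

/-! ### (B) the Eisenstein part by topological nilpotence -/

/-- the Eisenstein operator `a_r = T_r - (1 + r)` of `JZero N` -/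
abbrev eisOp (r : Nat.Primes) : Module.End ℤ (JZero N) :=
  heckeOperatorBar N r - ((1 + (r : ℕ) : ℕ) : ℤ) • 1

/-- the Eisenstein operator on the Tate module -/
abbrev eisT (r : Nat.Primes) : Module.End ℤ_[P] (Tp P (JZero N)) :=
  heckeT N P r - ((1 + (r : ℕ) : ℕ) : ℤ_[P]) • (1 : Module.End ℤ_[P] (Tp P (JZero N)))

lemma eisT_apply (r : Nat.Primes) (x : Tp P (JZero N)) (k : ℕ) :
    (eisT N P r x).1 k = eisOp N r (x.1 k) := by
  show (heckeT N P r x - ((1 + (r : ℕ) : ℕ) : ℤ_[P]) • x).1 k = _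
  rw [Tp.coe_sub_apply, Tp.coe_natCast_smul_apply, Tp.coe_mapEnd_apply, heckeEnd_apply,
    eisOps_apply N rfl]

lemma eisT_pow_apply (r : Nat.Primes) (n : ℕ) (x : Tp P (JZero N)) (k : ℕ) :
    ((eisT N P r ^ n) x).1 k = (eisOp N r ^ n) (x.1 k) := by
  induction n generalizing x with
  | zero => rfl
  | succ n ih =>
    rw [pow_succ, pow_succ, Module.End.mul_apply, Module.End.mul_apply, ih, eisT_apply]

/-- **`hTE`**: the Tate module of the Eisenstein part is the part of the Tate module on which the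
`T_r - (1 + r)`, `r ∉ S`, are topologically nilpotent. -/
theorem mem_TeisSub_iff (x : Tp P (JZero N)) :
    x ∈ TeisSub N P S ↔ ∀ r : Nat.Primes, (r : ℕ) ∉ S → ∀ k : ℕ,
      ∃ (n : ℕ) (v : Tp P (JZero N)), (eisT N P r ^ n) x = (P : ℤ_[P]) ^ k • v := by
  constructor
  · intro hx r hr k
    obtain ⟨n, hn⟩ := hx k (eisOp N r) ⟨r, hr, rfl⟩
    refine ⟨n, Tp.exists_eq_pow_smul _ k ?_⟩
    rw [eisT_pow_apply, hn]
  · rintro h k a ⟨r, hr, rfl⟩
    obtain ⟨n, v, hv⟩ := h r hr k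
    refine ⟨n, ?_⟩
    have h1 := eisT_pow_apply N P r n x k
    rw [hv, Tp.pow_smul_apply_self] at h1
    exact h1.symm

/-! ### (C) the connected part at level `k` -/

/-- the elements of the Eisenstein part whose level-`k` component lies in the kernel of the
reduction at the fixed place over `P` -/
def T0 (k : ℕ) : Submodule ℤ_[P] (Tp P (JZero N)) where
  carrier := {x | x ∈ TeisSub N P S ∧ reductionModL (padicPlace P) N (x.1 k) = 0}
  zero_mem' := ⟨(TeisSub N P S).zero_mem, map_zero _⟩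
  add_mem' := fun {x y} hx hy => ⟨(TeisSub N P S).add_mem hx.1 hy.1, by
    rw [Tp.coe_add_apply, map_add, hx.2, hy.2, add_zero]⟩
  smul_mem' := fun c x hx => ⟨(TeisSub N P S).smul_mem c hx.1, by
    rw [Tp.coe_smul_apply, map_nsmul, hx.2, smul_zero]⟩

lemma mem_T0 {k : ℕ} {x : Tp P (JZero N)} :
    x ∈ T0 N P S k ↔ x ∈ TeisSub N P S ∧ reductionModL (padicPlace P) N (x.1 k) = 0 := Iff.rfl

lemma mem_T0_iff_level {k : ℕ} (x : ↥(TeisSub N P S)) :
    (x : Tp P (JZero N)) ∈ T0 N P S k ↔ level N P S k x ∈ G0red N P k S :=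
  ⟨fun h => h.2, fun h => ⟨x.2, h⟩⟩

/-- **`hsepT`** -/
theorem sep_T (v : Tp P (JZero N))
    (h : ∀ k : ℕ, ∃ u : Tp P (JZero N), v = (P : ℤ_[P]) ^ k • u) : v = 0 := by
  refine Tp.ext fun k => ?_
  obtain ⟨u, hu⟩ := h k
  rw [hu, Tp.pow_smul_apply_self, Tp.coe_zero_apply]

/-- **`hdesc`** -/
theorem T0_desc (k : ℕ) (z : Tp P (JZero N)) (h : (P : ℤ_[P]) • z ∈ T0 N P S (k + 1)) :
    z ∈ T0 N P S k := by
  refine ⟨saturated N P S h.1, ?_⟩
  have h2 := h.2
  rwa [Tp.coe_natCast_smul_apply, Tp.smul_apply_succ] at h2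

variable {N P S}

/-- **`hQ5b`**: inertia at `P` moves the Eisenstein part into the connected part. -/
theorem T0_inertia (hPN : ¬ P ∣ N) (τ : GQ) (hτ : τ ∈ Iq P) (k : ℕ) (z : Tp P (JZero N))
    (hz : z ∈ TeisSub N P S) : Tp.galoisHom (p := P) GQ τ z - z ∈ T0 N P S k := by
  refine ⟨(TeisSub N P S).sub_mem (galois_mem N P S τ hz) hz, ?_⟩
  have h := inertia_Gk hPN τ hτ (level N P S k ⟨z, hz⟩)
  rw [mem_G0red_iff, map_sub, incl_ρ] at h
  exact h

/-- **`hQ5a`**: inertia at `P` acts on the connected part through the cyclotomic character. -/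
theorem T0_cyc (hPN : ¬ P ∣ N) (hSfin : S.Finite)
    (hS : ∀ r : Nat.Primes, (r : ℕ) ∉ S → ¬ (r : ℕ) ∣ N ∧ (r : ℕ) ≠ P)
    (τ : GQ) (hτ : τ ∈ Iq P) (k : ℕ) (z : Tp P (JZero N)) (hz : z ∈ T0 N P S k) :
    ∃ v : Tp P (JZero N), Tp.galoisHom (p := P) GQ τ z -
      ((Cyclotomic.cyc P τ : ℤ_[P]ˣ) : ℤ_[P]) • z = (P : ℤ_[P]) ^ k • v := by
  apply Tp.exists_eq_pow_smul
  have h := Fermat.Agent.S15.P.Q5a.rho_eq_cyc_nsmul hPN
    (Fermat.Agent.S15.P.GkFinal.flagW_Gk (k := k) hSfin hS) τ hτ (level N P S k ⟨z, hz.1⟩) hz.2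
  have h2 : τ • z.1 k =
      ((((Cyclotomic.cyc P τ : ℤ_[P]ˣ) : ℤ_[P]).toZModPow k).val : ℕ) • z.1 k :=
    (congrArg (incl N P k S) h).trans (map_nsmul (incl N P k S) _ _)
  rw [Tp.coe_sub_apply, Tp.coe_galoisHom_apply, Tp.coe_smul_apply, sub_eq_zero]
  refine h2.trans ?_
  exact (nsmul_congr (val_toZModPow_modEq P k _) (Tp.pow_smul_apply z k)).symm

/-- **`hfix`**: one exponent `e0` such that the Frobenius-fixed points of the étale quotient are
killed by `P ^ e0` at every level. -/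
theorem exists_T0_frob (hPN : ¬ P ∣ N) : ∃ e0 : ℕ, ∀ (φ : GQ),
    (padicPlace P).IsFrobeniusAt φ P → ∀ (S : Set ℕ) (k : ℕ), ∀ y ∈ TeisSub N P S,
      Tp.galoisHom (p := P) GQ φ y - y ∈ T0 N P S k → (P : ℤ_[P]) ^ e0 • y ∈ T0 N P S k := by
  obtain ⟨e0, h0⟩ := Fermat.Agent.S15.P.FrobFixed.Gk.exists_pow_fixed (N := N) (P := P) hPN
  refine ⟨e0, fun φ hφ S k y hy h => ⟨(TeisSub N P S).smul_mem _ hy, ?_⟩⟩
  have h1 : (Gk N P k S).ρ φ (level N P S k ⟨y, hy⟩) - level N P S k ⟨y, hy⟩ ∈ G0red N P k S := by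
    rw [mem_G0red_iff, map_sub, incl_ρ]
    exact h.2
  have h2 := h0 k S φ hφ _ h1
  rw [mem_G0red_iff, map_nsmul] at h2
  rw [Tp.coe_pow_smul_apply]
  exact h2

end Fermat.Agent.S15.Struct.TPFrame

end
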