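/-
PROJECT M (S15), block [S], leaf (S-h) = (TP-const), THE INSTANTIATION (helper23):
THE CONSTANT OF (T-P) IS BOUNDED INDEPENDENTLY OF THE LEVEL.

For `P ∤ N`, `S` a finite set of primes containing the primes dividing `N` and `P`, and `O` a
complete discrete valuation ring, finite free over `ℤ_[P]`, over which the characteristic
polynomials of ALL the Hecke operators of the Tate module `Tp P (JZero N)` split (the output of
(SPLIT)):

  `∃ CP, ∀ k, |Ch (Gk N P k S) ⧸ chNull P (Gk N P k S) (G0red N P k S)| ≤ CP`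

= the hypothesis `hCP` of `D/ToStar.seamStar_of_descent`.

Chain: `TPFrame` (finite-level inputs: helper24 `inertia_Gk`, helper16 `(Q5a)`, helper18 `flagW_Gk`,
helper29 `exists_pow_fixed`, helper7 `TeisSub`/`level`) + rank two of the eigenlattices (helper10
`EigenRank`) + `det = cyc` on them (helper11 `DetCyc.det_rhoEigen`) + an inertia element with
non-trivial cyclotomic character (helper10 `DetNe`) + a Frobenius element (main) feed
`EigenTensor.common_kernel_trivial`; its conclusion is the hypothesis `hker` of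
`CoinvBound.exists_card_coinv_le`, applied to `π := level n`.
-/
import Fermat.Agent.S15.Struct.TPFrame
import Fermat.Agent.S15.Struct.EigenTensor
import Fermat.Agent.S15.Struct.CoinvBound
import Fermat.Agent.S15.Struct.DetNe
import Fermat.Agent.S15.G.DetCyc
import Fermat.Agent.S15.G.HeckeComm

set_option autoImplicit false
set_option synthInstance.maxHeartbeats 400000
set_option linter.unusedSectionVars false

noncomputable section

namespace Fermat.Agent.S15.Struct.TPConst

open scoped TensorProduct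
open AlgebraicCurve ModularCurve IsLocalRing
open Fermat.Agent.S56.Coh Fermat.Agent.CFT.LC Fermat.Agent.CFT.Bridge Fermat.Agent.CFT.LocalBridge
open Fermat.Agent.S15.K.Kummer Fermat.Agent.S15.K.Star Fermat.Agent.S15.K.Ord
open Fermat.Agent.S30.Padic Fermat.Agent.S30.Padic.TateModule Fermat.Agent.S30.Final.Chain
open Fermat.Agent.S30.Algebra
open Fermat.Agent.S15.D Fermat.Agent.S15.D.Greenberg
open Fermat.Agent.S15.Struct.TateEis Fermat.Agent.S15.Struct.TPFrame
open Fermat.Agent.S15.Struct.SimulEigen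

/-! ### Non-units of a discrete valuation ring are topologically nilpotent -/

/-- **`hO`**: in a local principal ideal domain, a power of any non-unit is divisible by any given
power of a non-zero element. -/
theorem exists_pow_eq_mul {O : Type*} [CommRing O] [IsDomain O] [IsPrincipalIdealRing O]
    [IsLocalRing O] (p : O) (hp0 : p ≠ 0) (hpm : p ∈ maximalIdeal O) (c : O) (hc : ¬ IsUnit c)
    (k : ℕ) : ∃ (n : ℕ) (d : O), c ^ n = p ^ k * d := by
  have : IsDiscreteValuationRing O :=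
    { not_a_field' := fun h => hp0 (by rw [h] at hpm; exact hpm) }
  obtain ⟨ϖ, hϖ⟩ := IsDiscreteValuationRing.exists_irreducible O
  obtain ⟨e, u, hu⟩ := IsDiscreteValuationRing.associated_pow_irreducible hp0 hϖ
  -- `hu : p * u = ϖ ^ e`
  have hcm : c ∈ maximalIdeal O := (IsLocalRing.mem_maximalIdeal c).2 hc
  rw [hϖ.maximalIdeal_eq, Ideal.mem_span_singleton] at hcm
  obtain ⟨c', rfl⟩ := hcm
  refine ⟨e * k, (u : O) ^ k * c' ^ (e * k), ?_⟩
  rw [mul_pow, pow_mul, ← hu, mul_pow]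
  ring

/-- a `P`-adic unit different from `1` is `1 + P ^ j0 * unit` -/
theorem exists_sub_one_eq {P : ℕ} [Fact P.Prime] (c : ℤ_[P]ˣ) (hc : c ≠ 1) :
    ∃ (j0 : ℕ) (u : ℤ_[P]), IsUnit u ∧ (c : ℤ_[P]) - 1 = (P : ℤ_[P]) ^ j0 * u := by
  have hne : (c : ℤ_[P]) - 1 ≠ 0 := fun h =>
    hc (Units.ext ((sub_eq_zero.1 h).trans Units.val_one.symm))
  exact ⟨((c : ℤ_[P]) - 1).valuation, ((PadicInt.unitCoeff hne : ℤ_[P]ˣ) : ℤ_[P]), Units.isUnit _,
    (PadicInt.unitCoeff_spec hne).trans (mul_comm _ _)⟩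

variable {N : ℕ} [NeZero N] {P : ℕ} [hP : Fact P.Prime] {S : Set ℕ}

/-! ### The determinant on the eigenlattices -/

section Det

variable {O : Type} [CommRing O] [IsDomain O] [IsPrincipalIdealRing O] [IsLocalRing O] [CharZero O]
  [Algebra ℤ_[P] O] [IsAdicComplete (maximalIdeal O) O]

/-- **`hdet`**: every simultaneous eigenlattice of `O ⊗ Tp P (JZero N)` which occurs is free of
rank two, and the Galois group acts on it with determinant the cyclotomic character. -/
theorem exists_basis_det (hPO : (P : O) ∈ maximalIdeal O) (χ : Nat.Primes → O)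
    (hne : eigenLat (fun r : Nat.Primes => (heckeT N P r).baseChange O) χ ≠ ⊥) :
    ∃ _b : Module.Basis (Fin 2) O
        ↥(eigenLat (fun r : Nat.Primes => (heckeT N P r).baseChange O) χ),
      ∀ (σ : GQ) (hσ : ∀ x ∈ eigenLat (fun r : Nat.Primes => (heckeT N P r).baseChange O) χ,
        (Tp.galoisHom (p := P) GQ σ).baseChange O x ∈
          eigenLat (fun r : Nat.Primes => (heckeT N P r).baseChange O) χ),
        LinearMap.det (((Tp.galoisHom (p := P) GQ σ).baseChange O).restrict hσ) =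
          algebraMap ℤ_[P] O ((Cyclotomic.cyc P σ : ℤ_[P]ˣ) : ℤ_[P]) := by
  have h2 : Module.finrank O (Fermat.Agent.S15.Struct.EigenRank.lat N P χ) = 2 :=
    Fermat.Agent.S15.Struct.EigenRank.finrank_eigenLattice_eq_two N P χ hne
  have hdet := Fermat.Agent.S15.G.DetCyc.det_rhoEigen N P O hPO (algebraMap ℤ_[P] O) χ h2
  refine ⟨Module.finBasisOfFinrankEq O (Fermat.Agent.S15.G.DetCyc.rhoEigen N P O hPO χ h2).V
    (Fermat.Agent.S15.G.DetCyc.rhoEigen N P O hPO χ h2).finrank_eq, fun σ hσ => ?_⟩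
  have h3 : ((Tp.galoisHom (p := P) GQ σ).baseChange O).restrict hσ =
      (Fermat.Agent.S15.G.DetCyc.rhoEigen N P O hPO χ h2).ρ σ :=
    LinearMap.ext fun v => Subtype.ext rfl
  exact (congrArg (fun f => LinearMap.det f) h3).trans (hdet σ)

end Det

/-! ### No common kernel on the Tate module of the Eisenstein part -/

section Ker

variable {O : Type} [CommRing O] [IsDomain O] [IsPrincipalIdealRing O] [IsLocalRing O] [CharZero O]
  [Algebra ℤ_[P] O] [IsAdicComplete (maximalIdeal O) O] [Module.Finite ℤ_[P] O]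
  [Module.Free ℤ_[P] O]

/-- **(TP-const), the lattice statement**: no non-zero element of the Tate module of the
Eisenstein part is an eigenvector, with the cyclotomic eigenvalues, of both an inertia element
`τ` at `P` with `cyc τ ≠ 1` and a Frobenius element `φ` at `P`. -/
theorem common_kernel_TeisSub (hPN : ¬ P ∣ N) (hSfin : S.Finite)
    (hS : ∀ r : Nat.Primes, (r : ℕ) ∉ S → ¬ (r : ℕ) ∣ N ∧ (r : ℕ) ≠ P)
    (hPO : (P : O) ∈ maximalIdeal O)
    (hsplit : ∀ r : Nat.Primes, ∃ s : Multiset O, Polynomial.aeval ((heckeT N P r).baseChange O)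
      ((s.map fun a => Polynomial.X - Polynomial.C a).prod) = 0)
    (τ φ : GQ) (hτ : τ ∈ Iq P) (hτ1 : Cyclotomic.cyc P τ ≠ 1)
    (hφ : (padicPlace P).IsFrobeniusAt φ P) :
    ∀ x : ↥(TeisSub N P S),
      rhoT N P S τ x = ((Cyclotomic.cyc P τ : ℤ_[P]ˣ) : ℤ_[P]) • x →
      rhoT N P S φ x = ((Cyclotomic.cyc P φ : ℤ_[P]ˣ) : ℤ_[P]) • x → x = 0 := by
  classical
  have hPprime : P.Prime := hP.out
  haveI hTfin : Module.Finite ℤ_[P] (Tp P (JZero N)) := finite_Tp N P
  haveI hTfree : Module.Free ℤ_[P] (Tp P (JZero N)) :=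
    Tp.free_of_finite (Fermat.Agent.S30.Descent.PhiDictThm.finite_torsion N hPprime.ne_zero)
  have hex := exists_T0_frob (N := N) (P := P) hPN
  -- the constants
  have hcτ0 : ((Cyclotomic.cyc P τ : ℤ_[P]ˣ) : ℤ_[P]) ≠ 0 := (Cyclotomic.cyc P τ).ne_zero
  have hcφ0 : ((Cyclotomic.cyc P φ : ℤ_[P]ˣ) : ℤ_[P]) ≠ 0 := (Cyclotomic.cyc P φ).ne_zero
  have hcc := exists_sub_one_eq (Cyclotomic.cyc P τ) hτ1
  have hP0 : (P : ℤ_[P]) ≠ 0 := Nat.cast_ne_zero.2 hPprime.ne_zero
  have hinj : Function.Injective (algebraMap ℤ_[P] O) := FaithfulSMul.algebraMap_injective ℤ_[P] O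
  have hPO' : algebraMap ℤ_[P] O (P : ℤ_[P]) = (P : O) := map_natCast _ _
  have hPO0 : (P : O) ≠ 0 := Nat.cast_ne_zero.2 hPprime.ne_zero
  -- the split polynomials in the form of `SimulEigen`
  choose s hs using hsplit
  have hO : ∀ c : O, ¬ IsUnit c → ∀ k : ℕ, ∃ (n : ℕ) (d : O),
      c ^ n = algebraMap ℤ_[P] O (P : ℤ_[P]) ^ k * d := by
    intro c hc k
    obtain ⟨n, d, hd⟩ := exists_pow_eq_mul (P : O) hPO0 hPO c hc k
    exact ⟨n, d, hd.trans (congrArg (fun z : O => z ^ k * d) hPO'.symm)⟩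
  have hcommτ : ∀ r : Nat.Primes, Commute (heckeT N P r) (Tp.galoisHom (p := P) GQ τ) :=
    fun r => (Tp.commute_galoisHom_mapEnd τ (heckeEnd N r)
      (fun y => Fermat.Agent.S30.Arith.HeckeGalois.heckeOperatorBar_smul N r τ y)).symm
  have hcommφ : ∀ r : Nat.Primes, Commute (heckeT N P r) (Tp.galoisHom (p := P) GQ φ) :=
    fun r => (Tp.commute_galoisHom_mapEnd φ (heckeEnd N r)
      (fun y => Fermat.Agent.S30.Arith.HeckeGalois.heckeOperatorBar_smul N r φ y)).symm
  have hsplit' : ∀ r : Nat.Primes, Polynomial.aeval ((heckeT N P r).baseChange O)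
      (∏ a ∈ (s r).toFinset, (Polynomial.X - Polynomial.C a) ^ Multiset.card (s r)) = 0 :=
    fun r => aeval_finset_of_multiset _ (s r) (hs r)
  have hdet : ∀ (χ : Nat.Primes → O)
      (hτs : ∀ x ∈ eigenLat (fun r : Nat.Primes => (heckeT N P r).baseChange O) χ,
        (Tp.galoisHom (p := P) GQ τ).baseChange O x ∈
          eigenLat (fun r : Nat.Primes => (heckeT N P r).baseChange O) χ)
      (hφs : ∀ x ∈ eigenLat (fun r : Nat.Primes => (heckeT N P r).baseChange O) χ,
        (Tp.galoisHom (p := P) GQ φ).baseChange O x ∈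
          eigenLat (fun r : Nat.Primes => (heckeT N P r).baseChange O) χ),
      eigenLat (fun r : Nat.Primes => (heckeT N P r).baseChange O) χ ≠ ⊥ →
      ∃ _b : Module.Basis (Fin 2) O
          ↥(eigenLat (fun r : Nat.Primes => (heckeT N P r).baseChange O) χ),
        LinearMap.det (((Tp.galoisHom (p := P) GQ τ).baseChange O).restrict hτs) =
          algebraMap ℤ_[P] O ((Cyclotomic.cyc P τ : ℤ_[P]ˣ) : ℤ_[P]) ∧
        LinearMap.det (((Tp.galoisHom (p := P) GQ φ).baseChange O).restrict hφs) =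
          algebraMap ℤ_[P] O ((Cyclotomic.cyc P φ : ℤ_[P]ˣ) : ℤ_[P]) := by
    intro χ hτs hφs hne
    have h := exists_basis_det (N := N) (P := P) hPO χ hne
    exact ⟨h.choose, h.choose_spec τ hτs, h.choose_spec φ hφs⟩
  -- the abstract theorem
  have key := EigenTensor.common_kernel_trivial (Z := ℤ_[P]) (O := O) (T := Tp P (JZero N))
    (Module.Free.chooseBasis ℤ_[P] O) (P : ℤ_[P]) hP0 hinj hO (sep_T N P)
    (Tp.galoisHom (p := P) GQ τ) (Tp.galoisHom (p := P) GQ φ)
    ((Cyclotomic.cyc P τ : ℤ_[P]ˣ) : ℤ_[P]) ((Cyclotomic.cyc P φ : ℤ_[P]ˣ) : ℤ_[P]) hcτ0 hcφ0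
    hcc.choose hcc.choose_spec.choose hcc.choose_spec.choose_spec.1
    hcc.choose_spec.choose_spec.2
    (fun r : Nat.Primes => heckeT N P r) (commute_heckeT N P) hcommτ hcommφ
    (fun r : Nat.Primes => (r : ℕ) ∉ S) (fun r : Nat.Primes => ((1 + (r : ℕ) : ℕ) : ℤ_[P]))
    (TeisSub N P S) (mem_TeisSub_iff N P S) (T0 N P S) (T0_desc N P S)
    (fun k z hz => T0_inertia hPN τ hτ k z hz)
    (fun k z hz => T0_cyc hPN hSfin hS τ hτ k z hz) hex.choose
    (fun k y hy h => hex.choose_spec φ hφ S k y hy h)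
    (fun r => (s r).toFinset) (fun r => Multiset.card (s r)) hsplit' hdet
  intro x hxτ hxφ
  have h0 := key (x : Tp P (JZero N)) x.2 (congrArg Subtype.val hxτ) (congrArg Subtype.val hxφ)
  exact Subtype.ext h0

end Ker

/-! ### The uniform bound -/

section Bound

variable {O : Type} [CommRing O] [IsDomain O] [IsPrincipalIdealRing O] [IsLocalRing O] [CharZero O]
  [Algebra ℤ_[P] O] [IsAdicComplete (maximalIdeal O) O] [Module.Finite ℤ_[P] O]
  [Module.Free ℤ_[P] O]

/-- **(TP-const)**: the constant of (T-P) is bounded independently of the level. -/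
theorem exists_card_coinv_Gk_le (hPN : ¬ P ∣ N) (hSfin : S.Finite)
    (hS : ∀ r : Nat.Primes, (r : ℕ) ∉ S → ¬ (r : ℕ) ∣ N ∧ (r : ℕ) ≠ P)
    (hPO : (P : O) ∈ maximalIdeal O)
    (hsplit : ∀ r : Nat.Primes, ∃ s : Multiset O, Polynomial.aeval ((heckeT N P r).baseChange O)
      ((s.map fun a => Polynomial.X - Polynomial.C a).prod) = 0) :
    ∃ CP : ℕ, ∀ k : ℕ,
      Nat.card (Ch (Gk N P k S) ⧸ chNull P (Gk N P k S) (G0red N P k S)) ≤ CP := by
  have hPprime : P.Prime := hP.out
  obtain ⟨τ, hτ, hτ1⟩ := Fermat.Agent.S15.Struct.DetNe.exists_mem_Iq_cyc_ne_one P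
  obtain ⟨φ, hφ⟩ := Fermat.Agent.Lib.FrobeniusExists.exists_isFrobeniusAt_algebraicClosure
    (padicPlace P) hPprime (liesOverPrime_padicPlace P)
  have hφD : φ ∈ Dq P := hφ.mem_decompositionSubgroup
  haveI := finite_Teis N P S
  haveI := free_Teis N P S
  obtain ⟨C, hC⟩ := CoinvBound.exists_card_coinv_le (P := P) (Γ := ↥(TeisSub N P S))
    (rhoT N P S τ) (rhoT N P S φ) τ φ hφD
    (common_kernel_TeisSub (O := O) hPN hSfin hS hPO hsplit τ φ hτ hτ1 hφ)
  refine ⟨C, fun k => ?_⟩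
  haveI hPk : NeZero (P ^ k) := ⟨pow_ne_zero _ hPprime.ne_zero⟩
  haveI hfin : Finite (Gk N P k S) := Fermat.Agent.S15.K.Count.finite_Gk
  have hcomm : ∀ k : ℕ, ∀ r s : Nat.Primes, (r : ℕ) ∉ S → (s : ℕ) ∉ S → ∀ x : JZero N,
      P ^ k • x = 0 → heckeOperatorBar N r (heckeOperatorBar N s x) =
        heckeOperatorBar N s (heckeOperatorBar N r x) := fun k r s hr _ x hx =>
    Fermat.Agent.S15.G.HeckeComm.hecke_comm_torsion N hPprime r s (hS r hr).1 (hS r hr).2 ⟨k, hx⟩
  exact hC k (ZMod (P ^ k)) (Gk N P k S) (G0red N P k S) (level N P S k)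
    (fun a => Fermat.Agent.S15.P.Q5a.pow_nsmul_Gk a)
    (fun a _ => level_surjective N P S hcomm k a)
    (fun x hx => (level_eq_zero_iff N P S k x).1 hx)
    (fun x => level_rhoT N P S k τ x)
    (fun x => level_rhoT N P S k φ x)
    (fun c x => ⟨(PadicInt.toZModPow k c).val, ZMod.natCast_zmod_val _, level_smul_val N P S k c x⟩)
    (fun a ha => Fermat.Agent.S15.P.Q5a.rho_eq_cyc_nsmul hPN
      (Fermat.Agent.S15.P.GkFinal.flagW_Gk (k := k) hSfin hS) τ hτ a ha)

/-- **`hCP` of `D/ToStar.seamStar_of_descent`**, in its literal shape (`N` prime, `N ≠ P`, excluded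
set `insert P S` with `S` finite containing `N`). -/
theorem hCP_of_split [Fact N.Prime] (hNP : N ≠ P) (hSfin : S.Finite) (hNS : N ∈ S)
    (hPO : (P : O) ∈ maximalIdeal O)
    (hsplit : ∀ r : Nat.Primes, ∃ s : Multiset O, Polynomial.aeval ((heckeT N P r).baseChange O)
      ((s.map fun a => Polynomial.X - Polynomial.C a).prod) = 0) :
    ∃ CP : ℕ, ∀ k : ℕ, 0 < k →
      Nat.card (Ch (Gk N P k (insert P S)) ⧸
        chNull P (Gk N P k (insert P S)) (G0red N P k (insert P S))) ≤ CP := by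
  have hNprime : N.Prime := Fact.out
  have hPprime : P.Prime := hP.out
  have hPN : ¬ P ∣ N := fun h =>
    hNP ((Nat.prime_dvd_prime_iff_eq hPprime hNprime).1 h).symm
  have hS' : ∀ r : Nat.Primes, (r : ℕ) ∉ insert P S → ¬ (r : ℕ) ∣ N ∧ (r : ℕ) ≠ P := by
    intro r hr
    refine ⟨fun h => hr (Set.mem_insert_of_mem _ ?_), fun h => hr (h ▸ Set.mem_insert _ _)⟩
    rw [(Nat.prime_dvd_prime_iff_eq r.2 hNprime).1 h]
    exact hNS
  obtain ⟨CP, hCP⟩ := exists_card_coinv_Gk_le (O := O) hPN (hSfin.insert P) hS' hPO hsplit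
  exact ⟨CP, fun k _ => hCP k⟩

end Bound

end Fermat.Agent.S15.Struct.TPConst

end
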