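/-
PROJECT M (S15), block [S], leaf (S-h) = (TP-const), THE TOP (helper23):
`hCP` OF `D/ToStar.seamStar_of_descent` WITHOUT HYPOTHESES.

The coefficient ring `O` is chosen inside: helper24's `Split.exists_split` applied to the family of
ALL the Hecke operators of the Tate module `Tp P (JZero N)` (they commute: `TPFrame.commute_heckeT`),
then `TPConst.hCP_of_split`.
-/
import Fermat.Agent.S15.Struct.TPConst
import Fermat.Agent.S15.Struct.Split

set_option autoImplicit false
set_option synthInstance.maxHeartbeats 400000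

noncomputable section

namespace Fermat.Agent.S15.Struct.TPConstTop

open ModularCurve IsLocalRing
open Fermat.Agent.S56.Coh Fermat.Agent.CFT.LocalBridge
open Fermat.Agent.S15.K.Star Fermat.Agent.S15.K.Ord
open Fermat.Agent.S30.Padic.TateModule
open Fermat.Agent.S15.D Fermat.Agent.S15.D.Greenberg
open Fermat.Agent.S15.Struct.TateEis Fermat.Agent.S15.Struct.TPFrame

variable {N : ℕ} [NeZero N] {P : ℕ} [hP : Fact P.Prime] {S : Set ℕ}

/-- **(TP-const)**: for `P ∤ N` and `S` a finite set containing the primes dividing `N` and `P`, the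
constant of (T-P) of the Eisenstein part `Gk N P k S` is bounded independently of the level `k`. -/
theorem exists_card_coinv_Gk_le (hPN : ¬ P ∣ N) (hSfin : S.Finite)
    (hS : ∀ r : Nat.Primes, (r : ℕ) ∉ S → ¬ (r : ℕ) ∣ N ∧ (r : ℕ) ≠ P) :
    ∃ CP : ℕ, ∀ k : ℕ,
      Nat.card (Ch (Gk N P k S) ⧸ chNull P (Gk N P k S) (G0red N P k S)) ≤ CP := by
  haveI hTfin : Module.Finite ℤ_[P] (Tp P (JZero N)) := finite_Tp N P
  haveI hTfree : Module.Free ℤ_[P] (Tp P (JZero N)) :=
    Tp.free_of_finite (Fermat.Agent.S30.Descent.PhiDictThm.finite_torsion N hP.out.ne_zero)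
  obtain ⟨O, _, _, _, _, _, _, _, _, _, _, -, hPO, -, -, hsplit⟩ :=
    Fermat.Agent.S15.Struct.Split.exists_split P (fun r : Nat.Primes => heckeT N P r)
      (commute_heckeT N P)
  exact Fermat.Agent.S15.Struct.TPConst.exists_card_coinv_Gk_le (O := O) hPN hSfin hS hPO hsplit

/-- **`hCP` of `D/ToStar.seamStar_of_descent`**, verbatim (`N` prime, `N ≠ P`, excluded set
`insert P S` with `S` finite containing `N`). -/
theorem hCP_Gk [Fact N.Prime] (hNP : N ≠ P) (hSfin : S.Finite) (hNS : N ∈ S) :
    ∃ CP : ℕ, ∀ k : ℕ, 0 < k →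
      Nat.card (Ch (Gk N P k (insert P S)) ⧸
        chNull P (Gk N P k (insert P S)) (G0red N P k (insert P S))) ≤ CP := by
  haveI hTfin : Module.Finite ℤ_[P] (Tp P (JZero N)) := finite_Tp N P
  haveI hTfree : Module.Free ℤ_[P] (Tp P (JZero N)) :=
    Tp.free_of_finite (Fermat.Agent.S30.Descent.PhiDictThm.finite_torsion N hP.out.ne_zero)
  obtain ⟨O, _, _, _, _, _, _, _, _, _, _, -, hPO, -, -, hsplit⟩ :=
    Fermat.Agent.S15.Struct.Split.exists_split P (fun r : Nat.Primes => heckeT N P r)
      (commute_heckeT N P)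
  exact Fermat.Agent.S15.Struct.TPConst.hCP_of_split (O := O) hNP hSfin hNS hPO hsplit

end Fermat.Agent.S15.Struct.TPConstTop

end
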