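import Fermat.Agent.S15.Struct.EigenIncl
import Fermat.Agent.S15.Struct.EigenTensor
import Fermat.Agent.S15.Struct.TateEis

/-!
# PROJECT M (S15), block [S], row 8 (e): the eigenlattices of `O ⊗ Tp p (JZero N)` at an
eigen-system occurring in `O ⊗ TeisSub` lie in `O ⊗ TeisSub`

helper23's `EigenTensor` step (ii) (topological nilpotence) as a standalone theorem
`eigen_mem_baseChange`, in his frame (`Coord` API of `EigenTensor`), then its instance for
`T := Tp P (JZero N)`, `T_E := TeisSub N P S` (helper7), `t r := Tp.mapEnd (heckeEnd N r)`,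
`e r := 1 + r`, `r ∉ S`: `mem_TeisSub_iff_nilp` is the `hTE` binder of
`EigenTensor.common_kernel_trivial`, `sep_Tp` its `hsepT`, `exists_pow_eq_mul` its `hO` for a
discrete valuation ring.  Consequence: `EigenIncl.inclLat` is an isomorphism
`Λ[c] ≃ EigenRank.lat N P c` for `c` occurring in `Λ = O ⊗ TeisSub` (`inclLatEquiv`), and
`Λ[c]` has rank two (`finrank_eigen_eq_two`).
-/

set_option autoImplicit false
set_option linter.unusedSectionVars false
set_option linter.style.haveILetI false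

noncomputable section

namespace Fermat.Agent.S15.Struct.EigenConv

open scoped TensorProduct
open ModularCurve
open Fermat.Agent.S30.Padic Fermat.Agent.S30.Padic.TateModule
open Fermat.Agent.S30.Padic.EigenLattice
open Fermat.Agent.S30.Final.Chain
open Fermat.Agent.S15.K.Star Fermat.Agent.S15.Struct.TateEis
open Fermat.Agent.S15.Struct.Eigen Fermat.Agent.S15.Struct.EigenRank
open Fermat.Agent.S15.Struct.EigenTensor Fermat.Agent.S15.Struct.EigenIncl

/-! ### the abstract statement -/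

section Abstract

variable {Z O T : Type*} [CommRing Z] [CommRing O] [Algebra Z O]
  [AddCommGroup T] [Module Z T]
  {ι : Type*} [Fintype ι] [DecidableEq ι]

/-- the operators `t - e` upstairs, by coordinates -/
theorem crd_pow_sub (ω : Module.Basis ι Z O) (t : T →ₗ[Z] T) (e : Z) (m : ℕ) (z : O ⊗[Z] T)
    (l : ι) :
    crd ω (((t.baseChange O - algebraMap Z O e • (1 : Module.End O (O ⊗[Z] T))) ^ m) z) l
      = ((t - e • (1 : Module.End Z T)) ^ m) (crd ω z l) := by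
  induction m generalizing z l with
  | zero => rw [pow_zero, pow_zero, Module.End.one_apply, Module.End.one_apply]
  | succ m ih =>
    rw [pow_succ, pow_succ, Module.End.mul_apply, Module.End.mul_apply, ih]
    congr 1
    rw [LinearMap.sub_apply, LinearMap.smul_apply, Module.End.one_apply, crd_sub,
      crd_baseChange, crd_algebraMap_smul, LinearMap.sub_apply, LinearMap.smul_apply,
      Module.End.one_apply]

/-- on an eigenvector, `(t - e) ^ m` is the scalar `(χ - e) ^ m` -/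
theorem pow_sub_apply_of_eigen (t : T →ₗ[Z] T) (e : Z) (χ : O) (z : O ⊗[Z] T)
    (hz : t.baseChange O z = χ • z) (m : ℕ) :
    ((t.baseChange O - algebraMap Z O e • (1 : Module.End O (O ⊗[Z] T))) ^ m) z
      = (χ - algebraMap Z O e) ^ m • z := by
  induction m with
  | zero => rw [pow_zero, pow_zero, Module.End.one_apply, one_smul]
  | succ m ih =>
    rw [pow_succ', Module.End.mul_apply, ih, map_smul, LinearMap.sub_apply,
      LinearMap.smul_apply, Module.End.one_apply]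
    show (χ - algebraMap Z O e) ^ m • (t.baseChange O z - algebraMap Z O e • z) = _
    rw [hz, ← sub_smul χ (algebraMap Z O e) z, ← mul_smul, ← pow_succ]

/-- separatedness goes up to `O ⊗ T` -/
theorem sep_tensor (ω : Module.Basis ι Z O) (p : Z)
    (hsepT : ∀ v : T, (∀ k : ℕ, ∃ u : T, v = p ^ k • u) → v = 0)
    (v : O ⊗[Z] T) (hv : ∀ k : ℕ, ∃ w : O ⊗[Z] T, v = algebraMap Z O p ^ k • w) : v = 0 := by
  refine ext_crd ω fun i => ?_
  rw [crd_zero]
  refine hsepT _ fun k => ?_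
  obtain ⟨w, hw⟩ := hv k
  refine ⟨crd ω w i, ?_⟩
  rw [hw, ← map_pow, crd_algebraMap_smul]

/-- **topological nilpotence, first half**: an eigen-system occurring in `O ⊗ T_E` has
`χ i - e i` a non-unit for every `i`. -/
theorem not_isUnit_of_occurring (ω : Module.Basis ι Z O) (p : Z)
    (hsepT : ∀ v : T, (∀ k : ℕ, ∃ u : T, v = p ^ k • u) → v = 0)
    {κ : Type*} (t : κ → T →ₗ[Z] T) (e : κ → Z) (T_E : Submodule Z T)
    (hTE : ∀ x : T, x ∈ T_E →
      ∀ (i : κ) (k : ℕ), ∃ (n : ℕ) (v : T), ((t i - e i • (1 : Module.End Z T)) ^ n) x = p ^ k • v)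
    (χ : κ → O) (x' : O ⊗[Z] T) (hx'0 : x' ≠ 0) (hx'E : x' ∈ T_E.baseChange O)
    (hx'χ : ∀ i, (t i).baseChange O x' = χ i • x') (i : κ) :
    ¬ IsUnit (χ i - algebraMap Z O (e i)) := by
  classical
  intro hunit
  apply hx'0
  refine sep_tensor ω p hsepT x' fun k => ?_
  have hcoord : ∀ l : ι, ∃ (m : ℕ) (v : T),
      ((t i - e i • (1 : Module.End Z T)) ^ m) (crd ω x' l) = p ^ k • v := fun l =>
    hTE _ ((mem_baseChange_iff ω T_E x').1 hx'E l) i k
  choose m v hv using hcoord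
  let M := Finset.univ.sup m
  have hM : ∀ l : ι, ∃ v' : T,
      ((t i - e i • (1 : Module.End Z T)) ^ M) (crd ω x' l) = p ^ k • v' := by
    intro l
    have hle : m l ≤ M := Finset.le_sup (Finset.mem_univ l)
    obtain ⟨v', hv'⟩ : ∃ v' : T,
        ((t i - e i • (1 : Module.End Z T)) ^ (m l + (M - m l))) (crd ω x' l) = p ^ k • v' := by
      refine ⟨((t i - e i • (1 : Module.End Z T)) ^ (M - m l)) (v l), ?_⟩
      rw [add_comm, pow_add, Module.End.mul_apply, hv l, map_smul]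
    exact ⟨v', by rw [← hv', Nat.add_sub_cancel' hle]⟩
  choose v' hv' using hM
  obtain ⟨w, hw⟩ := exists_crd ω v'
  have h1 : (χ i - algebraMap Z O (e i)) ^ M • x' = algebraMap Z O p ^ k • w := by
    rw [← pow_sub_apply_of_eigen (t i) (e i) (χ i) x' (hx'χ i) M]
    refine ext_crd ω fun l => ?_
    rw [crd_pow_sub, hv' l, ← map_pow, crd_algebraMap_smul, hw l]
  obtain ⟨d, hd⟩ := (hunit.pow M).exists_left_inv
  refine ⟨d • w, ?_⟩
  rw [smul_comm, ← h1, ← mul_smul, hd, one_smul]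

/-- **topological nilpotence, second half**: if all `χ i - e i` are topologically nilpotent, every
`χ`-eigenvector of `O ⊗ T` lies in `O ⊗ T_E`. -/
theorem eigen_mem_baseChange_of_nilp (ω : Module.Basis ι Z O) (p : Z)
    {κ : Type*} (t : κ → T →ₗ[Z] T) (e : κ → Z) (T_E : Submodule Z T)
    (hTE : ∀ x : T, (∀ (i : κ) (k : ℕ), ∃ (n : ℕ) (v : T),
      ((t i - e i • (1 : Module.End Z T)) ^ n) x = p ^ k • v) → x ∈ T_E)
    (χ : κ → O)
    (hχ : ∀ (i : κ) (k : ℕ), ∃ (n : ℕ) (d : O),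
      (χ i - algebraMap Z O (e i)) ^ n = algebraMap Z O p ^ k * d)
    (z : O ⊗[Z] T) (hz : ∀ i, (t i).baseChange O z = χ i • z) : z ∈ T_E.baseChange O := by
  classical
  rw [mem_baseChange_iff ω]
  intro l
  apply hTE
  intro i k
  obtain ⟨m, d, hd⟩ := hχ i k
  refine ⟨m, crd ω (d • z) l, ?_⟩
  rw [← crd_pow_sub, pow_sub_apply_of_eigen (t i) (e i) (χ i) z (hz i) m, hd, mul_smul,
    ← map_pow, crd_algebraMap_smul]

/-- **row 8 (e), abstract form** (helper23's `EigenTensor` step (ii), standalone): an eigen-system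
occurring in `O ⊗ T_E` has all its eigenvectors of `O ⊗ T` inside `O ⊗ T_E`. -/
theorem eigen_mem_baseChange (ω : Module.Basis ι Z O) (p : Z)
    (hO : ∀ c : O, ¬ IsUnit c → ∀ k : ℕ, ∃ (n : ℕ) (d : O), c ^ n = algebraMap Z O p ^ k * d)
    (hsepT : ∀ v : T, (∀ k : ℕ, ∃ u : T, v = p ^ k • u) → v = 0)
    {κ : Type*} (t : κ → T →ₗ[Z] T) (e : κ → Z) (T_E : Submodule Z T)
    (hTE : ∀ x : T, x ∈ T_E ↔
      ∀ (i : κ) (k : ℕ), ∃ (n : ℕ) (v : T), ((t i - e i • (1 : Module.End Z T)) ^ n) x = p ^ k • v)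
    (χ : κ → O) (x' : O ⊗[Z] T) (hx'0 : x' ≠ 0) (hx'E : x' ∈ T_E.baseChange O)
    (hx'χ : ∀ i, (t i).baseChange O x' = χ i • x')
    (z : O ⊗[Z] T) (hz : ∀ i, (t i).baseChange O z = χ i • z) : z ∈ T_E.baseChange O :=
  eigen_mem_baseChange_of_nilp ω p t e T_E (fun x => (hTE x).2) χ
    (fun i k => hO _ (not_isUnit_of_occurring ω p hsepT t e T_E (fun x => (hTE x).1) χ x' hx'0
      hx'E hx'χ i) k) z hz

end Abstract

/-! ### the three local inputs -/

section DVR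

/-- in a discrete valuation ring every non-unit is topologically nilpotent for the `π`-adic
topology, `π ≠ 0` -/
theorem exists_pow_eq_mul {O : Type*} [CommRing O] [IsDomain O] [IsDiscreteValuationRing O]
    (π : O) (hπ : π ≠ 0) (c : O) (hc : ¬ IsUnit c) (k : ℕ) :
    ∃ (n : ℕ) (d : O), c ^ n = π ^ k * d := by
  obtain ⟨ϖ, hϖ⟩ := IsDiscreteValuationRing.exists_irreducible O
  obtain ⟨e, u, hu⟩ := IsDiscreteValuationRing.eq_unit_mul_pow_irreducible hπ hϖ
  have hcm : c ∈ IsLocalRing.maximalIdeal O := (IsLocalRing.mem_maximalIdeal c).2 hc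
  rw [hϖ.maximalIdeal_eq, Ideal.mem_span_singleton] at hcm
  obtain ⟨d0, hd0⟩ := hcm
  refine ⟨e * k, ((u⁻¹ : Oˣ) : O) ^ k * d0 ^ (e * k), ?_⟩
  have h1 : (u : O) ^ k * ((u⁻¹ : Oˣ) : O) ^ k = 1 := by rw [← mul_pow, Units.mul_inv, one_pow]
  rw [hd0, hu]
  calc (ϖ * d0) ^ (e * k) = ((u : O) ^ k * ((u⁻¹ : Oˣ) : O) ^ k) * ((ϖ ^ e) ^ k * d0 ^ (e * k)) := by
        rw [h1, one_mul, mul_pow, pow_mul]
    _ = ((u : O) * ϖ ^ e) ^ k * (((u⁻¹ : Oˣ) : O) ^ k * d0 ^ (e * k)) := by ring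

end DVR

variable (N : ℕ) [NeZero N] (P : ℕ) [hP : Fact P.Prime] (S : Set ℕ)

/-- the Tate module is `P`-adically separated -/
theorem sep_Tp (v : Tp P (JZero N))
    (h : ∀ k : ℕ, ∃ u : Tp P (JZero N), v = (P : ℤ_[P]) ^ k • u) : v = 0 := by
  apply Tp.ext
  intro k
  obtain ⟨u, hu⟩ := h k
  rw [hu]
  exact Tp.pow_smul_apply_self u k

/-- the powers of the Eisenstein operators on the Tate module, componentwise -/
theorem coe_eisPow_apply (r : Nat.Primes) (n : ℕ) (x : Tp P (JZero N)) (k : ℕ) :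
    ((((Tp.mapEnd (p := P) (heckeEnd N r) - ((1 + (r : ℕ) : ℕ) : ℤ_[P]) •
        (1 : Module.End ℤ_[P] (Tp P (JZero N)))) ^ n) x : Tp P (JZero N))).1 k =
      ((heckeOperatorBar N r - ((1 + (r : ℕ) : ℕ) : ℤ) • (1 : Module.End ℤ (JZero N))) ^ n)
        (x.1 k) := by
  induction n generalizing x with
  | zero => rw [pow_zero, pow_zero, Module.End.one_apply, Module.End.one_apply]
  | succ n ih =>
    rw [pow_succ, pow_succ, Module.End.mul_apply, Module.End.mul_apply, ih]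
    congr 1
    rw [LinearMap.sub_apply, LinearMap.smul_apply, Module.End.one_apply, Tp.coe_sub_apply,
      Tp.coe_natCast_smul_apply, Tp.coe_mapEnd_apply, LinearMap.sub_apply, LinearMap.smul_apply,
      Module.End.one_apply, natCast_zsmul]
    rfl

/-- **`hTE` of helper23's `EigenTensor.common_kernel_trivial` for `T_E := TeisSub N P S`**:
`κ := {r : Nat.Primes // (r : ℕ) ∉ S}`, `t r := Tp.mapEnd (heckeEnd N r)`, `e r := 1 + r`. -/
theorem mem_TeisSub_iff_nilp (x : Tp P (JZero N)) :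
    x ∈ TeisSub N P S ↔
      ∀ (i : {r : Nat.Primes // (r : ℕ) ∉ S}) (k : ℕ), ∃ (n : ℕ) (v : Tp P (JZero N)),
        ((Tp.mapEnd (p := P) (heckeEnd N i.1) - ((1 + ((i.1 : Nat.Primes) : ℕ) : ℕ) : ℤ_[P]) •
          (1 : Module.End ℤ_[P] (Tp P (JZero N)))) ^ n) x = (P : ℤ_[P]) ^ k • v := by
  constructor
  · intro hx i k
    obtain ⟨n, hn⟩ := hx k _ ⟨i.1, i.2, rfl⟩
    refine ⟨n, ?_⟩
    apply Tp.exists_eq_pow_smul
    rw [coe_eisPow_apply]
    exact hn
  · intro h k a ha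
    obtain ⟨r, hr, rfl⟩ := ha
    obtain ⟨n, v, hv⟩ := h ⟨r, hr⟩ k
    refine ⟨n, ?_⟩
    rw [← coe_eisPow_apply N P r n x k, hv]
    exact Tp.pow_smul_apply_self v k


/-! ### the converse inclusion for `X₀(N)` -/

section Conv

variable {O : Type} [CommRing O] [IsDomain O] [IsPrincipalIdealRing O] [CharZero O]
  [Algebra ℤ_[P] O] [Module.Free ℤ_[P] O] [Module.Finite ℤ_[P] O]
variable (f' : Nat.Primes → Module.End ℤ_[P] ↥(TeisSub N P S))
variable (hf : ∀ (r : Nat.Primes) (x : ↥(TeisSub N P S)),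
  ((f' r x : ↥(TeisSub N P S)) : Tp P (JZero N)) = Tp.mapEnd (heckeEnd N r) x)

include hf in
/-- **row 8 (e), element form**: if `c` occurs in `O ⊗ TeisSub` (at the good primes), every
`c`-eigenvector of `O ⊗ Tp` (at the good primes) lies in the image of `O ⊗ TeisSub`. -/
theorem mem_range_incl
    (hO : ∀ a : O, ¬ IsUnit a → ∀ k : ℕ, ∃ (n : ℕ) (d : O),
      a ^ n = algebraMap ℤ_[P] O (P : ℤ_[P]) ^ k * d)
    (c : Nat.Primes → O)
    (hc : ∃ x : O ⊗[ℤ_[P]] ↥(TeisSub N P S), x ≠ 0 ∧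
      ∀ r : Nat.Primes, (r : ℕ) ∉ S → (f' r).baseChange O x = c r • x)
    (z : O ⊗[ℤ_[P]] Tp P (JZero N))
    (hz : ∀ r : Nat.Primes, (r : ℕ) ∉ S → heckeV N P r z = c r • z) :
    z ∈ LinearMap.range (incl O (TeisSub N P S)) := by
  classical
  obtain ⟨x, hx0, hx⟩ := hc
  have hx'0 : incl O (TeisSub N P S) x ≠ 0 := fun h =>
    hx0 (incl_injective O (TeisSub N P S) (by rw [h, map_zero]))
  exact eigen_mem_baseChange (Module.Free.chooseBasis ℤ_[P] O) (P : ℤ_[P]) hO (sep_Tp N P)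
    (fun i : {r : Nat.Primes // (r : ℕ) ∉ S} => Tp.mapEnd (p := P) (heckeEnd N i.1))
    (fun i => ((1 + ((i.1 : Nat.Primes) : ℕ) : ℕ) : ℤ_[P])) (TeisSub N P S)
    (mem_TeisSub_iff_nilp N P S) (fun i => c i.1) (incl O (TeisSub N P S) x) hx'0 ⟨x, rfl⟩
    (fun i => by
      rw [← incl_baseChange O (TeisSub N P S) (f' i.1) _ (hf i.1), hx i.1 i.2, map_smul])
    z (fun i => hz i.1 i.2)

include hf in
/-- **row 8 (e)**: for `c` occurring in `Λ = O ⊗ TeisSub`, `lat N P c ≤ range incl`. -/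
theorem lat_le_range_incl
    (hO : ∀ a : O, ¬ IsUnit a → ∀ k : ℕ, ∃ (n : ℕ) (d : O),
      a ^ n = algebraMap ℤ_[P] O (P : ℤ_[P]) ^ k * d)
    (c : Nat.Primes → O)
    (hc : ∃ x : O ⊗[ℤ_[P]] ↥(TeisSub N P S), x ≠ 0 ∧ ∀ r, (f' r).baseChange O x = c r • x) :
    lat N P c ≤ LinearMap.range (incl O (TeisSub N P S)) := by
  intro z hz
  obtain ⟨x, hx0, hx⟩ := hc
  exact mem_range_incl N P S f' hf hO c ⟨x, hx0, fun r _ => hx r⟩ z
    (fun r _ => (mem_eigenLattice.1 hz) r)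

include hf in
theorem inclLat_surjective
    (hO : ∀ a : O, ¬ IsUnit a → ∀ k : ℕ, ∃ (n : ℕ) (d : O),
      a ^ n = algebraMap ℤ_[P] O (P : ℤ_[P]) ^ k * d)
    (c : Nat.Primes → O)
    (hc : ∃ x : O ⊗[ℤ_[P]] ↥(TeisSub N P S), x ≠ 0 ∧ ∀ r, (f' r).baseChange O x = c r • x) :
    Function.Surjective (inclLat N P (TeisSub N P S) f' hf c) := by
  intro y
  obtain ⟨v, hv⟩ := lat_le_range_incl N P S f' hf hO c hc y.2
  have hv' : v ∈ eigen (𝔸 := O) (fun r => (f' r).baseChange O) c := by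
    rw [mem_eigen]
    intro r
    apply incl_injective O (TeisSub N P S)
    rw [incl_baseChange O (TeisSub N P S) (f' r) _ (hf r), hv, map_smul, hv]
    exact (mem_eigenLattice.1 y.2) r
  exact ⟨⟨v, hv'⟩, Subtype.ext hv⟩

/-- **row 8 (e), final form**: `Λ[c] ≃ lat N P c` for `c` occurring in `Λ = O ⊗ TeisSub`. -/
def inclLatEquiv
    (hO : ∀ a : O, ¬ IsUnit a → ∀ k : ℕ, ∃ (n : ℕ) (d : O),
      a ^ n = algebraMap ℤ_[P] O (P : ℤ_[P]) ^ k * d)
    (c : Nat.Primes → O)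
    (hc : ∃ x : O ⊗[ℤ_[P]] ↥(TeisSub N P S), x ≠ 0 ∧ ∀ r, (f' r).baseChange O x = c r • x) :
    ↥(eigen (𝔸 := O) (fun r => (f' r).baseChange O) c) ≃ₗ[O] ↥(lat N P c) :=
  LinearEquiv.ofBijective (inclLat N P (TeisSub N P S) f' hf c)
    ⟨inclLat_injective N P (TeisSub N P S) f' hf c, inclLat_surjective N P S f' hf hO c hc⟩

theorem coe_inclLatEquiv
    (hO : ∀ a : O, ¬ IsUnit a → ∀ k : ℕ, ∃ (n : ℕ) (d : O),
      a ^ n = algebraMap ℤ_[P] O (P : ℤ_[P]) ^ k * d)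
    (c : Nat.Primes → O)
    (hc : ∃ x : O ⊗[ℤ_[P]] ↥(TeisSub N P S), x ≠ 0 ∧ ∀ r, (f' r).baseChange O x = c r • x)
    (v : ↥(eigen (𝔸 := O) (fun r => (f' r).baseChange O) c)) :
    ((inclLatEquiv N P S f' hf hO c hc v : ↥(lat N P c)) : O ⊗[ℤ_[P]] Tp P (JZero N)) =
      incl O (TeisSub N P S) (v : O ⊗[ℤ_[P]] ↥(TeisSub N P S)) := rfl

include hf in
/-- the eigenlattices of `Λ = O ⊗ TeisSub` at the occurring eigen-systems have rank two -/
theorem finrank_eigen_eq_two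
    (hO : ∀ a : O, ¬ IsUnit a → ∀ k : ℕ, ∃ (n : ℕ) (d : O),
      a ^ n = algebraMap ℤ_[P] O (P : ℤ_[P]) ^ k * d)
    (c : Nat.Primes → O)
    (hc : ∃ x : O ⊗[ℤ_[P]] ↥(TeisSub N P S), x ≠ 0 ∧ ∀ r, (f' r).baseChange O x = c r • x) :
    Module.finrank O ↥(eigen (𝔸 := O) (fun r => (f' r).baseChange O) c) = 2 := by
  rw [LinearEquiv.finrank_eq (inclLatEquiv N P S f' hf hO c hc)]
  exact finrank_eigenLattice_eq_two N P c
    (lat_ne_bot_of_occurring N P (TeisSub N P S) f' hf c hc)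

/-- `hO` for a discrete valuation ring of characteristic zero -/
theorem hO_of_dvr {O : Type*} [CommRing O] [IsDomain O] [IsDiscreteValuationRing O] [CharZero O]
    [Algebra ℤ_[P] O] :
    ∀ a : O, ¬ IsUnit a → ∀ k : ℕ, ∃ (n : ℕ) (d : O),
      a ^ n = algebraMap ℤ_[P] O (P : ℤ_[P]) ^ k * d := by
  intro a ha k
  rw [map_natCast]
  exact exists_pow_eq_mul (P : O) (Nat.cast_ne_zero.2 hP.out.ne_zero) a ha k

end Conv

end Fermat.Agent.S15.Struct.EigenConv
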