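import Fermat.Agent.S15.Struct.RhoChi

/-!
# PROJECT M (S15), block [S]: the three spellings of "the image of `R ⊗ T'` in `R ⊗ Tp`"

`RhoChi.tensorOf p R A` (the span of the pure tensors `1 ⊗ x`, `x ∈ TpOf p A`) is Mathlib's
`Submodule.baseChange R (TpOf p A)` and the range of `(TpOf p A).subtype.baseChange R`; so the
hypothesis `hlat : lat N p c ≤ tensorOf p O A` of `RhoChi.kpid_cyc` may be given in any of the
three forms.
-/

set_option autoImplicit false

noncomputable section

namespace Fermat.Agent.S15.Struct.TensorOf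

open scoped TensorProduct
open Fermat.Agent.S30.Padic Fermat.Agent.S30.Padic.TateModule
open Fermat.Agent.S15.Struct.RhoChi

variable (p : ℕ) [Fact p.Prime] {J : Type*} [AddCommGroup J]
  (R : Type*) [CommRing R] [Algebra ℤ_[p] R]

/-- the span of the pure tensors `1 ⊗ x`, `x ∈ T'` -/
theorem span_eq_baseChange (T' : Submodule ℤ_[p] (Tp p J)) :
    Submodule.span R {v : R ⊗[ℤ_[p]] Tp p J | ∃ x ∈ T', v = (1 : R) ⊗ₜ[ℤ_[p]] x} =
      T'.baseChange R := by
  rw [Submodule.baseChange_eq_span]
  congr 1
  ext v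
  constructor
  · rintro ⟨x, hx, rfl⟩
    exact ⟨x, hx, rfl⟩
  · rintro ⟨x, hx, rfl⟩
    exact ⟨x, hx, rfl⟩

/-- `tensorOf` is Mathlib's `Submodule.baseChange` -/
theorem tensorOf_eq_baseChange (A : ℕ → AddSubgroup J) :
    tensorOf p R A = (TpOf p A).baseChange R :=
  span_eq_baseChange p R (TpOf p A)

/-- `tensorOf` is the range of the base change of the inclusion -/
theorem tensorOf_eq_range (A : ℕ → AddSubgroup J) :
    tensorOf p R A = LinearMap.range ((TpOf p A).subtype.baseChange R) := by
  rw [tensorOf_eq_baseChange]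
  rfl

end Fermat.Agent.S15.Struct.TensorOf

end
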