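import Fermat.Agent.S15.Struct.EigenConv
import Fermat.Agent.S15.Struct.TensorOf

/-!
# PROJECT M (S15), block [S], row 8 (e) in the literal of row 11

The hypothesis `hlat` of helper10's `RhoChi.kpid_cyc` / helper3's `KPIdRho.hKP_rhoChi`,
`lat N P c ≤ tensorOf P O (fun _ => eisAll N S)`, for every eigen-system `c` occurring in
`Λ = O ⊗ TeisSub N P S`: `TpOf P (fun _ => eisAll N S)` is `TeisSub N P S` (by `rfl`) and
`tensorOf` is the range of the base change of the inclusion (helper10's `TensorOf`), so this is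
`EigenConv.lat_le_range_incl`.
-/

set_option autoImplicit false
set_option linter.unusedSectionVars false

noncomputable section

namespace Fermat.Agent.S15.Struct.EigenConvLat

open scoped TensorProduct
open ModularCurve
open Fermat.Agent.S30.Padic Fermat.Agent.S30.Padic.TateModule
open Fermat.Agent.S30.Final.Chain
open Fermat.Agent.S15.Struct.TateEis Fermat.Agent.S15.Struct.EigenRank
open Fermat.Agent.S15.Struct.RhoChi Fermat.Agent.S15.Struct.EigenIncl

variable (N : ℕ) [NeZero N] (P : ℕ) [hP : Fact P.Prime] (S : Set ℕ)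
variable {O : Type} [CommRing O] [IsDomain O] [IsPrincipalIdealRing O] [CharZero O]
  [Algebra ℤ_[P] O] [Module.Free ℤ_[P] O] [Module.Finite ℤ_[P] O]
variable (f' : Nat.Primes → Module.End ℤ_[P] ↥(TeisSub N P S))
variable (hf : ∀ (r : Nat.Primes) (x : ↥(TeisSub N P S)),
  ((f' r x : ↥(TeisSub N P S)) : Tp P (JZero N)) = Tp.mapEnd (heckeEnd N r) x)

/-- the range of `incl` is helper10's `tensorOf` -/
theorem range_incl_eq_tensorOf :
    LinearMap.range (incl O (TeisSub N P S)) = tensorOf P O (fun _ : ℕ => eisAll N S) :=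
  (Fermat.Agent.S15.Struct.TensorOf.tensorOf_eq_range P O (fun _ : ℕ => eisAll N S)).symm

include hf in
/-- **`hlat` of row 11** for `c` occurring in `Λ = O ⊗ TeisSub N P S` -/
theorem hlat
    (hO : ∀ a : O, ¬ IsUnit a → ∀ k : ℕ, ∃ (n : ℕ) (d : O),
      a ^ n = algebraMap ℤ_[P] O (P : ℤ_[P]) ^ k * d)
    (c : Nat.Primes → O)
    (hc : ∃ x : O ⊗[ℤ_[P]] ↥(TeisSub N P S), x ≠ 0 ∧ ∀ r, (f' r).baseChange O x = c r • x) :
    lat N P c ≤ tensorOf P O (fun _ : ℕ => eisAll N S) := by
  rw [← range_incl_eq_tensorOf]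
  exact Fermat.Agent.S15.Struct.EigenConv.lat_le_range_incl N P S f' hf hO c hc

end Fermat.Agent.S15.Struct.EigenConvLat
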