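import Fermat.Agent.S15.Struct.Eigen
import Fermat.Agent.S15.Struct.EigenRank

/-!
# PROJECT M (S15), block [S], row 8 (c): the eigenlattices of `O ⊗ T'`, `T'` a Hecke stable
submodule of the Tate module, embed in the eigenlattices of `O ⊗ Tp p (JZero N)`

`T' ≤ Tp p (JZero N)` a `ℤ_[p]`-submodule (for the consumer: `TeisSub N P S'`), `f' r` endomorphisms
of `T'` which are the restrictions of the Hecke operators `Tp.mapEnd (heckeEnd N r)`, `O` a flat
`ℤ_[p]`-algebra.  Then `incl : O ⊗ T' → O ⊗ Tp` is injective and intertwines `(f' r).baseChange O`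
with `EigenRank.heckeV N p r`, hence maps the common eigenlattice `Struct.Eigen.eigen t c` into
`EigenRank.lat N p c`, which has rank `2` when it is nonzero: `finrank_eigen_le_two`.
The second clause of `Rep.halfBound_rep_self`'s `hpiece` is transported the same way
(`exists_ne_of_lat`), through the Galois equivariance of `incl`.
-/

set_option autoImplicit false
set_option linter.unusedSectionVars false
set_option linter.style.haveILetI false

noncomputable section

namespace Fermat.Agent.S15.Struct.EigenIncl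

open scoped TensorProduct
open ModularCurve
open Fermat.Agent.S30.Padic Fermat.Agent.S30.Padic.TateModule
open Fermat.Agent.S30.Padic.EigenLattice
open Fermat.Agent.S30.Final.Chain
open Fermat.Agent.S15.Struct.Eigen Fermat.Agent.S15.Struct.EigenRank

local notation "GQ" => (AlgebraicClosure ℚ ≃ₐ[ℚ] AlgebraicClosure ℚ)

/-! ### the inclusion after base change -/

section Incl

variable {p : ℕ} [Fact p.Prime] {J : Type*} [AddCommGroup J]
variable (O : Type*) [CommRing O] [Algebra ℤ_[p] O]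
variable (T' : Submodule ℤ_[p] (Tp p J))

/-- the inclusion `O ⊗ T' → O ⊗ Tp` -/
def incl : O ⊗[ℤ_[p]] ↥T' →ₗ[O] O ⊗[ℤ_[p]] Tp p J := T'.subtype.baseChange O

theorem incl_tmul (b : O) (x : ↥T') : incl O T' (b ⊗ₜ x) = b ⊗ₜ (x : Tp p J) := rfl

theorem incl_injective [Module.Flat ℤ_[p] O] : Function.Injective (incl O T') := by
  rw [incl, LinearMap.baseChange_eq_ltensor]
  exact Module.Flat.lTensor_preserves_injective_linearMap _ T'.subtype_injective

/-- `incl` intertwines the base change of a restricted endomorphism with the base change of the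
endomorphism -/
theorem incl_baseChange (g' : Module.End ℤ_[p] ↥T') (g : Module.End ℤ_[p] (Tp p J))
    (h : ∀ x : ↥T', ((g' x : ↥T') : Tp p J) = g x) (v : O ⊗[ℤ_[p]] ↥T') :
    incl O T' (g'.baseChange O v) = g.baseChange O (incl O T' v) := by
  have h1 : T'.subtype ∘ₗ g' = g ∘ₗ T'.subtype := LinearMap.ext fun x => h x
  have h2 := congrArg (fun φ : ↥T' →ₗ[ℤ_[p]] Tp p J => φ.baseChange O) h1
  simp only [LinearMap.baseChange_comp] at h2
  exact congrArg (fun φ : O ⊗[ℤ_[p]] ↥T' →ₗ[O] O ⊗[ℤ_[p]] Tp p J => φ v) h2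

/-- the common eigenlattice of the restricted operators maps into the common eigenlattice -/
theorem incl_mem_eigenLattice {ι : Type*} (f' : ι → Module.End ℤ_[p] ↥T')
    (f : ι → Module.End ℤ_[p] (Tp p J))
    (hf : ∀ i (x : ↥T'), ((f' i x : ↥T') : Tp p J) = f i x) (c : ι → O)
    {v : O ⊗[ℤ_[p]] ↥T'} (hv : v ∈ eigen (𝔸 := O) (fun i => (f' i).baseChange O) c) :
    incl O T' v ∈ eigenLattice (fun i => (f i).baseChange O) c := by
  rw [mem_eigenLattice]
  intro i
  rw [← incl_baseChange O T' (f' i) (f i) (hf i), mem_eigen.1 hv i, map_smul]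

/-- the embedding of the eigenlattice of `O ⊗ T'` into the eigenlattice of `O ⊗ Tp` -/
def inclEigen {ι : Type*} (f' : ι → Module.End ℤ_[p] ↥T') (f : ι → Module.End ℤ_[p] (Tp p J))
    (hf : ∀ i (x : ↥T'), ((f' i x : ↥T') : Tp p J) = f i x) (c : ι → O) :
    ↥(eigen (𝔸 := O) (fun i => (f' i).baseChange O) c) →ₗ[O]
      ↥(eigenLattice (fun i => (f i).baseChange O) c) :=
  LinearMap.codRestrict _ ((incl O T').comp (eigen (𝔸 := O) (fun i => (f' i).baseChange O) c).subtype)
    (fun v => incl_mem_eigenLattice O T' f' f hf c v.2)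

theorem coe_inclEigen {ι : Type*} (f' : ι → Module.End ℤ_[p] ↥T')
    (f : ι → Module.End ℤ_[p] (Tp p J))
    (hf : ∀ i (x : ↥T'), ((f' i x : ↥T') : Tp p J) = f i x) (c : ι → O)
    (v : ↥(eigen (𝔸 := O) (fun i => (f' i).baseChange O) c)) :
    ((inclEigen O T' f' f hf c v : ↥(eigenLattice (fun i => (f i).baseChange O) c)) :
      O ⊗[ℤ_[p]] Tp p J) = incl O T' (v : O ⊗[ℤ_[p]] ↥T') := rfl

theorem inclEigen_injective [Module.Flat ℤ_[p] O] {ι : Type*} (f' : ι → Module.End ℤ_[p] ↥T')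
    (f : ι → Module.End ℤ_[p] (Tp p J))
    (hf : ∀ i (x : ↥T'), ((f' i x : ↥T') : Tp p J) = f i x) (c : ι → O) :
    Function.Injective (inclEigen O T' f' f hf c) := by
  intro v w h
  apply Subtype.ext
  apply incl_injective O T'
  have := congrArg Subtype.val h
  exact this

/-! ### Galois equivariance and the transport of the second clause of `hpiece` -/

/-- `incl` intertwines an action `ρ` on `O ⊗ T'` given on pure tensors by the restriction `ρ'` of the
Galois action of the Tate module with main's `Assembly.rhoV` (the `hρ` literal of helper21's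
`FinLevelMain`, any `G`) -/
theorem incl_rho_of_tmul {G : Type*} [Group G] [DistribMulAction G J]
    (ρ' : G → ↥T' → ↥T')
    (hρ' : ∀ (g : G) (x : ↥T'), ((ρ' g x : ↥T') : Tp p J) = Tp.galoisHom (p := p) G g x)
    (ρ : G → Module.End O (O ⊗[ℤ_[p]] ↥T'))
    (hρ : ∀ (g : G) (o : O) (x : ↥T'), ρ g (o ⊗ₜ x) = o ⊗ₜ ρ' g x)
    (g : G) (v : O ⊗[ℤ_[p]] ↥T') :
    incl O T' (ρ g v) = Assembly.rhoV p O J g (incl O T' v) := by
  induction v using TensorProduct.induction_on with
  | zero => rw [map_zero, map_zero, map_zero]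
  | tmul o x => rw [hρ, incl_tmul, incl_tmul, Assembly.rhoV_tmul, hρ']
  | add v w hv hw => rw [map_add, map_add, hv, hw, map_add, map_add]

/-- the same for `ρ g := (ρ' g).baseChange O` (the chief's frame (C)) -/
theorem incl_rho_baseChange {G : Type*} [Group G] [DistribMulAction G J]
    (ρ' : G → Module.End ℤ_[p] ↥T')
    (hρ' : ∀ (g : G) (x : ↥T'), ((ρ' g x : ↥T') : Tp p J) = Tp.galoisHom (p := p) G g x)
    (g : G) (v : O ⊗[ℤ_[p]] ↥T') :
    incl O T' ((ρ' g).baseChange O v) = Assembly.rhoV p O J g (incl O T' v) :=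
  incl_baseChange O T' (ρ' g) (Tp.galoisHom (p := p) G g) (hρ' g) v

/-- **transport of the second clause of `hpiece` of `Rep.halfBound_rep_self`**: if every nonzero
Galois stable submodule of the eigenlattice of `O ⊗ Tp` contains a vector moved off `w.2` by some
`w ∈ W`, so does every nonzero Galois stable submodule of the eigenlattice of `O ⊗ T'`. -/
theorem exists_ne_of_eigenLattice [Module.Flat ℤ_[p] O] {G : Type*} [Group G]
    [DistribMulAction G J] (W : Set (G × O)) {ι : Type*} (f' : ι → Module.End ℤ_[p] ↥T')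
    (f : ι → Module.End ℤ_[p] (Tp p J))
    (hf : ∀ i (x : ↥T'), ((f' i x : ↥T') : Tp p J) = f i x) (c : ι → O)
    (ρ : G → Module.End O (O ⊗[ℤ_[p]] ↥T'))
    (hρ : ∀ (g : G) (v : O ⊗[ℤ_[p]] ↥T'),
      incl O T' (ρ g v) = Assembly.rhoV p O J g (incl O T' v))
    (hV : ∀ SV : Submodule O (O ⊗[ℤ_[p]] Tp p J),
      SV ≤ eigenLattice (fun i => (f i).baseChange O) c →
      (∀ g : G, ∀ y ∈ SV, Assembly.rhoV p O J g y ∈ SV) → SV ≠ ⊥ →
      ∃ w ∈ W, ∃ y ∈ SV, Assembly.rhoV p O J w.1 y ≠ w.2 • y)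
    (S : Submodule O (O ⊗[ℤ_[p]] ↥T'))
    (hS : S ≤ eigen (𝔸 := O) (fun i => (f' i).baseChange O) c)
    (hst : ∀ g : G, ∀ x ∈ S, ρ g x ∈ S) (hne : S ≠ ⊥) :
    ∃ w ∈ W, ∃ x ∈ S, ρ w.1 x ≠ w.2 • x := by
  have hle : S.map (incl O T') ≤ eigenLattice (fun i => (f i).baseChange O) c := by
    rintro _ ⟨x, hx, rfl⟩
    exact incl_mem_eigenLattice O T' f' f hf c (hS hx)
  have hstV : ∀ g : G, ∀ y ∈ S.map (incl O T'),
      Assembly.rhoV p O J g y ∈ S.map (incl O T') := by
    rintro g _ ⟨x, hx, rfl⟩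
    exact ⟨ρ g x, hst g x hx, hρ g x⟩
  have hneV : S.map (incl O T') ≠ ⊥ := by
    intro h
    apply hne
    rw [eq_bot_iff]
    intro x hx
    have h1 : incl O T' x ∈ S.map (incl O T') := ⟨x, hx, rfl⟩
    rw [h, Submodule.mem_bot] at h1
    rw [Submodule.mem_bot]
    exact incl_injective O T' (by rw [h1, map_zero])
  obtain ⟨w, hw, _, ⟨x, hx, rfl⟩, hxw⟩ := hV _ hle hstV hneV
  refine ⟨w, hw, x, hx, fun h => hxw ?_⟩
  rw [← hρ, h, map_smul]

end Incl

/-! ### `X₀(N)`: rank at most two -/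

section X0

variable (N : ℕ) [NeZero N] (p : ℕ) [Fact p.Prime]
variable {O : Type} [CommRing O] [IsDomain O] [IsPrincipalIdealRing O] [CharZero O]
  [Algebra ℤ_[p] O] [Module.Flat ℤ_[p] O]
variable (T' : Submodule ℤ_[p] (Tp p (JZero N)))
variable (f' : Nat.Primes → Module.End ℤ_[p] ↥T')
variable (hf : ∀ (r : Nat.Primes) (x : ↥T'),
  ((f' r x : ↥T') : Tp p (JZero N)) = Tp.mapEnd (heckeEnd N r) x)

/-- the embedding `Λ[c] → lat N p c` -/
def inclLat (c : Nat.Primes → O) :
    ↥(eigen (𝔸 := O) (fun r => (f' r).baseChange O) c) →ₗ[O] ↥(lat N p c) :=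
  inclEigen O T' f' (fun r => Tp.mapEnd (heckeEnd N r)) hf c

theorem inclLat_injective (c : Nat.Primes → O) : Function.Injective (inclLat N p T' f' hf c) :=
  inclEigen_injective O T' f' _ hf c

include hf in
/-- an eigen-system occurring in `O ⊗ T'` occurs in `O ⊗ Tp` -/
theorem lat_ne_bot_of_occurring (c : Nat.Primes → O)
    (hc : ∃ x : O ⊗[ℤ_[p]] ↥T', x ≠ 0 ∧ ∀ r, (f' r).baseChange O x = c r • x) :
    lat N p c ≠ ⊥ := by
  obtain ⟨x, hx0, hx⟩ := hc
  intro hbot
  have h1 : incl O T' x ∈ lat N p c :=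
    incl_mem_eigenLattice O T' f' (fun r => Tp.mapEnd (heckeEnd N r)) hf c (mem_eigen.2 hx)
  rw [hbot, Submodule.mem_bot] at h1
  exact hx0 (incl_injective O T' (by rw [h1, map_zero]))

include hf in
/-- **row 8 (c)**: the eigenlattices of `O ⊗ T'` have rank at most two -/
theorem finrank_eigen_le_two (c : Nat.Primes → O) :
    Module.finrank O ↥(eigen (𝔸 := O) (fun r => (f' r).baseChange O) c) ≤ 2 := by
  classical
  have H2 := finite_torsion N p
  haveI : Module.Finite ℤ_[p] (Tp p (JZero N)) := Tp.finite_of_finite H2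
  haveI : Module.Free ℤ_[p] (Tp p (JZero N)) := Tp.free_of_finite H2
  haveI hVnoeth : IsNoetherian O (O ⊗[ℤ_[p]] Tp p (JZero N)) :=
    isNoetherian_of_isNoetherianRing_of_finite O _
  haveI hLfin : Module.Finite O ↥(lat N p c) := Module.IsNoetherian.finite O _
  have h1 := LinearMap.finrank_le_finrank_of_injective (inclLat_injective N p T' f' hf c)
  refine h1.trans ?_
  by_cases hbot : lat N p c = ⊥
  · rw [hbot, finrank_bot]
    omega
  · rw [finrank_eigenLattice_eq_two N p c hbot]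

include hf in
/-- **the second clause of `hpiece` of `Rep.halfBound_rep_self` on `Λ = O ⊗ T'` from the same
statement on the eigenlattice `lat N p c` of `O ⊗ Tp p (JZero N)`** (for instance helper11's
`G/PieceP.exists_ne_cycChar_of_stable`), in the literal of `hpiece` -/
theorem exists_ne_of_lat (W : Set (GQ × O)) (c : Nat.Primes → O)
    (ρ : GQ →* Module.End O (O ⊗[ℤ_[p]] ↥T'))
    (hρ : ∀ (g : GQ) (v : O ⊗[ℤ_[p]] ↥T'),
      incl O T' (ρ g v) = Assembly.rhoV p O (JZero N) g (incl O T' v))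
    (hV : ∀ SV : Submodule O (O ⊗[ℤ_[p]] Tp p (JZero N)), SV ≤ lat N p c →
      (∀ g : GQ, ∀ y ∈ SV, Assembly.rhoV p O (JZero N) g y ∈ SV) → SV ≠ ⊥ →
      ∃ w ∈ W, ∃ y ∈ SV, Assembly.rhoV p O (JZero N) w.1 y ≠ w.2 • y) :
    ∀ S : Submodule O (O ⊗[ℤ_[p]] ↥T'),
      S ≤ eigen (𝔸 := O) (fun r => (f' r).baseChange O) c →
      (∀ g, ∀ x ∈ S, ρ g x ∈ S) → S ≠ ⊥ → ∃ w ∈ W, ∃ x ∈ S, ρ w.1 x ≠ w.2 • x :=
  fun S hS hst hne =>
    exists_ne_of_eigenLattice O T' W f' (fun r => Tp.mapEnd (heckeEnd N r)) hf c (fun g => ρ g) hρ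
      hV S hS hst hne

end X0

end Fermat.Agent.S15.Struct.EigenIncl
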