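/-
PROJECT M (S15), block [S], leaf (S-g)-FIN (helper21): FROM THE LATTICE COUNT TO THE FINITE LEVELS.
Mathlib only.

`Z` a commutative ring (think `ℤ_[P]`), `O` a commutative `Z`-algebra with a FINITE `Z`-basis `b`
(think the ring of integers of a finite extension), `T` a `Z`-module (think the Eisenstein part of
the Tate module), `lev : T →+ A` a surjection with kernel `π T` (think `T → T / P ^ k T = Gk`).
For a family of `Z`-linear operators `f i` of `T` (think `ρ s - 1`, `s ∈ I_N`, or `ρ τ - cyc τ`,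
`τ ∈ I_P`) and ANY surjection `q : O ⊗[Z] T →+ Q` with kernel `π (O ⊗ T)`,

* `card_eq_pow` : `#{x ∈ Q | all (1 ⊗ f i) kill x} = #{y ∈ A | all f i kill y} ^ #ι` and
  `#Q = #A ^ #ι`;
* `sq_le_of_pow` : the `#ι`-th root of a half bound;
* `half_of_tensor` : a half bound `#ker ^ 2 ≤ C * #Q k` for `O ⊗ T` at all levels gives the half
  bound `#ker ^ 2 ≤ C * #A k` for `T` at all levels, with the SAME constant.
-/
import Mathlib

set_option autoImplicit false
set_option linter.unusedSectionVars false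

namespace Fermat.Agent.S15.Struct.FinLevel

open Function TensorProduct

/-! ### Part 1: two surjections with the same kernel -/

section Quot

variable {X Q₁ Q₂ : Type*} [AddCommGroup X] [AddCommGroup Q₁] [AddCommGroup Q₂]

/-- Two surjections with the same kernel have isomorphic targets, compatibly. -/
theorem exists_equiv_of_ker (q₁ : X →+ Q₁) (q₂ : X →+ Q₂) (h₁ : Surjective q₁)
    (h₂ : Surjective q₂) (hker : ∀ x, q₁ x = 0 ↔ q₂ x = 0) :
    ∃ ε : Q₁ ≃+ Q₂, ∀ x, ε (q₁ x) = q₂ x := by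
  have hk : q₁.ker = q₂.ker := by
    ext x
    rw [AddMonoidHom.mem_ker, AddMonoidHom.mem_ker]
    exact hker x
  let e₁ := QuotientAddGroup.quotientKerEquivOfSurjective q₁ h₁
  let e₂ := QuotientAddGroup.quotientKerEquivOfSurjective q₂ h₂
  let e₀ := QuotientAddGroup.quotientAddEquivOfEq hk
  refine ⟨(e₁.symm.trans e₀).trans e₂, fun x => ?_⟩
  have h1 : e₁.symm (q₁ x) = (x : X ⧸ q₁.ker) := by
    rw [AddEquiv.symm_apply_eq]
    rfl
  rw [AddEquiv.trans_apply, AddEquiv.trans_apply, h1]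
  rfl

/-- Counting along two surjections with the same kernel. -/
theorem card_eq_of_ker (q₁ : X →+ Q₁) (q₂ : X →+ Q₂) (h₁ : Surjective q₁)
    (h₂ : Surjective q₂) (hker : ∀ x, q₁ x = 0 ↔ q₂ x = 0) (p₁ : Q₁ → Prop) (p₂ : Q₂ → Prop)
    (hp : ∀ x, p₁ (q₁ x) ↔ p₂ (q₂ x)) :
    Nat.card {x // p₁ x} = Nat.card {y // p₂ y} ∧ Nat.card Q₁ = Nat.card Q₂ := by
  obtain ⟨ε, hε⟩ := exists_equiv_of_ker q₁ q₂ h₁ h₂ hker
  refine ⟨Nat.card_congr (ε.toEquiv.subtypeEquiv fun x => ?_), Nat.card_congr ε.toEquiv⟩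
  obtain ⟨x, rfl⟩ := h₁ x
  rw [AddEquiv.toEquiv_eq_coe, AddEquiv.coe_toEquiv, hε]
  exact hp x

end Quot

/-! ### Part 2: the `d`-th root of a half bound -/

/-- `(x ^ d) ^ 2 ≤ C * y ^ d` with `0 < d`, `0 < x` gives `x ^ 2 ≤ C * y`. -/
theorem sq_le_of_pow {x y C d : ℕ} (hd : 0 < d) (hx : 0 < x)
    (h : (x ^ d) ^ 2 ≤ C * y ^ d) : x ^ 2 ≤ C * y := by
  by_contra hlt
  rw [not_le] at hlt
  have hC : 0 < C := by
    rcases Nat.eq_zero_or_pos C with h0 | h0
    · rw [h0, zero_mul] at h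
      have : 0 < (x ^ d) ^ 2 := pow_pos (pow_pos hx d) 2
      omega
    · exact h0
  have h1 : (C * y) ^ d < (x ^ 2) ^ d := Nat.pow_lt_pow_left hlt (Nat.pos_iff_ne_zero.1 hd)
  have h2 : C * y ^ d ≤ (C * y) ^ d := by
    rw [mul_pow]
    exact Nat.mul_le_mul_right _ (Nat.le_self_pow (Nat.pos_iff_ne_zero.1 hd) C)
  have h3 : (x ^ 2) ^ d = (x ^ d) ^ 2 := by rw [← pow_mul, ← pow_mul, mul_comm]
  rw [h3] at h1
  exact absurd (h.trans h2) (not_le.2 h1)

/-! ### Part 3: `O ⊗ T` modulo `π` in coordinates -/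

section Tensor

variable {Z O : Type*} [CommRing Z] [CommRing O] [Algebra Z O] {ι : Type*} [Fintype ι]
  [DecidableEq ι] {T : Type*} [AddCommGroup T] [Module Z T] {A : Type*} [AddCommGroup A]

section Coord

variable (b : Module.Basis ι Z O) (lev : T →+ A)

/-- The coordinates of `O ⊗ T` in the basis `b`, pushed to the level `A`. -/
noncomputable def coordLev : O ⊗[Z] T →+ (ι → A) where
  toFun x i := lev (TensorProduct.equivFinsuppOfBasisLeft b x i)
  map_zero' := by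
    funext i
    simp
  map_add' x y := by
    funext i
    simp

lemma coordLev_apply (x : O ⊗[Z] T) (i : ι) :
    coordLev b lev x i = lev (TensorProduct.equivFinsuppOfBasisLeft b x i) := rfl

lemma coordLev_tmul (o : O) (t : T) (i : ι) : coordLev b lev (o ⊗ₜ t) i = lev (b.repr o i • t) := by
  rw [coordLev_apply, TensorProduct.equivFinsuppOfBasisLeft_apply_tmul_apply]

theorem coordLev_surjective (hlev : Surjective lev) : Surjective (coordLev b lev) := by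
  intro y
  choose t ht using fun i => hlev (y i)
  refine ⟨(TensorProduct.equivFinsuppOfBasisLeft b).symm (Finsupp.equivFunOnFinite.symm t), ?_⟩
  funext i
  rw [coordLev_apply, LinearEquiv.apply_symm_apply, Finsupp.equivFunOnFinite_symm_apply_apply, ht]

/-- The kernel of `coordLev` is `π (O ⊗ T)` when the kernel of `lev` is `π T`. -/
theorem coordLev_eq_zero_iff {π : Z} (hker : ∀ t, lev t = 0 ↔ ∃ s, π • s = t) (x : O ⊗[Z] T) :
    coordLev b lev x = 0 ↔ ∃ y : O ⊗[Z] T, algebraMap Z O π • y = x := by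
  constructor
  · intro h
    have h1 : ∀ i, ∃ s, π • s = TensorProduct.equivFinsuppOfBasisLeft b x i := fun i =>
      (hker _).1 (congrFun h i)
    choose s hs using h1
    refine ⟨(TensorProduct.equivFinsuppOfBasisLeft b).symm (Finsupp.equivFunOnFinite.symm s), ?_⟩
    rw [algebraMap_smul, ← map_smul, LinearEquiv.symm_apply_eq]
    ext i
    rw [Finsupp.smul_apply, Finsupp.equivFunOnFinite_symm_apply_apply, hs]
  · rintro ⟨y, rfl⟩
    funext i
    rw [coordLev_apply, algebraMap_smul, map_smul, Finsupp.smul_apply, Pi.zero_apply]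
    exact (hker _).2 ⟨_, rfl⟩

/-- A `Z`-linear operator of `T` acts on `O ⊗ T` coordinatewise. -/
theorem equiv_apply_of_tmul (f : T →ₗ[Z] T) (F : O ⊗[Z] T →+ O ⊗[Z] T)
    (hF : ∀ o t, F (o ⊗ₜ t) = o ⊗ₜ f t) (x : O ⊗[Z] T) (i : ι) :
    TensorProduct.equivFinsuppOfBasisLeft b (F x) i =
      f (TensorProduct.equivFinsuppOfBasisLeft b x i) := by
  induction x using TensorProduct.induction_on with
  | zero => simp
  | tmul o t =>
    rw [hF, TensorProduct.equivFinsuppOfBasisLeft_apply_tmul_apply,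
      TensorProduct.equivFinsuppOfBasisLeft_apply_tmul_apply, map_smul]
  | add x y hx hy =>
    rw [map_add F, map_add, Finsupp.add_apply, hx, hy,
      map_add (TensorProduct.equivFinsuppOfBasisLeft b), Finsupp.add_apply, map_add f]

end Coord

/-- **One level.**  `Q` is any model of `(O ⊗ T) / π`, `A` any model of `T / π`. -/
theorem card_eq_pow (b : Module.Basis ι Z O) (lev : T →+ A) {π : Z} (hlev : Surjective lev) (hker : ∀ t, lev t = 0 ↔ ∃ s, π • s = t)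
    {I : Type*} (f : I → T →ₗ[Z] T) (F : I → O ⊗[Z] T →+ O ⊗[Z] T)
    (hF : ∀ i o t, F i (o ⊗ₜ t) = o ⊗ₜ f i t) {Q : Type*} [AddCommGroup Q] (q : O ⊗[Z] T →+ Q)
    (hq : Surjective q) (hqker : ∀ x, q x = 0 ↔ ∃ y : O ⊗[Z] T, algebraMap Z O π • y = x)
    (pQ : Q → Prop) (hpQ : ∀ x, pQ (q x) ↔ ∀ i, q (F i x) = 0) (pA : A → Prop)
    (hpA : ∀ t, pA (lev t) ↔ ∀ i, lev (f i t) = 0) :
    Nat.card {x // pQ x} = Nat.card {y // pA y} ^ Fintype.card ι ∧
      Nat.card Q = Nat.card A ^ Fintype.card ι := by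
  have hsame : ∀ x, q x = 0 ↔ coordLev b lev x = 0 := fun x => by
    rw [hqker, coordLev_eq_zero_iff b lev hker]
  have hp : ∀ x, pQ (q x) ↔ (fun y : ι → A => ∀ j, pA (y j)) (coordLev b lev x) := by
    intro x
    rw [hpQ]
    constructor
    · intro h j
      rw [coordLev_apply, hpA]
      intro i
      have h1 := congrFun ((hsame _).1 (h i)) j
      rw [coordLev_apply, equiv_apply_of_tmul b (f i) (F i) (hF i)] at h1
      exact h1
    · intro h i
      rw [hsame]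
      funext j
      have h1 := h j
      rw [coordLev_apply, hpA] at h1
      rw [coordLev_apply, equiv_apply_of_tmul b (f i) (F i) (hF i)]
      exact h1 i
  obtain ⟨h1, h2⟩ := card_eq_of_ker q (coordLev b lev) hq (coordLev_surjective b lev hlev) hsame
    pQ (fun y : ι → A => ∀ j, pA (y j)) hp
  refine ⟨?_, ?_⟩
  · rw [h1, Nat.card_congr (Equiv.subtypePiEquivPi (p := fun _ : ι => pA)), Nat.card_pi,
      Finset.prod_const, Finset.card_univ]
  · rw [h2, Nat.card_pi, Finset.prod_const, Finset.card_univ]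

end Tensor

/-! ### Part 4: the half bound at one level, from `O ⊗ T` to `T` -/

section Half

variable {Z O : Type*} [CommRing Z] [CommRing O] [Algebra Z O] {ι : Type*} [Fintype ι]
  [DecidableEq ι] [Nonempty ι] {T : Type*} [AddCommGroup T] [Module Z T] {A : Type*}
  [AddCommGroup A] [Finite A]

/-- **The half bound at one level, operator form.**  The constant does not change. -/
theorem half_of_tensor_ops (b : Module.Basis ι Z O) (lev : T →+ A) {π : Z} (hlev : Surjective lev)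
    (hker : ∀ t, lev t = 0 ↔ ∃ s, π • s = t) {I : Type*} (f : I → T →ₗ[Z] T)
    (F : I → O ⊗[Z] T →+ O ⊗[Z] T) (hF : ∀ i o t, F i (o ⊗ₜ t) = o ⊗ₜ f i t) {Q : Type*}
    [AddCommGroup Q] (q : O ⊗[Z] T →+ Q) (hq : Surjective q)
    (hqker : ∀ x, q x = 0 ↔ ∃ y : O ⊗[Z] T, algebraMap Z O π • y = x) (pQ : Q → Prop)
    (hpQ : ∀ x, pQ (q x) ↔ ∀ i, q (F i x) = 0) (pA : A → Prop)
    (hpA : ∀ t, pA (lev t) ↔ ∀ i, lev (f i t) = 0) {C : ℕ}
    (hC : Nat.card {x // pQ x} ^ 2 ≤ C * Nat.card Q) :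
    Nat.card {y // pA y} ^ 2 ≤ C * Nat.card A := by
  obtain ⟨h1, h2⟩ := card_eq_pow b lev hlev hker f F hF q hq hqker pQ hpQ pA hpA
  rw [h1, h2] at hC
  have h0 : pA 0 := by
    rw [← map_zero lev, hpA]
    intro i
    rw [map_zero, map_zero]
  have : Nonempty {y // pA y} := ⟨⟨0, h0⟩⟩
  exact sq_le_of_pow Fintype.card_pos Nat.card_pos hC

variable {G : Type*}

/-- **The half bound at one level, eigen form**: `W` is a set of pairs `(g, a)`, the kernel is
`{y | ∀ (g, a) ∈ W, g y = a y}`.  `ρΛ g` is `1 ⊗ ρT g`, `sc a` is the action of `a : Z` on the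
level `A`. -/
theorem half_of_tensor (b : Module.Basis ι Z O) (lev : T →+ A) {π : Z} (hlev : Surjective lev)
    (hker : ∀ t, lev t = 0 ↔ ∃ s, π • s = t) (W : Set (G × Z)) (ρT : G → T →ₗ[Z] T)
    (ρA : G → A →+ A) (sc : Z → A →+ A) (hρ : ∀ g t, lev (ρT g t) = ρA g (lev t))
    (hsc : ∀ a t, lev (a • t) = sc a (lev t)) (ρΛ : G → O ⊗[Z] T →+ O ⊗[Z] T)
    (hρΛ : ∀ g o t, ρΛ g (o ⊗ₜ t) = o ⊗ₜ ρT g t) {Q : Type*} [AddCommGroup Q]
    (q : O ⊗[Z] T →+ Q) (hq : Surjective q)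
    (hqker : ∀ x, q x = 0 ↔ ∃ y : O ⊗[Z] T, algebraMap Z O π • y = x) (pQ : Q → Prop)
    (hpQ : ∀ x, pQ (q x) ↔ ∀ w ∈ W, q (ρΛ w.1 x - algebraMap Z O w.2 • x) = 0) {C : ℕ}
    (hC : Nat.card {x // pQ x} ^ 2 ≤ C * Nat.card Q) :
    Nat.card {y : A // ∀ w ∈ W, ρA w.1 y = sc w.2 y} ^ 2 ≤ C * Nat.card A := by
  refine half_of_tensor_ops b lev hlev hker (I := ↥W)
    (fun w => ρT w.1.1 - w.1.2 • LinearMap.id)
    (fun w => ρΛ w.1.1 - DistribSMul.toAddMonoidHom (O ⊗[Z] T) (algebraMap Z O w.1.2))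
    (fun w o t => ?_) q hq hqker pQ (fun x => ?_) _ (fun t => ?_) hC
  · rw [AddMonoidHom.sub_apply, hρΛ, DistribSMul.toAddMonoidHom_apply, algebraMap_smul,
      LinearMap.sub_apply, LinearMap.smul_apply, LinearMap.id_apply, TensorProduct.tmul_sub,
      TensorProduct.tmul_smul]
  · rw [hpQ]
    constructor
    · intro h w
      exact h w.1 w.2
    · intro h w hw
      exact h ⟨w, hw⟩
  · constructor
    · intro h w
      rw [LinearMap.sub_apply, LinearMap.smul_apply, LinearMap.id_apply, map_sub, hρ, hsc,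
        h w.1 w.2, sub_self]
    · intro h w hw
      have h1 := h ⟨w, hw⟩
      rw [LinearMap.sub_apply, LinearMap.smul_apply, LinearMap.id_apply, map_sub, hρ, hsc,
        sub_eq_zero] at h1
      exact h1

/-- **(hinv) at one level**: the invariants of a set `H` of group elements. -/
theorem half_inv (b : Module.Basis ι Z O) (lev : T →+ A) {π : Z} (hlev : Surjective lev)
    (hker : ∀ t, lev t = 0 ↔ ∃ s, π • s = t) (H : Set G) (ρT : G → T →ₗ[Z] T) (ρA : G → A →+ A)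
    (hρ : ∀ g t, lev (ρT g t) = ρA g (lev t)) (ρΛ : G → O ⊗[Z] T →+ O ⊗[Z] T)
    (hρΛ : ∀ g o t, ρΛ g (o ⊗ₜ t) = o ⊗ₜ ρT g t) {Q : Type*} [AddCommGroup Q]
    (q : O ⊗[Z] T →+ Q) (hq : Surjective q)
    (hqker : ∀ x, q x = 0 ↔ ∃ y : O ⊗[Z] T, algebraMap Z O π • y = x) (pQ : Q → Prop)
    (hpQ : ∀ x, pQ (q x) ↔ ∀ s ∈ H, q (ρΛ s x - x) = 0) {C : ℕ}
    (hC : Nat.card {x // pQ x} ^ 2 ≤ C * Nat.card Q) :
    Nat.card {y : A // ∀ s ∈ H, ρA s y = y} ^ 2 ≤ C * Nat.card A := by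
  refine half_of_tensor_ops b lev hlev hker (I := ↥H) (fun s => ρT s.1 - LinearMap.id)
    (fun s => ρΛ s.1 - AddMonoidHom.id _) (fun s o t => ?_) q hq hqker pQ (fun x => ?_) _
    (fun t => ?_) hC
  · rw [AddMonoidHom.sub_apply, hρΛ, AddMonoidHom.id_apply, LinearMap.sub_apply,
      LinearMap.id_apply, TensorProduct.tmul_sub]
  · rw [hpQ]
    constructor
    · intro h s
      exact h s.1 s.2
    · intro h s hs
      exact h ⟨s, hs⟩
  · constructor
    · intro h s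
      rw [LinearMap.sub_apply, LinearMap.id_apply, map_sub, hρ, h s.1 s.2, sub_self]
    · intro h s hs
      have h1 := h ⟨s, hs⟩
      rw [LinearMap.sub_apply, LinearMap.id_apply, map_sub, hρ, sub_eq_zero] at h1
      exact h1

/-- **(hhalf) at one level**: a subgroup `A0` on which `H` acts through the character `c`. -/
theorem half_sub (b : Module.Basis ι Z O) (lev : T →+ A) {π : Z} (hlev : Surjective lev)
    (hker : ∀ t, lev t = 0 ↔ ∃ s, π • s = t) (H : Set G) (c : G → Z) (ρT : G → T →ₗ[Z] T)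
    (ρA : G → A →+ A) (sc : Z → A →+ A) (hρ : ∀ g t, lev (ρT g t) = ρA g (lev t))
    (hsc : ∀ a t, lev (a • t) = sc a (lev t)) (ρΛ : G → O ⊗[Z] T →+ O ⊗[Z] T)
    (hρΛ : ∀ g o t, ρΛ g (o ⊗ₜ t) = o ⊗ₜ ρT g t) {Q : Type*} [AddCommGroup Q]
    (q : O ⊗[Z] T →+ Q) (hq : Surjective q)
    (hqker : ∀ x, q x = 0 ↔ ∃ y : O ⊗[Z] T, algebraMap Z O π • y = x) (pQ : Q → Prop)
    (hpQ : ∀ x, pQ (q x) ↔ ∀ s ∈ H, q (ρΛ s x - algebraMap Z O (c s) • x) = 0) {C : ℕ}
    (hC : Nat.card {x // pQ x} ^ 2 ≤ C * Nat.card Q) (A0 : AddSubgroup A)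
    (hA0 : ∀ s ∈ H, ∀ y ∈ A0, ρA s y = sc (c s) y) :
    Nat.card ↥A0 ^ 2 ≤ C * Nat.card A := by
  have h1 := half_of_tensor b lev hlev hker {w : G × Z | w.1 ∈ H ∧ w.2 = c w.1} ρT ρA sc hρ hsc
    ρΛ hρΛ q hq hqker pQ (fun x => ?_) hC
  · refine le_trans (Nat.pow_le_pow_left ?_ 2) h1
    refine Nat.card_le_card_of_injective
      (fun y : ↥A0 => (⟨y.1, fun w hw => ?_⟩ :
        {y : A // ∀ w ∈ {w : G × Z | w.1 ∈ H ∧ w.2 = c w.1}, ρA w.1 y = sc w.2 y})) ?_
    · rw [hw.2]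
      exact hA0 w.1 hw.1 y.1 y.2
    · intro y y' h
      have h2 : y.1 = y'.1 := congrArg (fun z => z.1) h
      exact Subtype.ext h2
  · rw [hpQ]
    constructor
    · intro h w hw
      rw [hw.2]
      exact h w.1 hw.1
    · intro h s hs
      exact h (s, c s) ⟨hs, rfl⟩

end Half

/-! ### Part 5: the same without a chosen basis -/

section Free

variable {Z O : Type*} [CommRing Z] [CommRing O] [Algebra Z O] [Module.Free Z O]
  [Module.Finite Z O] [Nontrivial O] {T : Type*} [AddCommGroup T] [Module Z T] {A : Type*}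
  [AddCommGroup A] [Finite A] {G : Type*}

/-- `half_of_tensor` for a finite free nonzero `Z`-algebra `O`. -/
theorem half_of_tensor_free (lev : T →+ A) {π : Z} (hlev : Surjective lev)
    (hker : ∀ t, lev t = 0 ↔ ∃ s, π • s = t) (W : Set (G × Z)) (ρT : G → T →ₗ[Z] T)
    (ρA : G → A →+ A) (sc : Z → A →+ A) (hρ : ∀ g t, lev (ρT g t) = ρA g (lev t))
    (hsc : ∀ a t, lev (a • t) = sc a (lev t)) (ρΛ : G → O ⊗[Z] T →+ O ⊗[Z] T)
    (hρΛ : ∀ g o t, ρΛ g (o ⊗ₜ t) = o ⊗ₜ ρT g t) {Q : Type*} [AddCommGroup Q]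
    (q : O ⊗[Z] T →+ Q) (hq : Surjective q)
    (hqker : ∀ x, q x = 0 ↔ ∃ y : O ⊗[Z] T, algebraMap Z O π • y = x) (pQ : Q → Prop)
    (hpQ : ∀ x, pQ (q x) ↔ ∀ w ∈ W, q (ρΛ w.1 x - algebraMap Z O w.2 • x) = 0) {C : ℕ}
    (hC : Nat.card {x // pQ x} ^ 2 ≤ C * Nat.card Q) :
    Nat.card {y : A // ∀ w ∈ W, ρA w.1 y = sc w.2 y} ^ 2 ≤ C * Nat.card A := by
  classical
  have : Nonempty (Module.Free.ChooseBasisIndex Z O) :=
    (Module.Free.chooseBasis Z O).index_nonempty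
  exact half_of_tensor (Module.Free.chooseBasis Z O) lev hlev hker W ρT ρA sc hρ hsc ρΛ hρΛ q hq
    hqker pQ hpQ hC

/-- `half_inv` for a finite free nonzero `Z`-algebra `O`. -/
theorem half_inv_free (lev : T →+ A) {π : Z} (hlev : Surjective lev)
    (hker : ∀ t, lev t = 0 ↔ ∃ s, π • s = t) (H : Set G) (ρT : G → T →ₗ[Z] T) (ρA : G → A →+ A)
    (hρ : ∀ g t, lev (ρT g t) = ρA g (lev t)) (ρΛ : G → O ⊗[Z] T →+ O ⊗[Z] T)
    (hρΛ : ∀ g o t, ρΛ g (o ⊗ₜ t) = o ⊗ₜ ρT g t) {Q : Type*} [AddCommGroup Q]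
    (q : O ⊗[Z] T →+ Q) (hq : Surjective q)
    (hqker : ∀ x, q x = 0 ↔ ∃ y : O ⊗[Z] T, algebraMap Z O π • y = x) (pQ : Q → Prop)
    (hpQ : ∀ x, pQ (q x) ↔ ∀ s ∈ H, q (ρΛ s x - x) = 0) {C : ℕ}
    (hC : Nat.card {x // pQ x} ^ 2 ≤ C * Nat.card Q) :
    Nat.card {y : A // ∀ s ∈ H, ρA s y = y} ^ 2 ≤ C * Nat.card A := by
  classical
  have : Nonempty (Module.Free.ChooseBasisIndex Z O) :=
    (Module.Free.chooseBasis Z O).index_nonempty
  exact half_inv (Module.Free.chooseBasis Z O) lev hlev hker H ρT ρA hρ ρΛ hρΛ q hq hqker pQ hpQ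
    hC

/-- `half_sub` for a finite free nonzero `Z`-algebra `O`. -/
theorem half_sub_free (lev : T →+ A) {π : Z} (hlev : Surjective lev)
    (hker : ∀ t, lev t = 0 ↔ ∃ s, π • s = t) (H : Set G) (c : G → Z) (ρT : G → T →ₗ[Z] T)
    (ρA : G → A →+ A) (sc : Z → A →+ A) (hρ : ∀ g t, lev (ρT g t) = ρA g (lev t))
    (hsc : ∀ a t, lev (a • t) = sc a (lev t)) (ρΛ : G → O ⊗[Z] T →+ O ⊗[Z] T)
    (hρΛ : ∀ g o t, ρΛ g (o ⊗ₜ t) = o ⊗ₜ ρT g t) {Q : Type*} [AddCommGroup Q]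
    (q : O ⊗[Z] T →+ Q) (hq : Surjective q)
    (hqker : ∀ x, q x = 0 ↔ ∃ y : O ⊗[Z] T, algebraMap Z O π • y = x) (pQ : Q → Prop)
    (hpQ : ∀ x, pQ (q x) ↔ ∀ s ∈ H, q (ρΛ s x - algebraMap Z O (c s) • x) = 0) {C : ℕ}
    (hC : Nat.card {x // pQ x} ^ 2 ≤ C * Nat.card Q) (A0 : AddSubgroup A)
    (hA0 : ∀ s ∈ H, ∀ y ∈ A0, ρA s y = sc (c s) y) :
    Nat.card ↥A0 ^ 2 ≤ C * Nat.card A := by
  classical
  have : Nonempty (Module.Free.ChooseBasisIndex Z O) :=
    (Module.Free.chooseBasis Z O).index_nonempty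
  exact half_sub (Module.Free.chooseBasis Z O) lev hlev hker H c ρT ρA sc hρ hsc ρΛ hρΛ q hq hqker
    pQ hpQ hC A0 hA0

end Free

end Fermat.Agent.S15.Struct.FinLevel
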