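import Fermat.Agent.S15.Struct.EigenRank
import Fermat.Agent.S34.UOfCoreZ
import Fermat.Agent.S34.CoreZX0

/-!
# PROJECT M (S15), block [S], leaf (S-c), concrete half: the eigen-representations `ρ_χ`

Everything from main.  `N` a level, `p` a prime, `O` a local principal ideal domain of
characteristic zero which is a `ℤ_[p]`-algebra with `p` in the maximal ideal,
`c : Nat.Primes → O` a system of eigenvalues of ALL the Hecke operators on
`O ⊗ Tp p (JZero N)` whose eigen-lattice `lat N p c` has rank two (`EigenRank`: automatic as soon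
as it is non-zero).

* `rhoChi`                           : the `GaloisRepAdic O` carried by the eigen-lattice
  (`V = ↥(lat N p c)`, `ρ` = restriction of `Assembly.rhoV`);
* `frobRelation`, `isUnramifiedAt`, `unipotent`, `unipotent_of_dvd` : the Frobenius relation
  outside `Sg`, unramifiedness outside `N p`, `(ρ s - 1)² = 0` on inertia at `q ∥ N`, `q ≠ p`.
-/

set_option autoImplicit false
set_option linter.unusedSectionVars false
set_option linter.style.haveILetI false

noncomputable section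

namespace Fermat.Agent.S15.Struct.RhoChi

open scoped TensorProduct
open CongruenceSubgroup ModularCurve ModularCurve.Period IsLocalRing
open Fermat.Agent.S30.Padic Fermat.Agent.S30.Padic.TateModule
open Fermat.Agent.S30.Padic.EigenLattice
open Fermat.Agent.S30.Final.Chain
open Fermat.Agent.S15.Struct.EigenRank

local notation "GQ" => (AlgebraicClosure ℚ ≃ₐ[ℚ] AlgebraicClosure ℚ)

/-- a unipotent relation passes to the restriction to an eigen-lattice -/
theorem restrictHom_unipotent {R : Type*} [CommRing R] {V : Type*} [AddCommGroup V] [Module R V]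
    {ι : Type*} {t : ι → Module.End R V} {c : ι → R} {G : Type*} [Monoid G]
    {ρV : G →* Module.End R V} {hcomm : ∀ σ i, Commute (ρV σ) (t i)} {σ : G}
    (h : (ρV σ - 1) * (ρV σ - 1) = 0) :
    (restrictHom t c ρV hcomm σ - 1) * (restrictHom t c ρV hcomm σ - 1) = 0 := by
  refine LinearMap.ext fun v => Subtype.ext ?_
  have h1 := LinearMap.congr_fun h (v : V)
  simpa [Module.End.mul_apply] using h1

/-- a relation `(ρ τ - a) (ρ σ - 1) = 0` passes to the restriction to an eigen-lattice -/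
theorem restrictHom_kpid {R : Type*} [CommRing R] {V : Type*} [AddCommGroup V] [Module R V]
    {ι : Type*} {t : ι → Module.End R V} {c : ι → R} {G : Type*} [Monoid G]
    {ρV : G →* Module.End R V} {hcomm : ∀ σ i, Commute (ρV σ) (t i)} {σ τ : G} {a : R}
    (h : ∀ v ∈ eigenLattice t c, ρV τ (ρV σ v - v) = a • (ρV σ v - v)) :
    (restrictHom t c ρV hcomm τ - a • 1) * (restrictHom t c ρV hcomm σ - 1) = 0 := by
  refine LinearMap.ext fun v => Subtype.ext ?_
  have h1 := h (v : V) v.2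
  simpa [Module.End.mul_apply, sub_eq_zero] using h1

/-- generic form of (U) on the Tate module: `(s - 1)² = 0` on the `p`-power torsion of `J` gives
`(rhoV s - 1)² = 0` on `R ⊗ Tp p J` -/
theorem rhoV_unipotent_gen (p : ℕ) [Fact p.Prime] (R : Type*) [CommRing R] [Algebra ℤ_[p] R]
    {J : Type*} [AddCommGroup J] {G : Type*} [Group G] [DistribMulAction G J] (s : G)
    (h : ∀ y : J, (∃ n : ℕ, p ^ n • y = 0) → s • (s • y) + y = 2 • (s • y)) :
    (Assembly.rhoV p R J s - 1) * (Assembly.rhoV p R J s - 1) = 0 := by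
  have h1 : Assembly.opVHom p R J
      ((DistribMulAction.toAddMonoidEnd G J s - 1) *
        (DistribMulAction.toAddMonoidEnd G J s - 1)) = 0 := by
    apply Assembly.opVHom_eq_zero
    intro y hy
    change s • (s • y - y) - (s • y - y) = 0
    have h0 := h y hy
    rw [smul_sub, sub_sub_sub_eq, h0, two_nsmul]
    abel
  rw [map_mul, map_sub, map_one] at h1
  exact h1

/-! ### Transfer of (KP-id) from finite levels to the Tate module -/

section KPid

variable (p : ℕ) [Fact p.Prime] {J : Type*} [AddCommGroup J] {G : Type*} [Group G]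
  [DistribMulAction G J]

/-- the sub-`ℤ_[p]`-module of the Tate module of the sequences with `k`-th component in `A k` -/
def TpOf (A : ℕ → AddSubgroup J) : Submodule ℤ_[p] (Tp p J) where
  carrier := {x | ∀ k, x.1 k ∈ A k}
  add_mem' := fun hx hy k => (A k).add_mem (hx k) (hy k)
  zero_mem' := fun k => (A k).zero_mem
  smul_mem' := fun a x hx k => by
    rw [Tp.coe_smul_apply]
    exact (A k).nsmul_mem (hx k) _

theorem mem_TpOf {A : ℕ → AddSubgroup J} {x : Tp p J} : x ∈ TpOf p A ↔ ∀ k, x.1 k ∈ A k :=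
  Iff.rfl

/-- **(KP-id) on the Tate module**: if at every level `k` the relation
`τ (σ y - y) = m_k (σ y - y)` holds on `A k`, with `m_k ≡ a mod p ^ k`, then
`τ (σ x - x) = a (σ x - x)` on the sequences with components in the `A k` -/
theorem kpid_Tp (A : ℕ → AddSubgroup J) (σ τ : G) (a : ℤ_[p])
    (h : ∀ k : ℕ, ∃ m : ℕ, a.appr k ≡ m [MOD p ^ k] ∧
      ∀ y ∈ A k, p ^ k • y = 0 → τ • (σ • y - y) = m • (σ • y - y))
    {x : Tp p J} (hx : x ∈ TpOf p A) :
    Tp.galoisHom G τ (Tp.galoisHom G σ x - x) = a • (Tp.galoisHom G σ x - x) := by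
  apply Tp.ext
  intro k
  obtain ⟨m, hm, hk⟩ := h k
  rw [Tp.coe_galoisHom_apply, Tp.coe_smul_apply_of_modEq a _ k hm, Tp.coe_sub_apply,
    Tp.coe_galoisHom_apply]
  exact hk _ (hx k) (Tp.pow_smul_apply x k)

/-- the image of `R ⊗ TpOf A` in `R ⊗ Tp` -/
def tensorOf (R : Type*) [CommRing R] [Algebra ℤ_[p] R] (A : ℕ → AddSubgroup J) :
    Submodule R (R ⊗[ℤ_[p]] Tp p J) :=
  Submodule.span R {v | ∃ x ∈ TpOf p A, v = (1 : R) ⊗ₜ[ℤ_[p]] x}

/-- **(KP-id) on `R ⊗ Tp`**, on the span of the sequences with components in the `A k` -/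
theorem kpid_tensor (R : Type*) [CommRing R] [Algebra ℤ_[p] R] (A : ℕ → AddSubgroup J)
    (σ τ : G) (a : ℤ_[p])
    (h : ∀ k : ℕ, ∃ m : ℕ, a.appr k ≡ m [MOD p ^ k] ∧
      ∀ y ∈ A k, p ^ k • y = 0 → τ • (σ • y - y) = m • (σ • y - y))
    {v : R ⊗[ℤ_[p]] Tp p J} (hv : v ∈ tensorOf p R A) :
    Assembly.rhoV p R J τ (Assembly.rhoV p R J σ v - v) =
      algebraMap ℤ_[p] R a • (Assembly.rhoV p R J σ v - v) := by
  induction hv using Submodule.span_induction with
  | mem v hv =>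
    obtain ⟨x, hx, rfl⟩ := hv
    rw [Assembly.rhoV_tmul, ← TensorProduct.tmul_sub, Assembly.rhoV_tmul, kpid_Tp p A σ τ a h hx,
      TensorProduct.tmul_smul, algebraMap_smul]
  | zero => simp
  | add v w _ _ hv hw =>
    rw [map_add, add_sub_add_comm, map_add, hv, hw, smul_add]
  | smul r v _ hv =>
    have e1 : r • Assembly.rhoV p R J σ v - r • v = r • (Assembly.rhoV p R J σ v - v) :=
      (smul_sub r _ _).symm
    rw [map_smul, e1, map_smul, hv, smul_comm]

end KPid

variable (N : ℕ) [NeZero N] (p : ℕ) [Fact p.Prime]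
variable {O : Type} [CommRing O] [IsDomain O] [IsPrincipalIdealRing O] [CharZero O]
  [Algebra ℤ_[p] O]

/-! ### The representation `ρ_χ` and its interface -/

section Rho

open Fermat.Agent.S30.Arith Fermat.Agent.S30.Algebra

variable [IsLocalRing O]

theorem tp_finite : Module.Finite ℤ_[p] (Tp p (JZero N)) := Tp.finite_of_finite (finite_torsion N p)

theorem tp_free : Module.Free ℤ_[p] (Tp p (JZero N)) := Tp.free_of_finite (finite_torsion N p)

/-- open stabilisers on `J₀(N)[pⁿ]` -/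
theorem openStab (n : ℕ) :
    ∃ L : IntermediateField ℚ (AlgebraicClosure ℚ), FiniteDimensional ℚ L ∧
      ∀ σ : GQ, (∀ x ∈ L, σ x = x) → ∀ y : JZero N, p ^ n • y = 0 → σ • y = y :=
  Smooth.exists_finite_fixing_torsion N (p ^ n) (finite_torsion_pow p (finite_torsion N p) n)

/-- the Galois action commutes with the Hecke operators on `O ⊗ Tp p (JZero N)` -/
theorem commute_rhoV_heckeV (σ : GQ) (r : Nat.Primes) :
    Commute (Assembly.rhoV p O (JZero N) σ) (heckeV (O := O) N p r) :=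
  Assembly.commute_rhoV_opVHom p O σ (heckeEnd N r)
    (fun y => HeckeGalois.heckeOperatorBar_smul N r σ y)

/-- **`ρ_χ`**: the Galois representation on the eigen-lattice of the eigen-system `c`. -/
def rhoChi (hpO : (p : O) ∈ maximalIdeal O) (c : Nat.Primes → O)
    (h2 : Module.finrank O (lat N p c) = 2) : GaloisRepAdic O :=
  haveI := tp_finite N p
  haveI := tp_free N p
  galoisRep (fun r : Nat.Primes => heckeV (O := O) N p r) c (Assembly.rhoV p O (JZero N))
    (fun σ r => commute_rhoV_heckeV N p σ r)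
    (Assembly.isAdicContinuous_rhoV p hpO (openStab N p)) h2

variable {N p}
variable {hpO : (p : O) ∈ maximalIdeal O} {c : Nat.Primes → O}
  {h2 : Module.finrank O (lat N p c) = 2}

theorem rhoChi_V : (rhoChi N p hpO c h2).V = ↥(lat N p c) := rfl

/-- the action of `ρ_χ` is the restriction of the action on `O ⊗ Tp p (JZero N)` -/
theorem rhoChi_apply (σ : GQ) (v : lat N p c) :
    ((show ↥(lat N p c) from (rhoChi N p hpO c h2).ρ σ v) : O ⊗[ℤ_[p]] Tp p (JZero N)) =
      Assembly.rhoV p O (JZero N) σ (v : O ⊗[ℤ_[p]] Tp p (JZero N)) := rfl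

/-- an operator identity on `O ⊗ Tp` between polynomials in one `ρ(σ)` passes to `ρ_χ`:
ext-lemma in the form used below -/
theorem rhoChi_ext {f g : Module.End O (rhoChi N p hpO c h2).V}
    (h : ∀ v : lat N p c, ((show ↥(lat N p c) from f v) : O ⊗[ℤ_[p]] Tp p (JZero N)) =
      ((show ↥(lat N p c) from g v) : O ⊗[ℤ_[p]] Tp p (JZero N))) : f = g :=
  LinearMap.ext fun v => Subtype.ext (h v)

/-- the eigenvalues as a function on `ℕ` (junk `0` at non-primes), the shape of
`DetGalois.FrobRelation` -/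
def aOf (c : Nat.Primes → O) : ℕ → O := fun ℓ => if h : ℓ.Prime then c ⟨ℓ, h⟩ else 0

theorem aOf_prime (c : Nat.Primes → O) {ℓ : ℕ} (hℓ : ℓ.Prime) : aOf c ℓ = c ⟨ℓ, hℓ⟩ :=
  dif_pos hℓ

/-- **the Frobenius relation** `ρ_χ(τ)² - c_ℓ ρ_χ(τ) + ℓ = 0` at the Frobenius lifts at the primes
`ℓ ∉ Sg`, `Sg ∋ p` containing the primes dividing `N` -/
theorem frobRelation (Sg : Finset ℕ) (hpS : p ∈ Sg)
    (hNS : ∀ q : ℕ, q.Prime → q ∣ N → q ∈ Sg) :
    DetGalois.FrobRelation (rhoChi N p hpO c h2) Sg (aOf c) := by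
  have hp : p.Prime := Fact.out
  have H1 := Fermat.Agent.S30.Final.H1.hasReductionAll N p
  intro ℓ hℓ hℓS A hA σ hσ
  have hℓp : ℓ ≠ p := fun h => hℓS (h ▸ hpS)
  have hℓN : ¬ ℓ ∣ N := fun hd => hℓS (hNS ℓ hℓ hd)
  have hV : ∀ v : O ⊗[ℤ_[p]] Tp p (JZero N),
      Assembly.rhoV p O (JZero N) σ (Assembly.rhoV p O (JZero N) σ v) -
        heckeV (O := O) N p ⟨ℓ, hℓ⟩ (Assembly.rhoV p O (JZero N) σ v) + (((ℓ : ℤ) : ℤ) : O) • v = 0 :=
    Assembly.rhoV_quadratic p O σ (heckeEnd N ⟨ℓ, hℓ⟩) (ℓ : ℤ) (fun y hy => by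
      rw [natCast_zsmul]
      exact Torsion.frobenius_relation H1 hp hℓ hℓN hℓp A hA hσ hy)
  have h := restrictHom_quadratic (t := fun r : Nat.Primes => heckeV (O := O) N p r) (c := c)
    (ρV := Assembly.rhoV p O (JZero N)) (hcomm := fun σ r => commute_rhoV_heckeV N p σ r)
    (σ := σ) ⟨ℓ, hℓ⟩ (((ℓ : ℤ) : ℤ) : O) hV
  have key : ∀ a b : O, a = c ⟨ℓ, hℓ⟩ → b = (((ℓ : ℤ) : ℤ) : O) →
      (rhoChi N p hpO c h2).ρ σ * (rhoChi N p hpO c h2).ρ σ - a • (rhoChi N p hpO c h2).ρ σ +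
        b • (1 : Module.End O (rhoChi N p hpO c h2).V) = 0 := by
    rintro a b rfl rfl
    exact h
  exact key _ _ (aOf_prime c hℓ) (Int.cast_natCast ℓ).symm

/-- **`ρ_χ` is unramified outside `N p`** -/
theorem isUnramifiedAt {q : ℕ} (hq : q.Prime) (hqN : ¬ q ∣ N) (hqp : q ≠ p) :
    (rhoChi N p hpO c h2).IsUnramifiedAt q := by
  have hp : p.Prime := Fact.out
  have H1 := Fermat.Agent.S30.Final.H1.hasReductionAll N p
  haveI := tp_finite N p
  haveI := tp_free N p
  exact galoisRep_isUnramifiedAt (fun P hP σ hσ =>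
    Assembly.rhoV_eq_one p O σ fun y hy => Torsion.inertia_trivial H1 hp hq hqN hqp P hP hσ hy)

/-- `(s - 1)² = 0` on `O ⊗ Tp p (JZero N)` for `s` in an inertia group at `q`, from `(U)` -/
theorem rhoV_unipotent {q : ℕ} (hU : Fermat.Agent.S34.UHyp.UHyp N p q)
    (A : ValuationSubring (AlgebraicClosure ℚ)) (hA : A.LiesOverPrime q) (s : GQ)
    (hs : s ∈ A.inertiaSubgroupIn ℚ) :
    (Assembly.rhoV p O (JZero N) s - 1) * (Assembly.rhoV p O (JZero N) s - 1) = 0 :=
  rhoV_unipotent_gen p O s (fun y hy => hU A hA s hs y hy)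

/-- **(U) on `ρ_χ`**: `(ρ_χ(s) - 1)² = 0` for `s` in an inertia group at `q` -/
theorem unipotent {q : ℕ} (hU : Fermat.Agent.S34.UHyp.UHyp N p q)
    (A : ValuationSubring (AlgebraicClosure ℚ)) (hA : A.LiesOverPrime q) (s : GQ)
    (hs : s ∈ A.inertiaSubgroupIn ℚ) :
    ((rhoChi N p hpO c h2).ρ s - 1) * ((rhoChi N p hpO c h2).ρ s - 1) = 0 :=
  restrictHom_unipotent (t := fun r : Nat.Primes => heckeV (O := O) N p r) (c := c)
    (ρV := Assembly.rhoV p O (JZero N)) (hcomm := fun σ r => commute_rhoV_heckeV N p σ r)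
    (rhoV_unipotent (O := O) hU A hA s hs)

/-- **(U) on `ρ_χ` at a prime `q ∥ N`, `q ≠ p`** (main's S34) -/
theorem unipotent_of_dvd {q : ℕ} (hq : q.Prime) (hqp : q ≠ p) (hqN : q ∣ N) (hq2 : ¬ q ^ 2 ∣ N)
    (A : ValuationSubring (AlgebraicClosure ℚ)) (hA : A.LiesOverPrime q) (s : GQ)
    (hs : s ∈ A.inertiaSubgroupIn ℚ) :
    ((rhoChi N p hpO c h2).ρ s - 1) * ((rhoChi N p hpO c h2).ρ s - 1) = 0 := by
  have hp : p.Prime := Fact.out
  haveI : Fact q.Prime := ⟨hq⟩
  haveI : NeZero q := ⟨hq.ne_zero⟩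
  haveI : NeZero (N / q) :=
    ⟨(Nat.div_pos (Nat.le_of_dvd (Nat.pos_of_ne_zero (NeZero.ne N)) hqN) hq.pos).ne'⟩
  exact unipotent (Fermat.Agent.S34.UOfCoreZ.uHyp_of_coreZHyp hq hp.ne_zero hqN hq2
    (Fermat.Agent.S34.CoreZX0.coreZHyp (N / q) q p hp hqp.symm)) A hA s hs

/-- **(KP-id) on `ρ_χ`**: if at every level `k` the relation `τ (σ y - y) = m_k (σ y - y)` holds on
`A k ≤ J₀(N)`, `m_k ≡ a mod p ^ k`, and the eigen-lattice lies in the span of the sequences with
components in the `A k`, then `(ρ_χ(τ) - a) (ρ_χ(σ) - 1) = 0`. -/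
theorem kpid (A : ℕ → AddSubgroup (JZero N)) (σ τ : GQ) (a : ℤ_[p])
    (h : ∀ k : ℕ, ∃ m : ℕ, a.appr k ≡ m [MOD p ^ k] ∧
      ∀ y ∈ A k, p ^ k • y = 0 → τ • (σ • y - y) = m • (σ • y - y))
    (hlat : lat N p c ≤ tensorOf p O A) :
    ((rhoChi N p hpO c h2).ρ τ - algebraMap ℤ_[p] O a • 1) *
      ((rhoChi N p hpO c h2).ρ σ - 1) = 0 :=
  restrictHom_kpid (t := fun r : Nat.Primes => heckeV (O := O) N p r) (c := c)
    (ρV := Assembly.rhoV p O (JZero N)) (hcomm := fun σ r => commute_rhoV_heckeV N p σ r)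
    (fun _ hv => kpid_tensor p O A σ τ a h (hlat hv))

/-- the same with the cyclotomic character of main: `a = cyc p τ` -/
theorem kpid_cyc (A : ℕ → AddSubgroup (JZero N)) (σ τ : GQ)
    (h : ∀ k : ℕ, ∃ m : ℕ,
      ((Cyclotomic.cyc p τ : ℤ_[p]ˣ) : ℤ_[p]).appr k ≡ m [MOD p ^ k] ∧
      ∀ y ∈ A k, p ^ k • y = 0 → τ • (σ • y - y) = m • (σ • y - y))
    (hlat : lat N p c ≤ tensorOf p O A) :
    ((rhoChi N p hpO c h2).ρ τ - Cyclotomic.cycChar p (algebraMap ℤ_[p] O) τ • 1) *
      ((rhoChi N p hpO c h2).ρ σ - 1) = 0 :=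
  kpid A σ τ _ h hlat

end Rho


end Fermat.Agent.S15.Struct.RhoChi

end
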