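/-
PROJECT M (S15), block [S], TABLE #1 row 11 (helper3): `hKP` FOR `ρ_χ`.

The hypothesis `hKP` of `S15/Struct/Irred` for helper10's `rhoChi N P hpO c h2`:
`(ρ_χ τ - χ_cyc τ) (ρ_χ σ - 1) = 0` for all `σ, τ` in the inertia group at `P`, from `(Q5a)`
(helper16, literal form, as a hypothesis), `K/Ord.inertia_Gk` (through `KPId.kpid_levels`) and
helper10's transfer `RhoChi.kpid_cyc`; `hlat` says that the eigenlattice lies in the Eisenstein part.
-/
import Fermat.Agent.S15.Struct.KPId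
import Fermat.Agent.S15.Struct.RhoChi

set_option autoImplicit false

noncomputable section

namespace Fermat.Agent.S15.Struct.KPIdRho

open AlgebraicCurve ModularCurve TensorProduct IsLocalRing
open Fermat.Agent.S56.Coh Fermat.Agent.CFT.LocalBridge
open Fermat.Agent.S15.K.Star Fermat.Agent.S15.K.Ord
open Fermat.Agent.S15.Struct.TateEis Fermat.Agent.S15.Struct.KPId
open Fermat.Agent.S15.Struct.EigenRank Fermat.Agent.S15.Struct.RhoChi
open Fermat.Agent.S30.Padic.TateModule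
open Fermat.Agent.S30.Algebra.Cyclotomic

variable (N : ℕ) [NeZero N] (P : ℕ) [Fact P.Prime] (S : Set ℕ)
variable {O : Type} [CommRing O] [IsDomain O] [IsPrincipalIdealRing O] [CharZero O]
  [Algebra ℤ_[P] O] [IsLocalRing O]
variable {hpO : (P : O) ∈ maximalIdeal O} {c : Nat.Primes → O}
  {h2 : Module.finrank O (lat N P c) = 2}

/-- **Row 11.** `hKP` of `Irred.no_stable_line` / `Irred.irreducible` for `ρ_χ`. -/
theorem hKP_rhoChi (hPN : ¬ P ∣ N)
    (hQ5a : ∀ k : ℕ, ∀ τ ∈ Iq P, ∀ x ∈ G0red N P k S,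
      (Gk N P k S).ρ τ x = ((((cyc P τ : ℤ_[P]ˣ) : ℤ_[P]).toZModPow k).val : ℕ) • x)
    (hlat : lat N P c ≤ tensorOf P O (fun _ : ℕ => eisAll N S)) :
    ∀ σ ∈ Iq P, ∀ τ ∈ Iq P,
      ((rhoChi N P hpO c h2).ρ τ - cycChar P (algebraMap ℤ_[P] O) τ •
        (1 : Module.End O (rhoChi N P hpO c h2).V)) * ((rhoChi N P hpO c h2).ρ σ - 1) = 0 :=
  fun σ hσ τ hτ =>
    kpid_cyc (fun _ : ℕ => eisAll N S) σ τ (kpid_levels N P S hPN hQ5a σ hσ τ hτ) hlat

/-- The sequences with all components Eisenstein are helper7's `TeisSub`. -/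
theorem TpOf_eisAll : TpOf P (fun _ : ℕ => eisAll N S) = TeisSub N P S := rfl

end Fermat.Agent.S15.Struct.KPIdRho
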