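/-
PROJECT M (S15), block [S], TABLE #1 row 13, THE `W_P` RUN WITH `hKP` DISCHARGED (helper21).

`hKP` of `FinalTop.hhalf_Gk` is row 11 (helper3's `KPIdRho.hKP_rhoChi`) fed with row 8(e)
(helper25's `EigenConvLat.hlat`), for every ring `O` produced by `(SPLIT)` and every eigen-system
`c` occurring in `Λ = O ⊗ TeisSub N P S`.  The only input left is (Q5a), in helper16's literal
(`P/Q5a.rho_eq_cyc_nsmul`, ALL levels `k`).
-/
import Fermat.Agent.S15.Struct.FinalTop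
import Fermat.Agent.S15.Struct.KPIdRho
import Fermat.Agent.S15.Struct.EigenConvLat

set_option autoImplicit false
set_option linter.unusedSectionVars false
set_option synthInstance.maxHeartbeats 400000
set_option maxSynthPendingDepth 3

namespace Fermat.Agent.S15.Struct.FinalKP

open Function TensorProduct AlgebraicCurve ModularCurve IsLocalRing
open Fermat.Agent.S56.Coh Fermat.Agent.CFT.LC Fermat.Agent.CFT.Bridge Fermat.Agent.CFT.LocalBridge
open Fermat.Agent.S15.K.Star Fermat.Agent.S15.K.Ord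
open Fermat.Agent.S15.P.CycAct
open Fermat.Agent.S15.Struct.TateEis Fermat.Agent.S15.Struct.TateEisHecke
open Fermat.Agent.S15.Struct.EigenRank Fermat.Agent.S15.Struct.RhoChi

variable (N : ℕ) [NeZero N] [hN : Fact N.Prime] (P : ℕ) [hP : Fact P.Prime] (S : Set ℕ)
  (hS : ∀ r : Nat.Primes, (r : ℕ) ∉ S → ¬ (r : ℕ) ∣ N ∧ (r : ℕ) ≠ P)

/-- `P ∤ N` for distinct primes. -/
theorem not_dvd_of_ne (hNP : N ≠ P) : ¬ P ∣ N := fun h =>
  hNP ((Nat.prime_dvd_prime_iff_eq hP.out hN.out).1 h).symm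

/-- **`hKP` on `rhoChi`** for every `c` occurring in `Λ = O ⊗ TeisSub N P S`, from (Q5a). -/
theorem hKP_of_Q5a (hNP : N ≠ P)
    (hQ5a : ∀ k : ℕ, ∀ τ ∈ Iq P, ∀ x ∈ G0red N P k S, (Gk N P k S).ρ τ x =
      ((((Fermat.Agent.S30.Algebra.Cyclotomic.cyc P τ : ℤ_[P]ˣ) : ℤ_[P]).toZModPow k).val : ℕ) • x)
    (O : Type) [CommRing O] [IsDomain O] [IsDiscreteValuationRing O] [CharZero O]
    [Algebra ℤ_[P] O] [Module.Free ℤ_[P] O] [Module.Finite ℤ_[P] O]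
    (hpO : (P : O) ∈ maximalIdeal O) (c : Nat.Primes → O)
    (hocc : ∃ x : O ⊗[ℤ_[P]] ↥(TeisSub N P S), x ≠ 0 ∧ ∀ r, heckeLam N P S hS O r x = c r • x)
    (h2 : Module.finrank O (lat N P c) = 2) :
    ∀ σ ∈ Iq P, ∀ τ ∈ Iq P,
      ((rhoChi N P hpO c h2).ρ τ -
        Fermat.Agent.S30.Algebra.Cyclotomic.cycChar P (algebraMap ℤ_[P] O) τ •
          (1 : Module.End O (rhoChi N P hpO c h2).V)) * ((rhoChi N P hpO c h2).ρ σ - 1) = 0 :=
  Fermat.Agent.S15.Struct.KPIdRho.hKP_rhoChi N P S (hpO := hpO) (c := c) (h2 := h2)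
    (not_dvd_of_ne N P hNP) hQ5a
    (Fermat.Agent.S15.Struct.EigenConvLat.hlat N P S (heckeT N P S hS)
      (fun r x => coe_heckeT_apply N P S hS r x)
      (Fermat.Agent.S15.Struct.EigenConv.hO_of_dvr P) c hocc)

include hS in
/-- **(hhalf) for `Gk N P k S`** from (Q5a) alone. -/
theorem hhalf_Gk_of_Q5a (hNP : N ≠ P)
    (hQ5a : ∀ k : ℕ, ∀ τ ∈ Iq P, ∀ x ∈ G0red N P k S, (Gk N P k S).ρ τ x =
      ((((Fermat.Agent.S30.Algebra.Cyclotomic.cyc P τ : ℤ_[P]ˣ) : ℤ_[P]).toZModPow k).val : ℕ) • x) :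
    ∃ n : ℕ, ∀ k : ℕ, 0 < k →
      Nat.card ↥(G0red N P k S) ^ 2 ≤ n ^ 2 * Nat.card (Gk N P k S) :=
  Fermat.Agent.S15.Struct.FinalTop.hhalf_Gk N P S hS hNP
    (fun O _ _ _ _ _ _ _ _ _ hpO c hocc h2 => hKP_of_Q5a N P S hS hNP hQ5a O hpO c hocc h2)
    (fun k _ τ hτ x hx => hQ5a k τ hτ x hx)

end Fermat.Agent.S15.Struct.FinalKP
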