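/-
PROJECT M (S15), block [S], TABLE #1 row 13 (A), THE `W_P` RUN WITHOUT HYPOTHESES (helper21).

(Q5a) is helper16's `P/Q5a.rho_eq_cyc_nsmul` on helper18's flag `P/GkFinal.flagW_Gk`; it feeds both
`hKP` (through `FinalKP.hKP_of_Q5a`, ALL levels) and the `hQ5a` binder of `FinalTop.hhalf_Gk`.

* `hQ5a_all`     : (Q5a) for every level `k`, from `P ∤ N`, `S` finite, `hS`;
* `hhalf_Gk`     : `∃ n, ∀ k > 0, |G0red N P k S| ^ 2 ≤ n ^ 2 |Gk N P k S|`;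
* `hS_insert`    : the standing hypothesis `hS` for `S = insert P {N}`, `N` prime;
* `hhalf_Gk_star`: the instance `S = insert P {N}` consumed by the (STAR) assembly.
-/
import Fermat.Agent.S15.Struct.FinalKP
import Fermat.Agent.S15.P.Q5a
import Fermat.Agent.S15.P.GkFinal

set_option autoImplicit false
set_option linter.unusedSectionVars false
set_option synthInstance.maxHeartbeats 400000
set_option maxSynthPendingDepth 3

namespace Fermat.Agent.S15.Struct.FinalGk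

open AlgebraicCurve ModularCurve
open Fermat.Agent.S56.Coh Fermat.Agent.CFT.LocalBridge
open Fermat.Agent.S15.K.Star Fermat.Agent.S15.K.Ord

variable (N : ℕ) [NeZero N] [hN : Fact N.Prime] (P : ℕ) [hP : Fact P.Prime] (S : Set ℕ)

/-- **(Q5a) at every level**, helper16's literal. -/
theorem hQ5a_all (hNP : N ≠ P) (hSfin : S.Finite)
    (hS : ∀ r : Nat.Primes, (r : ℕ) ∉ S → ¬ (r : ℕ) ∣ N ∧ (r : ℕ) ≠ P) :
    ∀ k : ℕ, ∀ τ ∈ Iq P, ∀ x ∈ G0red N P k S, (Gk N P k S).ρ τ x =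
      ((((Fermat.Agent.S30.Algebra.Cyclotomic.cyc P τ : ℤ_[P]ˣ) : ℤ_[P]).toZModPow k).val : ℕ) • x :=
  fun _ τ hτ x hx => Fermat.Agent.S15.P.Q5a.rho_eq_cyc_nsmul
    (Fermat.Agent.S15.Struct.FinalKP.not_dvd_of_ne N P hNP)
    (Fermat.Agent.S15.P.GkFinal.flagW_Gk hSfin hS) τ hτ x hx

/-- **(hhalf) for `Gk N P k S`, no hypothesis left.** -/
theorem hhalf_Gk (hNP : N ≠ P) (hSfin : S.Finite)
    (hS : ∀ r : Nat.Primes, (r : ℕ) ∉ S → ¬ (r : ℕ) ∣ N ∧ (r : ℕ) ≠ P) :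
    ∃ n : ℕ, ∀ k : ℕ, 0 < k →
      Nat.card ↥(G0red N P k S) ^ 2 ≤ n ^ 2 * Nat.card (Gk N P k S) :=
  Fermat.Agent.S15.Struct.FinalKP.hhalf_Gk_of_Q5a N P S hS hNP (hQ5a_all N P S hNP hSfin hS)

/-- The standing hypothesis `hS` for `S = insert P {N}`, `N` prime. -/
theorem hS_insert : ∀ r : Nat.Primes, (r : ℕ) ∉ (insert P {N} : Set ℕ) →
    ¬ (r : ℕ) ∣ N ∧ (r : ℕ) ≠ P := fun r hr =>
  ⟨fun h => hr (Set.mem_insert_of_mem _
      (Set.mem_singleton_iff.2 ((Nat.prime_dvd_prime_iff_eq r.2 hN.out).1 h))),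
    fun h => hr (h ▸ Set.mem_insert _ _)⟩

/-- **(hhalf) for `Gk N P k (insert P {N})`.** -/
theorem hhalf_Gk_star (hNP : N ≠ P) :
    ∃ n : ℕ, ∀ k : ℕ, 0 < k →
      Nat.card ↥(G0red N P k (insert P {N})) ^ 2 ≤ n ^ 2 * Nat.card (Gk N P k (insert P {N})) :=
  hhalf_Gk N P (insert P {N}) hNP ((Set.finite_singleton N).insert P) (hS_insert N P)

end Fermat.Agent.S15.Struct.FinalGk
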