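/-
PROJECT M (S15), block [S] (helper3): THE IDENTITY (KP-id) ON THE EISENSTEIN TATE MODULE.

`(ρ τ - χ_cyc τ) (ρ σ - 1) = 0` for all `σ, τ` in the inertia group at `P`:

* `kpid_Gk`      : at level `k`, on helper24's `Gk N P k S`, from `(Q5a)` (inertia acts on `G0red`
                   through the cyclotomic character; helper16 `S15/P/Q5a.rho_eq_cyc_nsmul`, taken
                   here as a hypothesis in its literal form) and `K/Ord.inertia_Gk`;
* `kpid_Teis`    : on helper7's `TeisSub N P S` (through `TateEis.rel_of_levels`);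
* `kpid_Teis_end`: the same as an identity in `Module.End ℤ_[P] ↥(TeisSub N P S)`;
* `kpid_levels`  : the hypothesis `h` of helper10's `RhoChi.kpid_cyc`, for `A := fun _ => eisAll N S`;
* `kpid_tensor`  : on `Λ = O ⊗[ℤ_[P]] ↥(TeisSub N P S)`, `O` any commutative `ℤ_[P]`-algebra, for the
                   action `σ ↦ (rhoT N P S σ).baseChange O` (helper7's `rhoLam`);
* `kpid_of_embedding`   : on every module with a group action which embeds equivariantly in a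
                   module on which the identity holds (the shape `hKP` of `S15/Struct/Irred`).
-/
import Fermat.Agent.S15.Struct.TateEis
import Fermat.Agent.S15.K.Ord
import Fermat.Agent.S30.Algebra.Cyclotomic

set_option autoImplicit false

noncomputable section

namespace Fermat.Agent.S15.Struct.KPId

open AlgebraicCurve ModularCurve TensorProduct
open Fermat.Agent.S56.Coh Fermat.Agent.CFT.LocalBridge
open Fermat.Agent.S15.K.Kummer Fermat.Agent.S15.K.Star Fermat.Agent.S15.K.Ord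
open Fermat.Agent.S15.Struct.TateEis
open Fermat.Agent.S30.Padic.TateModule
open Fermat.Agent.S30.Algebra.Cyclotomic

/-! ### The abstract transfer -/

section Abstract

variable {O : Type*} [CommRing O] {G : Type*} [Group G]

/-- The identity `(ρ τ - χ τ)(ρ σ - 1) = 0` passes to every module which embeds equivariantly. -/
theorem kpid_of_embedding {R Λ : Type*} [AddCommGroup R] [Module O R] [AddCommGroup Λ]
    [Module O Λ] (ρ : G →* Module.End O R) (ρΛ : G → Module.End O Λ) (χ : G → O)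
    (j : R →ₗ[O] Λ) (hj : Function.Injective j) (hjρ : ∀ g x, j (ρ g x) = ρΛ g (j x))
    (σ τ : G) (h : (ρΛ τ - χ τ • (1 : Module.End O Λ)) * (ρΛ σ - 1) = 0) :
    (ρ τ - χ τ • (1 : Module.End O R)) * (ρ σ - 1) = 0 := by
  apply LinearMap.ext
  intro x
  apply hj
  have h1 := LinearMap.congr_fun h (j x)
  simp only [Module.End.mul_apply, LinearMap.sub_apply, LinearMap.smul_apply,
    Module.End.one_apply, LinearMap.zero_apply] at h1 ⊢
  rw [map_zero, map_sub, map_smul, hjρ, map_sub, hjρ]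
  exact h1

/-- The identity `t (s x - x) = u • (s x - x)` passes to the base change. -/
theorem kpid_baseChange {Z : Type*} [CommRing Z] {O' : Type*} [CommRing O'] [Algebra Z O']
    {T : Type*} [AddCommGroup T] [Module Z T] (s t : Module.End Z T) (u : Z)
    (h : ∀ x, t (s x - x) = u • (s x - x)) :
    (t.baseChange O' - algebraMap Z O' u • (1 : Module.End O' (O' ⊗[Z] T))) *
      (s.baseChange O' - 1) = 0 := by
  apply LinearMap.ext
  intro y
  induction y using TensorProduct.induction_on with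
  | zero => simp
  | tmul b x =>
    simp only [Module.End.mul_apply, LinearMap.sub_apply, LinearMap.smul_apply,
      Module.End.one_apply, LinearMap.zero_apply, LinearMap.baseChange_tmul]
    rw [← TensorProduct.tmul_sub, LinearMap.baseChange_tmul, h, TensorProduct.smul_tmul',
      smul_eq_mul, ← Algebra.smul_def, TensorProduct.smul_tmul, sub_self]
  | add y z hy hz =>
    rw [map_add, hy, hz, map_add]

end Abstract

/-! ### The finite levels -/

variable (N : ℕ) [NeZero N] (P : ℕ) [hP : Fact P.Prime] (S : Set ℕ)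

/-- **(KP-id) on `Gk`.** -/
theorem kpid_Gk (hPN : ¬ P ∣ N) (k : ℕ) (m : GQ → ℕ)
    (hQ5a : ∀ τ ∈ Iq P, ∀ x ∈ G0red N P k S, (Gk N P k S).ρ τ x = m τ • x)
    (σ : GQ) (hσ : σ ∈ Iq P) (τ : GQ) (hτ : τ ∈ Iq P) (g : Gk N P k S) :
    (Gk N P k S).ρ τ ((Gk N P k S).ρ σ g - g) = m τ • ((Gk N P k S).ρ σ g - g) :=
  hQ5a τ hτ _ (inertia_Gk hPN σ hσ g)

/-- The level-`k` exponent of the cyclotomic character (helper16's `CycAct.cycExp`, unfolded). -/
def cycLevel (k : ℕ) (τ : GQ) : ℕ := ((((cyc P τ : ℤ_[P]ˣ) : ℤ_[P]).toZModPow k).val : ℕ)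

theorem cycLevel_def (k : ℕ) (τ : GQ) :
    cycLevel P k τ = ((((cyc P τ : ℤ_[P]ˣ) : ℤ_[P]).toZModPow k).val : ℕ) := rfl

theorem appr_modEq_cycLevel (k : ℕ) (τ : GQ) :
    ((cyc P τ : ℤ_[P]ˣ) : ℤ_[P]).appr k ≡ cycLevel P k τ [MOD P ^ k] := by
  rw [cycLevel_def, Tp.toZModPow_eq, ZMod.val_natCast]
  exact (Nat.mod_modEq _ _).symm

/-- **Row 11, the hypothesis `h` of helper10's `RhoChi.kpid_cyc`** (with `A := fun _ => eisAll N S`):
at every level, `τ (σ y - y) = m (σ y - y)` on the `P ^ k`-torsion of the Eisenstein part, with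
`m ≡ cyc τ` modulo `P ^ k`. -/
theorem kpid_levels (hPN : ¬ P ∣ N)
    (hQ5a : ∀ k : ℕ, ∀ τ ∈ Iq P, ∀ x ∈ G0red N P k S,
      (Gk N P k S).ρ τ x = ((((cyc P τ : ℤ_[P]ˣ) : ℤ_[P]).toZModPow k).val : ℕ) • x)
    (σ : GQ) (hσ : σ ∈ Iq P) (τ : GQ) (hτ : τ ∈ Iq P) :
    ∀ k : ℕ, ∃ m : ℕ, ((cyc P τ : ℤ_[P]ˣ) : ℤ_[P]).appr k ≡ m [MOD P ^ k] ∧
      ∀ y ∈ eisAll N S, P ^ k • y = 0 → τ • (σ • y - y) = m • (σ • y - y) := by
  intro k
  refine ⟨cycLevel P k τ, appr_modEq_cycLevel P k τ, fun y hy hy0 => ?_⟩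
  let g : Gk N P k S := ⟨⟨y, mem_Tm_iff.2 hy0⟩, fun a ha => hy a ha⟩
  have h1 := kpid_Gk N P S hPN k (cycLevel P k) (hQ5a k) σ hσ τ hτ g
  have h2 := congrArg (toJ N P S k) h1
  rw [toJ_ρ, map_nsmul, map_sub, toJ_ρ] at h2
  exact h2

/-! ### The Tate module -/

/-- **(KP-id) on the Eisenstein Tate module.** -/
theorem kpid_Teis (hPN : ¬ P ∣ N)
    (hQ5a : ∀ k : ℕ, ∀ τ ∈ Iq P, ∀ x ∈ G0red N P k S,
      (Gk N P k S).ρ τ x = ((((cyc P τ : ℤ_[P]ˣ) : ℤ_[P]).toZModPow k).val : ℕ) • x)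
    (σ : GQ) (hσ : σ ∈ Iq P) (τ : GQ) (hτ : τ ∈ Iq P) (x : ↥(TeisSub N P S)) :
    rhoT N P S τ (rhoT N P S σ x - x) =
      ((cyc P τ : ℤ_[P]ˣ) : ℤ_[P]) • (rhoT N P S σ x - x) :=
  rel_of_levels N P S σ τ ((cyc P τ : ℤ_[P]ˣ) : ℤ_[P]) (fun k => cycLevel P k τ)
    (fun k => appr_modEq_cycLevel P k τ)
    (fun k g => kpid_Gk N P S hPN k (cycLevel P k) (hQ5a k) σ hσ τ hτ g) x

/-- **(KP-id) on the Eisenstein Tate module**, as an identity of endomorphisms. -/
theorem kpid_Teis_end (hPN : ¬ P ∣ N)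
    (hQ5a : ∀ k : ℕ, ∀ τ ∈ Iq P, ∀ x ∈ G0red N P k S,
      (Gk N P k S).ρ τ x = ((((cyc P τ : ℤ_[P]ˣ) : ℤ_[P]).toZModPow k).val : ℕ) • x)
    (σ : GQ) (hσ : σ ∈ Iq P) (τ : GQ) (hτ : τ ∈ Iq P) :
    (rhoT N P S τ - ((cyc P τ : ℤ_[P]ˣ) : ℤ_[P]) • (1 : Module.End ℤ_[P] ↥(TeisSub N P S))) *
      (rhoT N P S σ - 1) = 0 := by
  apply LinearMap.ext
  intro x
  have h := kpid_Teis N P S hPN hQ5a σ hσ τ hτ x
  simp only [Module.End.mul_apply, LinearMap.sub_apply, LinearMap.smul_apply,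
    Module.End.one_apply, LinearMap.zero_apply]
  rw [h, sub_self]

/-! ### The lattice `Λ = O ⊗ TeisSub` -/

variable (O : Type*) [CommRing O] [Algebra ℤ_[P] O]

/-- **(KP-id) on `Λ = O ⊗ TeisSub`**, with the `O`-valued cyclotomic character of main; the Galois
action is `σ ↦ (rhoT N P S σ).baseChange O` (= helper7's `TateEisHecke.rhoLam N P S O σ`, by `rfl`). -/
theorem kpid_tensor (hPN : ¬ P ∣ N)
    (hQ5a : ∀ k : ℕ, ∀ τ ∈ Iq P, ∀ x ∈ G0red N P k S,
      (Gk N P k S).ρ τ x = ((((cyc P τ : ℤ_[P]ˣ) : ℤ_[P]).toZModPow k).val : ℕ) • x)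
    (σ : GQ) (hσ : σ ∈ Iq P) (τ : GQ) (hτ : τ ∈ Iq P) :
    ((rhoT N P S τ).baseChange O - cycChar P (algebraMap ℤ_[P] O) τ •
        (1 : Module.End O (O ⊗[ℤ_[P]] ↥(TeisSub N P S)))) *
      ((rhoT N P S σ).baseChange O - 1) = 0 := by
  rw [cycChar_apply]
  exact kpid_baseChange (rhoT N P S σ) (rhoT N P S τ) ((cyc P τ : ℤ_[P]ˣ) : ℤ_[P])
    (kpid_Teis N P S hPN hQ5a σ hσ τ hτ)

/-- The pointwise form of `kpid_tensor`. -/
theorem kpid_tensor_apply (hPN : ¬ P ∣ N)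
    (hQ5a : ∀ k : ℕ, ∀ τ ∈ Iq P, ∀ x ∈ G0red N P k S,
      (Gk N P k S).ρ τ x = ((((cyc P τ : ℤ_[P]ˣ) : ℤ_[P]).toZModPow k).val : ℕ) • x)
    (σ : GQ) (hσ : σ ∈ Iq P) (τ : GQ) (hτ : τ ∈ Iq P) (v : O ⊗[ℤ_[P]] ↥(TeisSub N P S)) :
    (rhoT N P S τ).baseChange O ((rhoT N P S σ).baseChange O v - v) =
      cycChar P (algebraMap ℤ_[P] O) τ • ((rhoT N P S σ).baseChange O v - v) := by
  have h := LinearMap.congr_fun (kpid_tensor N P S O hPN hQ5a σ hσ τ hτ) v
  simp only [Module.End.mul_apply, LinearMap.sub_apply, LinearMap.smul_apply,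
    Module.End.one_apply, LinearMap.zero_apply] at h
  exact sub_eq_zero.mp h

end Fermat.Agent.S15.Struct.KPId
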